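/-
S53 (universal deformation ring): core definitions shared by all S53 files.
Owner: helper53.  Everything lives in the name space Fermat.Agent.S53.
-/
import Mathlib
import Fermat.Prelude.Def_GaloisRep_DeformationRingData
import Fermat.Prelude.Def_GaloisRep_DeformationCondition

set_option autoImplicit false

namespace Fermat.Agent.S53

open IsLocalRing

/-- The absolute Galois group of `ℚ` (as an abstract group). -/
abbrev GQ : Type := AlgebraicClosure ℚ ≃ₐ[ℚ] AlgebraicClosure ℚ

/-- `2 × 2` matrices. -/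
abbrev M2 (A : Type*) : Type _ := Matrix (Fin 2) (Fin 2) A

section mapconj

variable {G : Type*} [Monoid G] {A B : Type*} [CommRing A] [CommRing B]

/-- Push a matrix valued monoid hom forward along a ring hom (entrywise). -/
def mapMat (φ : A →+* B) (r : G →* M2 A) : G →* M2 B :=
  (φ.mapMatrix : M2 A →+* M2 B).toMonoidHom.comp r

@[simp] lemma mapMat_apply (φ : A →+* B) (r : G →* M2 A) (g : G) :
    mapMat φ r g = (r g).map φ := rfl

lemma mapMat_apply_apply (φ : A →+* B) (r : G →* M2 A) (g : G) (i j : Fin 2) :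
    mapMat φ r g i j = φ (r g i j) := rfl

/-- Conjugate a matrix valued monoid hom by an invertible matrix: `g ↦ γ * r g * γ⁻¹`. -/
def conjMat (γ : (M2 A)ˣ) (r : G →* M2 A) : G →* M2 A where
  toFun g := (γ : M2 A) * r g * ((γ⁻¹ : (M2 A)ˣ) : M2 A)
  map_one' := by simp
  map_mul' g h := by
    rw [map_mul]
    calc (γ : M2 A) * (r g * r h) * ((γ⁻¹ : (M2 A)ˣ) : M2 A)
        = (γ : M2 A) * r g * (((γ⁻¹ : (M2 A)ˣ) : M2 A) * (γ : M2 A)) * r h *
            ((γ⁻¹ : (M2 A)ˣ) : M2 A) := by
          rw [Units.inv_mul, mul_one]; simp only [mul_assoc]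
      _ = _ := by simp only [mul_assoc]

@[simp] lemma conjMat_apply (γ : (M2 A)ˣ) (r : G →* M2 A) (g : G) :
    conjMat γ r g = (γ : M2 A) * r g * ((γ⁻¹ : (M2 A)ˣ) : M2 A) := rfl

end mapconj

section cont

variable {A : Type} [CommRing A] [IsLocalRing A]

/-- Adic continuity of a matrix valued hom of `GQ`: for every `n`, on the absolute Galois group of
some number field all entries of `r σ - 1` lie in `𝔪 ^ n`. -/
def MatCont (r : GQ →* M2 A) : Prop :=
  ∀ n : ℕ, ∃ L : IntermediateField ℚ (AlgebraicClosure ℚ), FiniteDimensional ℚ L ∧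
    ∀ σ : GQ, (∀ x ∈ L, σ x = x) → ∀ i j : Fin 2, (r σ - 1) i j ∈ maximalIdeal A ^ n

/-- A vector of `Fin 2 → A` all of whose coordinates lie in `I` lies in `I • ⊤`. -/
lemma mem_smul_top_of_forall_mem {A : Type*} [CommRing A] (I : Ideal A) (v : Fin 2 → A)
    (hv : ∀ i, v i ∈ I) : v ∈ I • (⊤ : Submodule A (Fin 2 → A)) := by
  have hv' : v = ∑ i, v i • (Pi.single i (1 : A) : Fin 2 → A) := by
    funext j
    simp [Finset.sum_apply, Pi.single_apply]
  rw [hv']
  exact Submodule.sum_mem _ fun i _ => Submodule.smul_mem_smul (hv i) Submodule.mem_top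

/-- The `GaloisRepAdic` on `Fin 2 → A` given by a continuous matrix valued hom. -/
noncomputable def ofMat (r : GQ →* M2 A) (hr : MatCont r) : GaloisRepAdic A where
  V := Fin 2 → A
  finrank_eq := by simp
  ρ := ((Matrix.toLinAlgEquiv' : M2 A ≃ₐ[A] Module.End A (Fin 2 → A)) :
      M2 A →* Module.End A (Fin 2 → A)).comp r
  isAdicContinuous := by
    intro n
    obtain ⟨L, hL, h⟩ := hr n
    refine ⟨L, hL, fun σ hσ v => ?_⟩
    have h1 : (((Matrix.toLinAlgEquiv' : M2 A ≃ₐ[A] Module.End A (Fin 2 → A)) :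
        M2 A →* Module.End A (Fin 2 → A)).comp r) σ v - v = (r σ - 1).mulVec v := by
      simp [Matrix.sub_mulVec]
    rw [h1]
    refine mem_smul_top_of_forall_mem _ _ fun i => ?_
    simp only [Matrix.mulVec, dotProduct]
    exact Ideal.sum_mem _ fun j _ => Ideal.mul_mem_right _ _ (h σ hσ i j)

@[simp] lemma ofMat_V (r : GQ →* M2 A) (hr : MatCont r) : (ofMat r hr).V = (Fin 2 → A) := rfl

lemma ofMat_ρ_apply (r : GQ →* M2 A) (hr : MatCont r) (σ : GQ) (v : Fin 2 → A) :
    (ofMat r hr).ρ σ v = (r σ).mulVec v := rfl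

end cont

section res

variable {k : Type} [Field k]

/-- The `ResidualGaloisRep` on `Fin 2 → k` given by a matrix valued hom of finite level. -/
noncomputable def ofMatRes (r : GQ →* M2 k) (hr : GaloisFactorsThroughFiniteLevel r) :
    ResidualGaloisRep k where
  V := Fin 2 → k
  finrank_eq := by simp
  ρ := ((Matrix.toLinAlgEquiv' : M2 k ≃ₐ[k] Module.End k (Fin 2 → k)) :
      M2 k →* Module.End k (Fin 2 → k)).comp r
  factorsThroughFiniteLevel := by
    obtain ⟨L, hL, h⟩ := hr
    exact ⟨L, hL, fun σ hσ => by rw [MonoidHom.comp_apply, h σ hσ, map_one]⟩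

@[simp] lemma ofMatRes_V (r : GQ →* M2 k) (hr : GaloisFactorsThroughFiniteLevel r) :
    (ofMatRes r hr).V = (Fin 2 → k) := rfl

lemma ofMatRes_ρ_apply (r : GQ →* M2 k) (hr : GaloisFactorsThroughFiniteLevel r) (σ : GQ)
    (v : Fin 2 → k) : (ofMatRes r hr).ρ σ v = (r σ).mulVec v := rfl

end res

section slice

/-- Slice data for a residual matrix representation `rbar : G →* M2 κ`:
three "coordinates" `(s a, i a, j a)` such that the three linear forms
`Φ_a X = (X * rbar (s a) - rbar (s a) * X) (i a) (j a)` on `M2 κ` have common kernel the scalars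
(`ker`), together with a dual family `Y` (`Φ_a (Y b) = δ_ab`). -/
structure SliceData {G : Type*} [Monoid G] {κ : Type*} [Field κ] (rbar : G →* M2 κ) where
  s : Fin 3 → G
  i : Fin 3 → Fin 2
  j : Fin 3 → Fin 2
  Y : Fin 3 → M2 κ
  dual : ∀ a b : Fin 3,
    (Y b * rbar (s a) - rbar (s a) * Y b) (i a) (j a) = if a = b then 1 else 0
  ker : ∀ X : M2 κ, (∀ a : Fin 3, (X * rbar (s a) - rbar (s a) * X) (i a) (j a) = 0) →
    ∃ c : κ, X = Matrix.scalar (Fin 2) c

/-- Every matrix commuting with the image of `rbar` is scalar. -/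
def IsSchur {G : Type*} [Monoid G] {κ : Type*} [Field κ] (rbar : G →* M2 κ) : Prop :=
  ∀ X : M2 κ, (∀ g : G, X * rbar g = rbar g * X) → ∃ c : κ, X = Matrix.scalar (Fin 2) c

end slice

section norm

/-- Normalisation data over `𝒪`: a set-theoretic lift `rt` of the residual matrix representation to
`M2 𝒪` and three coordinates `(s a, i a, j a)`. -/
structure NormData (𝒪 : Type) where
  rt : GQ → M2 𝒪
  s : Fin 3 → GQ
  i : Fin 3 → Fin 2
  j : Fin 3 → Fin 2

variable {𝒪 : Type} [CommRing 𝒪] (N : NormData 𝒪)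
  {A : Type} [CommRing A] [IsLocalRing A] [Algebra 𝒪 A]

/-- `r` lifts the residual representation: entrywise `r g ≡ algebraMap (rt g)` mod `𝔪_A`. -/
def IsLift (r : GQ →* M2 A) : Prop :=
  ∀ (g : GQ) (i j : Fin 2), r g i j - algebraMap 𝒪 A (N.rt g i j) ∈ maximalIdeal A

/-- `r` is normalised: the three chosen entries are the images of the chosen constants of `𝒪`. -/
def IsNormalised (r : GQ →* M2 A) : Prop :=
  ∀ a : Fin 3, r (N.s a) (N.i a) (N.j a) = algebraMap 𝒪 A (N.rt (N.s a) (N.i a) (N.j a))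

/-- A normalised continuous lift of type `𝒟` (any local `𝒪`-algebra `A`). -/
structure IsNormLift
    (𝒟 : ∀ ⦃A : Type⦄ [CommRing A] [IsLocalRing A] [Algebra 𝒪 A], GaloisRepAdic A → Prop)
    (r : GQ →* M2 A) : Prop where
  lift : IsLift N r
  norm : IsNormalised N r
  cont : MatCont r
  type : 𝒟 (ofMat r cont)

end norm

end Fermat.Agent.S53
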