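import Mathlib

/-!
# S53, part C1: the generators-and-relations ring of normalised 2×2 representations

`G` is any monoid, `O` any commutative ring.  The normalisation is an arbitrary set `E` of
polynomials in the symbols `X (g, p, q)` (`g : G`, `p q : Fin 2`) with coefficients in `O`;
a matrix-valued function `r : G → M₂(A)` (`A` an `O`-algebra) is `IsNormalised` if all elements of
`E` vanish at the entries of `r`.  (For the three-coordinate slice take
`E = coordRel σ i j c = {X (σ t, i t, j t) - C (c t)}`; for a linear slice take the corresponding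
linear polynomials.)

`Rpre O E` is the quotient of the polynomial ring by the relations saying that
`g ↦ (X (g, p, q))_{p q}` is a monoid homomorphism to 2×2 matrices which is normalised.
`rtaut` is the tautological representation and `lift` is the universal property.
-/

set_option autoImplicit false
set_option linter.unusedSectionVars false

noncomputable section

namespace Fermat.Agent.S53.Presentation

open MvPolynomial

universe u v w

variable {G : Type u} [Monoid G] (O : Type v) [CommRing O]
variable (E : Set (MvPolynomial (G × Fin 2 × Fin 2) O))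

/-- The evaluation of polynomials at the entries of a matrix-valued function. -/
def evalPoly {A : Type w} [CommRing A] [Algebra O A] (r : G → Matrix (Fin 2) (Fin 2) A) :
    MvPolynomial (G × Fin 2 × Fin 2) O →ₐ[O] A :=
  aeval fun x : G × Fin 2 × Fin 2 => r x.1 x.2.1 x.2.2

@[simp] theorem evalPoly_X {A : Type w} [CommRing A] [Algebra O A]
    (r : G → Matrix (Fin 2) (Fin 2) A) (g : G) (a b : Fin 2) :
    evalPoly O r (X (g, a, b)) = r g a b := by
  rw [evalPoly, aeval_X]

/-- A matrix-valued function is normalised (with respect to `E`) if all polynomials in `E` vanish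
at its entries. -/
def IsNormalised {A : Type w} [CommRing A] [Algebra O A] (r : G → Matrix (Fin 2) (Fin 2) A) :
    Prop :=
  ∀ p ∈ E, evalPoly O r p = 0

/-- The set of relations. -/
def relSet : Set (MvPolynomial (G × Fin 2 × Fin 2) O) :=
  {p | ∃ (g h : G) (a b : Fin 2),
      p = X (g * h, a, b) - ∑ l : Fin 2, X (g, a, l) * X (h, l, b)} ∪
  {p | ∃ (a b : Fin 2), p = X ((1 : G), a, b) - (if a = b then 1 else 0)} ∪ E

/-- The ideal of relations. -/
def relIdeal : Ideal (MvPolynomial (G × Fin 2 × Fin 2) O) :=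
  Ideal.span (relSet O E)

/-- The generators-and-relations ring. -/
def Rpre : Type (max u v) :=
  MvPolynomial (G × Fin 2 × Fin 2) O ⧸ relIdeal O E

instance instCommRingRpre : CommRing (Rpre O E) :=
  inferInstanceAs (CommRing (MvPolynomial (G × Fin 2 × Fin 2) O ⧸ relIdeal O E))

instance instAlgebraRpre : Algebra O (Rpre O E) :=
  inferInstanceAs (Algebra O (MvPolynomial (G × Fin 2 × Fin 2) O ⧸ relIdeal O E))

/-- The quotient map, as an algebra homomorphism. -/
def mkₐ : MvPolynomial (G × Fin 2 × Fin 2) O →ₐ[O] Rpre O E :=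
  Ideal.Quotient.mkₐ O (relIdeal O E)

theorem mkₐ_surjective : Function.Surjective (mkₐ O E) :=
  Ideal.Quotient.mkₐ_surjective O _

theorem mkₐ_eq_zero_iff (p : MvPolynomial (G × Fin 2 × Fin 2) O) :
    mkₐ O E p = 0 ↔ p ∈ relIdeal O E :=
  Ideal.Quotient.eq_zero_iff_mem

/-- The class of the generator `X (g, p, q)`. -/
def gen (g : G) (p q : Fin 2) : Rpre O E :=
  mkₐ O E (X (g, p, q))

theorem gen_mul (g h : G) (a b : Fin 2) :
    gen O E (g * h) a b = ∑ l : Fin 2, gen O E g a l * gen O E h l b := by
  have hmem : (X (g * h, a, b) - ∑ l : Fin 2, X (g, a, l) * X (h, l, b) :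
      MvPolynomial (G × Fin 2 × Fin 2) O) ∈ relIdeal O E :=
    Ideal.subset_span (Or.inl (Or.inl ⟨g, h, a, b, rfl⟩))
  have h0 := (mkₐ_eq_zero_iff O E _).mpr hmem
  rw [map_sub, sub_eq_zero, map_sum] at h0
  simpa [gen, map_mul] using h0

theorem gen_one (a b : Fin 2) :
    gen O E (1 : G) a b = if a = b then 1 else 0 := by
  have hmem : (X ((1 : G), a, b) - (if a = b then 1 else 0) :
      MvPolynomial (G × Fin 2 × Fin 2) O) ∈ relIdeal O E :=
    Ideal.subset_span (Or.inl (Or.inr ⟨a, b, rfl⟩))
  have h0 := (mkₐ_eq_zero_iff O E _).mpr hmem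
  rw [map_sub, sub_eq_zero] at h0
  rw [gen, h0]
  split_ifs <;> simp

/-- The tautological representation `G →* M₂(Rpre)`. -/
def rtaut : G →* Matrix (Fin 2) (Fin 2) (Rpre O E) where
  toFun g := Matrix.of fun a b => gen O E g a b
  map_one' := by
    ext a b
    simp only [Matrix.of_apply, gen_one, Matrix.one_apply]
  map_mul' g h := by
    ext a b
    simp only [Matrix.of_apply, gen_mul, Matrix.mul_apply]

@[simp] theorem rtaut_apply (g : G) (a b : Fin 2) :
    rtaut O E g a b = gen O E g a b := rfl

theorem evalPoly_rtaut : evalPoly O (fun g => rtaut O E g) = mkₐ O E := by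
  apply MvPolynomial.algHom_ext
  rintro ⟨g, a, b⟩
  rw [evalPoly_X, rtaut_apply, gen]

theorem rtaut_isNormalised : IsNormalised O E (fun g => rtaut O E g) := by
  intro p hp
  rw [evalPoly_rtaut, mkₐ_eq_zero_iff]
  exact Ideal.subset_span (Or.inr hp)

section lift

variable {O E}
variable {A : Type w} [CommRing A] [Algebra O A]

theorem relIdeal_le_ker_evalPoly (r : G →* Matrix (Fin 2) (Fin 2) A)
    (hr : IsNormalised O E (fun g => r g)) :
    relIdeal O E ≤ RingHom.ker (evalPoly O (fun g => r g)).toRingHom := by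
  rw [relIdeal, Ideal.span_le]
  rintro p ((⟨g, h, a, b, rfl⟩ | ⟨a, b, rfl⟩) | hp)
  · simp only [SetLike.mem_coe, RingHom.mem_ker, AlgHom.toRingHom_eq_coe, RingHom.coe_coe,
      map_sub, evalPoly_X, map_sum, map_mul, map_mul r, Matrix.mul_apply, sub_self]
  · simp only [SetLike.mem_coe, RingHom.mem_ker, AlgHom.toRingHom_eq_coe, RingHom.coe_coe,
      map_sub, evalPoly_X, map_one r, Matrix.one_apply]
    split_ifs <;> simp
  · exact hr p hp

/-- Universal property of `Rpre`: a normalised monoid homomorphism `G →* M₂(A)` induces an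
`O`-algebra homomorphism `Rpre →ₐ[O] A`. -/
def lift (r : G →* Matrix (Fin 2) (Fin 2) A) (hr : IsNormalised O E (fun g => r g)) :
    Rpre O E →ₐ[O] A :=
  Ideal.Quotient.liftₐ (relIdeal O E) (evalPoly O (fun g => r g))
    (fun _ hp => relIdeal_le_ker_evalPoly r hr hp)

theorem lift_mkₐ (r : G →* Matrix (Fin 2) (Fin 2) A) (hr : IsNormalised O E (fun g => r g))
    (p : MvPolynomial (G × Fin 2 × Fin 2) O) :
    lift r hr (mkₐ O E p) = evalPoly O (fun g => r g) p :=
  rfl

theorem lift_gen (r : G →* Matrix (Fin 2) (Fin 2) A) (hr : IsNormalised O E (fun g => r g))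
    (g : G) (a b : Fin 2) :
    lift r hr (gen O E g a b) = r g a b := by
  rw [gen, lift_mkₐ, evalPoly_X]

theorem lift_mapMatrix_rtaut (r : G →* Matrix (Fin 2) (Fin 2) A)
    (hr : IsNormalised O E (fun g => r g)) (g : G) :
    (lift r hr).mapMatrix (rtaut O E g) = r g := by
  ext a b
  simp only [AlgHom.mapMatrix_apply, Matrix.map_apply, rtaut_apply, lift_gen]

/-- Two algebra homomorphisms out of `Rpre` agreeing on all generators are equal. -/
theorem algHom_ext {φ ψ : Rpre O E →ₐ[O] A}
    (h : ∀ (g : G) (a b : Fin 2), φ (gen O E g a b) = ψ (gen O E g a b)) :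
    φ = ψ := by
  have hcomp : φ.comp (mkₐ O E) = ψ.comp (mkₐ O E) := by
    apply MvPolynomial.algHom_ext
    rintro ⟨g, a, b⟩
    exact h g a b
  ext x
  obtain ⟨p, rfl⟩ := mkₐ_surjective O E x
  exact congrArg (fun f => f p) hcomp

theorem algHom_ext_mapMatrix {φ ψ : Rpre O E →ₐ[O] A}
    (h : ∀ g : G, φ.mapMatrix (rtaut O E g) = ψ.mapMatrix (rtaut O E g)) :
    φ = ψ := by
  apply algHom_ext
  intro g a b
  have := congrFun (congrFun (h g) a) b
  simpa only [AlgHom.mapMatrix_apply, Matrix.map_apply, rtaut_apply] using this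

/-- The representation attached to an algebra homomorphism out of `Rpre`. -/
def repOf (φ : Rpre O E →ₐ[O] A) : G →* Matrix (Fin 2) (Fin 2) A :=
  ((φ.mapMatrix : Matrix (Fin 2) (Fin 2) (Rpre O E) →ₐ[O] Matrix (Fin 2) (Fin 2) A) :
    Matrix (Fin 2) (Fin 2) (Rpre O E) →* Matrix (Fin 2) (Fin 2) A).comp (rtaut O E)

@[simp] theorem repOf_apply (φ : Rpre O E →ₐ[O] A) (g : G) (a b : Fin 2) :
    repOf φ g a b = φ (gen O E g a b) := by
  simp [repOf]

theorem repOf_eq_mapMatrix (φ : Rpre O E →ₐ[O] A) (g : G) :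
    repOf φ g = φ.mapMatrix (rtaut O E g) := rfl

/-- Evaluating polynomials at `f ∘ r` is `f` after evaluating at `r`. -/
theorem evalPoly_map {B : Type*} [CommRing B] [Algebra O B] (f : A →ₐ[O] B)
    (r : G → Matrix (Fin 2) (Fin 2) A) :
    evalPoly O (fun g => f.mapMatrix (r g)) = f.comp (evalPoly O r) := by
  apply MvPolynomial.algHom_ext
  rintro ⟨g, a, b⟩
  simp

theorem IsNormalised.map {B : Type*} [CommRing B] [Algebra O B] (f : A →ₐ[O] B)
    {r : G → Matrix (Fin 2) (Fin 2) A} (hr : IsNormalised O E r) :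
    IsNormalised O E (fun g => f.mapMatrix (r g)) := by
  intro p hp
  rw [evalPoly_map, AlgHom.comp_apply, hr p hp, map_zero]

theorem IsNormalised.of_map_injective {B : Type*} [CommRing B] [Algebra O B] (f : A →ₐ[O] B)
    (hf : Function.Injective f) {r : G → Matrix (Fin 2) (Fin 2) A}
    (hr : IsNormalised O E (fun g => f.mapMatrix (r g))) : IsNormalised O E r := by
  intro p hp
  have h := hr p hp
  rw [evalPoly_map, AlgHom.comp_apply] at h
  exact hf (h.trans (map_zero f).symm)

theorem repOf_isNormalised (φ : Rpre O E →ₐ[O] A) : IsNormalised O E (fun g => repOf φ g) :=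
  (rtaut_isNormalised O E).map φ

theorem lift_repOf (φ : Rpre O E →ₐ[O] A) :
    lift (repOf φ) (repOf_isNormalised φ) = φ := by
  apply algHom_ext
  intro g a b
  rw [lift_gen, repOf_apply]

theorem repOf_lift (r : G →* Matrix (Fin 2) (Fin 2) A) (hr : IsNormalised O E (fun g => r g)) :
    repOf (lift r hr) = r := by
  ext g a b
  rw [repOf_apply, lift_gen]

/-- Functoriality: composing with an algebra homomorphism. -/
theorem repOf_comp {B : Type*} [CommRing B] [Algebra O B] (f : A →ₐ[O] B)
    (φ : Rpre O E →ₐ[O] A) (g : G) :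
    repOf (f.comp φ) g = f.mapMatrix (repOf φ g) := by
  ext a b
  simp

/-- `O`-algebra homomorphisms `Rpre →ₐ[O] A` are the same as normalised monoid homomorphisms
`G →* M₂(A)`. -/
def homEquiv : (Rpre O E →ₐ[O] A) ≃
    {r : G →* Matrix (Fin 2) (Fin 2) A // IsNormalised O E (fun g => r g)} where
  toFun φ := ⟨repOf φ, repOf_isNormalised φ⟩
  invFun r := lift r.1 r.2
  left_inv φ := lift_repOf φ
  right_inv r := Subtype.ext (repOf_lift r.1 r.2)

end lift

/-- `Rpre` is generated as an `O`-algebra by the entries of the tautological representation. -/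
theorem adjoin_gen_eq_top :
    Algebra.adjoin O (Set.range fun x : G × Fin 2 × Fin 2 => gen O E x.1 x.2.1 x.2.2) = ⊤ := by
  have h1 : (Algebra.adjoin O (Set.range (X : G × Fin 2 × Fin 2 → MvPolynomial _ O))).map
      (mkₐ O E) = ⊤ := by
    rw [MvPolynomial.adjoin_range_X, Algebra.map_top]
    exact (AlgHom.range_eq_top _).mpr (mkₐ_surjective O E)
  rw [← h1, AlgHom.map_adjoin, ← Set.range_comp]
  rfl

section coord

/-! ### The three-coordinate normalisation -/

variable (σ : Fin 3 → G) (i j : Fin 3 → Fin 2) (c : Fin 3 → O)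

/-- The relations `X (σ t, i t, j t) = c t` of the three-coordinate slice. -/
def coordRel : Set (MvPolynomial (G × Fin 2 × Fin 2) O) :=
  {p | ∃ t : Fin 3, p = X (σ t, i t, j t) - C (c t)}

theorem isNormalised_coordRel_iff {A : Type w} [CommRing A] [Algebra O A]
    (r : G → Matrix (Fin 2) (Fin 2) A) :
    IsNormalised O (coordRel O σ i j c) r ↔
      ∀ t, r (σ t) (i t) (j t) = algebraMap O A (c t) := by
  constructor
  · intro h t
    have := h _ ⟨t, rfl⟩
    rwa [map_sub, evalPoly_X, ← MvPolynomial.algebraMap_eq, AlgHom.commutes, sub_eq_zero] at this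
  · rintro h p ⟨t, rfl⟩
    rw [map_sub, evalPoly_X, ← MvPolynomial.algebraMap_eq, AlgHom.commutes, h t, sub_self]

end coord

section linear

/-! ### Linear normalisations

A finite `O`-linear combination of entries `∑ x ∈ s, e x • r x.1 x.2.1 x.2.2` set equal to a
constant `d : O`. -/

/-- The polynomial `∑ x ∈ s, C (e x) * X x - C d`. -/
def linRel (s : Finset (G × Fin 2 × Fin 2)) (e : G × Fin 2 × Fin 2 → O) (d : O) :
    MvPolynomial (G × Fin 2 × Fin 2) O :=
  ∑ x ∈ s, C (e x) * X x - C d

theorem evalPoly_linRel {A : Type w} [CommRing A] [Algebra O A]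
    (r : G → Matrix (Fin 2) (Fin 2) A) (s : Finset (G × Fin 2 × Fin 2))
    (e : G × Fin 2 × Fin 2 → O) (d : O) :
    evalPoly O r (linRel O s e d) =
      ∑ x ∈ s, algebraMap O A (e x) * r x.1 x.2.1 x.2.2 - algebraMap O A d := by
  simp only [linRel, map_sub, map_sum, map_mul, ← MvPolynomial.algebraMap_eq, AlgHom.commutes]
  congr 1
  refine Finset.sum_congr rfl fun x _ => ?_
  rcases x with ⟨g, a, b⟩
  rw [evalPoly_X]

end linear

end Fermat.Agent.S53.Presentation

end
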