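/-
S53 (universal deformation ring): slice-agnostic core interface.
Owner: helper53.  Builds on Defs.lean (helper53) and Presentation.lean (helper30).
-/
import Fermat.Agent.S53.Defs
import Fermat.Agent.S53.Presentation

set_option autoImplicit false

namespace Fermat.Agent.S53

open IsLocalRing

/-- The polynomial ring on the symbols `X (g, i, j)`. -/
abbrev PolyRing (𝒪 : Type) [CommRing 𝒪] : Type := MvPolynomial (GQ × Fin 2 × Fin 2) 𝒪

section

variable {𝒪 : Type} [CommRing 𝒪]

/-- `r` lifts the residual representation: entrywise `r g ≡ algebraMap (rt g)` modulo `𝔪_A`,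
where `rt : GQ → M2 𝒪` is a fixed set-theoretic lift of the residual matrix representation. -/
def IsLiftRt (rt : GQ → M2 𝒪) {A : Type} [CommRing A] [IsLocalRing A] [Algebra 𝒪 A]
    (r : GQ →* M2 A) : Prop :=
  ∀ (g : GQ) (i j : Fin 2), r g i j - algebraMap 𝒪 A (rt g i j) ∈ maximalIdeal A

/-- `r` satisfies the normalisation equations `E` (a set of polynomials in the entries). -/
abbrev IsNorm (E : Set (PolyRing 𝒪)) {A : Type} [CommRing A] [Algebra 𝒪 A]
    (r : GQ →* M2 A) : Prop :=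
  Presentation.IsNormalised 𝒪 E (fun g => r g)

/-- A slice package for the residual representation (given through its set-theoretic lift `rt`):
a set `E` of polynomial normalisation equations such that over every complete local `𝒪`-algebra
with residue field `k` every lift is conjugate (by a matrix `≡ 1`) to a normalised lift, and
conjugate normalised lifts are equal. -/
structure SlicePkg (𝒪 : Type) [CommRing 𝒪] [IsLocalRing 𝒪] (rt : GQ → M2 𝒪) where
  E : Set (PolyRing 𝒪)
  exists_conj : ∀ {A : Type} [CommRing A] [IsLocalRing A] [Algebra 𝒪 A]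
    [IsLocalHom (algebraMap 𝒪 A)] [IsAdicComplete (maximalIdeal A) A],
    Function.Surjective (residue A ∘ algebraMap 𝒪 A) →
    ∀ r : GQ →* M2 A, IsLiftRt rt r →
      ∃ γ : (M2 A)ˣ, (∀ i j, ((γ : M2 A) - 1) i j ∈ maximalIdeal A) ∧ IsNorm E (conjMat γ r)
  unique : ∀ {A : Type} [CommRing A] [IsLocalRing A] [Algebra 𝒪 A]
    [IsLocalHom (algebraMap 𝒪 A)] [IsHausdorff (maximalIdeal A) A],
    Function.Surjective (residue A ∘ algebraMap 𝒪 A) →
    ∀ r r' : GQ →* M2 A, IsLiftRt rt r → IsLiftRt rt r' → IsNorm E r → IsNorm E r' →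
      ∀ γ : (M2 A)ˣ, (∀ g, (γ : M2 A) * r g = r' g * (γ : M2 A)) → r = r'

variable [IsLocalRing 𝒪]

/-- A normalised continuous lift of type `𝒟` over a local `𝒪`-algebra `A`. -/
structure IsGoodLift (rt : GQ → M2 𝒪) (E : Set (PolyRing 𝒪))
    (𝒟 : ∀ ⦃A : Type⦄ [CommRing A] [IsLocalRing A] [Algebra 𝒪 A], GaloisRepAdic A → Prop)
    {A : Type} [CommRing A] [IsLocalRing A] [Algebra 𝒪 A] (r : GQ →* M2 A) : Prop where
  lift : IsLiftRt rt r
  norm : IsNorm E r
  cont : MatCont r
  type : 𝒟 (ofMat r cont)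

/-- The generators-and-relations ring for the normalisation `E`. -/
abbrev RpreE (E : Set (PolyRing 𝒪)) : Type := Presentation.Rpre (G := GQ) 𝒪 E

/-- The tautological representation pushed to a quotient of `RpreE E`. -/
noncomputable def rQuot (E : Set (PolyRing 𝒪)) (𝔞 : Ideal (RpreE E)) : GQ →* M2 (RpreE E ⧸ 𝔞) :=
  mapMat (Ideal.Quotient.mk 𝔞) (Presentation.rtaut 𝒪 E)

/-- The canonical generators `X (g,i,j) - rt g i j` of the "maximal ideal" of `RpreE E`. -/
noncomputable def yGen (rt : GQ → M2 𝒪) (E : Set (PolyRing 𝒪)) (x : GQ × Fin 2 × Fin 2) :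
    RpreE E :=
  Presentation.gen 𝒪 E x.1 x.2.1 x.2.2 - algebraMap 𝒪 (RpreE E) (rt x.1 x.2.1 x.2.2)

/-- Good ideals: the quotient is an Artinian test algebra and the tautological representation
modulo `𝔞` is a good lift. -/
def IsGoodIdeal (rt : GQ → M2 𝒪) (E : Set (PolyRing 𝒪))
    (𝒟 : ∀ ⦃A : Type⦄ [CommRing A] [IsLocalRing A] [Algebra 𝒪 A], GaloisRepAdic A → Prop)
    (𝔞 : Ideal (RpreE E)) : Prop :=
  ∃ _ : IsLocalRing (RpreE E ⧸ 𝔞),
    GaloisRep.IsArtinianTestAlgebra 𝒪 (RpreE E ⧸ 𝔞) ∧ IsGoodLift rt E 𝒟 (rQuot E 𝔞)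

end

end Fermat.Agent.S53
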