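/-
S53, PART A (matrix form).  Owner: helper35.
Every `GaloisRepAdic A` / `ResidualGaloisRep k` is equivalent to a matrix one (`ofMat`, `ofMatRes`);
equivalence of matrix representations is conjugation by `GL₂`; base change and residual
representation of a matrix representation are the matrix representations of the pushed hom.
-/
import Fermat.Agent.S53.Defs

set_option autoImplicit false

namespace Fermat.Agent.S53

open Matrix IsLocalRing
open scoped TensorProduct

section Basis

variable {A : Type*} [CommRing A] {V : Type*} [AddCommGroup V] [Module A V]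

/-- Membership in `I • ⊤` can be tested on the coordinates w.r.t. a finite basis. -/
theorem mem_smul_top_iff_repr {ι : Type*} [Finite ι] (b : Module.Basis ι A V) (I : Ideal A) (v : V) :
    v ∈ I • (⊤ : Submodule A V) ↔ ∀ i, b.repr v i ∈ I := by
  classical
  constructor
  · intro hv
    refine Submodule.smul_induction_on hv ?_ ?_
    · intro a ha w _ i
      rw [map_smul, Finsupp.smul_apply, smul_eq_mul]
      exact I.mul_mem_right _ ha
    · intro x y hx hy i
      rw [map_add, Finsupp.add_apply]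
      exact I.add_mem (hx i) (hy i)
  · intro h
    have := Fintype.ofFinite ι
    rw [← b.sum_repr v]
    refine Submodule.sum_mem _ fun i _ => ?_
    exact Submodule.smul_mem_smul (h i) Submodule.mem_top

/-- Membership in `I • ⊤` of a vector of `ι → A` is coordinatewise membership in `I`. -/
theorem mem_smul_top_pi_iff {ι : Type*} [Finite ι] (I : Ideal A) (v : ι → A) :
    v ∈ I • (⊤ : Submodule A (ι → A)) ↔ ∀ i, v i ∈ I := by
  classical
  have := Fintype.ofFinite ι
  rw [mem_smul_top_iff_repr (Pi.basisFun A ι)]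
  simp

end Basis

section Adic

variable {A : Type} [CommRing A] [IsLocalRing A]

/-- The matrix valued hom of a representation w.r.t. a basis. -/
noncomputable def toMatHom (ρ : GaloisRepAdic A) (b : Module.Basis (Fin 2) A ρ.V) : GQ →* M2 A :=
  ((LinearMap.toMatrixAlgEquiv b : Module.End A ρ.V ≃ₐ[A] M2 A) : Module.End A ρ.V →* M2 A).comp ρ.ρ

theorem toMatHom_apply (ρ : GaloisRepAdic A) (b : Module.Basis (Fin 2) A ρ.V) (σ : GQ) :
    toMatHom ρ b σ = LinearMap.toMatrix b b (ρ.ρ σ) := rfl

theorem matCont_toMatHom (ρ : GaloisRepAdic A) (b : Module.Basis (Fin 2) A ρ.V) :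
    MatCont (toMatHom ρ b) := by
  intro n
  obtain ⟨L, hL, h⟩ := ρ.isAdicContinuous n
  refine ⟨L, hL, fun σ hσ i j => ?_⟩
  have h1 := (mem_smul_top_iff_repr b _ _).1 (h σ hσ (b j)) i
  rw [Matrix.sub_apply, toMatHom_apply, LinearMap.toMatrix_apply, Matrix.one_apply]
  rw [map_sub, Finsupp.sub_apply, Module.Basis.repr_self, Finsupp.single_apply] at h1
  convert h1 using 3
  exact eq_comm

/-- A representation is equivalent to the matrix representation w.r.t. any basis. -/
noncomputable def equivOfMat (ρ : GaloisRepAdic A) (b : Module.Basis (Fin 2) A ρ.V) :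
    GaloisRepAdic.Equiv ρ (ofMat (toMatHom ρ b) (matCont_toMatHom ρ b)) where
  toLinearEquiv := b.equivFun
  map_apply σ x := by
    show b.equivFun (ρ.ρ σ x) = (LinearMap.toMatrix b b (ρ.ρ σ)) *ᵥ (b.equivFun x)
    rw [Module.Basis.equivFun_apply, Module.Basis.equivFun_apply, LinearMap.toMatrix_mulVec_repr]

/-- (A2) Every `GaloisRepAdic A` is equivalent to a matrix one. -/
theorem exists_isEquiv_ofMat (ρ : GaloisRepAdic A) :
    ∃ (r : GQ →* M2 A) (hr : MatCont r), ρ.IsEquiv (ofMat r hr) :=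
  ⟨_, _, ⟨equivOfMat ρ (Module.finBasisOfFinrankEq A ρ.V ρ.finrank_eq)⟩⟩

/-- Conjugate matrix homs give equivalent representations. -/
noncomputable def equivOfConj {r r' : GQ →* M2 A} (hr : MatCont r) (hr' : MatCont r')
    (g : (M2 A)ˣ) (hg : ∀ σ, (g : M2 A) * r σ = r' σ * g) :
    GaloisRepAdic.Equiv (ofMat r hr) (ofMat r' hr') where
  toLinearEquiv := Matrix.toLin'OfInv (M := ((g⁻¹ : (M2 A)ˣ) : M2 A))
    (M' := (g : M2 A)) (by rw [← Units.val_mul]; simp) (by rw [← Units.val_mul]; simp)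
  map_apply σ x := by
    have key : ∀ y : Fin 2 → A, (g : M2 A) *ᵥ (r σ *ᵥ y) = r' σ *ᵥ ((g : M2 A) *ᵥ y) := fun y => by
      rw [Matrix.mulVec_mulVec, Matrix.mulVec_mulVec, hg]
    exact key x

/-- (A3) Equivalence of matrix representations is conjugation by an invertible matrix. -/
theorem isEquiv_ofMat_iff {r r' : GQ →* M2 A} (hr : MatCont r) (hr' : MatCont r') :
    (ofMat r hr).IsEquiv (ofMat r' hr') ↔ ∃ g : (M2 A)ˣ, ∀ σ, (g : M2 A) * r σ = r' σ * g := by
  constructor
  · rintro ⟨e⟩
    let e' : (Fin 2 → A) ≃ₗ[A] (Fin 2 → A) := e.toLinearEquiv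
    have h1 : LinearMap.toMatrix' (e' : (Fin 2 → A) →ₗ[A] (Fin 2 → A)) *
        LinearMap.toMatrix' (e'.symm : (Fin 2 → A) →ₗ[A] (Fin 2 → A)) = 1 := by
      rw [← LinearMap.toMatrix'_comp, LinearEquiv.comp_coe, LinearEquiv.symm_trans_self,
        LinearEquiv.refl_toLinearMap, LinearMap.toMatrix'_id]
    have h2 : LinearMap.toMatrix' (e'.symm : (Fin 2 → A) →ₗ[A] (Fin 2 → A)) *
        LinearMap.toMatrix' (e' : (Fin 2 → A) →ₗ[A] (Fin 2 → A)) = 1 := by
      rw [← LinearMap.toMatrix'_comp, LinearEquiv.comp_coe, LinearEquiv.self_trans_symm,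
        LinearEquiv.refl_toLinearMap, LinearMap.toMatrix'_id]
    refine ⟨⟨_, _, h1, h2⟩, fun σ => ?_⟩
    show LinearMap.toMatrix' (e' : (Fin 2 → A) →ₗ[A] (Fin 2 → A)) * r σ =
      r' σ * LinearMap.toMatrix' (e' : (Fin 2 → A) →ₗ[A] (Fin 2 → A))
    apply Matrix.toLin'.injective
    refine LinearMap.ext fun x => ?_
    rw [Matrix.toLin'_mul, Matrix.toLin'_mul, Matrix.toLin'_toMatrix', LinearMap.comp_apply,
      LinearMap.comp_apply, Matrix.toLin'_apply, Matrix.toLin'_apply]
    exact e.map_apply σ x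
  · rintro ⟨g, hg⟩
    exact ⟨equivOfConj hr hr' g hg⟩

/-- Conjugating by an invertible matrix preserves continuity. -/
theorem matCont_conjMat (γ : (M2 A)ˣ) {r : GQ →* M2 A} (hr : MatCont r) : MatCont (conjMat γ r) := by
  intro n
  obtain ⟨L, hL, h⟩ := hr n
  refine ⟨L, hL, fun σ hσ i j => ?_⟩
  have h1 : conjMat γ r σ - 1 = (γ : M2 A) * (r σ - 1) * ((γ⁻¹ : (M2 A)ˣ) : M2 A) := by
    rw [conjMat_apply, mul_sub, sub_mul, mul_one, Units.mul_inv]
  rw [h1]
  simp only [Matrix.mul_apply]
  refine Ideal.sum_mem _ fun l _ => Ideal.mul_mem_right _ _ ?_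
  exact Ideal.sum_mem _ fun m _ => Ideal.mul_mem_left _ _ (h σ hσ m l)

/-- `ofMat r` is equivalent to `ofMat (conjMat γ r)`. -/
noncomputable def equivConjMat (γ : (M2 A)ˣ) {r : GQ →* M2 A} (hr : MatCont r) :
    GaloisRepAdic.Equiv (ofMat r hr) (ofMat (conjMat γ r) (matCont_conjMat γ hr)) :=
  equivOfConj hr _ γ fun σ => by
    rw [conjMat_apply, mul_assoc, Units.inv_mul, mul_one]

end Adic

section BaseChange

/-- Compatibility of `piScalarRight` with base change of a matrix acting on column vectors. -/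
theorem piScalarRight_baseChange_mulVec {A B : Type} [CommRing A] [CommRing B] [Algebra A B]
    (M : M2 A) (x : B ⊗[A] (Fin 2 → A)) :
    TensorProduct.piScalarRight A B B (Fin 2)
        ((((Matrix.toLinAlgEquiv' : M2 A ≃ₐ[A] Module.End A (Fin 2 → A)) :
          M2 A →* Module.End A (Fin 2 → A)) M).baseChange B x) =
      ((algebraMap A B).mapMatrix M) *ᵥ (TensorProduct.piScalarRight A B B (Fin 2) x) := by
  induction x using TensorProduct.induction_on with
  | zero => simp
  | tmul b v =>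
    rw [LinearMap.baseChange_tmul, TensorProduct.piScalarRight_apply,
      TensorProduct.piScalarRight_apply,
      TensorProduct.piScalarRightHom_tmul, TensorProduct.piScalarRightHom_tmul]
    ext i
    have h0 : (((Matrix.toLinAlgEquiv' : M2 A ≃ₐ[A] Module.End A (Fin 2 → A)) :
          M2 A →* Module.End A (Fin 2 → A)) M) v = M *ᵥ v := rfl
    rw [h0]
    simp only [Matrix.mulVec, dotProduct, RingHom.mapMatrix_apply, Matrix.map_apply]
    rw [Algebra.smul_def, map_sum, Finset.sum_mul]
    refine Finset.sum_congr rfl fun j _ => ?_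
    rw [Algebra.smul_def, map_mul]
    ring
  | add x y hx hy => rw [map_add, map_add, hx, hy, map_add, Matrix.mulVec_add]

variable {A : Type} [CommRing A] [IsLocalRing A] {B : Type} [CommRing B] [IsLocalRing B]

/-- Pushing forward along a local hom preserves continuity. -/
theorem matCont_mapMat (φ : A →+* B) (hφ : IsLocalHom φ) {r : GQ →* M2 A}
    (hr : MatCont r) : MatCont (mapMat φ r) := by
  intro n
  obtain ⟨L, hL, h⟩ := hr n
  refine ⟨L, hL, fun σ hσ i j => ?_⟩
  have hmap : (maximalIdeal A ^ n).map φ ≤ maximalIdeal B ^ n := by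
    rw [Ideal.map_pow]
    exact Ideal.pow_right_mono (Ideal.map_le_iff_le_comap.mpr fun a ha =>
      Ideal.mem_comap.mpr (haveI := hφ; map_nonunit φ a ha)) n
  have h1 : (mapMat φ r σ - 1) i j = φ ((r σ - 1) i j) := by
    simp only [Matrix.sub_apply, mapMat_apply_apply, Matrix.one_apply, map_sub]
    split_ifs <;> simp
  rw [h1]
  exact hmap (Ideal.mem_map_of_mem φ (h σ hσ i j))

/-- (A4) Base change of a matrix representation is the matrix representation of the pushed hom. -/
noncomputable def equivBaseChangeOfMat (φ : A →+* B) (hφ : IsLocalHom φ)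
    {r : GQ →* M2 A} (hr : MatCont r) :
    GaloisRepAdic.Equiv ((ofMat r hr).baseChangeAlong φ hφ)
      (ofMat (mapMat φ r) (matCont_mapMat φ hφ hr)) :=
  letI : Algebra A B := φ.toAlgebra
  { toLinearEquiv := TensorProduct.piScalarRight A B B (Fin 2)
    map_apply := fun σ x => piScalarRight_baseChange_mulVec (r σ) x }

theorem isEquiv_baseChangeAlong_ofMat (φ : A →+* B) (hφ : IsLocalHom φ)
    {r : GQ →* M2 A} (hr : MatCont r) :
    ((ofMat r hr).baseChangeAlong φ hφ).IsEquiv (ofMat (mapMat φ r) (matCont_mapMat φ hφ hr)) :=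
  ⟨equivBaseChangeOfMat φ hφ hr⟩

end BaseChange

section Residual

variable {k : Type} [Field k]

/-- The matrix valued hom of a residual representation w.r.t. a basis. -/
noncomputable def toMatHomRes (ρ : ResidualGaloisRep k) (b : Module.Basis (Fin 2) k ρ.V) :
    GQ →* M2 k :=
  ((LinearMap.toMatrixAlgEquiv b : Module.End k ρ.V ≃ₐ[k] M2 k) : Module.End k ρ.V →* M2 k).comp ρ.ρ

theorem toMatHomRes_apply (ρ : ResidualGaloisRep k) (b : Module.Basis (Fin 2) k ρ.V) (σ : GQ) :
    toMatHomRes ρ b σ = LinearMap.toMatrix b b (ρ.ρ σ) := rfl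

theorem factors_toMatHomRes (ρ : ResidualGaloisRep k) (b : Module.Basis (Fin 2) k ρ.V) :
    GaloisFactorsThroughFiniteLevel (toMatHomRes ρ b) := by
  obtain ⟨L, hL, h⟩ := ρ.factorsThroughFiniteLevel
  exact ⟨L, hL, fun σ hσ => by rw [toMatHomRes, MonoidHom.comp_apply, h σ hσ, map_one]⟩

/-- A residual representation is equivalent to the matrix representation w.r.t. any basis. -/
noncomputable def equivOfMatRes (ρ : ResidualGaloisRep k) (b : Module.Basis (Fin 2) k ρ.V) :
    ResidualGaloisRep.Equiv ρ (ofMatRes (toMatHomRes ρ b) (factors_toMatHomRes ρ b)) where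
  toLinearEquiv := b.equivFun
  map_apply σ x := by
    show b.equivFun (ρ.ρ σ x) = (LinearMap.toMatrix b b (ρ.ρ σ)) *ᵥ (b.equivFun x)
    rw [Module.Basis.equivFun_apply, Module.Basis.equivFun_apply, LinearMap.toMatrix_mulVec_repr]

/-- Every `ResidualGaloisRep k` is equivalent to a matrix one. -/
theorem exists_isEquiv_ofMatRes (ρ : ResidualGaloisRep k) :
    ∃ (r : GQ →* M2 k) (hr : GaloisFactorsThroughFiniteLevel r), ρ.IsEquiv (ofMatRes r hr) :=
  ⟨_, _, ⟨equivOfMatRes ρ (Module.finBasisOfFinrankEq k ρ.V ρ.finrank_eq)⟩⟩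

/-- Conjugate matrix homs give equivalent residual representations. -/
noncomputable def equivOfConjRes {r r' : GQ →* M2 k}
    (hr : GaloisFactorsThroughFiniteLevel r) (hr' : GaloisFactorsThroughFiniteLevel r')
    (g : (M2 k)ˣ) (hg : ∀ σ, (g : M2 k) * r σ = r' σ * g) :
    ResidualGaloisRep.Equiv (ofMatRes r hr) (ofMatRes r' hr') where
  toLinearEquiv := Matrix.toLin'OfInv (M := ((g⁻¹ : (M2 k)ˣ) : M2 k))
    (M' := (g : M2 k)) (by rw [← Units.val_mul]; simp) (by rw [← Units.val_mul]; simp)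
  map_apply σ x := by
    have key : ∀ y : Fin 2 → k, (g : M2 k) *ᵥ (r σ *ᵥ y) = r' σ *ᵥ ((g : M2 k) *ᵥ y) := fun y => by
      rw [Matrix.mulVec_mulVec, Matrix.mulVec_mulVec, hg]
    exact key x

/-- Equivalence of residual matrix representations is conjugation by an invertible matrix. -/
theorem isEquiv_ofMatRes_iff {r r' : GQ →* M2 k}
    (hr : GaloisFactorsThroughFiniteLevel r) (hr' : GaloisFactorsThroughFiniteLevel r') :
    (ofMatRes r hr).IsEquiv (ofMatRes r' hr') ↔ ∃ g : (M2 k)ˣ, ∀ σ, (g : M2 k) * r σ = r' σ * g := by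
  constructor
  · rintro ⟨e⟩
    let e' : (Fin 2 → k) ≃ₗ[k] (Fin 2 → k) := e.toLinearEquiv
    have h1 : LinearMap.toMatrix' (e' : (Fin 2 → k) →ₗ[k] (Fin 2 → k)) *
        LinearMap.toMatrix' (e'.symm : (Fin 2 → k) →ₗ[k] (Fin 2 → k)) = 1 := by
      rw [← LinearMap.toMatrix'_comp, LinearEquiv.comp_coe, LinearEquiv.symm_trans_self,
        LinearEquiv.refl_toLinearMap, LinearMap.toMatrix'_id]
    have h2 : LinearMap.toMatrix' (e'.symm : (Fin 2 → k) →ₗ[k] (Fin 2 → k)) *
        LinearMap.toMatrix' (e' : (Fin 2 → k) →ₗ[k] (Fin 2 → k)) = 1 := by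
      rw [← LinearMap.toMatrix'_comp, LinearEquiv.comp_coe, LinearEquiv.self_trans_symm,
        LinearEquiv.refl_toLinearMap, LinearMap.toMatrix'_id]
    refine ⟨⟨_, _, h1, h2⟩, fun σ => ?_⟩
    show LinearMap.toMatrix' (e' : (Fin 2 → k) →ₗ[k] (Fin 2 → k)) * r σ =
      r' σ * LinearMap.toMatrix' (e' : (Fin 2 → k) →ₗ[k] (Fin 2 → k))
    apply Matrix.toLin'.injective
    refine LinearMap.ext fun x => ?_
    rw [Matrix.toLin'_mul, Matrix.toLin'_mul, Matrix.toLin'_toMatrix', LinearMap.comp_apply,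
      LinearMap.comp_apply, Matrix.toLin'_apply, Matrix.toLin'_apply]
    exact e.map_apply σ x
  · rintro ⟨g, hg⟩
    exact ⟨equivOfConjRes hr hr' g hg⟩

theorem factors_mapMat {k' : Type} [Field k'] (ψ : k →+* k') {r : GQ →* M2 k}
    (hr : GaloisFactorsThroughFiniteLevel r) : GaloisFactorsThroughFiniteLevel (mapMat ψ r) := by
  obtain ⟨L, hL, h⟩ := hr
  refine ⟨L, hL, fun σ hσ => ?_⟩
  rw [mapMat, MonoidHom.comp_apply, h σ hσ, map_one]

/-- Base change of a residual matrix representation along a field hom. -/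
noncomputable def equivBaseChangeOfMatRes {k' : Type} [Field k'] (ψ : k →+* k')
    {r : GQ →* M2 k} (hr : GaloisFactorsThroughFiniteLevel r) :
    ResidualGaloisRep.Equiv ((ofMatRes r hr).baseChangeAlong ψ)
      (ofMatRes (mapMat ψ r) (factors_mapMat ψ hr)) :=
  letI : Algebra k k' := ψ.toAlgebra
  { toLinearEquiv := TensorProduct.piScalarRight k k' k' (Fin 2)
    map_apply := fun σ x => piScalarRight_baseChange_mulVec (r σ) x }

/-- The reduction of a continuous matrix hom factors through finite level. -/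
theorem factors_residue_of_matCont {A : Type} [CommRing A] [IsLocalRing A]
    {r : GQ →* M2 A} (hr : MatCont r) :
    GaloisFactorsThroughFiniteLevel (mapMat (residue A) r) := by
  obtain ⟨L, hL, h⟩ := hr 1
  refine ⟨L, hL, fun σ hσ => ?_⟩
  ext i j
  have h1 := h σ hσ i j
  rw [pow_one, ← residue_eq_zero_iff, Matrix.sub_apply, map_sub, sub_eq_zero] at h1
  rw [mapMat_apply_apply, h1, Matrix.one_apply, Matrix.one_apply]
  split_ifs <;> simp

/-- (A5) The residual representation of a matrix representation is the matrix representation of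
the reduced hom. -/
noncomputable def equivResidualOfMat {A : Type} [CommRing A] [IsLocalRing A]
    {r : GQ →* M2 A} (hr : MatCont r) :
    ResidualGaloisRep.Equiv (ofMat r hr).residual
      (ofMatRes (mapMat (residue A) r) (factors_residue_of_matCont hr)) where
  toLinearEquiv := TensorProduct.piScalarRight A (ResidueField A) (ResidueField A) (Fin 2)
  map_apply := fun σ x => piScalarRight_baseChange_mulVec (r σ) x

/-- (A6) Matrix criterion for "`ρ` lifts `ρbar`": if `ρ ≃ ofMat r` and `ρbar ≃ ofMatRes rbar`, then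
`ρ.residual ≃ ρbar.baseChangeAlong ι` iff the reduction of `r` is `GL₂`-conjugate to `ι ∘ rbar`. -/
theorem residual_isEquiv_baseChangeAlong_iff {A : Type} [CommRing A] [IsLocalRing A]
    {ρ : GaloisRepAdic A} {r : GQ →* M2 A} {hr : MatCont r} (hρ : ρ.IsEquiv (ofMat r hr))
    {ρbar : ResidualGaloisRep k} {rbar : GQ →* M2 k} {hrbar : GaloisFactorsThroughFiniteLevel rbar}
    (hρbar : ρbar.IsEquiv (ofMatRes rbar hrbar)) (ι : k →+* ResidueField A) :
    ρ.residual.IsEquiv (ρbar.baseChangeAlong ι) ↔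
      ∃ g : (M2 (ResidueField A))ˣ, ∀ σ,
        (g : M2 (ResidueField A)) * mapMat (residue A) r σ = mapMat ι rbar σ * g := by
  obtain ⟨e⟩ := hρ
  obtain ⟨ebar⟩ := hρbar
  rw [← isEquiv_ofMatRes_iff (factors_residue_of_matCont hr) (factors_mapMat ι hrbar)]
  have e1 : ResidualGaloisRep.Equiv ρ.residual
      (ofMatRes (mapMat (residue A) r) (factors_residue_of_matCont hr)) :=
    (GaloisRepAdic.Equiv.residual e).trans (equivResidualOfMat hr)
  have e2 : ResidualGaloisRep.Equiv (ρbar.baseChangeAlong ι)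
      (ofMatRes (mapMat ι rbar) (factors_mapMat ι hrbar)) :=
    (ResidualGaloisRep.Equiv.baseChangeAlong ι ebar).trans (equivBaseChangeOfMatRes ι hrbar)
  constructor
  · rintro ⟨f⟩
    exact ⟨(e1.symm.trans f).trans e2⟩
  · rintro ⟨f⟩
    exact ⟨(e1.trans f).trans e2.symm⟩

end Residual

end Fermat.Agent.S53
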