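/-
S53: transport of the deformation condition `𝒟` in matrix form, and lifting the residual
conjugator (preparation for the normalisation step).  Owner: helper35.
-/
import Fermat.Agent.S53.MatrixForm

set_option autoImplicit false

namespace Fermat.Agent.S53

open Matrix IsLocalRing GaloisRep

section TypeD

variable {𝒪 : Type} [CommRing 𝒪]
  {𝒟 : ∀ ⦃A : Type⦄ [CommRing A] [IsLocalRing A] [Algebra 𝒪 A], GaloisRepAdic A → Prop}

/-- (T1) type `𝒟` is preserved by pushing a matrix hom along a local hom of Artinian test algebras. -/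
theorem type_mapMat (h𝒟 : IsDeformationCondition 𝒪 𝒟)
    {A B : Type} [CommRing A] [IsLocalRing A] [Algebra 𝒪 A] [CommRing B] [IsLocalRing B] [Algebra 𝒪 B]
    (hA : IsArtinianTestAlgebra 𝒪 A) (hB : IsArtinianTestAlgebra 𝒪 B)
    (φ : A →ₐ[𝒪] B) (hφ : IsLocalHom (φ : A →+* B)) {r : GQ →* M2 A} (hr : MatCont r)
    (h : 𝒟 (ofMat r hr)) :
    𝒟 (ofMat (mapMat (φ : A →+* B) r) (matCont_mapMat (φ : A →+* B) hφ hr)) :=
  h𝒟.of_isEquiv hB (isEquiv_baseChangeAlong_ofMat (φ : A →+* B) hφ hr)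
    (h𝒟.baseChangeAlong hA hB φ hφ h)

/-- (T2) type `𝒟` descends along an injective local hom of Artinian test algebras. -/
theorem type_of_mapMat_injective (h𝒟 : IsDeformationCondition 𝒪 𝒟)
    {A B : Type} [CommRing A] [IsLocalRing A] [Algebra 𝒪 A] [CommRing B] [IsLocalRing B] [Algebra 𝒪 B]
    (hA : IsArtinianTestAlgebra 𝒪 A) (hB : IsArtinianTestAlgebra 𝒪 B)
    (φ : A →ₐ[𝒪] B) (hφ : IsLocalHom (φ : A →+* B)) (hinj : Function.Injective φ)
    {r : GQ →* M2 A} (hr : MatCont r)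
    (h : 𝒟 (ofMat (mapMat (φ : A →+* B) r) (matCont_mapMat (φ : A →+* B) hφ hr))) :
    𝒟 (ofMat r hr) :=
  h𝒟.of_baseChangeAlong_injective hA hB φ hφ hinj
    (h𝒟.of_isEquiv hB ⟨(equivBaseChangeOfMat (φ : A →+* B) hφ hr).symm⟩ h)

/-- (T3) type `𝒟` is invariant under conjugation (Artinian test algebras). -/
theorem type_conjMat_iff (h𝒟 : IsDeformationCondition 𝒪 𝒟)
    {A : Type} [CommRing A] [IsLocalRing A] [Algebra 𝒪 A] (hA : IsArtinianTestAlgebra 𝒪 A)
    (γ : (M2 A)ˣ) {r : GQ →* M2 A} (hr : MatCont r) :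
    𝒟 (ofMat (conjMat γ r) (matCont_conjMat γ hr)) ↔ 𝒟 (ofMat r hr) :=
  ⟨h𝒟.of_isEquiv hA ⟨(equivConjMat γ hr).symm⟩, h𝒟.of_isEquiv hA ⟨equivConjMat γ hr⟩⟩

/-- (T4) type `𝒟` is invariant under equivalence over complete noetherian local `𝒪`-algebras. -/
theorem type_of_isEquiv_cnl (h𝒟 : IsDeformationCondition 𝒪 𝒟)
    {A : Type} [CommRing A] [IsLocalRing A] [IsNoetherianRing A]
    [IsAdicComplete (maximalIdeal A) A] [Algebra 𝒪 A]
    (hloc : IsLocalHom (algebraMap 𝒪 A))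
    (hsurj : Function.Surjective (IsLocalRing.residue A ∘ algebraMap 𝒪 A))
    {ρ ρ' : GaloisRepAdic A} (he : ρ.IsEquiv ρ') (h : 𝒟 ρ) : 𝒟 ρ' := by
  rw [h𝒟.iff_forall_surjective hloc hsurj] at h ⊢
  intro B _ _ _ hB q hq hqs
  obtain ⟨e⟩ := he
  exact h𝒟.of_isEquiv hB ⟨e.baseChangeAlong _ hq⟩ (h hB q hq hqs)

/-- (T3') type `𝒟` is invariant under conjugation (complete noetherian local algebras). -/
theorem type_conjMat_iff_cnl (h𝒟 : IsDeformationCondition 𝒪 𝒟)
    {A : Type} [CommRing A] [IsLocalRing A] [IsNoetherianRing A]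
    [IsAdicComplete (maximalIdeal A) A] [Algebra 𝒪 A]
    (hloc : IsLocalHom (algebraMap 𝒪 A))
    (hsurj : Function.Surjective (IsLocalRing.residue A ∘ algebraMap 𝒪 A))
    (γ : (M2 A)ˣ) {r : GQ →* M2 A} (hr : MatCont r) :
    𝒟 (ofMat (conjMat γ r) (matCont_conjMat γ hr)) ↔ 𝒟 (ofMat r hr) :=
  ⟨type_of_isEquiv_cnl h𝒟 hloc hsurj ⟨(equivConjMat γ hr).symm⟩,
    type_of_isEquiv_cnl h𝒟 hloc hsurj ⟨equivConjMat γ hr⟩⟩

/-- (T5) the fibre product axiom in matrix form. -/
theorem type_of_fibreProduct (h𝒟 : IsDeformationCondition 𝒪 𝒟)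
    {A B C P : Type} [CommRing A] [IsLocalRing A] [Algebra 𝒪 A]
    [CommRing B] [IsLocalRing B] [Algebra 𝒪 B] [CommRing C] [IsLocalRing C] [Algebra 𝒪 C]
    [CommRing P] [IsLocalRing P] [Algebra 𝒪 P]
    (hA : IsArtinianTestAlgebra 𝒪 A) (hB : IsArtinianTestAlgebra 𝒪 B)
    (hC : IsArtinianTestAlgebra 𝒪 C) (hP : IsArtinianTestAlgebra 𝒪 P)
    (f : A →ₐ[𝒪] C) (g : B →ₐ[𝒪] C) (pA : P →ₐ[𝒪] A) (pB : P →ₐ[𝒪] B)
    (hpA : IsLocalHom (pA : P →+* A)) (hpB : IsLocalHom (pB : P →+* B))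
    (hcomm : f.comp pA = g.comp pB)
    (hinj : Function.Injective (fun x => (pA x, pB x)))
    (hsurj : ∀ a b, f a = g b → ∃ x, pA x = a ∧ pB x = b)
    {r : GQ →* M2 P} (hr : MatCont r)
    (h1 : 𝒟 (ofMat (mapMat (pA : P →+* A) r) (matCont_mapMat (pA : P →+* A) hpA hr)))
    (h2 : 𝒟 (ofMat (mapMat (pB : P →+* B) r) (matCont_mapMat (pB : P →+* B) hpB hr))) :
    𝒟 (ofMat r hr) :=
  h𝒟.of_fibreProduct hA hB hC hP f g pA pB hpA hpB hcomm hinj hsurj
    (h𝒟.of_isEquiv hA ⟨(equivBaseChangeOfMat (pA : P →+* A) hpA hr).symm⟩ h1)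
    (h𝒟.of_isEquiv hB ⟨(equivBaseChangeOfMat (pB : P →+* B) hpB hr).symm⟩ h2)

/-- (T6) the continuity axiom in matrix form: over a complete noetherian local `𝒪`-algebra, type `𝒟`
can be tested on the Artinian quotients. -/
theorem type_ofMat_iff_forall_surjective (h𝒟 : IsDeformationCondition 𝒪 𝒟)
    {A : Type} [CommRing A] [IsLocalRing A] [IsNoetherianRing A]
    [IsAdicComplete (maximalIdeal A) A] [Algebra 𝒪 A]
    (hloc : IsLocalHom (algebraMap 𝒪 A))
    (hsurj : Function.Surjective (IsLocalRing.residue A ∘ algebraMap 𝒪 A))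
    {r : GQ →* M2 A} (hr : MatCont r) :
    𝒟 (ofMat r hr) ↔ ∀ ⦃B : Type⦄ [CommRing B] [IsLocalRing B] [Algebra 𝒪 B],
      IsArtinianTestAlgebra 𝒪 B → ∀ (q : A →ₐ[𝒪] B) (hq : IsLocalHom (q : A →+* B)),
        Function.Surjective q →
          𝒟 (ofMat (mapMat (q : A →+* B) r) (matCont_mapMat (q : A →+* B) hq hr)) := by
  rw [h𝒟.iff_forall_surjective hloc hsurj]
  constructor
  · intro h B _ _ _ hB q hq hqs
    exact h𝒟.of_isEquiv hB (isEquiv_baseChangeAlong_ofMat (q : A →+* B) hq hr) (h hB q hq hqs)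
  · intro h B _ _ _ hB q hq hqs
    exact h𝒟.of_isEquiv hB ⟨(equivBaseChangeOfMat (q : A →+* B) hq hr).symm⟩ (h hB q hq hqs)

end TypeD

section LiftConj

variable {𝒪 : Type} [CommRing 𝒪] [IsLocalRing 𝒪]
  {A : Type} [CommRing A] [IsLocalRing A] [Algebra 𝒪 A] [IsLocalHom (algebraMap 𝒪 A)]

/-- A matrix over a local ring whose reduction is invertible is invertible. -/
theorem isUnit_of_isUnit_map_residue {A : Type*} [CommRing A] [IsLocalRing A] (γ : M2 A)
    (h : IsUnit (γ.map (residue A))) : IsUnit γ := by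
  rw [Matrix.isUnit_iff_isUnit_det] at h ⊢
  have h1 : (γ.map (residue A)).det = residue A γ.det := by
    rw [← RingHom.mapMatrix_apply, ← RingHom.map_det]
  rw [h1] at h
  exact isUnit_of_map_unit (residue A) _ h

/-- Every matrix over the residue field lifts entrywise. -/
theorem exists_map_residue_eq {A : Type*} [CommRing A] [IsLocalRing A] (g : M2 (ResidueField A)) :
    ∃ γ : M2 A, γ.map (residue A) = g := by
  choose f hf using fun i j => residue_surjective (g i j)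
  exact ⟨Matrix.of f, by ext i j; simp [hf]⟩

/-- (T7) If the reduction of `r0` is `GL₂(k_A)`-conjugate to the image of `rbar` (the criterion
`residual_isEquiv_baseChangeAlong_iff`), and `N.rt` is an entrywise lift of `rbar` to `𝒪`, then some
`GL₂(A)`-conjugate of `r0` is an honest lift in the sense of `IsLift`. -/
theorem exists_conj_isLift (N : NormData 𝒪) (rbar : GQ →* M2 (ResidueField 𝒪))
    (hN : ∀ g i j, residue 𝒪 (N.rt g i j) = rbar g i j) {r0 : GQ →* M2 A}
    (h : ∃ g : (M2 (ResidueField A))ˣ, ∀ σ, (g : M2 (ResidueField A)) * mapMat (residue A) r0 σ =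
      mapMat (ResidueField.map (algebraMap 𝒪 A)) rbar σ * g) :
    ∃ γ : (M2 A)ˣ, IsLift N (conjMat γ r0) := by
  obtain ⟨g, hg⟩ := h
  obtain ⟨γ0, hγ0⟩ := exists_map_residue_eq (g : M2 (ResidueField A))
  have hu : IsUnit γ0 := isUnit_of_isUnit_map_residue γ0 (by rw [hγ0]; exact g.isUnit)
  refine ⟨hu.unit, fun σ i j => ?_⟩
  rw [← residue_eq_zero_iff, map_sub, sub_eq_zero, ← ResidueField.map_residue, hN]
  -- reduce the conjugated matrix
  have hmap : ∀ M : M2 A, (residue A).mapMatrix M = M.map (residue A) := fun M => rfl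
  have hunit : Units.map ((residue A).mapMatrix : M2 A →+* M2 (ResidueField A)).toMonoidHom hu.unit = g := by
    ext1
    show (residue A).mapMatrix (hu.unit : M2 A) = g
    rw [IsUnit.unit_spec, hmap, hγ0]
  have h1 : (residue A).mapMatrix (conjMat hu.unit r0 σ) =
      (g : M2 (ResidueField A)) * mapMat (residue A) r0 σ * ((g⁻¹ : (M2 (ResidueField A))ˣ) : M2 _) := by
    have ha : (residue A).mapMatrix (hu.unit : M2 A) = g := by
      rw [IsUnit.unit_spec, hmap, hγ0]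
    have hb : (residue A).mapMatrix (((hu.unit)⁻¹ : (M2 A)ˣ) : M2 A) =
        ((g⁻¹ : (M2 (ResidueField A))ˣ) : M2 _) := by
      rw [← hunit]
      rfl
    rw [conjMat_apply, map_mul, map_mul, ha, hb]
    rfl
  have h2 : (residue A) (conjMat hu.unit r0 σ i j) = ((residue A).mapMatrix (conjMat hu.unit r0 σ)) i j := rfl
  rw [h2, h1, hg σ, mul_assoc, Units.mul_inv, mul_one]
  rfl

/-- `IsLift` in terms of reductions: `r` is a lift iff its reduction is the image of `rbar`. -/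
theorem isLift_iff_mapMat_residue (N : NormData 𝒪) (rbar : GQ →* M2 (ResidueField 𝒪))
    (hN : ∀ g i j, residue 𝒪 (N.rt g i j) = rbar g i j) (r : GQ →* M2 A) :
    IsLift N r ↔ ∀ σ, mapMat (residue A) r σ = mapMat (ResidueField.map (algebraMap 𝒪 A)) rbar σ := by
  constructor
  · intro h σ
    ext i j
    have h1 := h σ i j
    rw [← residue_eq_zero_iff, map_sub, sub_eq_zero, ← ResidueField.map_residue, hN] at h1
    exact h1
  · intro h σ i j
    rw [← residue_eq_zero_iff, map_sub, sub_eq_zero, ← ResidueField.map_residue, hN]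
    exact congrFun (congrFun (h σ) i) j

/-- A lift of `rbar` has residual representation `ρbar` (base changed to the residue field of `A`). -/
theorem residual_isEquiv_of_isLift (N : NormData 𝒪) {ρbar : ResidualGaloisRep (ResidueField 𝒪)}
    {rbar : GQ →* M2 (ResidueField 𝒪)} {hrbar : GaloisFactorsThroughFiniteLevel rbar}
    (hρbar : ρbar.IsEquiv (ofMatRes rbar hrbar))
    (hN : ∀ g i j, residue 𝒪 (N.rt g i j) = rbar g i j) {r : GQ →* M2 A} (hr : MatCont r)
    (hl : IsLift N r) :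
    (ofMat r hr).residual.IsEquiv
      (ρbar.baseChangeAlong (ResidueField.map (algebraMap 𝒪 A))) := by
  rw [residual_isEquiv_baseChangeAlong_iff ⟨GaloisRepAdic.Equiv.refl _⟩ hρbar]
  refine ⟨1, fun σ => ?_⟩
  rw [Units.val_one, one_mul, mul_one]
  exact (isLift_iff_mapMat_residue N rbar hN r).1 hl σ

omit [IsLocalRing 𝒪] [IsLocalHom (algebraMap 𝒪 A)] in
/-- `IsLift` is preserved by pushing forward along a local `𝒪`-algebra hom. -/
theorem isLift_mapMat (N : NormData 𝒪) {B : Type} [CommRing B] [IsLocalRing B] [Algebra 𝒪 B]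
    (φ : A →ₐ[𝒪] B) (hφ : IsLocalHom (φ : A →+* B)) {r : GQ →* M2 A} (h : IsLift N r) :
    IsLift N (mapMat (φ : A →+* B) r) := by
  intro g i j
  have h1 := h g i j
  have h2 : mapMat (φ : A →+* B) r g i j - algebraMap 𝒪 B (N.rt g i j) =
      φ (r g i j - algebraMap 𝒪 A (N.rt g i j)) := by
    rw [map_sub, AlgHom.commutes]; rfl
  rw [h2]
  by_contra hc
  have hu : IsUnit (φ (r g i j - algebraMap 𝒪 A (N.rt g i j))) := by
    rwa [mem_maximalIdeal, mem_nonunits_iff, not_not] at hc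
  have := hφ
  exact (mem_maximalIdeal _).1 h1 (isUnit_of_map_unit (φ : A →+* B) _ hu)

omit [IsLocalRing 𝒪] [IsLocalHom (algebraMap 𝒪 A)] [IsLocalRing A] in
/-- `IsNormalised` is preserved by pushing forward along an `𝒪`-algebra hom. -/
theorem isNormalised_mapMat (N : NormData 𝒪) {B : Type} [CommRing B] [Algebra 𝒪 B]
    (φ : A →ₐ[𝒪] B) {r : GQ →* M2 A} (h : IsNormalised N r) :
    IsNormalised N (mapMat (φ : A →+* B) r) := by
  intro a
  rw [mapMat_apply_apply, h a]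
  exact AlgHom.commutes φ _

omit [IsLocalRing 𝒪] [IsLocalHom (algebraMap 𝒪 A)] [IsLocalRing A] in
/-- `IsNormalised` descends along an injective `𝒪`-algebra hom. -/
theorem isNormalised_of_mapMat_injective (N : NormData 𝒪) {B : Type} [CommRing B] [Algebra 𝒪 B]
    (φ : A →ₐ[𝒪] B) (hinj : Function.Injective φ) {r : GQ →* M2 A}
    (h : IsNormalised N (mapMat (φ : A →+* B) r)) : IsNormalised N r := by
  intro a
  apply hinj
  have h1 := h a
  rw [mapMat_apply_apply] at h1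
  rw [AlgHom.commutes]
  exact h1

/-- Conjugating by a matrix congruent to `1` modulo an ideal changes entries by elements of the
ideal. -/
theorem conjMat_sub_mem {A : Type*} [CommRing A] {G : Type*} [Monoid G] (I : Ideal A) (γ : (M2 A)ˣ)
    (hγ : ∀ i j, ((γ : M2 A) - 1) i j ∈ I) (r : G →* M2 A) (g : G) (i j : Fin 2) :
    (conjMat γ r g - r g) i j ∈ I := by
  have hinv : ∀ i j, (((γ⁻¹ : (M2 A)ˣ) : M2 A) - 1) i j ∈ I := by
    have : ((γ⁻¹ : (M2 A)ˣ) : M2 A) - 1 = -(((γ⁻¹ : (M2 A)ˣ) : M2 A) * ((γ : M2 A) - 1)) := by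
      rw [mul_sub, Units.inv_mul, mul_one, neg_sub]
    intro i j
    rw [this, Matrix.neg_apply, Matrix.mul_apply]
    exact I.neg_mem (Ideal.sum_mem _ fun l _ => Ideal.mul_mem_left _ _ (hγ l j))
  have key : conjMat γ r g - r g =
      ((γ : M2 A) - 1) * r g * ((γ⁻¹ : (M2 A)ˣ) : M2 A) + r g * (((γ⁻¹ : (M2 A)ˣ) : M2 A) - 1) := by
    rw [conjMat_apply]; noncomm_ring
  rw [key, Matrix.add_apply]
  refine I.add_mem ?_ ?_
  · simp only [Matrix.mul_apply]
    refine Ideal.sum_mem _ fun l _ => Ideal.mul_mem_right _ _ ?_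
    exact Ideal.sum_mem _ fun m _ => Ideal.mul_mem_right _ _ (hγ i m)
  · rw [Matrix.mul_apply]
    exact Ideal.sum_mem _ fun l _ => Ideal.mul_mem_left _ _ (hinv l j)

omit [IsLocalRing 𝒪] [IsLocalHom (algebraMap 𝒪 A)] in
/-- `IsLift` is preserved by conjugation by a matrix congruent to `1` mod `𝔪`. -/
theorem isLift_conjMat (N : NormData 𝒪) (γ : (M2 A)ˣ)
    (hγ : ∀ i j, ((γ : M2 A) - 1) i j ∈ maximalIdeal A) {r : GQ →* M2 A} (h : IsLift N r) :
    IsLift N (conjMat γ r) := by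
  intro g i j
  have h1 := conjMat_sub_mem (maximalIdeal A) γ hγ r g i j
  have h2 := h g i j
  have : Fermat.Agent.S53.conjMat γ r g i j - algebraMap 𝒪 A (N.rt g i j) =
      (Fermat.Agent.S53.conjMat γ r g - r g) i j + (r g i j - algebraMap 𝒪 A (N.rt g i j)) := by
    rw [Matrix.sub_apply]; ring
  rw [this]
  exact Ideal.add_mem _ h1 h2

end LiftConj

end Fermat.Agent.S53
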