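/-
S53: normal form of deformations in the slice-agnostic language of `Core.lean`.
Every deformation of `ρbar` over a complete local `𝒪`-algebra is equivalent to a unique normalised
matrix lift.  Owner: helper35.
-/
import Fermat.Agent.S53.Core
import Fermat.Agent.S53.TypeTransport

set_option autoImplicit false

namespace Fermat.Agent.S53

open Matrix IsLocalRing GaloisRep

section LiftRt

variable {𝒪 : Type} [CommRing 𝒪] {A : Type} [CommRing A] [IsLocalRing A] [Algebra 𝒪 A]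

/-- Dummy `NormData` carrying a set-theoretic lift `rt` (bridge to the lemmas of
`TypeTransport.lean`, which are stated with `IsLift`). -/
noncomputable def normDataOfRt (rt : GQ → M2 𝒪) : NormData 𝒪 := ⟨rt, fun _ => 1, fun _ => 0, fun _ => 0⟩

theorem isLiftRt_iff_isLift (rt : GQ → M2 𝒪) (r : GQ →* M2 A) :
    IsLiftRt rt r ↔ IsLift (normDataOfRt rt) r := Iff.rfl

/-- `IsLiftRt` is preserved by pushing forward along a local `𝒪`-algebra hom. -/
theorem isLiftRt_mapMat (rt : GQ → M2 𝒪) {B : Type} [CommRing B] [IsLocalRing B] [Algebra 𝒪 B]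
    (φ : A →ₐ[𝒪] B) (hφ : IsLocalHom (φ : A →+* B)) {r : GQ →* M2 A} (h : IsLiftRt rt r) :
    IsLiftRt rt (mapMat (φ : A →+* B) r) :=
  isLift_mapMat (normDataOfRt rt) φ hφ h

/-- `IsLiftRt` is preserved by conjugation by a matrix congruent to `1` mod `𝔪`. -/
theorem isLiftRt_conjMat (rt : GQ → M2 𝒪) (γ : (M2 A)ˣ)
    (hγ : ∀ i j, ((γ : M2 A) - 1) i j ∈ maximalIdeal A) {r : GQ →* M2 A} (h : IsLiftRt rt r) :
    IsLiftRt rt (conjMat γ r) :=
  isLift_conjMat (normDataOfRt rt) γ hγ h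

/-- `IsLiftRt` descends along any `𝒪`-algebra hom of local rings. -/
theorem isLiftRt_of_mapMat (rt : GQ → M2 𝒪) {B : Type} [CommRing B] [IsLocalRing B] [Algebra 𝒪 B]
    (φ : A →ₐ[𝒪] B) {r : GQ →* M2 A}
    (h : IsLiftRt rt (mapMat (φ : A →+* B) r)) : IsLiftRt rt r := by
  intro g i j
  have h1 := h g i j
  have h2 : mapMat (φ : A →+* B) r g i j - algebraMap 𝒪 B (rt g i j) =
      φ (r g i j - algebraMap 𝒪 A (rt g i j)) := by
    rw [map_sub, AlgHom.commutes]; rfl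
  rw [h2] at h1
  by_contra hc
  have hu : IsUnit (r g i j - algebraMap 𝒪 A (rt g i j)) := by
    rwa [mem_maximalIdeal, mem_nonunits_iff, not_not] at hc
  exact (mem_maximalIdeal _).1 h1 (hu.map φ)

variable [IsLocalRing 𝒪] [IsLocalHom (algebraMap 𝒪 A)]

/-- `IsLiftRt` in terms of reductions. -/
theorem isLiftRt_iff_mapMat_residue (rt : GQ → M2 𝒪) (rbar : GQ →* M2 (ResidueField 𝒪))
    (hrt : ∀ g, (rt g).map (residue 𝒪) = rbar g) (r : GQ →* M2 A) :
    IsLiftRt rt r ↔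
      ∀ σ, mapMat (residue A) r σ = mapMat (ResidueField.map (algebraMap 𝒪 A)) rbar σ :=
  isLift_iff_mapMat_residue (normDataOfRt rt) rbar
    (fun g i j => congrFun (congrFun (hrt g) i) j) r

/-- A lift of `rbar` has residual representation `ρbar`. -/
theorem residual_isEquiv_of_isLiftRt (rt : GQ → M2 𝒪)
    {ρbar : ResidualGaloisRep (ResidueField 𝒪)}
    {rbar : GQ →* M2 (ResidueField 𝒪)} {hrbar : GaloisFactorsThroughFiniteLevel rbar}
    (hρbar : ρbar.IsEquiv (ofMatRes rbar hrbar))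
    (hrt : ∀ g, (rt g).map (residue 𝒪) = rbar g) {r : GQ →* M2 A} (hr : MatCont r)
    (hl : IsLiftRt rt r) :
    (ofMat r hr).residual.IsEquiv
      (ρbar.baseChangeAlong (ResidueField.map (algebraMap 𝒪 A))) :=
  residual_isEquiv_of_isLift (normDataOfRt rt) hρbar
    (fun g i j => congrFun (congrFun (hrt g) i) j) hr hl

/-- If the reduction of `r0` is `GL₂(k_A)`-conjugate to the image of `rbar`, some `GL₂(A)`-conjugate
of `r0` is an honest lift. -/
theorem exists_conj_isLiftRt (rt : GQ → M2 𝒪) (rbar : GQ →* M2 (ResidueField 𝒪))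
    (hrt : ∀ g, (rt g).map (residue 𝒪) = rbar g) {r0 : GQ →* M2 A}
    (h : ∃ g : (M2 (ResidueField A))ˣ, ∀ σ, (g : M2 (ResidueField A)) * mapMat (residue A) r0 σ =
      mapMat (ResidueField.map (algebraMap 𝒪 A)) rbar σ * g) :
    ∃ γ : (M2 A)ˣ, IsLiftRt rt (conjMat γ r0) :=
  exists_conj_isLift (normDataOfRt rt) rbar (fun g i j => congrFun (congrFun (hrt g) i) j) h

end LiftRt

section NormalForm

variable {𝒪 : Type} [CommRing 𝒪] [IsLocalRing 𝒪] {rt : GQ → M2 𝒪}
  {A : Type} [CommRing A] [IsLocalRing A] [Algebra 𝒪 A] [IsLocalHom (algebraMap 𝒪 A)]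

/-- EXISTENCE of the normal form: a representation over a complete local `𝒪`-algebra `A` (residue
field `k`) whose residual representation is `ρbar` is equivalent to `ofMat r` for a continuous,
normalised lift `r` of `rbar`. -/
theorem exists_normalForm (S : SlicePkg 𝒪 rt)
    {ρbar : ResidualGaloisRep (ResidueField 𝒪)}
    {rbar : GQ →* M2 (ResidueField 𝒪)} {hfl : GaloisFactorsThroughFiniteLevel rbar}
    (hρbar : ρbar.IsEquiv (ofMatRes rbar hfl))
    (hrt : ∀ g, (rt g).map (residue 𝒪) = rbar g)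
    [IsAdicComplete (maximalIdeal A) A]
    (hsurj : Function.Surjective (residue A ∘ algebraMap 𝒪 A))
    (ρA : GaloisRepAdic A)
    (hres : ρA.residual.IsEquiv (ρbar.baseChangeAlong (ResidueField.map (algebraMap 𝒪 A)))) :
    ∃ (r : GQ →* M2 A) (hr : MatCont r), IsLiftRt rt r ∧ IsNorm S.E r ∧ ρA.IsEquiv (ofMat r hr) := by
  obtain ⟨r0, hr0, ⟨e0⟩⟩ := exists_isEquiv_ofMat ρA
  have hg := (residual_isEquiv_baseChangeAlong_iff ⟨e0⟩ hρbar
    (ResidueField.map (algebraMap 𝒪 A))).1 hres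
  obtain ⟨γ0, hγ0⟩ := exists_conj_isLiftRt rt rbar hrt hg
  obtain ⟨γ, hγ1, hγn⟩ := S.exists_conj hsurj (conjMat γ0 r0) hγ0
  refine ⟨conjMat γ (conjMat γ0 r0), matCont_conjMat γ (matCont_conjMat γ0 hr0),
    isLiftRt_conjMat rt γ hγ1 hγ0, hγn, ?_⟩
  exact ⟨(e0.trans (equivConjMat γ0 hr0)).trans (equivConjMat γ (matCont_conjMat γ0 hr0))⟩

/-- UNIQUENESS of the normal form: equivalent normalised lifts are equal. -/
theorem normalForm_unique (S : SlicePkg 𝒪 rt) [IsHausdorff (maximalIdeal A) A]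
    (hsurj : Function.Surjective (residue A ∘ algebraMap 𝒪 A))
    {r r' : GQ →* M2 A} (hr : MatCont r) (hr' : MatCont r')
    (hl : IsLiftRt rt r) (hl' : IsLiftRt rt r') (hn : IsNorm S.E r) (hn' : IsNorm S.E r')
    (he : (ofMat r hr).IsEquiv (ofMat r' hr')) : r = r' := by
  obtain ⟨γ, hγ⟩ := (isEquiv_ofMat_iff hr hr').1 he
  exact S.unique hsurj r r' hl hl' hn hn' γ hγ

variable {𝒟 : ∀ ⦃A : Type⦄ [CommRing A] [IsLocalRing A] [Algebra 𝒪 A], GaloisRepAdic A → Prop}

/-- Normal form with type: over a complete NOETHERIAN local `𝒪`-algebra, a deformation of type `𝒟`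
of `ρbar` is equivalent to `ofMat r` for a good lift `r`. -/
theorem exists_goodLift_cnl (h𝒟 : IsDeformationCondition 𝒪 𝒟) (S : SlicePkg 𝒪 rt)
    {ρbar : ResidualGaloisRep (ResidueField 𝒪)}
    {rbar : GQ →* M2 (ResidueField 𝒪)} {hfl : GaloisFactorsThroughFiniteLevel rbar}
    (hρbar : ρbar.IsEquiv (ofMatRes rbar hfl))
    (hrt : ∀ g, (rt g).map (residue 𝒪) = rbar g)
    [IsNoetherianRing A] [IsAdicComplete (maximalIdeal A) A]
    (hsurj : Function.Surjective (residue A ∘ algebraMap 𝒪 A))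
    (ρA : GaloisRepAdic A) (hD : 𝒟 ρA)
    (hres : ρA.residual.IsEquiv (ρbar.baseChangeAlong (ResidueField.map (algebraMap 𝒪 A)))) :
    ∃ (r : GQ →* M2 A), IsGoodLift rt S.E 𝒟 r ∧ ∀ hr : MatCont r, ρA.IsEquiv (ofMat r hr) := by
  obtain ⟨r, hr, hl, hn, he⟩ := exists_normalForm S hρbar hrt hsurj ρA hres
  exact ⟨r, ⟨hl, hn, hr, type_of_isEquiv_cnl h𝒟 inferInstance hsurj he hD⟩, fun _ => he⟩

/-- Normal form with type over an Artinian test algebra. -/
theorem exists_goodLift_artinian (h𝒟 : IsDeformationCondition 𝒪 𝒟) (S : SlicePkg 𝒪 rt)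
    {ρbar : ResidualGaloisRep (ResidueField 𝒪)}
    {rbar : GQ →* M2 (ResidueField 𝒪)} {hfl : GaloisFactorsThroughFiniteLevel rbar}
    (hρbar : ρbar.IsEquiv (ofMatRes rbar hfl))
    (hrt : ∀ g, (rt g).map (residue 𝒪) = rbar g)
    (hA : IsArtinianTestAlgebra 𝒪 A) [IsAdicComplete (maximalIdeal A) A]
    (ρA : GaloisRepAdic A) (hD : 𝒟 ρA)
    (hres : ρA.residual.IsEquiv (ρbar.baseChangeAlong (ResidueField.map (algebraMap 𝒪 A)))) :
    ∃ (r : GQ →* M2 A), IsGoodLift rt S.E 𝒟 r ∧ ∀ hr : MatCont r, ρA.IsEquiv (ofMat r hr) := by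
  obtain ⟨r, hr, hl, hn, he⟩ := exists_normalForm S hρbar hrt hA.residue_surjective ρA hres
  exact ⟨r, ⟨hl, hn, hr, h𝒟.of_isEquiv hA he hD⟩, fun _ => he⟩

end NormalForm

end Fermat.Agent.S53
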