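/-
S53 (universal deformation ring): interface structures for the construction of the universal ring
(`ProData`, produced by part R1, consumed by R2/R3) and for the universal normalised lift
(`UnivData`, produced by R2+R3, consumed by the final assembly).
Owner: helper53.
-/
import Fermat.Agent.S53.Core

set_option autoImplicit false

namespace Fermat.Agent.S53

open IsLocalRing

variable {𝒪 : Type} [CommRing 𝒪] [IsLocalRing 𝒪]

/-- Output of part R1: a complete noetherian local `𝒪`-algebra `R` which is a quotient `q` of a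
power series ring, with a representation `ru` and compatible surjections `π a` onto a cofinal
family of good quotients of `RpreE E`, jointly injective and cofinal with the `𝔪_R`-adic
topology; the variables of the power series ring go to the entries
`ru (x i) - rt (x i)`. -/
structure ProData (rt : GQ → M2 𝒪) (E : Set (PolyRing 𝒪))
    (𝒟 : ∀ ⦃A : Type⦄ [CommRing A] [IsLocalRing A] [Algebra 𝒪 A], GaloisRepAdic A → Prop) :
    Type 1 where
  R : Type
  [instCommRing : CommRing R]
  [instIsLocalRing : IsLocalRing R]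
  [instIsNoetherianRing : IsNoetherianRing R]
  [instIsAdicComplete : IsAdicComplete (maximalIdeal R) R]
  [instAlgebra : Algebra 𝒪 R]
  [instIsLocalHom : IsLocalHom (algebraMap 𝒪 R)]
  residue_surjective : Function.Surjective (residue R ∘ algebraMap 𝒪 R)
  ru : GQ →* M2 R
  ι : Type
  ι_nonempty : Nonempty ι
  𝔞 : ι → Ideal (RpreE E)
  good : ∀ a, IsGoodIdeal rt E 𝒟 (𝔞 a)
  cofinalGood : ∀ 𝔟, IsGoodIdeal rt E 𝒟 𝔟 → ∃ a, 𝔞 a ≤ 𝔟
  π : ∀ a, R →ₐ[𝒪] (RpreE E ⧸ 𝔞 a)
  π_surj : ∀ a, Function.Surjective (π a)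
  π_ru : ∀ a g i j, π a (ru g i j) = Ideal.Quotient.mk (𝔞 a) (Presentation.gen 𝒪 E g i j)
  π_inj : ∀ z : R, (∀ a, π a z = 0) → z = 0
  cofinal : ∀ n : ℕ, ∃ a, RingHom.ker (π a : R →+* (RpreE E ⧸ 𝔞 a)) ≤ maximalIdeal R ^ n
  d : ℕ
  x : Fin d → GQ × Fin 2 × Fin 2
  q : MvPowerSeries (Fin d) 𝒪 →ₐ[𝒪] R
  q_surj : Function.Surjective q
  q_X : ∀ i, q (MvPowerSeries.X i) =
    ru (x i).1 (x i).2.1 (x i).2.2 - algebraMap 𝒪 R (rt (x i).1 (x i).2.1 (x i).2.2)

attribute [instance] ProData.instCommRing ProData.instIsLocalRing ProData.instIsNoetherianRing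
  ProData.instIsAdicComplete ProData.instAlgebra ProData.instIsLocalHom

/-- The universal normalised lift: output of parts R2+R3, input of the final assembly. -/
structure UnivData (rt : GQ → M2 𝒪) (E : Set (PolyRing 𝒪))
    (𝒟 : ∀ ⦃A : Type⦄ [CommRing A] [IsLocalRing A] [Algebra 𝒪 A], GaloisRepAdic A → Prop) :
    Type 1 where
  R : Type
  [instCommRing : CommRing R]
  [instIsLocalRing : IsLocalRing R]
  [instIsNoetherianRing : IsNoetherianRing R]
  [instIsAdicComplete : IsAdicComplete (maximalIdeal R) R]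
  [instAlgebra : Algebra 𝒪 R]
  [instIsLocalHom : IsLocalHom (algebraMap 𝒪 R)]
  residue_surjective : Function.Surjective (residue R ∘ algebraMap 𝒪 R)
  ru : GQ →* M2 R
  good : IsGoodLift rt E 𝒟 ru
  exists_hom : ∀ (A : Type) [CommRing A] [IsLocalRing A] [IsNoetherianRing A]
    [IsAdicComplete (maximalIdeal A) A] [Algebra 𝒪 A] [IsLocalHom (algebraMap 𝒪 A)],
    Function.Surjective (residue A ∘ algebraMap 𝒪 A) →
    ∀ r : GQ →* M2 A, IsGoodLift rt E 𝒟 r →
      ∃ φ : R →ₐ[𝒪] A, IsLocalHom (φ : R →+* A) ∧ mapMat (φ : R →+* A) ru = r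
  hom_ext : ∀ (A : Type) [CommRing A] [IsLocalRing A] [IsNoetherianRing A]
    [IsAdicComplete (maximalIdeal A) A] [Algebra 𝒪 A] [IsLocalHom (algebraMap 𝒪 A)]
    (φ φ' : R →ₐ[𝒪] A), IsLocalHom (φ : R →+* A) → IsLocalHom (φ' : R →+* A) →
      mapMat (φ : R →+* A) ru = mapMat (φ' : R →+* A) ru → φ = φ'

attribute [instance] UnivData.instCommRing UnivData.instIsLocalRing UnivData.instIsNoetherianRing
  UnivData.instIsAdicComplete UnivData.instAlgebra UnivData.instIsLocalHom

end Fermat.Agent.S53
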