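/-
S53: final assembly (item D) from the universal normalised lift `UnivData`, using the normal form
lemmas of `NormalForm.lean`.  Backup of `Assembly.lean` (item 39).  Owner: helper35.
-/
import Fermat.Agent.S53.UnivDefs
import Fermat.Agent.S53.NormalForm

set_option autoImplicit false

namespace Fermat.Agent.S53

open Matrix IsLocalRing GaloisRep

namespace AssemblyNF

section General

variable {𝒪 : Type} [CommRing 𝒪] [IsLocalRing 𝒪] {rt : GQ → M2 𝒪}
  {𝒟 : ∀ ⦃A : Type⦄ [CommRing A] [IsLocalRing A] [Algebra 𝒪 A], GaloisRepAdic A → Prop}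

omit [IsLocalRing 𝒪] in
/-- `IsNorm` is preserved by pushing forward along an `𝒪`-algebra hom. -/
theorem isNorm_mapMat (E : Set (PolyRing 𝒪)) {A B : Type} [CommRing A] [CommRing B]
    [Algebra 𝒪 A] [Algebra 𝒪 B] (φ : A →ₐ[𝒪] B) {r : GQ →* M2 A} (h : IsNorm E r) :
    IsNorm E (mapMat (φ : A →+* B) r) :=
  Presentation.IsNormalised.map φ h

/-- The universal property of `UnivData` in terms of deformations: the classifying map of a
deformation of type `𝒟` exists and is unique. -/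
theorem existsUnique_hom (h𝒟 : IsDeformationCondition 𝒪 𝒟) (P : SlicePkg 𝒪 rt)
    (U : UnivData rt P.E 𝒟)
    {ρbar : ResidualGaloisRep (ResidueField 𝒪)}
    {rbar : GQ →* M2 (ResidueField 𝒪)} {hfl : GaloisFactorsThroughFiniteLevel rbar}
    (he : ρbar.IsEquiv (ofMatRes rbar hfl))
    (hrt : ∀ g, (rt g).map (residue 𝒪) = rbar g)
    (A : Type) [CommRing A] [IsLocalRing A] [IsNoetherianRing A]
    [IsAdicComplete (maximalIdeal A) A] [Algebra 𝒪 A] [IsLocalHom (algebraMap 𝒪 A)]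
    (hA : Function.Surjective (residue A ∘ algebraMap 𝒪 A))
    (ρA : GaloisRepAdic A) (hD : 𝒟 ρA)
    (hres : ρA.residual.IsEquiv (ρbar.baseChangeAlong (ResidueField.map (algebraMap 𝒪 A)))) :
    ∃! φ : U.R →ₐ[𝒪] A, ∃ hφ : IsLocalHom (φ : U.R →+* A),
      ((ofMat U.ru U.good.cont).baseChangeAlong (φ : U.R →+* A) hφ).IsEquiv ρA := by
  obtain ⟨r, hgood, hequiv⟩ := exists_goodLift_cnl h𝒟 P he hrt hA ρA hD hres
  have hρAr : ρA.IsEquiv (ofMat r hgood.cont) := hequiv hgood.cont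
  obtain ⟨φ, hφ, hφr⟩ := U.exists_hom A hA r hgood
  refine ⟨φ, ⟨hφ, ?_⟩, ?_⟩
  · obtain ⟨e1⟩ := isEquiv_baseChangeAlong_ofMat (φ : U.R →+* A) hφ U.good.cont
    obtain ⟨e2⟩ := hρAr
    have e3 : (ofMat (mapMat (φ : U.R →+* A) U.ru)
        (matCont_mapMat (φ : U.R →+* A) hφ U.good.cont)).Equiv (ofMat r hgood.cont) := by
      have : ∀ (s : GQ →* M2 A) (hs : MatCont s), s = r → (ofMat s hs).Equiv (ofMat r hgood.cont) := by
        intro s hs hsr
        subst hsr
        exact GaloisRepAdic.Equiv.refl _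
      exact this _ _ hφr
    exact ⟨(e1.trans e3).trans e2.symm⟩
  · rintro φ' ⟨hφ', h'⟩
    have hc' : MatCont (mapMat (φ' : U.R →+* A) U.ru) :=
      matCont_mapMat (φ' : U.R →+* A) hφ' U.good.cont
    obtain ⟨e1⟩ := isEquiv_baseChangeAlong_ofMat (φ' : U.R →+* A) hφ' U.good.cont
    obtain ⟨e2⟩ := h'
    obtain ⟨e3⟩ := hρAr
    have hee : (ofMat (mapMat (φ' : U.R →+* A) U.ru) hc').IsEquiv (ofMat r hgood.cont) :=
      ⟨(e1.symm.trans e2).trans e3⟩
    have hl' : IsLiftRt rt (mapMat (φ' : U.R →+* A) U.ru) :=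
      isLiftRt_mapMat rt φ' hφ' U.good.lift
    have hn' : IsNorm P.E (mapMat (φ' : U.R →+* A) U.ru) := isNorm_mapMat P.E φ' U.good.norm
    have heq : mapMat (φ' : U.R →+* A) U.ru = r :=
      normalForm_unique P hA hc' hgood.cont hl' hgood.lift hn' hgood.norm hee
    exact U.hom_ext A φ' φ hφ' hφ (heq.trans hφr.symm)

end General

section DVR

variable {𝒪 : Type} [CommRing 𝒪] [IsDomain 𝒪] [IsDiscreteValuationRing 𝒪]
  [IsAdicComplete (IsLocalRing.maximalIdeal 𝒪) 𝒪] (rt : GQ → M2 𝒪)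
  (𝒟 : ∀ ⦃A : Type⦄ [CommRing A] [IsLocalRing A] [Algebra 𝒪 A], GaloisRepAdic A → Prop)

/-- D. final assembly: a slice package and a universal normalised lift give the universal
deformation ring. -/
theorem nonempty_deformationRingData_of_univData
    (ρbar : ResidualGaloisRep (IsLocalRing.ResidueField 𝒪)) (habs : ρbar.IsAbsolutelyIrreducible)
    (h𝒟 : GaloisRep.IsDeformationCondition 𝒪 𝒟)
    (rbar : GQ →* M2 (IsLocalRing.ResidueField 𝒪)) (hfl : GaloisFactorsThroughFiniteLevel rbar)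
    (he : ρbar.IsEquiv (ofMatRes rbar hfl)) (hrt : ∀ g, (rt g).map (IsLocalRing.residue 𝒪) = rbar g)
    (P : SlicePkg 𝒪 rt) (U : UnivData rt P.E 𝒟) :
    Nonempty (GaloisRep.DeformationRingData 𝒪 ρbar 𝒟) :=
  ⟨{ R := U.R
     residue_surjective := U.residue_surjective
     absIrr := habs
     ρ := ofMat U.ru U.good.cont
     isOfType := U.good.type
     residual_isEquiv := residual_isEquiv_of_isLiftRt rt he hrt U.good.cont U.good.lift
     universal := fun A _ _ _ _ _ _ hA ρA hD hres =>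
       existsUnique_hom h𝒟 P U he hrt A hA ρA hD hres }⟩

end DVR

end AssemblyNF

end Fermat.Agent.S53
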