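import Mathlib

set_option autoImplicit false

/-!
# Cotangent vectors are separated by `k[ε]`-points (commutative algebra for the tangent bound)

Interface-independent part of "Part G" of the S53 architecture.
-/

namespace Fermat.Agent.S53

open IsLocalRing

section Defs

variable (𝒪 : Type) [CommRing 𝒪] [IsLocalRing 𝒪]

/-- The `𝒪`-algebra structure on `k[ε]` (with `k` the residue field of `𝒪`) which is used in
`GaloisRep.TangentFinite` (syntactically the same expression). -/
noncomputable abbrev dualNumberAlgebra : Algebra 𝒪 (DualNumber (ResidueField 𝒪)) :=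
  ((algebraMap (ResidueField 𝒪) (DualNumber (ResidueField 𝒪))).comp
      (algebraMap 𝒪 (ResidueField 𝒪))).toAlgebra

end Defs

section Residue

variable {𝒪 : Type} [CommRing 𝒪] [IsLocalRing 𝒪]
variable {B : Type} [CommRing B] [IsLocalRing B] [Algebra 𝒪 B] [IsLocalHom (algebraMap 𝒪 B)]

theorem residueFieldMap_bijective
    (hsurj : Function.Surjective (residue B ∘ algebraMap 𝒪 B)) :
    Function.Bijective (ResidueField.map (algebraMap 𝒪 B)) := by
  refine ⟨(ResidueField.map (algebraMap 𝒪 B)).injective, fun y => ?_⟩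
  obtain ⟨o, ho⟩ := hsurj y
  exact ⟨residue 𝒪 o, by rw [ResidueField.map_residue]; exact ho⟩

/-- The residue map of `B` with values in the residue field of `𝒪`. -/
noncomputable def resTo (hsurj : Function.Surjective (residue B ∘ algebraMap 𝒪 B)) :
    B →+* ResidueField 𝒪 :=
  ((RingEquiv.ofBijective _ (residueFieldMap_bijective hsurj)).symm :
    ResidueField B →+* ResidueField 𝒪).comp (residue B)

theorem resTo_algebraMap (hsurj : Function.Surjective (residue B ∘ algebraMap 𝒪 B)) (o : 𝒪) :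
    resTo hsurj (algebraMap 𝒪 B o) = residue 𝒪 o := by
  unfold resTo
  rw [RingHom.comp_apply, RingHom.coe_coe, RingEquiv.symm_apply_eq, RingEquiv.ofBijective_apply,
    ResidueField.map_residue]

theorem resTo_eq_zero_iff (hsurj : Function.Surjective (residue B ∘ algebraMap 𝒪 B)) (b : B) :
    resTo hsurj b = 0 ↔ b ∈ maximalIdeal B := by
  unfold resTo
  rw [RingHom.comp_apply, RingHom.coe_coe, map_eq_zero_iff _ (RingEquiv.injective _),
    residue_eq_zero_iff]

theorem exists_sub_algebraMap_mem (hsurj : Function.Surjective (residue B ∘ algebraMap 𝒪 B))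
    (b : B) : ∃ o : 𝒪, b - algebraMap 𝒪 B o ∈ maximalIdeal B := by
  obtain ⟨o, ho⟩ := hsurj (residue B b)
  refine ⟨o, ?_⟩
  rw [← residue_eq_zero_iff, map_sub, sub_eq_zero]
  exact ho.symm

theorem resTo_eq_of_sub_mem (hsurj : Function.Surjective (residue B ∘ algebraMap 𝒪 B))
    {b : B} {o : 𝒪} (h : b - algebraMap 𝒪 B o ∈ maximalIdeal B) :
    resTo hsurj b = residue 𝒪 o := by
  rw [← resTo_algebraMap hsurj, ← sub_eq_zero, ← map_sub, resTo_eq_zero_iff]
  exact h

/-- The trivial `k[ε]`-point of `B`. -/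
noncomputable def trivialPoint (hsurj : Function.Surjective (residue B ∘ algebraMap 𝒪 B)) :
    letI := dualNumberAlgebra 𝒪
    B →ₐ[𝒪] DualNumber (ResidueField 𝒪) :=
  letI := dualNumberAlgebra 𝒪
  { ((algebraMap (ResidueField 𝒪) (DualNumber (ResidueField 𝒪))).comp (resTo hsurj)) with
    commutes' := fun o => by
      show (algebraMap (ResidueField 𝒪) (DualNumber (ResidueField 𝒪))) (resTo hsurj _) = _
      rw [resTo_algebraMap]
      rfl }

theorem trivialPoint_apply (hsurj : Function.Surjective (residue B ∘ algebraMap 𝒪 B)) (b : B) :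
    letI := dualNumberAlgebra 𝒪
    trivialPoint hsurj b = algebraMap (ResidueField 𝒪) (DualNumber (ResidueField 𝒪))
      (resTo hsurj b) := rfl

end Residue

section Separation

variable {𝒪 : Type} [CommRing 𝒪] [IsLocalRing 𝒪]
variable {B : Type} [CommRing B] [IsLocalRing B] [Algebra 𝒪 B] [IsLocalHom (algebraMap 𝒪 B)]

variable (𝒪 B) in
/-- The ideal `𝔪_𝒪 B + 𝔪_B ^ 2` of `B`; the relative cotangent space is `𝔪_B / cotIdeal`. -/
def cotIdeal : Ideal B :=
  (maximalIdeal 𝒪).map (algebraMap 𝒪 B) ⊔ maximalIdeal B ^ 2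

theorem cotIdeal_le_maximalIdeal : cotIdeal 𝒪 B ≤ maximalIdeal B := by
  unfold cotIdeal
  refine sup_le ?_ ?_
  · rw [Ideal.map_le_iff_le_comap]
    intro a ha
    exact Ideal.mem_comap.mpr (map_nonunit (algebraMap 𝒪 B) a ha)
  · exact Ideal.pow_le_self two_ne_zero

/-- the ring hom `k → B ⧸ cotIdeal` -/
noncomputable def kToQuot : ResidueField 𝒪 →+* B ⧸ cotIdeal 𝒪 B :=
  Ideal.Quotient.lift (maximalIdeal 𝒪) ((Ideal.Quotient.mk (cotIdeal 𝒪 B)).comp (algebraMap 𝒪 B))
    (fun a ha => by
      rw [RingHom.comp_apply, Ideal.Quotient.eq_zero_iff_mem]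
      exact Ideal.mem_sup_left (Ideal.mem_map_of_mem _ ha))

theorem kToQuot_residue (o : 𝒪) :
    kToQuot (B := B) (residue 𝒪 o) = Ideal.Quotient.mk (cotIdeal 𝒪 B) (algebraMap 𝒪 B o) := by
  unfold kToQuot
  exact Ideal.Quotient.lift_mk _ _ _

/-- Separation: a cotangent vector which is nonzero in the relative cotangent space
`𝔪_B / (𝔪_𝒪 B + 𝔪_B ^ 2)` is detected by some `k[ε]`-point. -/
theorem exists_algHom_dualNumber_ne_zero
    (hsurj : Function.Surjective (residue B ∘ algebraMap 𝒪 B))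
    {x : B} (hx : x ∈ maximalIdeal B) (hx' : x ∉ cotIdeal 𝒪 B) :
    letI := dualNumberAlgebra 𝒪
    ∃ φ : B →ₐ[𝒪] DualNumber (ResidueField 𝒪), φ x ≠ 0 := by
  let _ := dualNumberAlgebra 𝒪
  classical
  set k := ResidueField 𝒪 with hk
  set J := cotIdeal 𝒪 B with hJ
  let _ : Module k (B ⧸ J) := Module.compHom (B ⧸ J) (kToQuot (𝒪 := 𝒪) (B := B))
  have hsmul : ∀ (a : k) (v : B ⧸ J), a • v = kToQuot a * v := fun a v => rfl
  set mk := Ideal.Quotient.mk J with hmk
  set p : Submodule k (B ⧸ J) := Submodule.span k {(1 : B ⧸ J)} with hp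
  have hxp : mk x ∉ p := by
    intro hmem
    rw [hp, Submodule.mem_span_singleton] at hmem
    obtain ⟨a, ha⟩ := hmem
    obtain ⟨o, rfl⟩ := residue_surjective a
    rw [hsmul, mul_one, kToQuot_residue, ← hmk, ← sub_eq_zero, ← map_sub, hmk,
      Ideal.Quotient.eq_zero_iff_mem] at ha
    have h1 : algebraMap 𝒪 B o - x ∈ maximalIdeal B := cotIdeal_le_maximalIdeal ha
    have h2 : algebraMap 𝒪 B o ∈ maximalIdeal B := by
      have := Ideal.add_mem _ h1 hx
      simpa using this
    have h3 : o ∈ maximalIdeal 𝒪 := by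
      by_contra hcon
      have hu : IsUnit o := by
        rwa [mem_maximalIdeal, mem_nonunits_iff, not_not] at hcon
      exact (mem_nonunits_iff.mp ((mem_maximalIdeal _).mp h2)) (hu.map (algebraMap 𝒪 B))
    have h4 : algebraMap 𝒪 B o ∈ J := Ideal.mem_sup_left (Ideal.mem_map_of_mem _ h3)
    apply hx'
    have := Ideal.sub_mem _ h4 ha
    simpa using this
  obtain ⟨f, hfx, hfp⟩ := Submodule.exists_dual_map_eq_bot_of_notMem hxp inferInstance
  have hf1 : f 1 = 0 := by
    have : f 1 ∈ p.map f := Submodule.mem_map_of_mem (Submodule.mem_span_singleton_self _)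
    rwa [hfp, Submodule.mem_bot] at this
  have hfalg : ∀ (o : 𝒪) (y : B), f (mk (algebraMap 𝒪 B o * y)) = residue 𝒪 o * f (mk y) := by
    intro o y
    rw [map_mul, ← kToQuot_residue, ← hsmul, map_smul, smul_eq_mul]
  have hfalg1 : ∀ o : 𝒪, f (mk (algebraMap 𝒪 B o)) = 0 := by
    intro o
    have := hfalg o 1
    rwa [mul_one, map_one, hf1, mul_zero] at this
  have hfsq : ∀ m m' : B, m ∈ maximalIdeal B → m' ∈ maximalIdeal B → f (mk (m * m')) = 0 := by
    intro m m' hm hm'
    have : mk (m * m') = 0 := by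
      rw [hmk, Ideal.Quotient.eq_zero_iff_mem]
      exact Ideal.mem_sup_right (by rw [pow_two]; exact Ideal.mul_mem_mul hm hm')
    rw [this, map_zero]
  have hkey : ∀ b b' : B, f (mk (b * b')) =
      resTo hsurj b * f (mk b') + f (mk b) * resTo hsurj b' := by
    intro b b'
    obtain ⟨o, ho⟩ := exists_sub_algebraMap_mem hsurj b
    obtain ⟨o', ho'⟩ := exists_sub_algebraMap_mem hsurj b'
    rw [resTo_eq_of_sub_mem hsurj ho, resTo_eq_of_sub_mem hsurj ho']
    have hb : b = algebraMap 𝒪 B o + (b - algebraMap 𝒪 B o) := by ring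
    have hb' : b' = algebraMap 𝒪 B o' + (b' - algebraMap 𝒪 B o') := by ring
    set m := b - algebraMap 𝒪 B o with hm
    set m' := b' - algebraMap 𝒪 B o' with hm'
    have e1 : b * b' = algebraMap 𝒪 B o * b' + algebraMap 𝒪 B o' * m + m * m' := by
      rw [hm, hm']; ring
    have e2 : f (mk m) = f (mk b) := by
      rw [hm, map_sub, map_sub, hfalg1, sub_zero]
    rw [e1, map_add, map_add, map_add, map_add, hfalg, hfalg, hfsq m m' ho ho', e2]
    ring
  let φ : B →ₐ[𝒪] DualNumber k :=
    { toFun := fun b => TrivSqZeroExt.inl (resTo hsurj b) + TrivSqZeroExt.inr (f (mk b))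
      map_one' := by
        rw [map_one, map_one, hf1, TrivSqZeroExt.inr_zero, add_zero, TrivSqZeroExt.inl_one]
      map_mul' := fun b b' => by
        apply TrivSqZeroExt.ext
        · simp
        · simp only [TrivSqZeroExt.snd_add, TrivSqZeroExt.snd_inl, TrivSqZeroExt.snd_inr, zero_add,
            TrivSqZeroExt.snd_mul, TrivSqZeroExt.fst_add, TrivSqZeroExt.fst_inl,
            TrivSqZeroExt.fst_inr, add_zero, smul_eq_mul, MulOpposite.smul_eq_mul_unop,
            MulOpposite.unop_op]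
          exact hkey b b'
      map_zero' := by simp
      map_add' := fun b b' => by
        rw [map_add, map_add, map_add, TrivSqZeroExt.inl_add, TrivSqZeroExt.inr_add]
        abel
      commutes' := fun o => by
        show TrivSqZeroExt.inl (resTo hsurj (algebraMap 𝒪 B o)) +
          TrivSqZeroExt.inr (f (mk (algebraMap 𝒪 B o))) = _
        rw [hfalg1, TrivSqZeroExt.inr_zero, add_zero, resTo_algebraMap]
        rfl }
  refine ⟨φ, fun h0 => hfx ?_⟩
  have := congrArg TrivSqZeroExt.snd h0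
  simpa [φ] using this

end Separation

section Generation

variable {𝒪 : Type} [CommRing 𝒪] [IsLocalRing 𝒪]
variable {B : Type} [CommRing B] [IsLocalRing B] [Algebra 𝒪 B] [IsLocalHom (algebraMap 𝒪 B)]

theorem algebraMap_mem_maximalIdeal {a : 𝒪} (ha : a ∈ maximalIdeal 𝒪) :
    algebraMap 𝒪 B a ∈ maximalIdeal B :=
  map_nonunit (algebraMap 𝒪 B) a ha

/-- Core generation lemma: if `𝔪_B` is nilpotent and `𝔪_B` is generated, modulo
`𝔪_𝒪 B + 𝔪_B ^ 2`, by elements of a subalgebra `C`, then `C = ⊤`. -/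
theorem subalgebra_eq_top_of_maximalIdeal_le
    (hsurj : Function.Surjective (residue B ∘ algebraMap 𝒪 B))
    (hnil : ∃ n : ℕ, maximalIdeal B ^ n = ⊥) (C : Subalgebra 𝒪 B)
    (hK : maximalIdeal B ≤
      Ideal.span ((C : Set B) ∩ (maximalIdeal B : Set B)) ⊔ cotIdeal 𝒪 B) :
    C = ⊤ := by
  set m := maximalIdeal B with hm
  set K : Ideal B := Ideal.span ((C : Set B) ∩ (m : Set B)) with hKdef
  have hKm : K ≤ m := by
    rw [hKdef, Ideal.span_le]
    exact Set.inter_subset_right
  -- m_𝒪 B ≤ K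
  have hOK : (maximalIdeal 𝒪).map (algebraMap 𝒪 B) ≤ K := by
    rw [Ideal.map_le_iff_le_comap]
    intro a ha
    rw [Ideal.mem_comap]
    exact Ideal.subset_span ⟨C.algebraMap_mem a, algebraMap_mem_maximalIdeal ha⟩
  have h2 : m ≤ K ⊔ m ^ 2 := by
    refine hK.trans ?_
    unfold cotIdeal
    refine sup_le le_sup_left (sup_le (hOK.trans le_sup_left) le_sup_right)
  -- Nakayama for nilpotent ideals
  have hj : ∀ j : ℕ, m ≤ K ⊔ m ^ (j + 2) := by
    intro j
    induction j with
    | zero => exact h2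
    | succ j ih =>
      refine h2.trans (sup_le le_sup_left ?_)
      calc m ^ 2 = m * m := pow_two m
        _ ≤ m * (K ⊔ m ^ (j + 2)) := Ideal.mul_mono_right ih
        _ = m * K ⊔ m * m ^ (j + 2) := Ideal.mul_sup _ _ _
        _ ≤ K ⊔ m ^ (j + 1 + 2) := by
          refine sup_le_sup Ideal.mul_le_right ?_
          rw [← pow_succ']
  obtain ⟨n, hn⟩ := hnil
  have hmK : m ≤ K := by
    have := hj n
    have hle : m ^ (n + 2) ≤ m ^ n := Ideal.pow_le_pow_right (by omega)
    rw [hn] at hle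
    rw [le_bot_iff.mp hle, sup_bot_eq] at this
    exact this
  -- successive approximation
  have hC : ∀ j : ℕ, ∀ b : B, ∃ c ∈ C, b - c ∈ m ^ j := by
    intro j
    induction j with
    | zero =>
      intro b
      exact ⟨0, C.zero_mem, by rw [pow_zero, Ideal.one_eq_top]; trivial⟩
    | succ j ih =>
      intro b
      obtain ⟨o, ho⟩ := exists_sub_algebraMap_mem hsurj b
      have hbK : b - algebraMap 𝒪 B o ∈ K := hmK ho
      rw [hKdef, Ideal.span, Submodule.mem_span_set'] at hbK
      obtain ⟨N, f, g, hfg⟩ := hbK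
      choose c hcC hc using fun i => ih (f i)
      refine ⟨algebraMap 𝒪 B o + ∑ i, c i * (g i : B), ?_, ?_⟩
      · refine C.add_mem (C.algebraMap_mem o) (C.sum_mem fun i _ => C.mul_mem (hcC i) ?_)
        exact (g i).2.1
      · have : b - (algebraMap 𝒪 B o + ∑ i, c i * (g i : B)) =
            ∑ i, (f i - c i) * (g i : B) := by
          rw [← sub_sub, ← hfg, ← Finset.sum_sub_distrib]
          refine Finset.sum_congr rfl fun i _ => ?_
          rw [smul_eq_mul]; ring
        rw [this]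
        refine Ideal.sum_mem _ fun i _ => ?_
        rw [pow_succ]
        exact Ideal.mul_mem_mul (hc i) (g i).2.2
  rw [eq_top_iff]
  intro b _
  obtain ⟨c, hcC, hc⟩ := hC n b
  rw [hn, Ideal.mem_bot, sub_eq_zero] at hc
  rw [hc]; exact hcC

/-- (G2) If `𝔪_B` is nilpotent, `C → B ⧸ I` is onto and every `k[ε]`-point of `B` kills `I`,
then `C = ⊤`. -/
theorem subalgebra_eq_top_of_points_kill
    (hsurj : Function.Surjective (residue B ∘ algebraMap 𝒪 B))
    (hnil : ∃ n : ℕ, maximalIdeal B ^ n = ⊥) (C : Subalgebra 𝒪 B) (I : Ideal B)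
    (hCI : ∀ b : B, ∃ c ∈ C, b - c ∈ I)
    (hkill : letI := dualNumberAlgebra 𝒪
      ∀ φ : B →ₐ[𝒪] DualNumber (ResidueField 𝒪), ∀ x ∈ I, φ x = 0) :
    C = ⊤ := by
  have hIm : I ≤ maximalIdeal B := by
    intro x hxI
    have h := hkill (trivialPoint hsurj) x hxI
    rw [trivialPoint_apply] at h
    rw [← resTo_eq_zero_iff hsurj]
    have := congrArg TrivSqZeroExt.fst h
    simpa [TrivSqZeroExt.algebraMap_eq_inl] using this
  have hIJ : I ≤ cotIdeal 𝒪 B := by
    intro x hxI
    by_contra hcon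
    obtain ⟨φ, hφ⟩ := exists_algHom_dualNumber_ne_zero hsurj (hIm hxI) hcon
    exact hφ (hkill φ x hxI)
  refine subalgebra_eq_top_of_maximalIdeal_le hsurj hnil C ?_
  intro b hb
  obtain ⟨c, hcC, hc⟩ := hCI b
  have hcm : c ∈ maximalIdeal B := by
    have := Ideal.sub_mem _ hb (hIm hc)
    simpa using this
  have : b = c + (b - c) := by ring
  rw [this]
  exact Ideal.add_mem _ (Ideal.mem_sup_left (Ideal.subset_span ⟨hcC, hcm⟩))
    (Ideal.mem_sup_right (hIJ hc))

/-- (G2') Generators of the maximal ideal of an Artinian local `𝒪`-algebra with residue field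
`k` generate it as an `𝒪`-algebra. -/
theorem adjoin_eq_top_of_span_eq_maximalIdeal
    (hsurj : Function.Surjective (residue B ∘ algebraMap 𝒪 B))
    (hnil : ∃ n : ℕ, maximalIdeal B ^ n = ⊥) (s : Set B)
    (hs : maximalIdeal B ≤ Ideal.span s ⊔ cotIdeal 𝒪 B) (hsm : s ⊆ maximalIdeal B) :
    Algebra.adjoin 𝒪 s = ⊤ := by
  refine subalgebra_eq_top_of_maximalIdeal_le hsurj hnil _ (hs.trans ?_)
  refine sup_le_sup_right (Ideal.span_mono fun x hx => ?_) _
  exact ⟨Algebra.subset_adjoin hx, hsm hx⟩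

/-- The maximal ideal of an Artinian local ring is nilpotent. -/
theorem exists_maximalIdeal_pow_eq_bot (A : Type) [CommRing A] [IsLocalRing A]
    [IsArtinianRing A] : ∃ n : ℕ, maximalIdeal A ^ n = ⊥ := by
  have h := IsArtinianRing.isNilpotent_jacobson_bot (R := A)
  rw [IsLocalRing.jacobson_eq_maximalIdeal ⊥ bot_ne_top] at h
  obtain ⟨n, hn⟩ := h
  exact ⟨n, hn⟩

end Generation

end Fermat.Agent.S53
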