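import Mathlib

set_option autoImplicit false

namespace Fermat.Agent.S53

open IsLocalRing

/-- L2'''. In a noetherian local ring with finite residue field, an ideal containing a power of
the maximal ideal has finite quotient. -/
theorem finite_quotient_of_pow_le (S : Type*) [CommRing S] [IsLocalRing S]
    [IsNoetherianRing S] [Finite (ResidueField S)] (I : Ideal S) (n : ℕ)
    (h : maximalIdeal S ^ n ≤ I) : Finite (S ⧸ I) :=
  IsLocalRing.finite_quotient_iff.mpr ⟨n, h⟩

/-- L2. In a noetherian local ring with finite residue field all `S/𝔪^n` are finite. -/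
theorem finite_quotient_maximalIdeal_pow (S : Type*) [CommRing S] [IsLocalRing S]
    [IsNoetherianRing S] [Finite (ResidueField S)] (n : ℕ) :
    Finite (S ⧸ maximalIdeal S ^ n) :=
  finite_quotient_of_pow_le S _ n le_rfl

/-- L2''. An artinian local ring with finite residue field is finite. -/
theorem finite_of_isArtinianRing_of_finite_residueField (A : Type*) [CommRing A] [IsLocalRing A]
    [IsArtinianRing A] [Finite (ResidueField A)] : Finite A := by
  obtain ⟨n, hn⟩ := IsArtinianRing.isNilpotent_jacobson_bot (R := A)
  rw [jacobson_eq_maximalIdeal _ bot_ne_top] at hn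
  have h1 : Finite (A ⧸ (⊥ : Ideal A)) :=
    finite_quotient_of_pow_le A ⊥ n (by rw [hn]; exact le_rfl)
  exact Finite.of_equiv _ (RingEquiv.quotientBot A).toEquiv

end Fermat.Agent.S53
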