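/-
S53, part G3: uniform finite generation of the good quotients from the tangent bound.
Owner: helper47.
-/
import Fermat.Agent.S53.Core
import Fermat.Agent.S53.Cotangent
import Fermat.Agent.S53.FiniteQuotient

set_option autoImplicit false

namespace Fermat.Agent.S53

open IsLocalRing

section FiniteGeneration

/-- If a finite algebra is generated by a family, finitely many members of the family suffice
(in the strong form: the evaluation map from a polynomial ring in finitely many variables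
is onto). -/
theorem exists_fin_aeval_surjective {R σ A : Type*} [CommRing R] [CommRing A] [Algebra R A]
    [Finite A] (Y : σ → A) (hY : Algebra.adjoin R (Set.range Y) = ⊤) :
    ∃ (d : ℕ) (x : Fin d → σ),
      Function.Surjective (MvPolynomial.aeval (R := R) (fun i => Y (x i))) := by
  classical
  have h : ∀ a : A, ∃ p : MvPolynomial σ R, MvPolynomial.aeval Y p = a := by
    intro a
    have : a ∈ (MvPolynomial.aeval Y : MvPolynomial σ R →ₐ[R] A).range := by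
      rw [← Algebra.adjoin_range_eq_range_aeval, hY]; trivial
    exact this
  choose p hp using h
  have := Fintype.ofFinite A
  let T : Finset σ := Finset.univ.biUnion fun a => (p a).vars
  let x : Fin T.card → σ := fun i => (T.equivFin.symm i : σ)
  have hx_inj : Function.Injective x :=
    fun i j hij => T.equivFin.symm.injective (Subtype.ext hij)
  have hx_range : Set.range x = ↑T := by
    ext s
    constructor
    · rintro ⟨i, rfl⟩
      exact (T.equivFin.symm i).2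
    · intro hs
      exact ⟨T.equivFin ⟨s, hs⟩, by simp [x]⟩
  refine ⟨T.card, x, fun a => ?_⟩
  have hvars : ((p a).vars : Set σ) ⊆ Set.range x := by
    rw [hx_range]
    intro s hs
    exact Finset.mem_biUnion.mpr ⟨a, Finset.mem_univ _, hs⟩
  obtain ⟨q, hq⟩ := MvPolynomial.exists_rename_eq_of_vars_subset_range (p a) x hx_inj hvars
  refine ⟨q, ?_⟩
  rw [← hp a, ← hq, MvPolynomial.aeval_rename]
  rfl

end FiniteGeneration

section Generators

set_option linter.unusedSectionVars false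

variable {𝒪 : Type} [CommRing 𝒪] [IsLocalRing 𝒪] (rt : GQ → M2 𝒪) (E : Set (PolyRing 𝒪))
  (𝒟 : ∀ ⦃A : Type⦄ [CommRing A] [IsLocalRing A] [Algebra 𝒪 A], GaloisRepAdic A → Prop)

/-- The `yGen`s generate `RpreE E` as an `𝒪`-algebra. -/
theorem adjoin_yGen_eq_top : Algebra.adjoin 𝒪 (Set.range (yGen rt E)) = ⊤ := by
  rw [eq_top_iff, ← Presentation.adjoin_gen_eq_top 𝒪 E]
  refine Algebra.adjoin_le ?_
  rintro _ ⟨x, rfl⟩
  have h1 : yGen rt E x ∈ Algebra.adjoin 𝒪 (Set.range (yGen rt E)) :=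
    Algebra.subset_adjoin ⟨x, rfl⟩
  have h2 := Subalgebra.add_mem _ h1
    (Subalgebra.algebraMap_mem (Algebra.adjoin 𝒪 (Set.range (yGen rt E))) (rt x.1 x.2.1 x.2.2))
  simpa [yGen] using h2

/-- The classes of the `yGen`s generate every quotient of `RpreE E`. -/
theorem adjoin_mk_yGen_eq_top (𝔞 : Ideal (RpreE E)) :
    Algebra.adjoin 𝒪 (Set.range fun x => Ideal.Quotient.mk 𝔞 (yGen rt E x)) = ⊤ := by
  have h1 : (Algebra.adjoin 𝒪 (Set.range (yGen rt E))).map (Ideal.Quotient.mkₐ 𝒪 𝔞) = ⊤ := by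
    rw [adjoin_yGen_eq_top, Algebra.map_top]
    exact (AlgHom.range_eq_top _).mpr (Ideal.Quotient.mkₐ_surjective 𝒪 𝔞)
  rw [← h1, AlgHom.map_adjoin, ← Set.range_comp]
  rfl

/-- A good quotient is a finite ring when the residue field of `𝒪` is finite. -/
theorem finite_quotient_of_isGoodIdeal [Finite (ResidueField 𝒪)] {𝔞 : Ideal (RpreE E)}
    (h𝔞 : IsGoodIdeal rt E 𝒟 𝔞) : Finite (RpreE E ⧸ 𝔞) := by
  obtain ⟨hloc, hart, -⟩ := h𝔞
  have := hloc
  have := hart.isLocalHom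
  have := hart.isArtinian
  have : Finite (ResidueField (RpreE E ⧸ 𝔞)) :=
    Finite.of_surjective _ (residueFieldMap_bijective hart.residue_surjective).2
  exact finite_of_isArtinianRing_of_finite_residueField _

/-- G3. uniform generators from the tangent bound. -/
theorem exists_generators [Finite (IsLocalRing.ResidueField 𝒪)]
    (hinf : ∀ 𝔞 𝔟, IsGoodIdeal rt E 𝒟 𝔞 → IsGoodIdeal rt E 𝒟 𝔟 → IsGoodIdeal rt E 𝒟 (𝔞 ⊓ 𝔟))
    (hne : ∃ 𝔞, IsGoodIdeal rt E 𝒟 𝔞)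
    (hcard : letI := dualNumberAlgebra 𝒪
      ∃ N : ℕ, ∀ 𝔞, IsGoodIdeal rt E 𝒟 𝔞 →
        Finite ((RpreE E ⧸ 𝔞) →ₐ[𝒪] DualNumber (IsLocalRing.ResidueField 𝒪)) ∧
        Nat.card ((RpreE E ⧸ 𝔞) →ₐ[𝒪] DualNumber (IsLocalRing.ResidueField 𝒪)) ≤ N) :
    ∃ (d : ℕ) (x : Fin d → GQ × Fin 2 × Fin 2) (𝔞₀ : Ideal (RpreE E)),
      IsGoodIdeal rt E 𝒟 𝔞₀ ∧
      ∀ 𝔞, IsGoodIdeal rt E 𝒟 𝔞 → 𝔞 ≤ 𝔞₀ → ∀ z : RpreE E,
        ∃ p : MvPolynomial (Fin d) 𝒪,
          z - MvPolynomial.aeval (fun i => yGen rt E (x i)) p ∈ 𝔞 := by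
  classical
  let _ : Algebra 𝒪 (DualNumber (ResidueField 𝒪)) := dualNumberAlgebra 𝒪
  obtain ⟨N, hN⟩ := hcard
  -- the number of `k[ε]`-points
  let c : Ideal (RpreE E) → ℕ := fun 𝔞 =>
    Nat.card ((RpreE E ⧸ 𝔞) →ₐ[𝒪] DualNumber (ResidueField 𝒪))
  let S : Set ℕ := {n | ∃ 𝔞, IsGoodIdeal rt E 𝒟 𝔞 ∧ c 𝔞 = n}
  have hSne : S.Nonempty := by
    obtain ⟨𝔞, h𝔞⟩ := hne
    exact ⟨c 𝔞, 𝔞, h𝔞, rfl⟩
  have hSbdd : BddAbove S := ⟨N, by rintro n ⟨𝔞, h𝔞, rfl⟩; exact (hN 𝔞 h𝔞).2⟩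
  obtain ⟨𝔞₀, h𝔞₀, hc₀⟩ := Nat.sSup_mem hSne hSbdd
  have hmax : ∀ 𝔞, IsGoodIdeal rt E 𝒟 𝔞 → c 𝔞 ≤ c 𝔞₀ := by
    intro 𝔞 h𝔞
    rw [hc₀]
    exact le_csSup hSbdd ⟨𝔞, h𝔞, rfl⟩
  -- finitely many generators for the quotient by `𝔞₀`
  have hfin₀ : Finite (RpreE E ⧸ 𝔞₀) := finite_quotient_of_isGoodIdeal rt E 𝒟 h𝔞₀
  obtain ⟨d, x, hx⟩ := exists_fin_aeval_surjective (R := 𝒪)
    (fun x => Ideal.Quotient.mk 𝔞₀ (yGen rt E x)) (adjoin_mk_yGen_eq_top rt E 𝔞₀)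
  refine ⟨d, x, 𝔞₀, h𝔞₀, fun 𝔞 h𝔞 hle z => ?_⟩
  obtain ⟨hloc, hart, -⟩ := id h𝔞
  have := hloc
  have := hart.isLocalHom
  have := hart.isArtinian
  -- the transition map
  let f : (RpreE E ⧸ 𝔞) →ₐ[𝒪] (RpreE E ⧸ 𝔞₀) := Ideal.Quotient.factorₐ 𝒪 hle
  have hf_surj : Function.Surjective f := Ideal.Quotient.factor_surjective hle
  -- precomposition with `f` is a bijection on `k[ε]`-points
  have := (hN 𝔞 h𝔞).1
  have := (hN 𝔞₀ h𝔞₀).1
  let Φ : ((RpreE E ⧸ 𝔞₀) →ₐ[𝒪] DualNumber (ResidueField 𝒪)) →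
      ((RpreE E ⧸ 𝔞) →ₐ[𝒪] DualNumber (ResidueField 𝒪)) := fun ψ => ψ.comp f
  have hΦ_inj : Function.Injective Φ := by
    intro ψ ψ' h
    refine AlgHom.ext fun b => ?_
    obtain ⟨a, rfl⟩ := hf_surj b
    exact AlgHom.congr_fun h a
  have hΦ_bij : Function.Bijective Φ :=
    hΦ_inj.bijective_of_nat_card_le (hmax 𝔞 h𝔞)
  -- the subalgebra generated by the chosen generators
  let C : Subalgebra 𝒪 (RpreE E ⧸ 𝔞) :=
    (MvPolynomial.aeval (R := 𝒪) (fun i => Ideal.Quotient.mk 𝔞 (yGen rt E (x i)))).range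
  have hC : C = ⊤ := by
    refine subalgebra_eq_top_of_points_kill hart.residue_surjective
      (exists_maximalIdeal_pow_eq_bot _) C (RingHom.ker f.toRingHom) ?_ ?_
    · intro b
      obtain ⟨z, rfl⟩ := Ideal.Quotient.mk_surjective b
      obtain ⟨q, hq⟩ := hx (Ideal.Quotient.mk 𝔞₀ z)
      refine ⟨MvPolynomial.aeval (R := 𝒪)
        (fun i => Ideal.Quotient.mk 𝔞 (yGen rt E (x i))) q, ⟨q, rfl⟩, ?_⟩
      rw [RingHom.mem_ker, map_sub, sub_eq_zero]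
      show f (Ideal.Quotient.mk 𝔞 z) = f _
      rw [MvPolynomial.comp_aeval_apply]
      exact hq.symm
    · intro φ b hb
      obtain ⟨ψ, rfl⟩ := hΦ_bij.2 φ
      rw [RingHom.mem_ker] at hb
      show ψ (f b) = 0
      have : f b = 0 := hb
      rw [this, map_zero]
  have hz : Ideal.Quotient.mk 𝔞 z ∈ C := by rw [hC]; trivial
  obtain ⟨p, hp⟩ := hz
  refine ⟨p, ?_⟩
  rw [← Ideal.Quotient.eq]
  rw [← hp]
  exact (MvPolynomial.comp_aeval_apply _ (Ideal.Quotient.mkₐ 𝒪 𝔞) p).symm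

end Generators

end Fermat.Agent.S53
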