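import Mathlib
import Fermat.Prelude.Def_GaloisRep_DeformationCondition

/-!
# S53, part C2 (ring side): quotients `P ⧸ (𝔞 ⊓ 𝔟)` as fibre products

For ideals `𝔞 𝔟` of a commutative `O`-algebra `P`, the quotient `P ⧸ (𝔞 ⊓ 𝔟)` with its two
projections to `P ⧸ 𝔞` and `P ⧸ 𝔟` is the fibre product over `P ⧸ (𝔞 ⊔ 𝔟)`, in exactly the shape
required by `GaloisRep.IsDeformationCondition.of_fibreProduct`.

We also give a criterion for such quotients to be local (`IsLocalAt`), and show that the property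
of being an Artinian test algebra passes to `𝔞 ⊓ 𝔟` and to bigger proper ideals.
-/

set_option autoImplicit false
set_option linter.unusedSectionVars false

namespace Fermat.Agent.S53.QuotFibre

open IsLocalRing

universe u v

section fibre

variable (O : Type u) [CommRing O] {P : Type v} [CommRing P] [Algebra O P] (𝔞 𝔟 : Ideal P)

/-- The projection `P ⧸ (𝔞 ⊓ 𝔟) → P ⧸ 𝔞`. -/
def prL : P ⧸ (𝔞 ⊓ 𝔟) →ₐ[O] P ⧸ 𝔞 := Ideal.Quotient.factorₐ O inf_le_left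

/-- The projection `P ⧸ (𝔞 ⊓ 𝔟) → P ⧸ 𝔟`. -/
def prR : P ⧸ (𝔞 ⊓ 𝔟) →ₐ[O] P ⧸ 𝔟 := Ideal.Quotient.factorₐ O inf_le_right

/-- The projection `P ⧸ 𝔞 → P ⧸ (𝔞 ⊔ 𝔟)`. -/
def inL : P ⧸ 𝔞 →ₐ[O] P ⧸ (𝔞 ⊔ 𝔟) := Ideal.Quotient.factorₐ O le_sup_left

/-- The projection `P ⧸ 𝔟 → P ⧸ (𝔞 ⊔ 𝔟)`. -/
def inR : P ⧸ 𝔟 →ₐ[O] P ⧸ (𝔞 ⊔ 𝔟) := Ideal.Quotient.factorₐ O le_sup_right

@[simp] theorem prL_mk (x : P) :
    prL O 𝔞 𝔟 (Ideal.Quotient.mk (𝔞 ⊓ 𝔟) x) = Ideal.Quotient.mk 𝔞 x := rfl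

@[simp] theorem prR_mk (x : P) :
    prR O 𝔞 𝔟 (Ideal.Quotient.mk (𝔞 ⊓ 𝔟) x) = Ideal.Quotient.mk 𝔟 x := rfl

@[simp] theorem inL_mk (x : P) :
    inL O 𝔞 𝔟 (Ideal.Quotient.mk 𝔞 x) = Ideal.Quotient.mk (𝔞 ⊔ 𝔟) x := rfl

@[simp] theorem inR_mk (x : P) :
    inR O 𝔞 𝔟 (Ideal.Quotient.mk 𝔟 x) = Ideal.Quotient.mk (𝔞 ⊔ 𝔟) x := rfl

theorem prL_surjective : Function.Surjective (prL O 𝔞 𝔟) :=
  Ideal.Quotient.factor_surjective inf_le_left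

theorem prR_surjective : Function.Surjective (prR O 𝔞 𝔟) :=
  Ideal.Quotient.factor_surjective inf_le_right

theorem inL_surjective : Function.Surjective (inL O 𝔞 𝔟) :=
  Ideal.Quotient.factor_surjective le_sup_left

theorem inR_surjective : Function.Surjective (inR O 𝔞 𝔟) :=
  Ideal.Quotient.factor_surjective le_sup_right

theorem inL_comp_prL : (inL O 𝔞 𝔟).comp (prL O 𝔞 𝔟) = (inR O 𝔞 𝔟).comp (prR O 𝔞 𝔟) := by
  apply Ideal.Quotient.algHom_ext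
  ext x
  rfl

theorem pr_injective : Function.Injective fun x : P ⧸ (𝔞 ⊓ 𝔟) => (prL O 𝔞 𝔟 x, prR O 𝔞 𝔟 x) := by
  intro x y hxy
  obtain ⟨x, rfl⟩ := Ideal.Quotient.mk_surjective x
  obtain ⟨y, rfl⟩ := Ideal.Quotient.mk_surjective y
  simp only [prL_mk, prR_mk, Prod.mk.injEq, Ideal.Quotient.eq] at hxy
  rw [Ideal.Quotient.eq]
  exact ⟨hxy.1, hxy.2⟩

theorem exists_pr_eq (a : P ⧸ 𝔞) (b : P ⧸ 𝔟) (h : inL O 𝔞 𝔟 a = inR O 𝔞 𝔟 b) :
    ∃ x : P ⧸ (𝔞 ⊓ 𝔟), prL O 𝔞 𝔟 x = a ∧ prR O 𝔞 𝔟 x = b := by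
  obtain ⟨u, rfl⟩ := Ideal.Quotient.mk_surjective a
  obtain ⟨v, rfl⟩ := Ideal.Quotient.mk_surjective b
  rw [inL_mk, inR_mk, Ideal.Quotient.eq, Submodule.mem_sup] at h
  obtain ⟨α, hα, β, hβ, hαβ⟩ := h
  refine ⟨Ideal.Quotient.mk _ (u - α), ?_, ?_⟩
  · rw [prL_mk, Ideal.Quotient.eq]
    simpa using 𝔞.neg_mem hα
  · rw [prR_mk, Ideal.Quotient.eq]
    have : u - α - v = β := by linear_combination -hαβ
    rw [this]
    exact hβ

end fibre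

section localAt

variable {P : Type v} [CommRing P]

/-- `I` is *local at* the ideal `𝔪`: `I ≤ 𝔪` and every element outside `𝔪` is invertible
modulo `I`.  For `𝔪` proper this says that `P ⧸ I` is a local ring with maximal ideal `𝔪 / I`. -/
def IsLocalAt (𝔪 I : Ideal P) : Prop :=
  I ≤ 𝔪 ∧ ∀ x : P, x ∉ 𝔪 → ∃ y : P, x * y - 1 ∈ I

variable {𝔪 I J : Ideal P}

theorem IsLocalAt.le (h : IsLocalAt 𝔪 I) : I ≤ 𝔪 := h.1

theorem IsLocalAt.isUnit_mk (h : IsLocalAt 𝔪 I) {x : P} (hx : x ∉ 𝔪) :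
    IsUnit (Ideal.Quotient.mk I x) := by
  obtain ⟨y, hy⟩ := h.2 x hx
  refine IsUnit.of_mul_eq_one (Ideal.Quotient.mk I y) ?_
  rw [← map_mul, ← map_one (Ideal.Quotient.mk I), Ideal.Quotient.eq]
  exact hy

theorem IsLocalAt.not_isUnit_mk (h : IsLocalAt 𝔪 I) (h𝔪 : 𝔪 ≠ ⊤) {x : P} (hx : x ∈ 𝔪) :
    ¬ IsUnit (Ideal.Quotient.mk I x) := by
  intro hu
  obtain ⟨y, hy⟩ := hu.exists_right_inv
  obtain ⟨y, rfl⟩ := Ideal.Quotient.mk_surjective y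
  rw [← map_mul, ← map_one (Ideal.Quotient.mk I), Ideal.Quotient.eq] at hy
  have h1 : x * y - 1 ∈ 𝔪 := h.1 hy
  have h2 : (1 : P) ∈ 𝔪 := by
    have := 𝔪.sub_mem (𝔪.mul_mem_right y hx) h1
    simpa using this
  exact h𝔪 ((Ideal.eq_top_iff_one 𝔪).mpr h2)

theorem IsLocalAt.isLocalRing (h : IsLocalAt 𝔪 I) (h𝔪 : 𝔪 ≠ ⊤) : IsLocalRing (P ⧸ I) := by
  have : Nontrivial (P ⧸ I) :=
    Ideal.Quotient.nontrivial_iff.mpr (fun hI => h𝔪 (top_le_iff.mp (hI ▸ h.1)))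
  refine IsLocalRing.of_isUnit_or_isUnit_one_sub_self fun a => ?_
  obtain ⟨x, rfl⟩ := Ideal.Quotient.mk_surjective a
  by_cases hx : x ∈ 𝔪
  · right
    rw [← map_one (Ideal.Quotient.mk I), ← map_sub]
    refine h.isUnit_mk fun h1 => h𝔪 ((Ideal.eq_top_iff_one 𝔪).mpr ?_)
    have := 𝔪.add_mem h1 hx
    simpa using this
  · exact Or.inl (h.isUnit_mk hx)

theorem IsLocalAt.mk_mem_maximalIdeal_iff [IsLocalRing (P ⧸ I)] (h : IsLocalAt 𝔪 I)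
    (h𝔪 : 𝔪 ≠ ⊤) (x : P) :
    Ideal.Quotient.mk I x ∈ maximalIdeal (P ⧸ I) ↔ x ∈ 𝔪 := by
  rw [IsLocalRing.mem_maximalIdeal, mem_nonunits_iff]
  constructor
  · intro hx
    by_contra hxm
    exact hx (h.isUnit_mk hxm)
  · exact fun hx => h.not_isUnit_mk h𝔪 hx

theorem IsLocalAt.comap_maximalIdeal [IsLocalRing (P ⧸ I)] (h : IsLocalAt 𝔪 I) (h𝔪 : 𝔪 ≠ ⊤) :
    (maximalIdeal (P ⧸ I)).comap (Ideal.Quotient.mk I) = 𝔪 := by
  ext x
  rw [Ideal.mem_comap, h.mk_mem_maximalIdeal_iff h𝔪]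

/-- If `P ⧸ I` is local, then `I` is local at the preimage of the maximal ideal. -/
theorem isLocalAt_comap_maximalIdeal (I : Ideal P) [IsLocalRing (P ⧸ I)] :
    IsLocalAt ((maximalIdeal (P ⧸ I)).comap (Ideal.Quotient.mk I)) I := by
  refine ⟨fun x hx => ?_, fun x hx => ?_⟩
  · rw [Ideal.mem_comap, Ideal.Quotient.eq_zero_iff_mem.mpr hx]
    exact Ideal.zero_mem _
  · rw [Ideal.mem_comap, IsLocalRing.mem_maximalIdeal, mem_nonunits_iff, not_not] at hx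
    obtain ⟨y, hy⟩ := hx.exists_right_inv
    obtain ⟨y, rfl⟩ := Ideal.Quotient.mk_surjective y
    refine ⟨y, ?_⟩
    rwa [← map_mul, ← map_one (Ideal.Quotient.mk I), Ideal.Quotient.eq] at hy

theorem comap_maximalIdeal_ne_top (I : Ideal P) [IsLocalRing (P ⧸ I)] :
    (maximalIdeal (P ⧸ I)).comap (Ideal.Quotient.mk I) ≠ ⊤ :=
  (Ideal.comap_isPrime _ _).ne_top

theorem IsLocalAt.inf (hI : IsLocalAt 𝔪 I) (hJ : IsLocalAt 𝔪 J) : IsLocalAt 𝔪 (I ⊓ J) := by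
  refine ⟨inf_le_left.trans hI.1, fun x hx => ?_⟩
  obtain ⟨y, hy⟩ := hI.2 x hx
  obtain ⟨z, hz⟩ := hJ.2 x hx
  refine ⟨y + z - x * y * z, ?_⟩
  have hmul : x * (y + z - x * y * z) - 1 = -((x * y - 1) * (x * z - 1)) := by ring
  rw [hmul]
  exact neg_mem ⟨I.mul_mem_right _ hy, J.mul_mem_left _ hz⟩

theorem IsLocalAt.mono (hI : IsLocalAt 𝔪 I) (hIJ : I ≤ J) (hJ : J ≤ 𝔪) : IsLocalAt 𝔪 J :=
  ⟨hJ, fun x hx => (hI.2 x hx).imp fun _ hy => hIJ hy⟩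

theorem IsLocalAt.sup (hI : IsLocalAt 𝔪 I) (hJ : IsLocalAt 𝔪 J) : IsLocalAt 𝔪 (I ⊔ J) :=
  hI.mono le_sup_left (sup_le hI.1 hJ.1)

end localAt

section artinian

variable {P : Type v} [CommRing P] (𝔞 𝔟 : Ideal P)

theorem isArtinianRing_quotient_inf [IsArtinianRing (P ⧸ 𝔞)] [IsArtinianRing (P ⧸ 𝔟)] :
    IsArtinianRing (P ⧸ (𝔞 ⊓ 𝔟)) := by
  have h1 : IsArtinian P (P ⧸ 𝔞) :=
    isArtinian_of_surjective_algebraMap (S := P) (R := P ⧸ 𝔞) (M := P ⧸ 𝔞)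
      Ideal.Quotient.mk_surjective
  have h2 : IsArtinian P (P ⧸ 𝔟) :=
    isArtinian_of_surjective_algebraMap (S := P) (R := P ⧸ 𝔟) (M := P ⧸ 𝔟)
      Ideal.Quotient.mk_surjective
  let f : P ⧸ (𝔞 ⊓ 𝔟) →ₗ[P] (P ⧸ 𝔞) × (P ⧸ 𝔟) :=
    (prL P 𝔞 𝔟).toLinearMap.prod (prR P 𝔞 𝔟).toLinearMap
  have hf : Function.Injective f := pr_injective P 𝔞 𝔟
  have : IsArtinian P (P ⧸ (𝔞 ⊓ 𝔟)) := isArtinian_of_injective f hf
  exact isArtinian_of_tower P ‹_›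

theorem isArtinianRing_quotient_of_le {𝔞 𝔟 : Ideal P} (h : 𝔞 ≤ 𝔟) [IsArtinianRing (P ⧸ 𝔞)] :
    IsArtinianRing (P ⧸ 𝔟) :=
  (Ideal.Quotient.factor_surjective h).isArtinianRing

theorem finite_quotient_inf [Finite (P ⧸ 𝔞)] [Finite (P ⧸ 𝔟)] : Finite (P ⧸ (𝔞 ⊓ 𝔟)) :=
  Finite.of_injective _ (pr_injective P 𝔞 𝔟)

end artinian

section testAlgebra

/-! ### Artinian test algebras among the quotients of `P` -/

variable (O : Type) [CommRing O] [IsLocalRing O] {P : Type} [CommRing P] [Algebra O P]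

/-- The conditions on the pair `(P, 𝔪)` making every local quotient `P ⧸ I`, `I` local at `𝔪`,
an `O`-algebra with local structure map and residue field generated by `O`. -/
structure IsGoodMax (𝔪 : Ideal P) : Prop where
  ne_top : 𝔪 ≠ ⊤
  exists_sub_mem : ∀ x : P, ∃ o : O, x - algebraMap O P o ∈ 𝔪
  isUnit_of_notMem : ∀ o : O, algebraMap O P o ∉ 𝔪 → IsUnit o

variable {O} {𝔪 I J : Ideal P}

theorem isArtinianTestAlgebra_of_isLocalAt (h𝔪 : IsGoodMax O 𝔪) (hI : IsLocalAt 𝔪 I)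
    [IsLocalRing (P ⧸ I)] [IsArtinianRing (P ⧸ I)] :
    GaloisRep.IsArtinianTestAlgebra O (P ⧸ I) where
  isLocalHom := ⟨fun o ho => by
    refine h𝔪.isUnit_of_notMem o fun hmem => ?_
    exact hI.not_isUnit_mk h𝔪.ne_top hmem ho⟩
  residue_surjective := fun y => by
    obtain ⟨y, rfl⟩ := IsLocalRing.residue_surjective y
    obtain ⟨x, rfl⟩ := Ideal.Quotient.mk_surjective y
    obtain ⟨o, ho⟩ := h𝔪.exists_sub_mem x
    refine ⟨o, ?_⟩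
    rw [Function.comp_apply, eq_comm, ← sub_eq_zero, ← map_sub, IsLocalRing.residue_eq_zero_iff]
    have : Ideal.Quotient.mk I x - algebraMap O (P ⧸ I) o =
        Ideal.Quotient.mk I (x - algebraMap O P o) := by
      rw [map_sub]; rfl
    rw [this, hI.mk_mem_maximalIdeal_iff h𝔪.ne_top]
    exact ho
  isArtinian := inferInstance

/-- Conversely, an Artinian test algebra structure on a local quotient `P ⧸ I` makes the preimage
of its maximal ideal a good maximal ideal. -/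
theorem isGoodMax_comap_of_isArtinianTestAlgebra (I : Ideal P) [IsLocalRing (P ⧸ I)]
    (h : GaloisRep.IsArtinianTestAlgebra O (P ⧸ I)) :
    IsGoodMax O ((maximalIdeal (P ⧸ I)).comap (Ideal.Quotient.mk I)) where
  ne_top := comap_maximalIdeal_ne_top I
  exists_sub_mem := fun x => by
    obtain ⟨o, ho⟩ := h.residue_surjective (IsLocalRing.residue _ (Ideal.Quotient.mk I x))
    refine ⟨o, ?_⟩
    rw [Ideal.mem_comap, map_sub, ← IsLocalRing.residue_eq_zero_iff, map_sub, sub_eq_zero]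
    exact ho.symm
  isUnit_of_notMem := fun o ho => by
    have := h.isLocalHom
    rw [Ideal.mem_comap, IsLocalRing.mem_maximalIdeal, mem_nonunits_iff, not_not] at ho
    exact isUnit_of_map_unit (algebraMap O (P ⧸ I)) o ho

end testAlgebra

end Fermat.Agent.S53.QuotFibre
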