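import Fermat.Agent.S53.Core
import Fermat.Agent.S53.MatrixForm
import Fermat.Agent.S53.QuotFibre
import Fermat.Agent.S53.FiniteQuotient

/-!
# S53, part C: the family of good ideals of the generators-and-relations ring (Core interface)

`RpreE E = Rpre 𝒪 E` is the ring of `E`-normalised 2×2 representations of `GQ`; `rt : GQ → M2 𝒪` is the
fixed set-theoretic lift of the residual representation.  An ideal `𝔞` is good
(`IsGoodIdeal rt E 𝒟 𝔞`, Core.lean) if `RpreE E ⧸ 𝔞` is a local Artinian test algebra and the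
tautological representation modulo `𝔞` is a good lift.

Everything lives in the namespace `Fermat.Agent.S53.GoodIdeals`.

Main results:
* `comap_maximalIdeal_eq_mP`: for every local `𝒪`-algebra `A` (local structure map) and every
  `φ : RpreE E →ₐ[𝒪] A` whose representation lifts `rt`, the preimage of `𝔪_A` is the fixed ideal
  `mP rt E`;
* `isGoodIdeal_inf`, `isGoodIdeal_of_le`: good ideals are closed under finite intersections and
  upward closed (among ideals contained in `mP rt E`);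
* `isGoodIdeal_ker`: for an Artinian test algebra `B` and a good lift `s` over `B`, the kernel of the
  classifying map `RpreE E → B` is good, and the classifying map factors through an injection.
-/

set_option autoImplicit false
set_option linter.unusedSectionVars false

noncomputable section

namespace Fermat.Agent.S53.GoodIdeals

open IsLocalRing Fermat.Agent.S53 Fermat.Agent.S53.Presentation Fermat.Agent.S53.QuotFibre

variable {𝒪 : Type} [CommRing 𝒪] (rt : GQ → M2 𝒪) (E : Set (PolyRing 𝒪))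

/-- The representation attached to an algebra homomorphism out of `RpreE E`. -/
def repE {A : Type} [CommRing A] [Algebra 𝒪 A] (φ : RpreE E →ₐ[𝒪] A) : GQ →* M2 A :=
  mapMat (φ : RpreE E →+* A) (rtaut 𝒪 E)

theorem repE_apply {A : Type} [CommRing A] [Algebra 𝒪 A] (φ : RpreE E →ₐ[𝒪] A) (g : GQ)
    (a b : Fin 2) : repE E φ g a b = φ (gen 𝒪 E g a b) := rfl

theorem repE_isNorm {A : Type} [CommRing A] [Algebra 𝒪 A] (φ : RpreE E →ₐ[𝒪] A) :
    IsNorm E (repE E φ) :=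
  (rtaut_isNormalised 𝒪 E).map φ

theorem repE_lift {A : Type} [CommRing A] [Algebra 𝒪 A] (r : GQ →* M2 A) (hr : IsNorm E r) :
    repE E (Presentation.lift r hr) = r := by
  ext g a b
  rw [repE_apply, lift_gen]

theorem lift_repE {A : Type} [CommRing A] [Algebra 𝒪 A] (φ : RpreE E →ₐ[𝒪] A) :
    Presentation.lift (repE E φ) (repE_isNorm E φ) = φ := by
  apply Presentation.algHom_ext
  intro g a b
  rw [lift_gen, repE_apply]

theorem repE_comp {A B : Type} [CommRing A] [Algebra 𝒪 A] [CommRing B] [Algebra 𝒪 B]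
    (f : A →ₐ[𝒪] B) (φ : RpreE E →ₐ[𝒪] A) :
    repE E (f.comp φ) = mapMat (f : A →+* B) (repE E φ) := rfl

/-- Two algebra homomorphisms out of `RpreE E` with the same representation are equal. -/
theorem algHom_ext_repE {A : Type} [CommRing A] [Algebra 𝒪 A] {φ ψ : RpreE E →ₐ[𝒪] A}
    (h : repE E φ = repE E ψ) : φ = ψ := by
  apply Presentation.algHom_ext
  intro g a b
  have := congrArg (fun r : GQ →* M2 A => r g a b) h
  simpa only [repE_apply] using this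

theorem rQuot_eq_repE (𝔞 : Ideal (RpreE E)) :
    rQuot E 𝔞 = repE E (Ideal.Quotient.mkₐ 𝒪 𝔞) := rfl

theorem rQuot_apply (𝔞 : Ideal (RpreE E)) (g : GQ) (a b : Fin 2) :
    rQuot E 𝔞 g a b = Ideal.Quotient.mk 𝔞 (gen 𝒪 E g a b) := rfl

theorem mapMat_factor_rQuot {𝔞 𝔟 : Ideal (RpreE E)} (h : 𝔞 ≤ 𝔟) :
    mapMat ((Ideal.Quotient.factorₐ 𝒪 h : RpreE E ⧸ 𝔞 →ₐ[𝒪] RpreE E ⧸ 𝔟) :
      RpreE E ⧸ 𝔞 →+* RpreE E ⧸ 𝔟) (rQuot E 𝔞) = rQuot E 𝔟 := rfl

theorem rQuot_isNorm (𝔞 : Ideal (RpreE E)) : IsNorm E (rQuot E 𝔞) :=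
  repE_isNorm E (Ideal.Quotient.mkₐ 𝒪 𝔞)

section mP

variable [IsLocalRing 𝒪]

/-- The distinguished (maximal) ideal of `RpreE E`: generated by the `yGen rt E x`
(entries of `rtaut g - rt g`) and by the maximal ideal of `𝒪`. -/
def mP : Ideal (RpreE E) :=
  Ideal.span (Set.range (yGen rt E) ∪ (algebraMap 𝒪 (RpreE E)) '' (maximalIdeal 𝒪 : Set 𝒪))

theorem yGen_mem_mP (x : GQ × Fin 2 × Fin 2) : yGen rt E x ∈ mP rt E :=
  Ideal.subset_span (Or.inl ⟨x, rfl⟩)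

theorem gen_sub_mem_mP (g : GQ) (a b : Fin 2) :
    gen 𝒪 E g a b - algebraMap 𝒪 (RpreE E) (rt g a b) ∈ mP rt E :=
  yGen_mem_mP rt E (g, a, b)

theorem algebraMap_mem_mP {o : 𝒪} (ho : o ∈ maximalIdeal 𝒪) :
    algebraMap 𝒪 (RpreE E) o ∈ mP rt E :=
  Ideal.subset_span (Or.inr ⟨o, ho, rfl⟩)

/-- Every element of `RpreE E` is congruent to a constant modulo `mP rt E`. -/
theorem exists_sub_algebraMap_mem_mP (x : RpreE E) :
    ∃ o : 𝒪, x - algebraMap 𝒪 (RpreE E) o ∈ mP rt E := by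
  have hx : x ∈ Algebra.adjoin 𝒪
      (Set.range fun y : GQ × Fin 2 × Fin 2 => gen 𝒪 E y.1 y.2.1 y.2.2) := by
    rw [adjoin_gen_eq_top]; trivial
  induction hx using Algebra.adjoin_induction with
  | mem x hx =>
    obtain ⟨⟨g, a, b⟩, rfl⟩ := hx
    exact ⟨rt g a b, gen_sub_mem_mP rt E g a b⟩
  | algebraMap o => exact ⟨o, by rw [sub_self]; exact Ideal.zero_mem _⟩
  | add x y _ _ hx hy =>
    obtain ⟨o, ho⟩ := hx
    obtain ⟨o', ho'⟩ := hy
    refine ⟨o + o', ?_⟩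
    have : x + y - algebraMap 𝒪 (RpreE E) (o + o') =
        (x - algebraMap 𝒪 (RpreE E) o) + (y - algebraMap 𝒪 (RpreE E) o') := by
      rw [map_add]; ring
    rw [this]
    exact Ideal.add_mem _ ho ho'
  | mul x y _ _ hx hy =>
    obtain ⟨o, ho⟩ := hx
    obtain ⟨o', ho'⟩ := hy
    refine ⟨o * o', ?_⟩
    have : x * y - algebraMap 𝒪 (RpreE E) (o * o') =
        (x - algebraMap 𝒪 (RpreE E) o) * y +
          algebraMap 𝒪 (RpreE E) o * (y - algebraMap 𝒪 (RpreE E) o') := by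
      rw [map_mul]; ring
    rw [this]
    exact Ideal.add_mem _ (Ideal.mul_mem_right _ _ ho) (Ideal.mul_mem_left _ _ ho')

/-- If the representation of `φ : RpreE E →ₐ[𝒪] A` lifts `rt`, then the preimage of the maximal
ideal of `A` is `mP rt E`. -/
theorem comap_maximalIdeal_eq_mP {A : Type} [CommRing A] [IsLocalRing A] [Algebra 𝒪 A]
    (hloc : IsLocalHom (algebraMap 𝒪 A)) (φ : RpreE E →ₐ[𝒪] A) (hφ : IsLiftRt rt (repE E φ)) :
    (maximalIdeal A).comap (φ : RpreE E →+* A) = mP rt E := by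
  have hge : mP rt E ≤ (maximalIdeal A).comap (φ : RpreE E →+* A) := by
    rw [mP, Ideal.span_le]
    rintro x (⟨⟨g, a, b⟩, rfl⟩ | ⟨o, ho, rfl⟩)
    · rw [SetLike.mem_coe, Ideal.mem_comap, RingHom.coe_coe, yGen, map_sub, AlgHom.commutes]
      exact hφ g a b
    · rw [SetLike.mem_coe, Ideal.mem_comap, RingHom.coe_coe, AlgHom.commutes]
      exact map_nonunit (algebraMap 𝒪 A) o ho
  refine le_antisymm (fun x hx => ?_) hge
  obtain ⟨o, ho⟩ := exists_sub_algebraMap_mem_mP rt E x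
  have h1 : (φ : RpreE E →+* A) (algebraMap 𝒪 (RpreE E) o) ∈ maximalIdeal A := by
    have h2 := (maximalIdeal A).sub_mem hx (hge ho)
    rwa [← map_sub, sub_sub_cancel] at h2
  rw [RingHom.coe_coe, AlgHom.commutes] at h1
  have ho' : o ∈ maximalIdeal 𝒪 := by
    by_contra hne
    have hu : IsUnit o := by
      rwa [IsLocalRing.mem_maximalIdeal, mem_nonunits_iff, not_not] at hne
    exact (IsLocalRing.mem_maximalIdeal _).mp h1 (hu.map (algebraMap 𝒪 A))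
  have := (mP rt E).add_mem ho (algebraMap_mem_mP rt E ho')
  rwa [sub_add_cancel] at this

theorem isGoodMax_mP (hne : mP rt E ≠ ⊤) : IsGoodMax 𝒪 (mP rt E) where
  ne_top := hne
  exists_sub_mem := exists_sub_algebraMap_mem_mP rt E
  isUnit_of_notMem := fun o ho => by
    by_contra hu
    exact ho (algebraMap_mem_mP rt E ((IsLocalRing.mem_maximalIdeal _).mpr hu))

/-- Elements outside `mP rt E` are invertible modulo `mP rt E`. -/
theorem exists_mul_sub_one_mem_mP {x : RpreE E} (hx : x ∉ mP rt E) :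
    ∃ y : RpreE E, x * y - 1 ∈ mP rt E := by
  obtain ⟨o, ho⟩ := exists_sub_algebraMap_mem_mP rt E x
  have hu : IsUnit o := by
    by_contra hu
    apply hx
    have := (mP rt E).add_mem ho
      (algebraMap_mem_mP rt E ((IsLocalRing.mem_maximalIdeal _).mpr hu))
    rwa [sub_add_cancel] at this
  obtain ⟨u, rfl⟩ := hu
  refine ⟨algebraMap 𝒪 (RpreE E) ((u⁻¹ : 𝒪ˣ) : 𝒪), ?_⟩
  have : x * algebraMap 𝒪 (RpreE E) ((u⁻¹ : 𝒪ˣ) : 𝒪) - 1 =
      (x - algebraMap 𝒪 (RpreE E) (u : 𝒪)) * algebraMap 𝒪 (RpreE E) ((u⁻¹ : 𝒪ˣ) : 𝒪) := by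
    rw [sub_mul, ← map_mul, Units.mul_inv, map_one]
  rw [this]
  exact Ideal.mul_mem_right _ _ ho

/-- `mP rt E` is a maximal ideal as soon as it is proper. -/
theorem mP_isMaximal (hne : mP rt E ≠ ⊤) : (mP rt E).IsMaximal := by
  refine Ideal.isMaximal_iff.mpr ⟨fun h1 => hne ((Ideal.eq_top_iff_one _).mpr h1), ?_⟩
  intro J x hJ hx hxJ
  obtain ⟨y, hy⟩ := exists_mul_sub_one_mem_mP rt E hx
  have h1 : x * y - (x * y - 1) ∈ J := J.sub_mem (J.mul_mem_right y hxJ) (hJ hy)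
  simpa using h1

/-- An ideal `I ≤ mP rt E` modulo which every element of `mP rt E` is nilpotent is local at
`mP rt E`. -/
theorem isLocalAt_of_nilpotent {I : Ideal (RpreE E)} (hI : I ≤ mP rt E)
    (hnil : ∀ x ∈ mP rt E, ∃ k : ℕ, x ^ k ∈ I) : IsLocalAt (mP rt E) I := by
  refine ⟨hI, fun x hx => ?_⟩
  obtain ⟨y, hy⟩ := exists_mul_sub_one_mem_mP rt E hx
  obtain ⟨k, hk⟩ := hnil _ hy
  set n := x * y - 1 with hn
  refine ⟨y * ∑ l ∈ Finset.range k, (-n) ^ l, ?_⟩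
  have h1 : x * (y * ∑ l ∈ Finset.range k, (-n) ^ l) - 1 = -((-n) ^ k) := by
    have hxy : x * y = 1 - (-n) := by rw [hn]; ring
    rw [← mul_assoc, hxy]
    have := mul_neg_geom_sum (-n) k
    linear_combination this
  rw [h1, neg_pow]
  exact neg_mem (Ideal.mul_mem_left _ _ hk)

end mP

section artinianCont

/-- Over an Artinian local ring, adic continuity is the same as factoring through a finite
level. -/
theorem matCont_iff_finiteLevel {A : Type} [CommRing A] [IsLocalRing A] [IsArtinianRing A]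
    (r : GQ →* M2 A) : MatCont r ↔ GaloisFactorsThroughFiniteLevel r := by
  constructor
  · intro h
    obtain ⟨n, hn⟩ := IsArtinianRing.isNilpotent_jacobson_bot (R := A)
    rw [jacobson_eq_maximalIdeal _ bot_ne_top] at hn
    obtain ⟨L, hL, hσ⟩ := h n
    refine ⟨L, hL, fun σ hfix => ?_⟩
    ext a b
    have := hσ σ hfix a b
    rw [hn, Ideal.zero_eq_bot, Ideal.mem_bot, Matrix.sub_apply, sub_eq_zero] at this
    exact this
  · rintro ⟨L, hL, hσ⟩ n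
    refine ⟨L, hL, fun σ hfix a b => ?_⟩
    rw [hσ σ hfix, sub_self]
    exact Ideal.zero_mem _

theorem finiteLevel_of_mapMat_injective {A B : Type} [CommRing A] [CommRing B] (f : A →+* B)
    (hf : Function.Injective f) {r : GQ →* M2 A}
    (h : GaloisFactorsThroughFiniteLevel (mapMat f r)) : GaloisFactorsThroughFiniteLevel r := by
  obtain ⟨L, hL, hσ⟩ := h
  refine ⟨L, hL, fun σ hfix => ?_⟩
  ext a b
  apply hf
  have := congrArg (fun M : M2 B => M a b) (hσ σ hfix)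
  simp only [mapMat_apply_apply] at this
  rw [this, Matrix.one_apply, Matrix.one_apply]
  split_ifs <;> simp

/-- Two finite levels can be merged. -/
theorem finiteLevel_pair {A B C : Type} [CommRing A] [CommRing B] [CommRing C]
    (f : C →+* A) (g : C →+* B) (hfg : Function.Injective fun x => (f x, g x))
    {r : GQ →* M2 C} (h1 : GaloisFactorsThroughFiniteLevel (mapMat f r))
    (h2 : GaloisFactorsThroughFiniteLevel (mapMat g r)) : GaloisFactorsThroughFiniteLevel r := by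
  obtain ⟨L1, hL1, hσ1⟩ := h1
  obtain ⟨L2, hL2, hσ2⟩ := h2
  refine ⟨L1 ⊔ L2, IntermediateField.finiteDimensional_sup L1 L2, fun σ hfix => ?_⟩
  have e1 := hσ1 σ fun x hx => hfix x ((le_sup_left : L1 ≤ L1 ⊔ L2) hx)
  have e2 := hσ2 σ fun x hx => hfix x ((le_sup_right : L2 ≤ L1 ⊔ L2) hx)
  ext a b
  apply hfg
  have e1' := congrArg (fun M : M2 A => M a b) e1
  have e2' := congrArg (fun M : M2 B => M a b) e2
  simp only [mapMat_apply_apply] at e1' e2'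
  simp only [Prod.mk.injEq]
  rw [e1', e2', Matrix.one_apply, Matrix.one_apply, Matrix.one_apply]
  split_ifs <;> simp

end artinianCont

section transport

variable [IsLocalRing 𝒪]
variable {𝒟 : ∀ ⦃A : Type⦄ [CommRing A] [IsLocalRing A] [Algebra 𝒪 A], GaloisRepAdic A → Prop}

theorem type_congr {A : Type} [CommRing A] [IsLocalRing A] [Algebra 𝒪 A] {r r' : GQ →* M2 A}
    (h : r = r') (hr : MatCont r) (hr' : MatCont r') (ht : 𝒟 (ofMat r hr)) :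
    𝒟 (ofMat r' hr') := by
  subst h
  exact ht

/-- Type `𝒟` is preserved by pushing a matrix representation forward (Artinian test algebras). -/
theorem type_mapMat (h𝒟 : GaloisRep.IsDeformationCondition 𝒪 𝒟)
    {A B : Type} [CommRing A] [IsLocalRing A] [Algebra 𝒪 A] [CommRing B] [IsLocalRing B]
    [Algebra 𝒪 B] (hA : GaloisRep.IsArtinianTestAlgebra 𝒪 A)
    (hB : GaloisRep.IsArtinianTestAlgebra 𝒪 B) (f : A →ₐ[𝒪] B)
    (hf : IsLocalHom (f : A →+* B)) {r : GQ →* M2 A} (hr : MatCont r)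
    (hr' : MatCont (mapMat (f : A →+* B) r)) (ht : 𝒟 (ofMat r hr)) :
    𝒟 (ofMat (mapMat (f : A →+* B) r) hr') :=
  h𝒟.of_isEquiv hB (isEquiv_baseChangeAlong_ofMat (f : A →+* B) hf hr)
    (h𝒟.baseChangeAlong hA hB f hf ht)

/-- Type `𝒟` descends along injective maps of Artinian test algebras. -/
theorem type_of_mapMat_injective (h𝒟 : GaloisRep.IsDeformationCondition 𝒪 𝒟)
    {A B : Type} [CommRing A] [IsLocalRing A] [Algebra 𝒪 A] [CommRing B] [IsLocalRing B]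
    [Algebra 𝒪 B] (hA : GaloisRep.IsArtinianTestAlgebra 𝒪 A)
    (hB : GaloisRep.IsArtinianTestAlgebra 𝒪 B) (f : A →ₐ[𝒪] B)
    (hf : IsLocalHom (f : A →+* B)) (hinj : Function.Injective f) {r : GQ →* M2 A}
    (hr : MatCont r) (hr' : MatCont (mapMat (f : A →+* B) r))
    (ht : 𝒟 (ofMat (mapMat (f : A →+* B) r) hr')) : 𝒟 (ofMat r hr) := by
  refine h𝒟.of_baseChangeAlong_injective hA hB f hf hinj ?_
  obtain ⟨e⟩ := isEquiv_baseChangeAlong_ofMat (f : A →+* B) hf hr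
  exact h𝒟.of_isEquiv hB ⟨e.symm⟩ ht

end transport

section good

variable [IsLocalRing 𝒪]
variable {𝒟 : ∀ ⦃A : Type⦄ [CommRing A] [IsLocalRing A] [Algebra 𝒪 A], GaloisRepAdic A → Prop}
variable {rt E}

theorem comap_maximalIdeal_of_isGoodIdeal {𝔞 : Ideal (RpreE E)} (h : IsGoodIdeal rt E 𝒟 𝔞) :
    letI := h.choose
    (maximalIdeal (RpreE E ⧸ 𝔞)).comap (Ideal.Quotient.mk 𝔞) = mP rt E := by
  obtain ⟨hloc, htest, hnl⟩ := h
  exact comap_maximalIdeal_eq_mP rt E htest.isLocalHom (Ideal.Quotient.mkₐ 𝒪 𝔞) hnl.lift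

theorem mP_ne_top_of_isGoodIdeal {𝔞 : Ideal (RpreE E)} (h : IsGoodIdeal rt E 𝒟 𝔞) :
    mP rt E ≠ ⊤ := by
  obtain ⟨hloc, htest, hnl⟩ := id h
  rw [← comap_maximalIdeal_of_isGoodIdeal h]
  exact comap_maximalIdeal_ne_top 𝔞

theorem isLocalAt_of_isGoodIdeal {𝔞 : Ideal (RpreE E)} (h : IsGoodIdeal rt E 𝒟 𝔞) :
    IsLocalAt (mP rt E) 𝔞 := by
  obtain ⟨hloc, htest, hnl⟩ := id h
  rw [← comap_maximalIdeal_of_isGoodIdeal h]
  exact isLocalAt_comap_maximalIdeal 𝔞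

theorem le_mP_of_isGoodIdeal {𝔞 : Ideal (RpreE E)} (h : IsGoodIdeal rt E 𝒟 𝔞) : 𝔞 ≤ mP rt E :=
  (isLocalAt_of_isGoodIdeal h).le

/-- For a good ideal, membership of `mk x` in the maximal ideal of the quotient. -/
theorem mk_mem_maximalIdeal_iff_of_isGoodIdeal {𝔞 : Ideal (RpreE E)}
    (h : IsGoodIdeal rt E 𝒟 𝔞) [IsLocalRing (RpreE E ⧸ 𝔞)] (x : RpreE E) :
    Ideal.Quotient.mk 𝔞 x ∈ maximalIdeal (RpreE E ⧸ 𝔞) ↔ x ∈ mP rt E :=
  (isLocalAt_of_isGoodIdeal h).mk_mem_maximalIdeal_iff (mP_ne_top_of_isGoodIdeal h) x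

/-- The lifting property of the tautological representation modulo any ideal local at `mP`. -/
theorem isLiftRt_rQuot {𝔞 : Ideal (RpreE E)} [IsLocalRing (RpreE E ⧸ 𝔞)]
    (hloc : IsLocalAt (mP rt E) 𝔞) (hne : mP rt E ≠ ⊤) : IsLiftRt rt (rQuot E 𝔞) := by
  intro g a b
  have : rQuot E 𝔞 g a b - algebraMap 𝒪 (RpreE E ⧸ 𝔞) (rt g a b) =
      Ideal.Quotient.mk 𝔞 (gen 𝒪 E g a b - algebraMap 𝒪 (RpreE E) (rt g a b)) := by
    rw [map_sub]; rfl
  rw [this, hloc.mk_mem_maximalIdeal_iff hne]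
  exact gen_sub_mem_mP rt E g a b

/-- Good ideals are closed under binary intersections. -/
theorem isGoodIdeal_inf (h𝒟 : GaloisRep.IsDeformationCondition 𝒪 𝒟) {𝔞 𝔟 : Ideal (RpreE E)}
    (ha : IsGoodIdeal rt E 𝒟 𝔞) (hb : IsGoodIdeal rt E 𝒟 𝔟) : IsGoodIdeal rt E 𝒟 (𝔞 ⊓ 𝔟) := by
  have hne := mP_ne_top_of_isGoodIdeal ha
  have hla := isLocalAt_of_isGoodIdeal ha
  have hlb := isLocalAt_of_isGoodIdeal hb
  obtain ⟨hlocA, htestA, hnlA⟩ := ha
  obtain ⟨hlocB, htestB, hnlB⟩ := hb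
  have hlinf : IsLocalAt (mP rt E) (𝔞 ⊓ 𝔟) := hla.inf hlb
  have hlsup : IsLocalAt (mP rt E) (𝔞 ⊔ 𝔟) := hla.sup hlb
  have hlocI : IsLocalRing (RpreE E ⧸ (𝔞 ⊓ 𝔟)) := hlinf.isLocalRing hne
  have hlocS : IsLocalRing (RpreE E ⧸ (𝔞 ⊔ 𝔟)) := hlsup.isLocalRing hne
  have : IsArtinianRing (RpreE E ⧸ 𝔞) := htestA.isArtinian
  have : IsArtinianRing (RpreE E ⧸ 𝔟) := htestB.isArtinian
  have : IsArtinianRing (RpreE E ⧸ (𝔞 ⊓ 𝔟)) := isArtinianRing_quotient_inf 𝔞 𝔟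
  have : IsArtinianRing (RpreE E ⧸ (𝔞 ⊔ 𝔟)) :=
    isArtinianRing_quotient_of_le (le_sup_left : 𝔞 ≤ 𝔞 ⊔ 𝔟)
  have hgm := isGoodMax_mP rt E hne
  have htestI : GaloisRep.IsArtinianTestAlgebra 𝒪 (RpreE E ⧸ (𝔞 ⊓ 𝔟)) :=
    isArtinianTestAlgebra_of_isLocalAt hgm hlinf
  have htestS : GaloisRep.IsArtinianTestAlgebra 𝒪 (RpreE E ⧸ (𝔞 ⊔ 𝔟)) :=
    isArtinianTestAlgebra_of_isLocalAt hgm hlsup
  have hpL : IsLocalHom ((prL 𝒪 𝔞 𝔟 : _ →ₐ[𝒪] _) : RpreE E ⧸ (𝔞 ⊓ 𝔟) →+* RpreE E ⧸ 𝔞) :=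
    IsLocalHom.of_surjective _ (prL_surjective 𝒪 𝔞 𝔟)
  have hpR : IsLocalHom ((prR 𝒪 𝔞 𝔟 : _ →ₐ[𝒪] _) : RpreE E ⧸ (𝔞 ⊓ 𝔟) →+* RpreE E ⧸ 𝔟) :=
    IsLocalHom.of_surjective _ (prR_surjective 𝒪 𝔞 𝔟)
  -- continuity
  have hcont : MatCont (rQuot E (𝔞 ⊓ 𝔟)) := by
    rw [matCont_iff_finiteLevel]
    refine finiteLevel_pair
      ((prL 𝒪 𝔞 𝔟 : _ →ₐ[𝒪] _) : RpreE E ⧸ (𝔞 ⊓ 𝔟) →+* RpreE E ⧸ 𝔞)
      ((prR 𝒪 𝔞 𝔟 : _ →ₐ[𝒪] _) : RpreE E ⧸ (𝔞 ⊓ 𝔟) →+* RpreE E ⧸ 𝔟)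
      (pr_injective 𝒪 𝔞 𝔟) ?_ ?_
    · exact (matCont_iff_finiteLevel _).mp hnlA.cont
    · exact (matCont_iff_finiteLevel _).mp hnlB.cont
  refine ⟨hlocI, htestI, ⟨isLiftRt_rQuot hlinf hne, rQuot_isNorm E _, hcont, ?_⟩⟩
  -- type
  refine h𝒟.of_fibreProduct htestA htestB htestS htestI (inL 𝒪 𝔞 𝔟) (inR 𝒪 𝔞 𝔟)
    (prL 𝒪 𝔞 𝔟) (prR 𝒪 𝔞 𝔟) hpL hpR (inL_comp_prL 𝒪 𝔞 𝔟) (pr_injective 𝒪 𝔞 𝔟)
    (exists_pr_eq 𝒪 𝔞 𝔟) ?_ ?_
  · obtain ⟨e⟩ := isEquiv_baseChangeAlong_ofMat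
      ((prL 𝒪 𝔞 𝔟 : _ →ₐ[𝒪] _) : RpreE E ⧸ (𝔞 ⊓ 𝔟) →+* RpreE E ⧸ 𝔞) hpL hcont
    exact h𝒟.of_isEquiv htestA ⟨e.symm⟩ hnlA.type
  · obtain ⟨e⟩ := isEquiv_baseChangeAlong_ofMat
      ((prR 𝒪 𝔞 𝔟 : _ →ₐ[𝒪] _) : RpreE E ⧸ (𝔞 ⊓ 𝔟) →+* RpreE E ⧸ 𝔟) hpR hcont
    exact h𝒟.of_isEquiv htestB ⟨e.symm⟩ hnlB.type

/-- Good ideals are upward closed among the ideals contained in `mP rt E`. -/
theorem isGoodIdeal_of_le (h𝒟 : GaloisRep.IsDeformationCondition 𝒪 𝒟) {𝔞 𝔟 : Ideal (RpreE E)}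
    (ha : IsGoodIdeal rt E 𝒟 𝔞) (hab : 𝔞 ≤ 𝔟) (hb : 𝔟 ≤ mP rt E) : IsGoodIdeal rt E 𝒟 𝔟 := by
  have hne := mP_ne_top_of_isGoodIdeal ha
  have hla := isLocalAt_of_isGoodIdeal ha
  obtain ⟨hlocA, htestA, hnlA⟩ := ha
  have hlb : IsLocalAt (mP rt E) 𝔟 := hla.mono hab hb
  have hlocB : IsLocalRing (RpreE E ⧸ 𝔟) := hlb.isLocalRing hne
  have : IsArtinianRing (RpreE E ⧸ 𝔞) := htestA.isArtinian
  have : IsArtinianRing (RpreE E ⧸ 𝔟) := isArtinianRing_quotient_of_le hab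
  have htestB : GaloisRep.IsArtinianTestAlgebra 𝒪 (RpreE E ⧸ 𝔟) :=
    isArtinianTestAlgebra_of_isLocalAt (isGoodMax_mP rt E hne) hlb
  have hf : IsLocalHom ((Ideal.Quotient.factorₐ 𝒪 hab : RpreE E ⧸ 𝔞 →ₐ[𝒪] RpreE E ⧸ 𝔟) :
      RpreE E ⧸ 𝔞 →+* RpreE E ⧸ 𝔟) :=
    IsLocalHom.of_surjective _ (Ideal.Quotient.factor_surjective hab)
  have hcont : MatCont (rQuot E 𝔟) := matCont_mapMat _ hf hnlA.cont
  refine ⟨hlocB, htestB, ⟨isLiftRt_rQuot hlb hne, rQuot_isNorm E _, hcont, ?_⟩⟩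
  exact type_mapMat h𝒟 htestA htestB (Ideal.Quotient.factorₐ 𝒪 hab) hf hnlA.cont hcont hnlA.type

/-- In particular `𝔞 ⊔ mP ^ n` is good for `n ≥ 1`. -/
theorem isGoodIdeal_sup_pow (h𝒟 : GaloisRep.IsDeformationCondition 𝒪 𝒟) {𝔞 : Ideal (RpreE E)}
    (ha : IsGoodIdeal rt E 𝒟 𝔞) {n : ℕ} (hn : 1 ≤ n) : IsGoodIdeal rt E 𝒟 (𝔞 ⊔ mP rt E ^ n) :=
  isGoodIdeal_of_le h𝒟 ha le_sup_left
    (sup_le (le_mP_of_isGoodIdeal ha) (Ideal.pow_le_self (by omega)))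

/-- The ideal `mP rt E` itself is good as soon as some good ideal exists. -/
theorem isGoodIdeal_mP (h𝒟 : GaloisRep.IsDeformationCondition 𝒪 𝒟) {𝔞 : Ideal (RpreE E)}
    (ha : IsGoodIdeal rt E 𝒟 𝔞) : IsGoodIdeal rt E 𝒟 (mP rt E) :=
  isGoodIdeal_of_le h𝒟 ha (le_mP_of_isGoodIdeal ha) le_rfl

/-- A power of `mP` is contained in every good ideal. -/
theorem exists_mP_pow_le_of_isGoodIdeal {𝔞 : Ideal (RpreE E)} (ha : IsGoodIdeal rt E 𝒟 𝔞) :
    ∃ n : ℕ, mP rt E ^ n ≤ 𝔞 := by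
  have hcomap := comap_maximalIdeal_of_isGoodIdeal ha
  obtain ⟨hloc, htest, hnl⟩ := ha
  have : IsArtinianRing (RpreE E ⧸ 𝔞) := htest.isArtinian
  obtain ⟨n, hn⟩ := IsArtinianRing.isNilpotent_jacobson_bot (R := RpreE E ⧸ 𝔞)
  rw [jacobson_eq_maximalIdeal _ bot_ne_top] at hn
  refine ⟨n, ?_⟩
  have h1 : (mP rt E ^ n).map (Ideal.Quotient.mk 𝔞) ≤ maximalIdeal (RpreE E ⧸ 𝔞) ^ n := by
    rw [Ideal.map_pow]
    refine Ideal.pow_right_mono ?_ n
    rw [Ideal.map_le_iff_le_comap]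
    exact hcomap.ge
  rw [hn, Ideal.zero_eq_bot, le_bot_iff, Ideal.map_eq_bot_iff_le_ker, Ideal.mk_ker] at h1
  exact h1

/-- The kernel of the classifying map of a good lift over an Artinian test algebra is a good
ideal, and the classifying map factors through an injection of the quotient. -/
theorem isGoodIdeal_ker [Finite (ResidueField 𝒪)] (h𝒟 : GaloisRep.IsDeformationCondition 𝒪 𝒟)
    {B : Type} [CommRing B] [IsLocalRing B] [Algebra 𝒪 B]
    (hB : GaloisRep.IsArtinianTestAlgebra 𝒪 B) (s : GQ →* M2 B) (hs : IsGoodLift rt E 𝒟 s) :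
    IsGoodIdeal rt E 𝒟 (RingHom.ker (Presentation.lift s hs.norm : RpreE E →ₐ[𝒪] B)) ∧
      ∃ ι : RpreE E ⧸ RingHom.ker (Presentation.lift s hs.norm : RpreE E →ₐ[𝒪] B) →ₐ[𝒪] B,
        Function.Injective ι ∧
        IsLocalHom (ι : RpreE E ⧸ RingHom.ker (Presentation.lift s hs.norm : RpreE E →ₐ[𝒪] B)
          →+* B) ∧
        ι.comp (Ideal.Quotient.mkₐ 𝒪
          (RingHom.ker (Presentation.lift s hs.norm : RpreE E →ₐ[𝒪] B))) =
          Presentation.lift s hs.norm := by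
  set φ : RpreE E →ₐ[𝒪] B := Presentation.lift s hs.norm with hφdef
  set 𝔞 : Ideal (RpreE E) := RingHom.ker φ with h𝔞
  have hrep : repE E φ = s := repE_lift E s hs.norm
  have hcomap : (maximalIdeal B).comap (φ : RpreE E →+* B) = mP rt E :=
    comap_maximalIdeal_eq_mP rt E hB.isLocalHom φ (by rw [hrep]; exact hs.lift)
  have hne : mP rt E ≠ ⊤ := by
    rw [← hcomap]
    exact (Ideal.comap_isPrime _ _).ne_top
  have h𝔞le : 𝔞 ≤ mP rt E := by
    rw [← hcomap]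
    intro x hx
    rw [Ideal.mem_comap, RingHom.coe_coe, (RingHom.mem_ker).mp hx]
    exact Ideal.zero_mem _
  have : IsArtinianRing B := hB.isArtinian
  obtain ⟨n, hn⟩ := IsArtinianRing.isNilpotent_jacobson_bot (R := B)
  rw [jacobson_eq_maximalIdeal _ bot_ne_top] at hn
  have hlocAt : IsLocalAt (mP rt E) 𝔞 := by
    refine isLocalAt_of_nilpotent rt E h𝔞le fun x hx => ⟨n, ?_⟩
    rw [← hcomap, Ideal.mem_comap, RingHom.coe_coe] at hx
    rw [h𝔞, RingHom.mem_ker, map_pow]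
    have := Ideal.pow_mem_pow hx n
    rwa [hn, Ideal.zero_eq_bot, Ideal.mem_bot] at this
  have hloc : IsLocalRing (RpreE E ⧸ 𝔞) := hlocAt.isLocalRing hne
  -- the injection
  let ι : RpreE E ⧸ 𝔞 →ₐ[𝒪] B := Ideal.kerLiftAlg φ
  have hιinj : Function.Injective ι := Ideal.kerLiftAlg_injective φ
  have hιcomp : ι.comp (Ideal.Quotient.mkₐ 𝒪 𝔞) = φ := by
    ext x
    rfl
  -- finiteness
  have : Finite (ResidueField B) := by
    have hlh : IsLocalHom (algebraMap 𝒪 B) := hB.isLocalHom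
    refine Finite.of_surjective (IsLocalRing.ResidueField.map (algebraMap 𝒪 B)) fun y => ?_
    obtain ⟨o, ho⟩ := hB.residue_surjective y
    exact ⟨IsLocalRing.residue 𝒪 o, by rw [← ho]; rfl⟩
  have : Finite B := finite_of_isArtinianRing_of_finite_residueField B
  have : Finite (RpreE E ⧸ 𝔞) := Finite.of_injective ι hιinj
  have : IsArtinianRing (RpreE E ⧸ 𝔞) := inferInstance
  have htest : GaloisRep.IsArtinianTestAlgebra 𝒪 (RpreE E ⧸ 𝔞) :=
    isArtinianTestAlgebra_of_isLocalAt (isGoodMax_mP rt E hne) hlocAt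
  have hιloc : IsLocalHom (ι : RpreE E ⧸ 𝔞 →+* B) := by
    refine ⟨fun y hy => ?_⟩
    obtain ⟨x, rfl⟩ := Ideal.Quotient.mk_surjective y
    refine hlocAt.isUnit_mk fun hx => ?_
    rw [← hcomap, Ideal.mem_comap] at hx
    exact (IsLocalRing.mem_maximalIdeal _).mp hx hy
  have hmap : mapMat (ι : RpreE E ⧸ 𝔞 →+* B) (rQuot E 𝔞) = s := by
    rw [← hrep]
    rfl
  have hcont : MatCont (rQuot E 𝔞) := by
    rw [matCont_iff_finiteLevel]
    refine finiteLevel_of_mapMat_injective (ι : RpreE E ⧸ 𝔞 →+* B) hιinj ?_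
    rw [hmap]
    exact (matCont_iff_finiteLevel s).mp hs.cont
  refine ⟨⟨hloc, htest, ⟨isLiftRt_rQuot hlocAt hne, rQuot_isNorm E _, hcont, ?_⟩⟩,
    ι, hιinj, hιloc, hιcomp⟩
  have hcont' : MatCont (mapMat (ι : RpreE E ⧸ 𝔞 →+* B) (rQuot E 𝔞)) := by
    rw [hmap]; exact hs.cont
  refine type_of_mapMat_injective h𝒟 htest hB ι hιloc hιinj hcont hcont' ?_
  exact type_congr hmap.symm hs.cont hcont' hs.type

end good

end Fermat.Agent.S53.GoodIdeals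

end
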