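/-
S53, part A4: residual representation of a matrix representation; comparison of
`ofResidualGaloisRep` with `ofMat`.  Owner: helper25.
-/
import Fermat.Agent.S53.Defs

set_option autoImplicit false

namespace Fermat.Agent.S53

open IsLocalRing
open scoped TensorProduct

variable {A : Type} [CommRing A] [IsLocalRing A]

/-- finite level of the residue of a continuous matrix hom -/
theorem MatCont.residue_finiteLevel {r : GQ →* M2 A} (hr : MatCont r) :
    GaloisFactorsThroughFiniteLevel (mapMat (residue A) r) := by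
  obtain ⟨L, hL, h⟩ := hr 1
  refine ⟨L, hL, fun σ hσ => ?_⟩
  ext i j
  have hij := h σ hσ i j
  rw [pow_one, ← residue_eq_zero_iff] at hij
  rw [mapMat_apply, Matrix.map_apply]
  have h1 : (r σ - 1) i j = r σ i j - (1 : M2 A) i j := rfl
  rw [h1, map_sub, sub_eq_zero] at hij
  rw [hij]
  by_cases hd : i = j
  · subst hd; simp
  · simp [Matrix.one_apply_ne hd]

/-- The comparison linear equivalence `κ ⊗[A] (Fin 2 → A) ≃ₗ[κ] (Fin 2 → κ)`. -/
noncomputable def resPiEquiv (A : Type) [CommRing A] [IsLocalRing A] :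
    (ResidueField A ⊗[A] (Fin 2 → A)) ≃ₗ[ResidueField A] (Fin 2 → ResidueField A) :=
  TensorProduct.piScalarRight A (ResidueField A) (ResidueField A) (Fin 2)

lemma resPiEquiv_tmul (c : ResidueField A) (v : Fin 2 → A) (i : Fin 2) :
    resPiEquiv A (c ⊗ₜ[A] v) i = residue A (v i) * c := by
  simp [resPiEquiv, Algebra.smul_def]

/-- Compatibility of `resPiEquiv` with the action of a matrix. -/
lemma resPiEquiv_baseChange_toLin' (M : M2 A) (x : ResidueField A ⊗[A] (Fin 2 → A)) :
    resPiEquiv A ((Matrix.toLin' M).baseChange (ResidueField A) x) =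
      (M.map (residue A)).mulVec (resPiEquiv A x) := by
  induction x using TensorProduct.induction_on with
  | zero => simp
  | tmul c v =>
    rw [LinearMap.baseChange_tmul]
    funext i
    rw [resPiEquiv_tmul, Matrix.toLin'_apply]
    simp only [Matrix.mulVec, dotProduct, Matrix.map_apply, map_sum, map_mul, Finset.sum_mul]
    refine Finset.sum_congr rfl fun j _ => ?_
    rw [resPiEquiv_tmul]
    ring
  | add x y hx hy =>
    rw [map_add, map_add, hx, hy, map_add, Matrix.mulVec_add]

/-- A4. The residual representation of a matrix representation. -/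
theorem ofMat_residual_isEquiv (r : GQ →* M2 A) (hr : MatCont r) :
    (ofMat r hr).residual.IsEquiv (ofMatRes (mapMat (residue A) r) hr.residue_finiteLevel) :=
  ⟨⟨resPiEquiv A, fun σ x => resPiEquiv_baseChange_toLin' (r σ) x⟩⟩

/-- A4'. `IsEquiv` passes to residual representations. -/
theorem residual_isEquiv_of_isEquiv {ρ₁ ρ₂ : GaloisRepAdic A} (h : ρ₁.IsEquiv ρ₂) :
    ρ₁.residual.IsEquiv ρ₂.residual := h.elim fun e => ⟨e.residual⟩

/-- A4''. over a field, a matrix hom of finite level is adically continuous. -/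
theorem matCont_of_finiteLevel {k : Type} [Field k] {r : GQ →* M2 k}
    (hr : GaloisFactorsThroughFiniteLevel r) : MatCont r := by
  intro n
  obtain ⟨L, hL, h⟩ := hr
  refine ⟨L, hL, fun σ hσ i j => ?_⟩
  rw [h σ hσ, sub_self]
  exact Ideal.zero_mem _

/-- A4''. over a field, `ofResidualGaloisRep (ofMatRes r hr)` is `ofMat r _`. -/
theorem ofResidualGaloisRep_ofMatRes_isEquiv {k : Type} [Field k] (r : GQ →* M2 k)
    (hr : GaloisFactorsThroughFiniteLevel r) :
    (GaloisRepAdic.ofResidualGaloisRep (ofMatRes r hr)).IsEquiv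
      (ofMat r (matCont_of_finiteLevel hr)) :=
  ⟨⟨LinearEquiv.refl k (Fin 2 → k), fun _ _ => rfl⟩⟩

/-- `ofResidualGaloisRep` respects `IsEquiv`. -/
theorem ofResidualGaloisRep_isEquiv {k : Type} [Field k] {ρ₁ ρ₂ : ResidualGaloisRep k}
    (h : ρ₁.IsEquiv ρ₂) :
    (GaloisRepAdic.ofResidualGaloisRep ρ₁).IsEquiv (GaloisRepAdic.ofResidualGaloisRep ρ₂) :=
  h.elim fun e => ⟨⟨e.toLinearEquiv, e.map_apply⟩⟩

end Fermat.Agent.S53
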