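/-
S53 helper (owner: helper31): BURNSIDE for an absolutely irreducible 2-dimensional residual
representation: the image of the Galois group spans `End_k V` (and, in any basis, `M₂(k)`).
By hand for `2 × 2` matrices (trace form + the identity `Z X Z = tr(Z X) Z - det(Z) adj(X)`),
then descent of the span from the algebraic closure to `k`.
Everything lives in `Fermat.Agent.S53.Burnside`.
-/
import Mathlib
import Fermat.Prelude.Def_GaloisRep_Residual

set_option autoImplicit false

namespace Fermat.Agent.S53.Burnside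


open Matrix

section matrixBurnside

variable {K : Type*} [Field K]

/-- Key `2 × 2` identity: `Z X Z = tr(Z X) Z - det(Z) adj(X)`. -/
lemma mul_mul_self_fin_two (Z X : Matrix (Fin 2) (Fin 2) K) :
    Z * X * Z = (Z * X).trace • Z - Z.det • X.adjugate := by
  ext i j
  fin_cases i <;> fin_cases j <;>
    simp [Matrix.mul_apply, Fin.sum_univ_two, Matrix.trace, Matrix.det_fin_two,
      Matrix.adjugate_fin_two] <;> ring

lemma eq_sum_single_fin_two (X : Matrix (Fin 2) (Fin 2) K) :
    X = X 0 0 • Matrix.single 0 0 (1 : K) + X 0 1 • Matrix.single 0 1 (1 : K)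
      + X 1 0 • Matrix.single 1 0 (1 : K) + X 1 1 • Matrix.single 1 1 (1 : K) := by
  ext i j
  fin_cases i <;> fin_cases j <;> simp [Matrix.single]

/-- A linear functional on `2 × 2` matrices is `X ↦ tr (Z X)`. -/
lemma exists_trace_repr (f : Matrix (Fin 2) (Fin 2) K →ₗ[K] K) :
    ∃ Z : Matrix (Fin 2) (Fin 2) K, ∀ X, f X = (Z * X).trace := by
  refine ⟨Matrix.of fun i j => f (Matrix.single j i 1), fun X => ?_⟩
  conv_lhs => rw [eq_sum_single_fin_two X]
  simp only [map_add, map_smul, smul_eq_mul, Fin.sum_univ_two, Matrix.trace, Matrix.diag,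
    Matrix.mul_apply, Matrix.of_apply]
  ring

/-- Two vectors of `K²` killed by a common nonzero row are proportional. -/
lemma exists_smul_eq_of_row {a b : K} (hab : a ≠ 0 ∨ b ≠ 0) {u y : Fin 2 → K} (hu : u ≠ 0)
    (hau : a * u 0 + b * u 1 = 0) (hay : a * y 0 + b * y 1 = 0) : ∃ c : K, y = c • u := by
  have hdet : y 0 * u 1 - y 1 * u 0 = 0 := by
    rcases hab with ha | hb
    · have : a * (y 0 * u 1 - y 1 * u 0) = 0 := by linear_combination u 1 * hay - y 1 * hau
      exact (mul_eq_zero.mp this).resolve_left ha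
    · have : b * (y 0 * u 1 - y 1 * u 0) = 0 := by linear_combination y 0 * hau - u 0 * hay
      exact (mul_eq_zero.mp this).resolve_left hb
  have hu' : u 0 ≠ 0 ∨ u 1 ≠ 0 := by
    by_contra h
    rw [not_or, not_not, not_not] at h
    apply hu
    funext i
    fin_cases i
    · exact h.1
    · exact h.2
  rcases hu' with h0 | h1
  · refine ⟨y 0 / u 0, ?_⟩
    funext i
    fin_cases i
    · simp [h0]
    · simp only [Fin.mk_one, Pi.smul_apply, smul_eq_mul]
      field_simp
      linear_combination -hdet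
  · refine ⟨y 1 / u 1, ?_⟩
    funext i
    fin_cases i
    · simp only [Fin.zero_eta, Pi.smul_apply, smul_eq_mul]
      field_simp
      linear_combination hdet
    · simp [h1]

/-- If `Z ≠ 0` is singular and `tr (Z X) = 0` on a submonoid `S` of `M₂(K)`, then `S` has a
common eigenvector. -/
lemma exists_common_eigenvector_of_singular (S : Submonoid (Matrix (Fin 2) (Fin 2) K))
    (Z : Matrix (Fin 2) (Fin 2) K) (hZ : Z ≠ 0) (hdet : Z.det = 0)
    (htr : ∀ X ∈ S, (Z * X).trace = 0) :
    ∃ v : Fin 2 → K, v ≠ 0 ∧ ∀ X ∈ S, ∃ c : K, X *ᵥ v = c • v := by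
  have hZXZ : ∀ X ∈ S, Z * X * Z = 0 := fun X hX => by
    rw [mul_mul_self_fin_two, htr X hX, hdet, zero_smul, zero_smul, sub_zero]
  obtain ⟨i, j, hij⟩ : ∃ i j, Z i j ≠ 0 := by
    by_contra h
    refine hZ (Matrix.ext fun i j => ?_)
    by_contra hne
    exact h ⟨i, j, hne⟩
  set u : Fin 2 → K := Z *ᵥ (Pi.single j 1) with hu_def
  have hu_apply : ∀ i', u i' = Z i' j := fun i' => by
    simp [hu_def]
  have hu : u ≠ 0 := fun h => hij (by rw [← hu_apply, h]; rfl)
  have hker : ∀ X ∈ S, Z *ᵥ (X *ᵥ u) = 0 := fun X hX => by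
    rw [hu_def, Matrix.mulVec_mulVec, Matrix.mulVec_mulVec, hZXZ X hX,
      Matrix.zero_mulVec]
  have hrow : Z i 0 ≠ 0 ∨ Z i 1 ≠ 0 := by
    fin_cases j
    · exact Or.inl hij
    · exact Or.inr hij
  have hZu : Z *ᵥ u = 0 := by simpa using hker 1 S.one_mem
  have hrow_u : Z i 0 * u 0 + Z i 1 * u 1 = 0 := by
    have := congrFun hZu i
    simpa [Matrix.mulVec, dotProduct, Fin.sum_univ_two] using this
  refine ⟨u, hu, fun X hX => ?_⟩
  have hrow_y : Z i 0 * (X *ᵥ u) 0 + Z i 1 * (X *ᵥ u) 1 = 0 := by
    have := congrFun (hker X hX) i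
    simpa [Matrix.mulVec, dotProduct, Fin.sum_univ_two] using this
  exact exists_smul_eq_of_row hrow hu hrow_u hrow_y

/-- **Burnside for `2 × 2` matrices**: a submonoid of `M₂(K)`, `K` algebraically closed, without
common eigenvector spans `M₂(K)`. -/
theorem span_eq_top_of_no_common_eigenvector [IsAlgClosed K]
    (S : Submonoid (Matrix (Fin 2) (Fin 2) K))
    (h : ∀ v : Fin 2 → K, v ≠ 0 → ¬ ∀ X ∈ S, ∃ c : K, X *ᵥ v = c • v) :
    Submodule.span K (S : Set (Matrix (Fin 2) (Fin 2) K)) = ⊤ := by
  by_contra hne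
  obtain ⟨f, hf0, hf⟩ := Submodule.exists_le_ker_of_lt_top _ (lt_top_iff_ne_top.mpr hne)
  obtain ⟨Z, hZ⟩ := exists_trace_repr f
  have hZ0 : Z ≠ 0 := by
    rintro rfl
    apply hf0
    ext X
    simp [hZ]
  have htr : ∀ X ∈ S, (Z * X).trace = 0 := fun X hX => by
    rw [← hZ]
    exact hf (Submodule.subset_span hX)
  by_cases hdet : Z.det = 0
  · obtain ⟨v, hv, hv'⟩ := exists_common_eigenvector_of_singular S Z hZ0 hdet htr
    exact h v hv hv'
  · -- every element of `S` is scalar
    have hscal : ∀ X ∈ S, ∃ c : K, X = Matrix.scalar (Fin 2) c := by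
      intro X hX
      obtain ⟨c, hc⟩ := IsAlgClosed.exists_root X.charpoly (by
        rw [Matrix.charpoly_degree_eq_dim]; simp)
      have hc' : (Matrix.scalar (Fin 2) c - X).det = 0 := by
        rw [← Matrix.eval_charpoly]; exact hc
      set Z' := (Matrix.scalar (Fin 2) c - X) * Z with hZ'
      have hZ'det : Z'.det = 0 := by rw [hZ', Matrix.det_mul, hc', zero_mul]
      have hZ'tr : ∀ Y ∈ S, (Z' * Y).trace = 0 := by
        intro Y hY
        have h1 : (Z * Y).trace = 0 := htr Y hY
        have h2 : (Z * (Y * X)).trace = 0 := htr _ (S.mul_mem hY hX)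
        have h3 : (X * Z * Y).trace = (Z * (Y * X)).trace := by
          rw [Matrix.trace_mul_cycle, Matrix.trace_mul_cycle, mul_assoc]
        rw [hZ', Matrix.sub_mul, Matrix.sub_mul, Matrix.trace_sub, h3, h2, sub_zero]
        have : (Matrix.scalar (Fin 2) c * Z * Y) = c • (Z * Y) := by
          rw [mul_assoc, Matrix.scalar_apply, ← Matrix.smul_eq_diagonal_mul]
        rw [this, Matrix.trace_smul, h1, smul_zero]
      have hZ'0 : Z' = 0 := by
        by_contra hZ'ne
        obtain ⟨v, hv, hv'⟩ := exists_common_eigenvector_of_singular S Z' hZ'ne hZ'det hZ'tr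
        exact h v hv hv'
      have hunit : IsUnit Z.det := isUnit_iff_ne_zero.mpr hdet
      have : Matrix.scalar (Fin 2) c - X = 0 := by
        have := congrArg (· * Z⁻¹) hZ'0
        simpa [hZ', mul_assoc, Matrix.mul_nonsing_inv Z hunit] using this
      exact ⟨c, (sub_eq_zero.mp this).symm⟩
    refine h (Pi.single 0 1) (by
      intro h0
      have := congrFun h0 0
      simp at this) fun X hX => ?_
    obtain ⟨c, rfl⟩ := hscal X hX
    exact ⟨c, by
      rw [Matrix.scalar_apply, ← Matrix.smul_one_eq_diagonal, Matrix.smul_mulVec, Matrix.one_mulVec]⟩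

end matrixBurnside



section descent

variable {k K : Type*} [Field k] [Field K] [Algebra k K]

/-- If the `K`-span of the base change of a set of `2 × 2` matrices over `k` is everything,
then so is its `k`-span. -/
theorem span_eq_top_of_span_map_eq_top (s : Set (Matrix (Fin 2) (Fin 2) k))
    (h : Submodule.span K ((fun X : Matrix (Fin 2) (Fin 2) k => X.map (algebraMap k K)) '' s) = ⊤) :
    Submodule.span k s = ⊤ := by
  by_contra hne
  obtain ⟨f, hf0, hf⟩ := Submodule.exists_le_ker_of_lt_top _ (lt_top_iff_ne_top.mpr hne)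
  obtain ⟨Z, hZ⟩ := exists_trace_repr f
  apply hf0
  -- the functional `Y ↦ tr (Z_K Y)` kills the `K`-span, hence everything
  set ZK : Matrix (Fin 2) (Fin 2) K := Z.map (algebraMap k K) with hZK
  let fK : Matrix (Fin 2) (Fin 2) K →ₗ[K] K :=
    (Matrix.traceLinearMap (Fin 2) K K).comp (LinearMap.mulLeft K ZK)
  have hfK : ∀ Y, fK Y = (ZK * Y).trace := fun Y => rfl
  have hle : Submodule.span K
      ((fun X : Matrix (Fin 2) (Fin 2) k => X.map (algebraMap k K)) '' s) ≤ LinearMap.ker fK := by
    rw [Submodule.span_le]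
    rintro _ ⟨X, hX, rfl⟩
    have h0 : (Z * X).trace = 0 := by
      rw [← hZ]; exact hf (Submodule.subset_span hX)
    show fK _ = 0
    rw [hfK, hZK, ← Matrix.map_mul, ← AddMonoidHom.map_trace, h0, map_zero]
  rw [h, top_le_iff] at hle
  have hZK0 : ZK = 0 := by
    ext i j
    have : fK (Matrix.single j i 1) = 0 := by
      have : Matrix.single j i (1 : K) ∈ LinearMap.ker fK := by rw [hle]; trivial
      exact this
    rw [hfK, Matrix.trace_mul_single] at this
    simpa using this
  have hZ0 : Z = 0 := by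
    ext i j
    have := congrFun (congrFun hZK0 i) j
    simpa [hZK] using this
  ext X
  simp [hZ, hZ0]

end descent



open scoped TensorProduct

section residual

variable {k : Type} [Field k]

/-- **Burnside** (matrix form): for an absolutely irreducible residual representation, the matrices
of `ρbar.ρ σ` in any basis span `M₂(k)`. -/
theorem burnside_matrix (ρbar : ResidualGaloisRep k) (habs : ρbar.IsAbsolutelyIrreducible)
    (b : Module.Basis (Fin 2) k ρbar.V) :
    Submodule.span k (Set.range fun σ => LinearMap.toMatrix b b (ρbar.ρ σ)) = ⊤ := by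
  classical
  set K := AlgebraicClosure k with hK
  -- the matrix valued hom over `K`
  let rK : (AlgebraicClosure ℚ ≃ₐ[ℚ] AlgebraicClosure ℚ) →* Matrix (Fin 2) (Fin 2) K :=
    ((algebraMap k K).mapMatrix : Matrix (Fin 2) (Fin 2) k →+* Matrix (Fin 2) (Fin 2) K).toMonoidHom.comp
      (((LinearMap.toMatrixAlgEquiv b : Module.End k ρbar.V ≃ₐ[k] Matrix (Fin 2) (Fin 2) k) :
        Module.End k ρbar.V →* Matrix (Fin 2) (Fin 2) k).comp ρbar.ρ)
  have hrK : ∀ σ, rK σ = (LinearMap.toMatrix b b (ρbar.ρ σ)).map (algebraMap k K) := fun σ => rfl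
  apply span_eq_top_of_span_map_eq_top (K := K)
  have himage : ((fun X : Matrix (Fin 2) (Fin 2) k => X.map (algebraMap k K)) ''
      (Set.range fun σ => LinearMap.toMatrix b b (ρbar.ρ σ))) = (MonoidHom.mrange rK : Set _) := by
    ext Y
    simp only [Set.mem_image, Set.mem_range, exists_exists_eq_and, MonoidHom.coe_mrange, hrK]
  rw [himage]
  apply span_eq_top_of_no_common_eigenvector
  rintro v hv hev
  -- the basis of `K ⊗ V`
  let B : Module.Basis (Fin 2) K (K ⊗[k] ρbar.V) := Algebra.TensorProduct.basis K b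
  set w : K ⊗[k] ρbar.V := B.equivFun.symm v with hw
  have hwrepr : ⇑(B.repr w) = v := by
    rw [← Module.Basis.equivFun_apply, hw, LinearEquiv.apply_symm_apply]
  have hw0 : w ≠ 0 := by
    intro h0
    apply hv
    rw [← hwrepr, h0, map_zero]
    rfl
  -- `w` is an eigenvector of every `σ`
  have heig : ∀ σ, ∃ c : K, (ρbar.baseChange K).ρ σ w = c • w := by
    intro σ
    obtain ⟨c, hc⟩ := hev (rK σ) ⟨σ, rfl⟩
    refine ⟨c, ?_⟩
    apply B.repr.injective
    apply DFunLike.coe_injective
    have h1 := LinearMap.toMatrix_mulVec_repr B B ((ρbar.ρ σ).baseChange K) w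
    rw [LinearMap.toMatrix_baseChange] at h1
    have h2 : (⇑(B.repr (c • w)) : Fin 2 → K) = c • v := by
      rw [map_smul, Finsupp.coe_smul, hwrepr]
    rw [h2, ← hc, hrK, ← hwrepr]
    exact h1.symm
  -- the line spanned by `w` is stable
  have hstable : ∀ σ, ∀ x ∈ (K ∙ w : Submodule K (K ⊗[k] ρbar.V)),
      (ρbar.baseChange K).ρ σ x ∈ (K ∙ w : Submodule K (K ⊗[k] ρbar.V)) := by
    intro σ x hx
    obtain ⟨a, rfl⟩ := Submodule.mem_span_singleton.mp hx
    obtain ⟨c, hc⟩ := heig σ
    rw [map_smul, hc]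
    exact Submodule.smul_mem _ _ (Submodule.smul_mem _ _ (Submodule.mem_span_singleton_self w))
  rcases habs (K ∙ w) hstable with hbot | htop
  · exact hw0 (Submodule.span_singleton_eq_bot.mp hbot)
  · have h1 : Module.finrank K (K ∙ w : Submodule K (K ⊗[k] ρbar.V)) = 1 :=
      finrank_span_singleton hw0
    have h2 : Module.finrank K (K ⊗[k] ρbar.V) = 2 := by
      rw [Module.finrank_eq_card_basis B]; simp
    rw [htop, finrank_top, h2] at h1
    omega

/-- **Burnside**: for an absolutely irreducible residual representation, the image of the Galois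
group spans `End_k V`. -/
theorem burnside_span (ρbar : ResidualGaloisRep k) (habs : ρbar.IsAbsolutelyIrreducible) :
    Submodule.span k (Set.range ρbar.ρ) = (⊤ : Submodule k (Module.End k ρbar.V)) := by
  classical
  let b : Module.Basis (Fin 2) k ρbar.V := Module.finBasisOfFinrankEq k ρbar.V ρbar.finrank_eq
  have h := burnside_matrix ρbar habs b
  set e : Module.End k ρbar.V ≃ₗ[k] Matrix (Fin 2) (Fin 2) k := LinearMap.toMatrix b b with he
  have key : ∀ M ∈ Submodule.span k (Set.range fun σ => e (ρbar.ρ σ)),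
      e.symm M ∈ Submodule.span k (Set.range ρbar.ρ) := by
    intro M hM
    induction hM using Submodule.span_induction with
    | mem x hx =>
      obtain ⟨σ, rfl⟩ := hx
      rw [LinearEquiv.symm_apply_apply]
      exact Submodule.subset_span ⟨σ, rfl⟩
    | zero => rw [map_zero]; exact Submodule.zero_mem _
    | add x y _ _ hx hy => rw [map_add]; exact Submodule.add_mem _ hx hy
    | smul a x _ hx => rw [map_smul]; exact Submodule.smul_mem _ _ hx
  rw [eq_top_iff]
  intro T _
  have := key (e T) (by rw [h]; trivial)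
  rwa [LinearEquiv.symm_apply_apply] at this

end residual


section corollaries

variable {k : Type} [Field k]

/-- Every `2 × 2` matrix is a finite `k`-linear combination of the matrices of `ρbar.ρ σ`
(`Finsupp` form). -/
theorem exists_finsupp_sum_toMatrix_eq (ρbar : ResidualGaloisRep k)
    (habs : ρbar.IsAbsolutelyIrreducible) (b : Module.Basis (Fin 2) k ρbar.V)
    (M : Matrix (Fin 2) (Fin 2) k) :
    ∃ c : (AlgebraicClosure ℚ ≃ₐ[ℚ] AlgebraicClosure ℚ) →₀ k,
      (c.sum fun σ a => a • LinearMap.toMatrix b b (ρbar.ρ σ)) = M := by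
  have h : M ∈ Submodule.span k (Set.range fun σ => LinearMap.toMatrix b b (ρbar.ρ σ)) := by
    rw [burnside_matrix ρbar habs b]; trivial
  exact Finsupp.mem_span_range_iff_exists_finsupp.mp h

/-- Every `2 × 2` matrix is a finite `k`-linear combination of the matrices of `ρbar.ρ σ`
(`Finset` form). -/
theorem exists_finset_sum_toMatrix_eq (ρbar : ResidualGaloisRep k)
    (habs : ρbar.IsAbsolutelyIrreducible) (b : Module.Basis (Fin 2) k ρbar.V)
    (M : Matrix (Fin 2) (Fin 2) k) :
    ∃ (s : Finset (AlgebraicClosure ℚ ≃ₐ[ℚ] AlgebraicClosure ℚ))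
      (e : (AlgebraicClosure ℚ ≃ₐ[ℚ] AlgebraicClosure ℚ) → k),
      ∑ σ ∈ s, e σ • LinearMap.toMatrix b b (ρbar.ρ σ) = M := by
  obtain ⟨c, hc⟩ := exists_finsupp_sum_toMatrix_eq ρbar habs b M
  exact ⟨c.support, c, hc⟩

/-- Every endomorphism of `ρbar.V` is a finite `k`-linear combination of the `ρbar.ρ σ`. -/
theorem exists_finset_sum_eq (ρbar : ResidualGaloisRep k)
    (habs : ρbar.IsAbsolutelyIrreducible) (T : Module.End k ρbar.V) :
    ∃ (s : Finset (AlgebraicClosure ℚ ≃ₐ[ℚ] AlgebraicClosure ℚ))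
      (e : (AlgebraicClosure ℚ ≃ₐ[ℚ] AlgebraicClosure ℚ) → k),
      ∑ σ ∈ s, e σ • ρbar.ρ σ = T := by
  have h : T ∈ Submodule.span k (Set.range ρbar.ρ) := by
    rw [burnside_span ρbar habs]; trivial
  obtain ⟨c, hc⟩ := Finsupp.mem_span_range_iff_exists_finsupp.mp h
  exact ⟨c.support, c, hc⟩

end corollaries

section general

variable {G : Type*} [Monoid G] {k K : Type*} [Field k] [Field K] [Algebra k K] [IsAlgClosed K]

/-- General form: a matrix valued monoid hom `r : G →* M₂(k)` with no common eigenvector over an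
algebraically closed extension `K` has `k`-span everything. -/
theorem span_range_eq_top_of_no_common_eigenvector (r : G →* Matrix (Fin 2) (Fin 2) k)
    (h : ∀ v : Fin 2 → K, v ≠ 0 →
      ¬ ∀ g : G, ∃ c : K, (r g).map (algebraMap k K) *ᵥ v = c • v) :
    Submodule.span k (Set.range r) = ⊤ := by
  let rK : G →* Matrix (Fin 2) (Fin 2) K :=
    ((algebraMap k K).mapMatrix :
      Matrix (Fin 2) (Fin 2) k →+* Matrix (Fin 2) (Fin 2) K).toMonoidHom.comp r
  have hrK : ∀ g, rK g = (r g).map (algebraMap k K) := fun g => rfl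
  apply span_eq_top_of_span_map_eq_top (K := K)
  have himage : ((fun X : Matrix (Fin 2) (Fin 2) k => X.map (algebraMap k K)) '' (Set.range r)) =
      (MonoidHom.mrange rK : Set _) := by
    ext Y
    simp only [Set.mem_image, Set.mem_range, exists_exists_eq_and, MonoidHom.coe_mrange, hrK]
  rw [himage]
  apply span_eq_top_of_no_common_eigenvector
  rintro v hv hev
  refine h v hv fun g => ?_
  obtain ⟨c, hc⟩ := hev (rK g) ⟨g, rfl⟩
  exact ⟨c, by rw [← hrK]; exact hc⟩

end general

end Fermat.Agent.S53.Burnside
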