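/-
S53, ROUTE II slice (owner: helper31): `exists_slicePkg` via Burnside + the Hensel normal pair
(helper78's `SliceMatrix.lean`).

Normalisation: with `E_X, E_Y ∈ 𝒪[G_ℚ]` finite sums lifting elements of `k[G_ℚ]` that `rbar`
sends to `!![1,0;0,0]` and `!![0,0;1,0]`, a lift `r` is normalised if
`r(E_X)₁₀ = 0`, `r(E_Y)₀₀ = 0`, `r(E_Y)₁₀ = 1` (three linear equations in the entries).
-/
import Fermat.Agent.S53.Core
import Fermat.Agent.S53.MatrixForm
import Fermat.Agent.S53.SliceMatrix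
import Fermat.Agent.S53.Burnside

set_option autoImplicit false

namespace Fermat.Agent.S53

namespace SliceFinal

open IsLocalRing MvPolynomial Matrix

variable {𝒪 : Type} [CommRing 𝒪]

/-- `r(E) = ∑ σ ∈ s, e σ • r σ` for a formal sum `E = ∑ σ ∈ s, e σ [σ]`. -/
noncomputable def gsum (s : Finset GQ) (e : GQ → 𝒪) {A : Type} [CommRing A] [Algebra 𝒪 A]
    (r : GQ →* M2 A) : M2 A :=
  ∑ σ ∈ s, algebraMap 𝒪 A (e σ) • r σ

lemma gsum_apply (s : Finset GQ) (e : GQ → 𝒪) {A : Type} [CommRing A] [Algebra 𝒪 A]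
    (r : GQ →* M2 A) (i j : Fin 2) :
    gsum s e r i j = ∑ σ ∈ s, algebraMap 𝒪 A (e σ) * r σ i j := by
  simp only [gsum, Matrix.sum_apply, Matrix.smul_apply, smul_eq_mul]

/-- The linear polynomial `∑ σ ∈ s, e σ X (σ, i, j)`. -/
noncomputable def linPoly (s : Finset GQ) (e : GQ → 𝒪) (i j : Fin 2) : PolyRing 𝒪 :=
  ∑ σ ∈ s, C (e σ) * X (σ, i, j)

lemma evalPoly_linPoly (s : Finset GQ) (e : GQ → 𝒪) (i j : Fin 2) {A : Type} [CommRing A]
    [Algebra 𝒪 A] (r : GQ →* M2 A) :
    Presentation.evalPoly 𝒪 (fun g => r g) (linPoly s e i j) = gsum s e r i j := by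
  rw [gsum_apply, linPoly, map_sum]
  refine Finset.sum_congr rfl fun σ _ => ?_
  rw [map_mul, Presentation.evalPoly_X, ← MvPolynomial.algebraMap_eq, AlgHom.commutes]

/-- The three normalisation equations. -/
noncomputable def normEqs (sX : Finset GQ) (eX : GQ → 𝒪) (sY : Finset GQ) (eY : GQ → 𝒪) :
    Set (PolyRing 𝒪) :=
  {linPoly sX eX 1 0, linPoly sY eY 0 0, linPoly sY eY 1 0 - 1}

lemma isNorm_normEqs_iff (sX : Finset GQ) (eX : GQ → 𝒪) (sY : Finset GQ) (eY : GQ → 𝒪)
    {A : Type} [CommRing A] [Algebra 𝒪 A] (r : GQ →* M2 A) :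
    IsNorm (normEqs sX eX sY eY) r ↔ IsNormalPair (gsum sX eX r) (gsum sY eY r) := by
  unfold IsNorm Presentation.IsNormalised normEqs IsNormalPair
  constructor
  · intro h
    refine ⟨?_, ?_, ?_⟩
    · rw [← evalPoly_linPoly]; exact h _ (by simp)
    · rw [← evalPoly_linPoly]; exact h _ (by simp)
    · have := h (linPoly sY eY 1 0 - 1) (by simp)
      rw [map_sub, map_one, evalPoly_linPoly, sub_eq_zero] at this
      exact this
  · rintro ⟨h1, h2, h3⟩ p hp
    simp only [Set.mem_insert_iff, Set.mem_singleton_iff] at hp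
    rcases hp with rfl | rfl | rfl
    · rw [evalPoly_linPoly]; exact h1
    · rw [evalPoly_linPoly]; exact h2
    · rw [map_sub, map_one, evalPoly_linPoly, h3, sub_self]

/-- Conjugation commutes with `gsum`. -/
lemma gsum_conjMat (s : Finset GQ) (e : GQ → 𝒪) {A : Type} [CommRing A] [Algebra 𝒪 A]
    (γ : (M2 A)ˣ) (r : GQ →* M2 A) :
    gsum s e (conjMat γ r) = (γ : M2 A) * gsum s e r * ((γ⁻¹ : (M2 A)ˣ) : M2 A) := by
  simp only [gsum, conjMat_apply, Finset.mul_sum, Finset.sum_mul, Matrix.mul_smul,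
    Matrix.smul_mul]

/-- Intertwining relations pass to `gsum`. -/
lemma gsum_intertwine (s : Finset GQ) (e : GQ → 𝒪) {A : Type} [CommRing A] [Algebra 𝒪 A]
    (g : M2 A) (r r' : GQ →* M2 A) (h : ∀ σ, g * r σ = r' σ * g) :
    g * gsum s e r = gsum s e r' * g := by
  simp only [gsum, Finset.mul_sum, Finset.sum_mul, Matrix.mul_smul, Matrix.smul_mul, h]

variable [IsLocalRing 𝒪]

/-- Congruence of `gsum` modulo the maximal ideal for a lift. -/
lemma gsum_sub_mem (rt : GQ → M2 𝒪) (s : Finset GQ) (e : GQ → 𝒪) (T : M2 𝒪)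
    (hT : ∀ i j, (∑ σ ∈ s, e σ * rt σ i j) - T i j ∈ maximalIdeal 𝒪)
    {A : Type} [CommRing A] [IsLocalRing A] [Algebra 𝒪 A] [IsLocalHom (algebraMap 𝒪 A)]
    (r : GQ →* M2 A) (hr : IsLiftRt rt r) (i j : Fin 2) :
    gsum s e r i j - algebraMap 𝒪 A (T i j) ∈ maximalIdeal A := by
  have hmap : ∀ x : 𝒪, x ∈ maximalIdeal 𝒪 → algebraMap 𝒪 A x ∈ maximalIdeal A := by
    intro x hx
    rw [mem_maximalIdeal, mem_nonunits_iff] at hx ⊢
    exact fun hu => hx (isUnit_of_map_unit (algebraMap 𝒪 A) x hu)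
  have key : gsum s e r i j - algebraMap 𝒪 A (T i j) =
      (∑ σ ∈ s, algebraMap 𝒪 A (e σ) * (r σ i j - algebraMap 𝒪 A (rt σ i j))) +
        algebraMap 𝒪 A ((∑ σ ∈ s, e σ * rt σ i j) - T i j) := by
    rw [gsum_apply, map_sub, map_sum]
    simp only [map_mul, mul_sub, Finset.sum_sub_distrib]
    ring
  rw [key]
  refine (maximalIdeal A).add_mem ((maximalIdeal A).sum_mem fun σ _ => ?_) (hmap _ (hT i j))
  exact (maximalIdeal A).mul_mem_left _ (hr σ i j)

end SliceFinal

open SliceFinal IsLocalRing in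
/-- **Route II slice package** (Burnside + Hensel normal pair). -/
theorem exists_slicePkg (𝒪 : Type) [CommRing 𝒪] [IsLocalRing 𝒪]
    (ρbar : ResidualGaloisRep (IsLocalRing.ResidueField 𝒪))
    (habs : ρbar.IsAbsolutelyIrreducible) :
    ∃ (rbar : GQ →* M2 (IsLocalRing.ResidueField 𝒪))
      (hfl : GaloisFactorsThroughFiniteLevel rbar) (rt : GQ → M2 𝒪),
      ρbar.IsEquiv (ofMatRes rbar hfl) ∧
      (∀ g, (rt g).map (IsLocalRing.residue 𝒪) = rbar g) ∧ Nonempty (SlicePkg 𝒪 rt) := by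
  classical
  let b : Module.Basis (Fin 2) (ResidueField 𝒪) ρbar.V :=
    Module.finBasisOfFinrankEq (ResidueField 𝒪) ρbar.V ρbar.finrank_eq
  let rbar : GQ →* M2 (ResidueField 𝒪) := toMatHomRes ρbar b
  have hsurj : Function.Surjective (residue 𝒪) := IsLocalRing.residue_surjective
  -- set-theoretic lift
  let rt : GQ → M2 𝒪 := fun g => Matrix.of fun i j => Classical.choose (hsurj (rbar g i j))
  have hrt : ∀ g i j, residue 𝒪 (rt g i j) = rbar g i j := fun g i j =>
    Classical.choose_spec (hsurj (rbar g i j))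
  -- Burnside
  obtain ⟨sX, eXbar, hX⟩ := Burnside.exists_finset_sum_toMatrix_eq ρbar habs b !![1, 0; 0, 0]
  obtain ⟨sY, eYbar, hY⟩ := Burnside.exists_finset_sum_toMatrix_eq ρbar habs b !![0, 0; 1, 0]
  let eX : GQ → 𝒪 := fun σ => Classical.choose (hsurj (eXbar σ))
  have heX : ∀ σ, residue 𝒪 (eX σ) = eXbar σ := fun σ => Classical.choose_spec (hsurj (eXbar σ))
  let eY : GQ → 𝒪 := fun σ => Classical.choose (hsurj (eYbar σ))
  have heY : ∀ σ, residue 𝒪 (eY σ) = eYbar σ := fun σ => Classical.choose_spec (hsurj (eYbar σ))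
  -- congruences in `𝒪`
  have hTX : ∀ i j, (∑ σ ∈ sX, eX σ * rt σ i j) - (!![1, 0; 0, 0] : M2 𝒪) i j ∈
      maximalIdeal 𝒪 := by
    intro i j
    rw [← residue_eq_zero_iff, map_sub, map_sum]
    simp only [map_mul, heX, hrt]
    have := congrFun (congrFun hX i) j
    simp only [Matrix.sum_apply, Matrix.smul_apply, smul_eq_mul] at this
    rw [show rbar = toMatHomRes ρbar b from rfl]
    simp only [toMatHomRes_apply]
    rw [this]
    fin_cases i <;> fin_cases j <;> simp
  have hTY : ∀ i j, (∑ σ ∈ sY, eY σ * rt σ i j) - (!![0, 0; 1, 0] : M2 𝒪) i j ∈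
      maximalIdeal 𝒪 := by
    intro i j
    rw [← residue_eq_zero_iff, map_sub, map_sum]
    simp only [map_mul, heY, hrt]
    have := congrFun (congrFun hY i) j
    simp only [Matrix.sum_apply, Matrix.smul_apply, smul_eq_mul] at this
    rw [show rbar = toMatHomRes ρbar b from rfl]
    simp only [toMatHomRes_apply]
    rw [this]
    fin_cases i <;> fin_cases j <;> simp
  refine ⟨rbar, factors_toMatHomRes ρbar b, rt, ⟨equivOfMatRes ρbar b⟩, ?_, ⟨?_⟩⟩
  · intro g
    ext i j
    exact hrt g i j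
  · refine
      { E := normEqs sX eX sY eY
        exists_conj := ?_
        unique := ?_ }
    · intro A _ _ _ _ _ _ r hr
      have cX := gsum_sub_mem rt sX eX _ hTX r hr
      have cY := gsum_sub_mem rt sY eY _ hTY r hr
      have hX00 : gsum sX eX r 0 0 - 1 ∈ maximalIdeal A := by simpa using cX 0 0
      have hX10 : gsum sX eX r 1 0 ∈ maximalIdeal A := by simpa using cX 1 0
      have hX11 : gsum sX eX r 1 1 ∈ maximalIdeal A := by simpa using cX 1 1
      have hY00 : gsum sY eY r 0 0 ∈ maximalIdeal A := by simpa using cY 0 0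
      have hY10 : gsum sY eY r 1 0 - 1 ∈ maximalIdeal A := by simpa using cY 1 0
      obtain ⟨h, hdet, hh1, hn⟩ := exists_conj_isNormalPair hX00 hX10 hX11 hY00 hY10
      let u : (M2 A)ˣ := Matrix.nonsingInvUnit h hdet
      have hu : ((u : (M2 A)ˣ) : M2 A) = h := rfl
      have hui : ((u⁻¹ : (M2 A)ˣ) : M2 A) = h⁻¹ := rfl
      refine ⟨u⁻¹, ?_, ?_⟩
      · intro i j
        rw [hui]
        have hinv : h⁻¹ * h = 1 := Matrix.nonsing_inv_mul h hdet
        have key : h⁻¹ - 1 = - (h⁻¹ * (h - 1)) := by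
          rw [Matrix.mul_sub, hinv, Matrix.mul_one]; abel
        rw [key, Matrix.neg_apply, Matrix.mul_apply]
        exact (maximalIdeal A).neg_mem ((maximalIdeal A).sum_mem fun c _ =>
          (maximalIdeal A).mul_mem_left _ (hh1 c j))
      · rw [isNorm_normEqs_iff, gsum_conjMat, gsum_conjMat, inv_inv, hui, hu]
        exact hn
    · intro A _ _ _ _ _ _ r r' hr hr' hn hn' γ hγ
      rw [isNorm_normEqs_iff] at hn hn'
      have cX := gsum_sub_mem rt sX eX _ hTX r hr
      have cX' := gsum_sub_mem rt sX eX _ hTX r' hr'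
      have hX00 : gsum sX eX r 0 0 - 1 ∈ maximalIdeal A := by simpa using cX 0 0
      have hX'11 : gsum sX eX r' 1 1 ∈ maximalIdeal A := by simpa using cX' 1 1
      have hscal := normalPair_intertwiner_scalar hX00 hX'11 hn hn'
        (gsum_intertwine sX eX (γ : M2 A) r r' hγ) (gsum_intertwine sY eY (γ : M2 A) r r' hγ)
      set c : A := (γ : M2 A) 0 0 with hc
      -- `c` is a unit
      have hcu : IsUnit c := by
        have h1 : (γ : M2 A) * ((γ⁻¹ : (M2 A)ˣ) : M2 A) = 1 := Units.mul_inv γ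
        rw [hscal] at h1
        have h2 := congrFun (congrFun h1 0) 0
        simp only [Matrix.smul_mul, Matrix.one_mul, Matrix.smul_apply, smul_eq_mul,
          Matrix.one_apply_eq] at h2
        exact IsUnit.of_mul_eq_one _ h2
      ext σ i j
      have h3 := congrFun (congrFun (hγ σ) i) j
      rw [hscal] at h3
      simp only [Matrix.smul_mul, Matrix.one_mul, Matrix.mul_smul, Matrix.mul_one,
        Matrix.smul_apply, smul_eq_mul] at h3
      exact hcu.mul_left_cancel h3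

end Fermat.Agent.S53
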