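/-
S53 helper (owner: helper31): the residual matrix representation satisfies the normalisation
equations of any slice package (input `hE` of `exists_isGoodIdeal`, C5).
-/
import Fermat.Agent.S53.Core
import Fermat.Agent.S53.MatrixForm

set_option autoImplicit false

namespace Fermat.Agent.S53

open IsLocalRing

variable {𝒪 : Type} [CommRing 𝒪] [IsLocalRing 𝒪]

/-- The residual representation itself satisfies the normalisation equations of a slice package
(apply `exists_conj` over the residue field: the conjugator is `≡ 1` modulo `⊥`). -/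
theorem SlicePkg.isNorm_rbar {rt : GQ → M2 𝒪} (P : SlicePkg 𝒪 rt)
    (rbar : GQ →* M2 (ResidueField 𝒪))
    (hrt : ∀ g, (rt g).map (residue 𝒪) = rbar g) : IsNorm P.E rbar := by
  have : IsLocalHom (algebraMap 𝒪 (ResidueField 𝒪)) := by
    rw [ResidueField.algebraMap_eq]; infer_instance
  have hsurj : Function.Surjective (residue (ResidueField 𝒪) ∘ algebraMap 𝒪 (ResidueField 𝒪)) := by
    intro x
    obtain ⟨y, hy⟩ := residue_surjective x
    obtain ⟨z, hz⟩ := residue_surjective (R := 𝒪) y
    exact ⟨z, by rw [Function.comp_apply, ResidueField.algebraMap_eq, hz, hy]⟩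
  have hlift : IsLiftRt rt rbar := by
    intro g i j
    have := congrFun (congrFun (hrt g) i) j
    rw [Matrix.map_apply] at this
    rw [ResidueField.algebraMap_eq, this, sub_self]
    exact Ideal.zero_mem _
  obtain ⟨γ, hγ, hn⟩ := P.exists_conj hsurj rbar hlift
  have hbot : maximalIdeal (ResidueField 𝒪) = ⊥ := IsLocalRing.maximalIdeal_eq_bot
  have hγ1 : (γ : M2 (ResidueField 𝒪)) = 1 := by
    ext i j
    have := hγ i j
    rw [hbot, Ideal.mem_bot, Matrix.sub_apply, sub_eq_zero] at this
    exact this
  have : γ = 1 := Units.ext hγ1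
  subst this
  have hc : conjMat (1 : (M2 (ResidueField 𝒪))ˣ) rbar = rbar := by
    ext g i j
    simp
  rwa [hc] at hn

end Fermat.Agent.S53
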