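/-
S53, part G2: the tangent bound.  The number of `k[ε]`-points of good quotients of `RpreE P.E`
is bounded by the cardinality of the (finite) tangent set of `GaloisRep.TangentFinite`.
Owner: helper66.
-/
import Fermat.Agent.S53.Core
import Fermat.Agent.S53.MatrixForm
import Fermat.Agent.S53.Cotangent
import Fermat.Agent.S53.FiniteQuotient
import Fermat.Agent.S53.NormalForm

set_option autoImplicit false
set_option linter.style.haveILetI false

namespace Fermat.Agent.S53

open IsLocalRing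

section DualNumberTest

variable (𝒪 : Type) [CommRing 𝒪] [IsLocalRing 𝒪]

theorem dualNumberAlgebra_algebraMap_apply (o : 𝒪) :
    letI := dualNumberAlgebra 𝒪
    algebraMap 𝒪 (DualNumber (ResidueField 𝒪)) o =
      algebraMap (ResidueField 𝒪) (DualNumber (ResidueField 𝒪)) (residue 𝒪 o) := rfl

theorem dualNumber_isLocalHom_algebraMap :
    letI := dualNumberAlgebra 𝒪
    IsLocalHom (algebraMap 𝒪 (DualNumber (ResidueField 𝒪))) := by
  letI := dualNumberAlgebra 𝒪
  refine ⟨fun o ho => ?_⟩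
  rw [dualNumberAlgebra_algebraMap_apply, TrivSqZeroExt.algebraMap_eq_inl,
    TrivSqZeroExt.isUnit_inl_iff] at ho
  by_contra hcon
  have : residue 𝒪 o = 0 := (residue_eq_zero_iff o).mpr hcon
  rw [this] at ho
  exact not_isUnit_zero ho

/-- an element of `k[ε]` is in the maximal ideal iff its first component vanishes -/
theorem dualNumber_mem_maximalIdeal_iff {k : Type} [Field k] (x : DualNumber k) :
    x ∈ maximalIdeal (DualNumber k) ↔ x.fst = 0 := by
  rw [mem_maximalIdeal, mem_nonunits_iff, TrivSqZeroExt.isUnit_iff_isUnit_fst, isUnit_iff_ne_zero,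
    not_not]

theorem dualNumber_residue_surjective :
    letI := dualNumberAlgebra 𝒪
    Function.Surjective (residue (DualNumber (ResidueField 𝒪)) ∘
      algebraMap 𝒪 (DualNumber (ResidueField 𝒪))) := by
  letI := dualNumberAlgebra 𝒪
  intro y
  obtain ⟨x, rfl⟩ := residue_surjective y
  obtain ⟨o, ho⟩ := residue_surjective (R := 𝒪) x.fst
  refine ⟨o, ?_⟩
  rw [Function.comp_apply, ← sub_eq_zero, ← map_sub, residue_eq_zero_iff,
    dualNumber_mem_maximalIdeal_iff, dualNumberAlgebra_algebraMap_apply,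
    TrivSqZeroExt.algebraMap_eq_inl, TrivSqZeroExt.fst_sub, TrivSqZeroExt.fst_inl, ho, sub_self]

instance dualNumber_finite {k : Type} [Field k] [Finite k] : Finite (DualNumber k) :=
  inferInstanceAs (Finite (k × k))

theorem dualNumber_isArtinianTestAlgebra [Finite (ResidueField 𝒪)] :
    letI := dualNumberAlgebra 𝒪
    GaloisRep.IsArtinianTestAlgebra 𝒪 (DualNumber (ResidueField 𝒪)) := by
  letI := dualNumberAlgebra 𝒪
  exact ⟨dualNumber_isLocalHom_algebraMap 𝒪, dualNumber_residue_surjective 𝒪, inferInstance⟩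

end DualNumberTest

section Points

variable {𝒪 : Type} [CommRing 𝒪] [IsLocalRing 𝒪]
  {A : Type} [CommRing A] [IsLocalRing A] [Algebra 𝒪 A]

/-- A ring hom from an Artinian local ring to a nontrivial ring is local. -/
theorem isLocalHom_of_isArtinianRing {B : Type} [CommRing B] [Nontrivial B] [IsArtinianRing A]
    (ψ : A →+* B) : IsLocalHom ψ := by
  refine ⟨fun a ha => ?_⟩
  by_contra hcon
  have hmem : a ∈ maximalIdeal A := (mem_maximalIdeal a).mpr hcon
  obtain ⟨n, hn⟩ := exists_maximalIdeal_pow_eq_bot A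
  have h0 : a ^ n = 0 := by
    have : a ^ n ∈ maximalIdeal A ^ n := Ideal.pow_mem_pow hmem n
    rwa [hn, Ideal.mem_bot] at this
  have h1 : ψ a ^ n = 0 := by rw [← map_pow, h0, map_zero]
  exact (ha.pow n).ne_zero h1

/-- The residue field of an Artinian test algebra is finite when that of `𝒪` is. -/
theorem finite_residueField_of_isArtinianTestAlgebra [Finite (ResidueField 𝒪)]
    (hA : GaloisRep.IsArtinianTestAlgebra 𝒪 A) : Finite (ResidueField A) := by
  have hsurj : Function.Surjective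
      (fun x : ResidueField 𝒪 => (Quotient.out x : 𝒪) |> (residue A ∘ algebraMap 𝒪 A)) := by
    intro y
    obtain ⟨o, ho⟩ := hA.residue_surjective y
    refine ⟨residue 𝒪 o, ?_⟩
    haveI := hA.isLocalHom
    show residue A (algebraMap 𝒪 A (Quotient.out (residue 𝒪 o))) = y
    rw [← ho, Function.comp_apply, ← sub_eq_zero, ← map_sub, ← map_sub, residue_eq_zero_iff]
    apply algebraMap_mem_maximalIdeal
    rw [← residue_eq_zero_iff, map_sub, sub_eq_zero]
    exact Quotient.out_eq (residue 𝒪 o)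
  exact Finite.of_surjective _ hsurj

/-- An Artinian test algebra is finite when the residue field of `𝒪` is. -/
theorem finite_of_isArtinianTestAlgebra [Finite (ResidueField 𝒪)]
    (hA : GaloisRep.IsArtinianTestAlgebra 𝒪 A) : Finite A := by
  haveI := hA.isArtinian
  haveI := finite_residueField_of_isArtinianTestAlgebra hA
  exact finite_of_isArtinianRing_of_finite_residueField A

end Points

section Main

variable {𝒪 : Type} [CommRing 𝒪] [IsLocalRing 𝒪] (rt : GQ → M2 𝒪) (E : Set (PolyRing 𝒪))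
  (𝒟 : ∀ ⦃A : Type⦄ [CommRing A] [IsLocalRing A] [Algebra 𝒪 A], GaloisRepAdic A → Prop)

/-- The two descriptions of the map `k → ResidueField k[ε]` agree. -/
theorem residueFieldMap_dualNumber :
    letI := dualNumberAlgebra 𝒪
    haveI := dualNumber_isLocalHom_algebraMap 𝒪
    ResidueField.map (algebraMap 𝒪 (DualNumber (ResidueField 𝒪))) =
      (residue (DualNumber (ResidueField 𝒪))).comp
        (algebraMap (ResidueField 𝒪) (DualNumber (ResidueField 𝒪))) := by
  letI := dualNumberAlgebra 𝒪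
  haveI := dualNumber_isLocalHom_algebraMap 𝒪
  ext x
  obtain ⟨o, rfl⟩ := residue_surjective x
  rw [ResidueField.map_residue]
  rfl

/-- G2. tangent bound: the number of `k[ε]`-points of good quotients is uniformly bounded. -/
theorem card_points_le [Finite (IsLocalRing.ResidueField 𝒪)] (P : SlicePkg 𝒪 rt)
    (h𝒟 : GaloisRep.IsDeformationCondition 𝒪 𝒟)
    (ρbar : ResidualGaloisRep (IsLocalRing.ResidueField 𝒪))
    (rbar : GQ →* M2 (IsLocalRing.ResidueField 𝒪))
    (hfl : GaloisFactorsThroughFiniteLevel rbar) (he : ρbar.IsEquiv (ofMatRes rbar hfl))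
    (hrt : ∀ g, (rt g).map (IsLocalRing.residue 𝒪) = rbar g)
    (hfin : GaloisRep.TangentFinite 𝒪 ρbar 𝒟) :
    letI := dualNumberAlgebra 𝒪
    ∃ N : ℕ, ∀ 𝔞, IsGoodIdeal rt P.E 𝒟 𝔞 →
      Finite ((RpreE P.E ⧸ 𝔞) →ₐ[𝒪] DualNumber (IsLocalRing.ResidueField 𝒪)) ∧
      Nat.card ((RpreE P.E ⧸ 𝔞) →ₐ[𝒪] DualNumber (IsLocalRing.ResidueField 𝒪)) ≤ N := by
  letI i1 : Algebra 𝒪 (DualNumber (ResidueField 𝒪)) := dualNumberAlgebra 𝒪
  letI i2 : Algebra (ResidueField 𝒪) (ResidueField (DualNumber (ResidueField 𝒪))) :=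
    ((residue (DualNumber (ResidueField 𝒪))).comp
      (algebraMap (ResidueField 𝒪) (DualNumber (ResidueField 𝒪)))).toAlgebra
  let S : Setoid {ρ : GaloisRepAdic (DualNumber (ResidueField 𝒪)) //
      𝒟 ρ ∧ ρ.residual.IsEquiv (ρbar.baseChange (ResidueField (DualNumber (ResidueField 𝒪))))} :=
    ⟨fun ρ ρ' => ρ.1.IsEquiv ρ'.1, ⟨fun ρ => ⟨GaloisRepAdic.Equiv.refl ρ.1⟩,
        fun ⟨e⟩ => ⟨e.symm⟩, fun ⟨e⟩ ⟨e'⟩ => ⟨e.trans e'⟩⟩⟩
  have hT : Finite (Quotient S) := hfin
  refine ⟨Nat.card (Quotient S), fun 𝔞 h𝔞 => ?_⟩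
  obtain ⟨hloc, hA, hg⟩ := h𝔞
  haveI := hA.isLocalHom
  haveI := hA.isArtinian
  have hK := dualNumber_isArtinianTestAlgebra 𝒪
  haveI : IsLocalHom (algebraMap 𝒪 (DualNumber (ResidueField 𝒪))) := hK.isLocalHom
  haveI : Finite (RpreE P.E ⧸ 𝔞) := finite_of_isArtinianTestAlgebra hA
  have hfinHom : Finite ((RpreE P.E ⧸ 𝔞) →ₐ[𝒪] DualNumber (ResidueField 𝒪)) :=
    Finite.of_injective (fun f => (f : (RpreE P.E ⧸ 𝔞) → DualNumber (ResidueField 𝒪)))
      DFunLike.coe_injective
  refine ⟨hfinHom, ?_⟩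
  have hloc' : ∀ ψ : (RpreE P.E ⧸ 𝔞) →ₐ[𝒪] DualNumber (ResidueField 𝒪),
      IsLocalHom (ψ : (RpreE P.E ⧸ 𝔞) →+* DualNumber (ResidueField 𝒪)) :=
    fun ψ => isLocalHom_of_isArtinianRing _
  let r : ((RpreE P.E ⧸ 𝔞) →ₐ[𝒪] DualNumber (ResidueField 𝒪)) →
      (GQ →* M2 (DualNumber (ResidueField 𝒪))) :=
    fun ψ => mapMat (ψ : (RpreE P.E ⧸ 𝔞) →+* DualNumber (ResidueField 𝒪)) (rQuot P.E 𝔞)
  have hcont : ∀ ψ, MatCont (r ψ) := fun ψ => matCont_mapMat _ (hloc' ψ) hg.cont
  have hlift : ∀ ψ, IsLiftRt rt (r ψ) := fun ψ => isLiftRt_mapMat rt ψ (hloc' ψ) hg.lift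
  have hnorm : ∀ ψ, IsNorm P.E (r ψ) := fun ψ => hg.norm.map ψ
  have htype : ∀ ψ, 𝒟 (ofMat (r ψ) (hcont ψ)) := fun ψ =>
    h𝒟.of_isEquiv hK (isEquiv_baseChangeAlong_ofMat _ (hloc' ψ) hg.cont)
      (h𝒟.baseChangeAlong hA hK ψ (hloc' ψ) hg.type)
  have hres : ∀ ψ, (ofMat (r ψ) (hcont ψ)).residual.IsEquiv
      (ρbar.baseChange (ResidueField (DualNumber (ResidueField 𝒪)))) := by
    intro ψ
    have h1 := residual_isEquiv_of_isLiftRt rt he hrt (hcont ψ) (hlift ψ)
    rw [residueFieldMap_dualNumber] at h1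
    exact h1
  let F : ((RpreE P.E ⧸ 𝔞) →ₐ[𝒪] DualNumber (ResidueField 𝒪)) → Quotient S :=
    fun ψ => Quotient.mk S ⟨ofMat (r ψ) (hcont ψ), htype ψ, hres ψ⟩
  have hF : Function.Injective F := by
    intro ψ ψ' h
    have h1 : (ofMat (r ψ) (hcont ψ)).IsEquiv (ofMat (r ψ') (hcont ψ')) := Quotient.exact h
    have h2 : r ψ = r ψ' :=
      normalForm_unique P hK.residue_surjective (hcont ψ) (hcont ψ') (hlift ψ) (hlift ψ')
        (hnorm ψ) (hnorm ψ') h1
    have h3 : ψ.comp (Ideal.Quotient.mkₐ 𝒪 𝔞) = ψ'.comp (Ideal.Quotient.mkₐ 𝒪 𝔞) := by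
      apply Presentation.algHom_ext
      intro g a b
      have := congrFun (congrFun (congrArg (fun f => f g) h2) a) b
      exact this
    refine DFunLike.ext _ _ fun x => ?_
    obtain ⟨y, rfl⟩ := Ideal.Quotient.mk_surjective x
    exact congrArg (fun f => f y) h3
  exact Nat.card_le_card_of_injective F hF

end Main

end Fermat.Agent.S53
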