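/-
S53 (universal deformation ring): top-level glue, part A (everything before the construction
of the universal ring).  Owner: helper53.
-/
import Fermat.Agent.S53.UnivDefs
import Fermat.Agent.S53.SliceFinal
import Fermat.Agent.S53.SliceResidue
import Fermat.Agent.S53.MatFormResidual
import Fermat.Agent.S53.GoodIdeals
import Fermat.Agent.S53.TangentBound
import Fermat.Agent.S53.Generators

set_option autoImplicit false

namespace Fermat.Agent.S53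

open IsLocalRing

namespace GlueA

/-- The residue field is an Artinian test algebra. -/
theorem isArtinianTestAlgebra_residueField (𝒪 : Type) [CommRing 𝒪] [IsLocalRing 𝒪] :
    GaloisRep.IsArtinianTestAlgebra 𝒪 (ResidueField 𝒪) where
  isLocalHom := by
    rw [ResidueField.algebraMap_eq]; infer_instance
  residue_surjective := by
    intro y
    obtain ⟨z, hz⟩ := residue_surjective (R := ResidueField 𝒪) y
    obtain ⟨o, ho⟩ := residue_surjective (R := 𝒪) z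
    exact ⟨o, by rw [Function.comp_apply, ResidueField.algebraMap_eq, ho, hz]⟩
  isArtinian := inferInstance

section

variable {𝒪 : Type} [CommRing 𝒪] [IsLocalRing 𝒪] (rt : GQ → M2 𝒪) (E : Set (PolyRing 𝒪))
  (𝒟 : ∀ ⦃A : Type⦄ [CommRing A] [IsLocalRing A] [Algebra 𝒪 A], GaloisRepAdic A → Prop)

/-- C5. The residual representation itself gives a good ideal. -/
theorem exists_isGoodIdeal [Finite (ResidueField 𝒪)] (h𝒟 : GaloisRep.IsDeformationCondition 𝒪 𝒟)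
    (rbar : GQ →* M2 (ResidueField 𝒪)) (hrt : ∀ g, (rt g).map (residue 𝒪) = rbar g)
    (hfl : GaloisFactorsThroughFiniteLevel rbar) (hE : IsNorm E rbar)
    (hbar : 𝒟 (GaloisRepAdic.ofResidualGaloisRep (ofMatRes rbar hfl))) :
    ∃ 𝔞, IsGoodIdeal rt E 𝒟 𝔞 := by
  have hk := isArtinianTestAlgebra_residueField 𝒪
  have hgood : IsGoodLift rt E 𝒟 rbar :=
    { lift := by
        intro g i j
        have : rbar g i j = algebraMap 𝒪 (ResidueField 𝒪) (rt g i j) := by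
          rw [← hrt g, ResidueField.algebraMap_eq]; rfl
        rw [this, sub_self]
        exact Ideal.zero_mem _
      norm := hE
      cont := matCont_of_finiteLevel hfl
      type := h𝒟.of_isEquiv hk (ofResidualGaloisRep_ofMatRes_isEquiv rbar hfl) hbar }
  exact ⟨_, (GoodIdeals.isGoodIdeal_ker h𝒟 hk rbar hgood).1⟩

end

/-- Everything up to the uniform generators. -/
theorem exists_setup
    (𝒪 : Type) [CommRing 𝒪] [IsLocalRing 𝒪] [Finite (ResidueField 𝒪)]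
    (ρbar : ResidualGaloisRep (ResidueField 𝒪))
    (𝒟 : ∀ ⦃A : Type⦄ [CommRing A] [IsLocalRing A] [Algebra 𝒪 A], GaloisRepAdic A → Prop)
    (habs : ρbar.IsAbsolutelyIrreducible)
    (h𝒟 : GaloisRep.IsDeformationCondition 𝒪 𝒟)
    (hbar : 𝒟 (GaloisRepAdic.ofResidualGaloisRep ρbar))
    (hfin : GaloisRep.TangentFinite 𝒪 ρbar 𝒟) :
    ∃ (rbar : GQ →* M2 (ResidueField 𝒪)) (hfl : GaloisFactorsThroughFiniteLevel rbar)
      (rt : GQ → M2 𝒪) (P : SlicePkg 𝒪 rt),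
      ρbar.IsEquiv (ofMatRes rbar hfl) ∧ (∀ g, (rt g).map (residue 𝒪) = rbar g) ∧
      (∀ 𝔞 𝔟, IsGoodIdeal rt P.E 𝒟 𝔞 → IsGoodIdeal rt P.E 𝒟 𝔟 →
        IsGoodIdeal rt P.E 𝒟 (𝔞 ⊓ 𝔟)) ∧
      ∃ (d : ℕ) (x : Fin d → GQ × Fin 2 × Fin 2) (𝔞₀ : Ideal (RpreE P.E)),
        IsGoodIdeal rt P.E 𝒟 𝔞₀ ∧
        ∀ 𝔞, IsGoodIdeal rt P.E 𝒟 𝔞 → 𝔞 ≤ 𝔞₀ → ∀ z : RpreE P.E,
          ∃ p : MvPolynomial (Fin d) 𝒪,
            z - MvPolynomial.aeval (fun i => yGen rt P.E (x i)) p ∈ 𝔞 := by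
  obtain ⟨rbar, hfl, rt, he, hrt, ⟨P⟩⟩ := exists_slicePkg 𝒪 ρbar habs
  have hinf : ∀ 𝔞 𝔟, IsGoodIdeal rt P.E 𝒟 𝔞 → IsGoodIdeal rt P.E 𝒟 𝔟 →
      IsGoodIdeal rt P.E 𝒟 (𝔞 ⊓ 𝔟) :=
    fun 𝔞 𝔟 ha hb => GoodIdeals.isGoodIdeal_inf h𝒟 ha hb
  have hbar' : 𝒟 (GaloisRepAdic.ofResidualGaloisRep (ofMatRes rbar hfl)) :=
    h𝒟.of_isEquiv (isArtinianTestAlgebra_residueField 𝒪) (ofResidualGaloisRep_isEquiv he) hbar
  have hne : ∃ 𝔞, IsGoodIdeal rt P.E 𝒟 𝔞 :=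
    exists_isGoodIdeal rt P.E 𝒟 h𝒟 rbar hrt hfl (P.isNorm_rbar rbar hrt) hbar'
  have hcard := card_points_le rt 𝒟 P h𝒟 ρbar rbar hfl he hrt hfin
  exact ⟨rbar, hfl, rt, P, he, hrt, hinf, exists_generators rt P.E 𝒟 hinf hne hcard⟩

end GlueA

end Fermat.Agent.S53
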