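import Mathlib

set_option autoImplicit false

open IsLocalRing

namespace Fermat.Agent.S53

namespace LemmaLAux

/-- Compactness principle: in an `I`-adically precomplete ring with finite quotients `S ⧸ I ^ n`,
a down-directed family of nonempty `I`-adically open sets has nonempty intersection. -/
theorem exists_mem_forall {S : Type*} [CommRing S] (I : Ideal S) [IsPrecomplete I S]
    (hfin : ∀ n : ℕ, Finite (S ⧸ I ^ n))
    {ι : Type*} [Preorder ι] [IsDirected ι (· ≥ ·)] [Nonempty ι]
    (C : ι → Set S) (hne : ∀ a, (C a).Nonempty)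
    (hmono : ∀ a b, a ≤ b → C a ⊆ C b)
    (hopen : ∀ a, ∃ n : ℕ, ∀ y ∈ C a, ∀ z, z - y ∈ I ^ n → z ∈ C a) :
    ∃ y, ∀ a, y ∈ C a := by
  classical
  -- `P n y` : every `C a` meets the ball `y + I ^ n`
  let P : ℕ → S → Prop := fun n y => ∀ a, ∃ z ∈ C a, z - y ∈ I ^ n
  have hstep : ∀ n y, P n y → ∃ y', y' - y ∈ I ^ n ∧ P (n + 1) y' := by
    intro n y hP
    by_contra hcon
    push Not at hcon
    -- for every `y'` in the ball, some `a` witnesses failure
    have hbad : ∀ y', y' - y ∈ I ^ n → ∃ a, ∀ z ∈ C a, z - y' ∉ I ^ (n + 1) := by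
      intro y' hy'
      have := hcon y' hy'
      simp only [P, not_forall, not_exists, not_and] at this
      exact this
    have := hfin (n + 1)
    let rep : S ⧸ I ^ (n + 1) → S := fun q => Quotient.out q
    have hrep : ∀ q, Ideal.Quotient.mk (I ^ (n + 1)) (rep q) = q := fun q => Quotient.out_eq q
    let A : S ⧸ I ^ (n + 1) → ι := fun q =>
      if h : rep q - y ∈ I ^ n then (hbad (rep q) h).choose else Classical.arbitrary ι
    obtain ⟨a, ha⟩ := Finite.exists_ge A
    obtain ⟨z, hzC, hzy⟩ := hP a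
    set q := Ideal.Quotient.mk (I ^ (n + 1)) z with hq
    have hqz : rep q - z ∈ I ^ (n + 1) := by
      rw [← Ideal.Quotient.eq, hrep q]
    have hle : I ^ (n + 1) ≤ I ^ n := Ideal.pow_le_pow_right (Nat.le_succ n)
    have hmem : rep q - y ∈ I ^ n := by
      have : rep q - y = (rep q - z) + (z - y) := by ring
      rw [this]
      exact (I ^ n).add_mem (hle hqz) hzy
    have hA : A q = (hbad (rep q) hmem).choose := by
      simp only [A, dif_pos hmem]
    have hspec := (hbad (rep q) hmem).choose_spec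
    rw [← hA] at hspec
    have hzC' : z ∈ C (A q) := hmono a (A q) (ha q) hzC
    apply hspec z hzC'
    have : z - rep q = -(rep q - z) := by ring
    rw [this]
    exact (I ^ (n + 1)).neg_mem hqz
  -- build the sequence
  have hP0 : P 0 0 := by
    intro a
    obtain ⟨z, hz⟩ := hne a
    exact ⟨z, hz, by simp⟩
  let g : (n : ℕ) → {y : S // P n y} := fun n =>
    Nat.rec (motive := fun n => {y : S // P n y}) ⟨0, hP0⟩
      (fun n prev => ⟨(hstep n prev.1 prev.2).choose, (hstep n prev.1 prev.2).choose_spec.2⟩) n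
  have hg_succ : ∀ n, (g (n + 1)).1 - (g n).1 ∈ I ^ n := by
    intro n
    exact (hstep n (g n).1 (g n).2).choose_spec.1
  have hcauchy : ∀ m n, m ≤ n → (g n).1 - (g m).1 ∈ I ^ m := by
    intro m n hmn
    induction n, hmn using Nat.le_induction with
    | base => simp
    | succ n hmn ih =>
      have : (g (n + 1)).1 - (g m).1 = ((g (n + 1)).1 - (g n).1) + ((g n).1 - (g m).1) := by ring
      rw [this]
      exact (I ^ m).add_mem (Ideal.pow_le_pow_right hmn (hg_succ n)) ih
  obtain ⟨L, hL⟩ := IsPrecomplete.prec (I := I) (M := S) inferInstance (f := fun n => (g n).1)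
    (by
      intro m n hmn
      rw [SModEq.sub_mem, smul_eq_mul, Ideal.mul_top]
      have := hcauchy m n hmn
      have h2 : (g m).1 - (g n).1 = -((g n).1 - (g m).1) := by ring
      rw [h2]
      exact (I ^ m).neg_mem this)
  refine ⟨L, fun a => ?_⟩
  obtain ⟨n, hn⟩ := hopen a
  obtain ⟨z, hzC, hz⟩ := (g n).2 a
  have hLn := hL n
  rw [SModEq.sub_mem, smul_eq_mul, Ideal.mul_top] at hLn
  apply hn z hzC L
  have : L - z = -((g n).1 - L) - (z - (g n).1) := by ring
  rw [this]
  exact (I ^ n).sub_mem ((I ^ n).neg_mem hLn) hz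

/-- Finiteness of `S ⧸ 𝔪 ^ n` for a noetherian local ring with finite residue field. -/
theorem finite_quotient_maximalIdeal_pow {S : Type*} [CommRing S] [IsLocalRing S]
    [IsNoetherianRing S] [Finite (ResidueField S)] (n : ℕ) :
    Finite (S ⧸ maximalIdeal S ^ n) := by
  have : Finite (S ⧸ maximalIdeal S) := ‹Finite (ResidueField S)›
  exact Ideal.finite_quotient_pow (IsNoetherian.noetherian (maximalIdeal S)) n

end LemmaLAux

section

variable {S : Type*} [CommRing S] [IsLocalRing S] [IsNoetherianRing S]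
  [IsAdicComplete (maximalIdeal S) S] [Finite (ResidueField S)]
  {ι : Type*} [Preorder ι] [IsDirected ι (· ≥ ·)] [Nonempty ι]
  {T : ι → Type*} [∀ a, CommRing (T a)]

/-- L3a. compatible families come from elements (`S` is "compact"). -/
theorem lemmaL_surj (f : ∀ a, S →+* T a)
    (hf : ∀ a, Function.Surjective (f a))
    (hmono : ∀ a b, a ≤ b → RingHom.ker (f a) ≤ RingHom.ker (f b))
    (hopen : ∀ a, ∃ n, maximalIdeal S ^ n ≤ RingHom.ker (f a))
    (t : ∀ a, T a)
    (ht : ∀ a b, a ≤ b → ∀ y : S, f a y = t a → f b y = t b) :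
    ∃ y : S, ∀ a, f a y = t a := by
  have _ := hmono
  refine LemmaLAux.exists_mem_forall (maximalIdeal S)
    (fun n => LemmaLAux.finite_quotient_maximalIdeal_pow n)
    (fun a => {y | f a y = t a}) (fun a => hf a (t a)) (fun a b hab y hy => ht a b hab y hy) ?_
  intro a
  obtain ⟨n, hn⟩ := hopen a
  refine ⟨n, fun y hy z hz => ?_⟩
  have hker : f a (z - y) = 0 := hn hz
  rw [map_sub, sub_eq_zero] at hker
  exact hker.trans hy

/-- L3b. (Chevalley) the kernels are cofinal with the powers of `𝔪` modulo their intersection. -/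
theorem lemmaL_cofinal (f : ∀ a, S →+* T a)
    (hf : ∀ a, Function.Surjective (f a))
    (hmono : ∀ a b, a ≤ b → RingHom.ker (f a) ≤ RingHom.ker (f b))
    (hopen : ∀ a, ∃ n, maximalIdeal S ^ n ≤ RingHom.ker (f a))
    (n : ℕ) :
    ∃ a, RingHom.ker (f a) ≤ (⨅ b, RingHom.ker (f b)) ⊔ maximalIdeal S ^ n := by
  classical
  have _ := hf
  set 𝔪 := maximalIdeal S with h𝔪
  have : Finite (S ⧸ 𝔪 ^ n) := LemmaLAux.finite_quotient_maximalIdeal_pow n
  -- images of the kernels in the finite ring `S ⧸ 𝔪 ^ n`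
  let K : ι → Set (S ⧸ 𝔪 ^ n) := fun a => Ideal.Quotient.mk (𝔪 ^ n) '' (RingHom.ker (f a) : Set S)
  have hKmono : ∀ a b, a ≤ b → K a ⊆ K b := fun a b hab =>
    Set.image_mono (hmono a b hab)
  obtain ⟨a0, ha0⟩ := Nat.sInf_mem (Set.range_nonempty (fun a => (K a).ncard))
  have ha0' : (K a0).ncard = sInf (Set.range fun a => (K a).ncard) := ha0
  have hmin : ∀ a, (K a0).ncard ≤ (K a).ncard := fun a => by
    rw [ha0']; exact Nat.sInf_le ⟨a, rfl⟩
  have hKeq : ∀ c, c ≤ a0 → K c = K a0 := fun c hc =>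
    Set.eq_of_subset_of_ncard_le (hKmono c a0 hc) (hmin c) (Set.toFinite _)
  refine ⟨a0, fun x hx => ?_⟩
  -- the family of sets `(x + 𝔪 ^ n) ∩ ker (f a)`
  obtain ⟨y, hy⟩ := LemmaLAux.exists_mem_forall 𝔪
    (fun k => LemmaLAux.finite_quotient_maximalIdeal_pow k)
    (fun a => {y | y - x ∈ 𝔪 ^ n ∧ y ∈ RingHom.ker (f a)})
    (by
      intro a
      obtain ⟨c, hca, hca0⟩ := exists_le_le a a0
      have hxK : Ideal.Quotient.mk (𝔪 ^ n) x ∈ K c := by
        rw [hKeq c hca0]; exact ⟨x, hx, rfl⟩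
      obtain ⟨y, hyc, hyx⟩ := hxK
      exact ⟨y, (Ideal.Quotient.eq.mp hyx), hmono c a hca hyc⟩)
    (fun a b hab y hy => ⟨hy.1, hmono a b hab hy.2⟩)
    (by
      intro a
      obtain ⟨k, hk⟩ := hopen a
      refine ⟨max n k, fun y hy z hz => ⟨?_, ?_⟩⟩
      · have : z - x = (z - y) + (y - x) := by ring
        rw [this]
        exact (𝔪 ^ n).add_mem (Ideal.pow_le_pow_right (le_max_left n k) hz) hy.1
      · have : z = (z - y) + y := by ring
        rw [this]
        exact (RingHom.ker (f a)).add_mem (hk (Ideal.pow_le_pow_right (le_max_right n k) hz)) hy.2)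
  have hyJ : y ∈ ⨅ b, RingHom.ker (f b) := by
    rw [Ideal.mem_iInf]
    exact fun b => (hy b).2
  have : x = y + (-(y - x)) := by ring
  rw [this]
  exact Ideal.add_mem _ (Ideal.mem_sup_left hyJ)
    (Ideal.mem_sup_right ((𝔪 ^ n).neg_mem (hy a0).1))

end

end Fermat.Agent.S53
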