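import Mathlib

/-!
# S53, lemma L4: evaluation homomorphisms `MvPowerSeries (Fin d) 𝒪 →ₐ[𝒪] A`

Existence (into complete local rings), uniqueness (Hausdorff target), locality, and
polynomial approximation modulo powers of the maximal ideal.
-/

set_option autoImplicit false
set_option linter.unusedSectionVars false

open IsLocalRing

namespace Fermat.Agent.S53

section trunc

variable {σ R : Type*} [Finite σ] [CommRing R]

/-- A power series differs from its total-degree truncation by an element of `(X)^n`. -/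
theorem sub_truncTotal_mem_pow_span_X (n : ℕ) (f : MvPowerSeries σ R) :
    f - ((MvPowerSeries.truncTotal n f : MvPolynomial σ R) : MvPowerSeries σ R) ∈
      (Ideal.span (Set.range (MvPowerSeries.X (σ := σ) (R := R)))) ^ n := by
  classical
  have hmap : Ideal.map (MvPowerSeries.toAdicCompletionAlgEquiv σ R).toRingEquiv
      (Ideal.span (Set.range MvPowerSeries.X)) =
      (MvPolynomial.idealOfVars σ R).map (algebraMap (MvPolynomial σ R)
        (AdicCompletion (MvPolynomial.idealOfVars σ R) (MvPolynomial σ R))) := by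
    simp_rw [Ideal.map_span, ← Set.range_comp]
    congr 2; ext1
    simp [AdicCompletion.algebraMap_apply, ← MvPolynomial.coe_X,
      MvPowerSeries.toAdicCompletion_coe]
  have hker : (MvPowerSeries.toAdicCompletionAlgEquiv σ R)
      (f - ((MvPowerSeries.truncTotal n f : MvPolynomial σ R) : MvPowerSeries σ R)) ∈
      LinearMap.ker (AdicCompletion.eval (MvPolynomial.idealOfVars σ R) (MvPolynomial σ R) n) := by
    rw [LinearMap.mem_ker, map_sub, map_sub, sub_eq_zero]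
    simp only [MvPowerSeries.toAdicCompletionAlgEquiv_apply]
    rw [MvPowerSeries.toAdicCompletion_coe]
    rw [AdicCompletion.eval_of]
    rfl
  rw [← AdicCompletion.pow_smul_top_eq_ker_eval (MvPolynomial.idealOfVars_fg σ R),
    Ideal.smul_top_eq_map, Submodule.restrictScalars_mem, Ideal.map_pow, ← hmap,
    ← Ideal.map_pow] at hker
  obtain ⟨x, hx, hxe⟩ := (Ideal.mem_map_of_equiv
    (MvPowerSeries.toAdicCompletionAlgEquiv σ R).toRingEquiv _).mp hker
  have : x = f - ((MvPowerSeries.truncTotal n f : MvPolynomial σ R) : MvPowerSeries σ R) :=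
    (MvPowerSeries.toAdicCompletionAlgEquiv σ R).injective hxe
  rwa [← this]

/-- Every power series is a polynomial modulo `(X)^n`. -/
theorem exists_polynomial_sub_mem_pow_span_X (n : ℕ) (f : MvPowerSeries σ R) :
    ∃ p : MvPolynomial σ R, f - (p : MvPowerSeries σ R) ∈
      (Ideal.span (Set.range (MvPowerSeries.X (σ := σ) (R := R)))) ^ n :=
  ⟨_, sub_truncTotal_mem_pow_span_X n f⟩

/-- A power series with vanishing constant coefficient lies in the ideal `(X)`. -/
theorem mem_span_X_of_constantCoeff_eq_zero (g : MvPowerSeries σ R)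
    (hg : MvPowerSeries.constantCoeff g = 0) :
    g ∈ Ideal.span (Set.range (MvPowerSeries.X (σ := σ) (R := R))) := by
  classical
  have h := sub_truncTotal_mem_pow_span_X 1 g
  rw [pow_one] at h
  have h0 : (MvPowerSeries.truncTotal 1 g : MvPolynomial σ R) = 0 := by
    ext x
    rw [MvPowerSeries.coeff_truncTotal_eq_ite, MvPolynomial.coeff_zero]
    split_ifs with hx
    · have hx0 : x = 0 := by
        have : x.degree = 0 := by omega
        exact (Finsupp.degree_eq_zero_iff x).mp this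
      subst hx0
      simpa using hg
    · rfl
  rwa [h0, MvPolynomial.coe_zero, sub_zero] at h

end trunc

section evalhom

variable (𝒪 : Type*) [CommRing 𝒪] (d : ℕ) {A : Type*} [CommRing A] [Algebra 𝒪 A]

/-- `aeval y` maps `(X)^n` into `I^n` when all `y i ∈ I`. -/
theorem aeval_mem_pow_of_mem_pow_idealOfVars {I : Ideal A}
    (y : Fin d → A) (hy : ∀ i, y i ∈ I) (n : ℕ)
    (p : MvPolynomial (Fin d) 𝒪) (hp : p ∈ MvPolynomial.idealOfVars (Fin d) 𝒪 ^ n) :
    MvPolynomial.aeval y p ∈ I ^ n := by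
  have h1 : Ideal.map (MvPolynomial.aeval y : MvPolynomial (Fin d) 𝒪 →ₐ[𝒪] A)
      (MvPolynomial.idealOfVars (Fin d) 𝒪) ≤ I := by
    rw [Ideal.map_span, Ideal.span_le]
    rintro _ ⟨_, ⟨i, rfl⟩, rfl⟩
    simpa using hy i
  have h2 : Ideal.map (MvPolynomial.aeval y : MvPolynomial (Fin d) 𝒪 →ₐ[𝒪] A)
      (MvPolynomial.idealOfVars (Fin d) 𝒪 ^ n) ≤ I ^ n := by
    rw [Ideal.map_pow]
    exact Ideal.pow_right_mono h1 n
  exact h2 (Ideal.mem_map_of_mem _ hp)

/-- The level-`n` evaluation map `𝒪⟦X⟧ → A ⧸ I ^ n`, `X i ↦ y i`. -/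
noncomputable def evalLevel {I : Ideal A} (y : Fin d → A) (hy : ∀ i, y i ∈ I) (n : ℕ) :
    MvPowerSeries (Fin d) 𝒪 →ₐ[𝒪] A ⧸ I ^ n :=
  (Ideal.Quotient.liftₐ (MvPolynomial.idealOfVars (Fin d) 𝒪 ^ n)
    ((Ideal.Quotient.mkₐ 𝒪 (I ^ n)).comp (MvPolynomial.aeval y))
    (fun p hp => by
      rw [AlgHom.comp_apply, Ideal.Quotient.mkₐ_eq_mk, Ideal.Quotient.eq_zero_iff_mem]
      exact aeval_mem_pow_of_mem_pow_idealOfVars 𝒪 d y hy n p hp)).comp
    ((MvPowerSeries.truncTotalAlgHom (Fin d) 𝒪 n).restrictScalars 𝒪)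

theorem evalLevel_apply {I : Ideal A} (y : Fin d → A) (hy : ∀ i, y i ∈ I) (n : ℕ)
    (f : MvPowerSeries (Fin d) 𝒪) :
    evalLevel 𝒪 d y hy n f =
      Ideal.Quotient.mk (I ^ n) (MvPolynomial.aeval y (MvPowerSeries.truncTotal n f)) := by
  unfold evalLevel
  rw [AlgHom.comp_apply, AlgHom.restrictScalars_apply, MvPowerSeries.truncTotalAlgHom_apply]
  rfl

theorem evalLevel_compat {I : Ideal A} (y : Fin d → A) (hy : ∀ i, y i ∈ I) {m n : ℕ}
    (hle : m ≤ n) :
    (Ideal.Quotient.factorₐ 𝒪 (Ideal.pow_le_pow_right hle)).comp (evalLevel 𝒪 d y hy n) =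
      evalLevel 𝒪 d y hy m := by
  ext f
  rw [AlgHom.comp_apply, evalLevel_apply, evalLevel_apply]
  rw [Ideal.Quotient.factorₐ_apply_mk, Ideal.Quotient.mk_eq_mk_iff_sub_mem, ← map_sub]
  exact aeval_mem_pow_of_mem_pow_idealOfVars 𝒪 d y hy m _
    (MvPowerSeries.truncTotal_sub_truncTotal_mem_pow_idealOfVars hle le_rfl f)

/-- General form of L4a: evaluation at elements of an ideal `I` with `A` `I`-adically complete. -/
theorem exists_mvPowerSeries_algHom_of_isAdicComplete {I : Ideal A} [IsAdicComplete I A]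
    (y : Fin d → A) (hy : ∀ i, y i ∈ I) :
    ∃ φ : MvPowerSeries (Fin d) 𝒪 →ₐ[𝒪] A,
      ∀ p : MvPolynomial (Fin d) 𝒪, φ (p : MvPowerSeries (Fin d) 𝒪) = MvPolynomial.aeval y p := by
  classical
  refine ⟨IsAdicComplete.liftAlgHom I (evalLevel 𝒪 d y hy)
    (fun hle => evalLevel_compat 𝒪 d y hy hle), fun p => ?_⟩
  rw [← sub_eq_zero]
  apply IsHausdorff.haus' (I := I)
  intro n
  rw [SModEq.zero, smul_eq_mul, Ideal.mul_top, ← Ideal.Quotient.eq_zero_iff_mem, map_sub,
    IsAdicComplete.mk_liftAlgHom, evalLevel_apply, sub_eq_zero,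
    Ideal.Quotient.mk_eq_mk_iff_sub_mem, ← map_sub]
  refine aeval_mem_pow_of_mem_pow_idealOfVars 𝒪 d y hy n _ ?_
  refine (MvPolynomial.mem_pow_idealOfVars_iff' ..).mpr fun x hx => ?_
  rw [MvPolynomial.coeff_sub, MvPowerSeries.coeff_truncTotal _ hx, MvPolynomial.coeff_coe,
    sub_self]

/-- L4a. evaluation of power series at elements of the maximal ideal of a complete local ring -/
theorem exists_mvPowerSeries_algHom
    {A : Type*} [CommRing A] [IsLocalRing A] [Algebra 𝒪 A] [IsAdicComplete (maximalIdeal A) A]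
    (y : Fin d → A) (hy : ∀ i, y i ∈ maximalIdeal A) :
    ∃ φ : MvPowerSeries (Fin d) 𝒪 →ₐ[𝒪] A,
      ∀ p : MvPolynomial (Fin d) 𝒪, φ (p : MvPowerSeries (Fin d) 𝒪) = MvPolynomial.aeval y p :=
  exists_mvPowerSeries_algHom_of_isAdicComplete 𝒪 d y hy

/-- An algebra hom out of `𝒪⟦X⟧` maps `(X)^n` into `I^n` if it maps the variables into `I`. -/
theorem algHom_mem_pow_of_mem_pow_span_X {I : Ideal A}
    (φ : MvPowerSeries (Fin d) 𝒪 →ₐ[𝒪] A) (hloc : ∀ i, φ (MvPowerSeries.X i) ∈ I) (n : ℕ)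
    (g : MvPowerSeries (Fin d) 𝒪)
    (hg : g ∈ (Ideal.span (Set.range (MvPowerSeries.X (σ := Fin d) (R := 𝒪)))) ^ n) :
    φ g ∈ I ^ n := by
  have h1 : Ideal.map φ (Ideal.span (Set.range (MvPowerSeries.X (σ := Fin d) (R := 𝒪)))) ≤ I := by
    rw [Ideal.map_span, Ideal.span_le]
    rintro _ ⟨_, ⟨i, rfl⟩, rfl⟩
    exact hloc i
  have h2 : Ideal.map φ ((Ideal.span (Set.range (MvPowerSeries.X (σ := Fin d) (R := 𝒪)))) ^ n) ≤
      I ^ n := by
    rw [Ideal.map_pow]
    exact Ideal.pow_right_mono h1 n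
  exact h2 (Ideal.mem_map_of_mem _ hg)

/-- Two algebra homs out of `𝒪⟦X⟧` agreeing on the variables agree on polynomials. -/
theorem algHom_coe_eq_of_X_eq (φ φ' : MvPowerSeries (Fin d) 𝒪 →ₐ[𝒪] A)
    (h : ∀ i, φ (MvPowerSeries.X i) = φ' (MvPowerSeries.X i)) (p : MvPolynomial (Fin d) 𝒪) :
    φ (p : MvPowerSeries (Fin d) 𝒪) = φ' (p : MvPowerSeries (Fin d) 𝒪) := by
  have : φ.comp (MvPolynomial.coeToMvPowerSeries.algHom (σ := Fin d) (R := 𝒪) 𝒪) =
      φ'.comp (MvPolynomial.coeToMvPowerSeries.algHom (σ := Fin d) (R := 𝒪) 𝒪) := by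
    apply MvPolynomial.algHom_ext
    intro i
    simpa [MvPolynomial.coeToMvPowerSeries.algHom_apply] using h i
  have h' := congrArg (fun ψ : MvPolynomial (Fin d) 𝒪 →ₐ[𝒪] A => ψ p) this
  simpa [MvPolynomial.coeToMvPowerSeries.algHom_apply] using h'

/-- General form of L4b, for an arbitrary ideal `I` with `A` `I`-adically Hausdorff. -/
theorem mvPowerSeries_algHom_ext_of_isHausdorff {I : Ideal A} [IsHausdorff I A]
    (φ φ' : MvPowerSeries (Fin d) 𝒪 →ₐ[𝒪] A)
    (hloc : ∀ i, φ (MvPowerSeries.X i) ∈ I)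
    (h : ∀ i, φ (MvPowerSeries.X i) = φ' (MvPowerSeries.X i)) : φ = φ' := by
  classical
  have hloc' : ∀ i, φ' (MvPowerSeries.X i) ∈ I := fun i => h i ▸ hloc i
  ext f
  rw [← sub_eq_zero]
  apply IsHausdorff.haus' (I := I)
  intro n
  rw [SModEq.zero, smul_eq_mul, Ideal.mul_top]
  obtain ⟨p, hp⟩ := exists_polynomial_sub_mem_pow_span_X n f
  have e1 : φ f - φ' f = φ (f - (p : MvPowerSeries (Fin d) 𝒪)) -
      φ' (f - (p : MvPowerSeries (Fin d) 𝒪)) := by
    rw [map_sub, map_sub, algHom_coe_eq_of_X_eq 𝒪 d φ φ' h p]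
    ring
  rw [e1]
  exact Ideal.sub_mem _ (algHom_mem_pow_of_mem_pow_span_X 𝒪 d φ hloc n _ hp)
    (algHom_mem_pow_of_mem_pow_span_X 𝒪 d φ' hloc' n _ hp)

/-- L4b. such homs are determined by the images of the variables -/
theorem mvPowerSeries_algHom_ext
    {A : Type*} [CommRing A] [IsLocalRing A] [Algebra 𝒪 A] [IsHausdorff (maximalIdeal A) A]
    (φ φ' : MvPowerSeries (Fin d) 𝒪 →ₐ[𝒪] A)
    (hloc : ∀ i, φ (MvPowerSeries.X i) ∈ maximalIdeal A)
    (h : ∀ i, φ (MvPowerSeries.X i) = φ' (MvPowerSeries.X i)) : φ = φ' :=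
  mvPowerSeries_algHom_ext_of_isHausdorff 𝒪 d φ φ' hloc h

end evalhom

section localhom

variable (𝒪 : Type*) [CommRing 𝒪] [IsLocalRing 𝒪] (d : ℕ)

/-- The ideal `(X)` is contained in the maximal ideal of `𝒪⟦X⟧`. -/
theorem span_X_le_maximalIdeal :
    Ideal.span (Set.range (MvPowerSeries.X (σ := Fin d) (R := 𝒪))) ≤
      maximalIdeal (MvPowerSeries (Fin d) 𝒪) := by
  rw [Ideal.span_le]
  rintro _ ⟨i, rfl⟩
  rw [SetLike.mem_coe, mem_maximalIdeal, mem_nonunits_iff, MvPowerSeries.isUnit_iff_constantCoeff,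
    MvPowerSeries.constantCoeff_X]
  exact not_isUnit_zero

/-- L4c. the maximal ideal goes into the maximal ideal (𝒪 local, structure map local) -/
theorem mvPowerSeries_algHom_isLocalHom
    {A : Type*} [CommRing A] [IsLocalRing A] [Algebra 𝒪 A] [IsLocalHom (algebraMap 𝒪 A)]
    (φ : MvPowerSeries (Fin d) 𝒪 →ₐ[𝒪] A)
    (hloc : ∀ i, φ (MvPowerSeries.X i) ∈ maximalIdeal A) :
    IsLocalHom (φ : MvPowerSeries (Fin d) 𝒪 →+* A) := by
  classical
  refine ⟨fun f hf => ?_⟩
  rw [MvPowerSeries.isUnit_iff_constantCoeff]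
  by_contra hc
  -- write `f = C c + g` with `g ∈ (X)`
  set c := MvPowerSeries.constantCoeff f with hcdef
  have hg : f - MvPowerSeries.C c ∈
      Ideal.span (Set.range (MvPowerSeries.X (σ := Fin d) (R := 𝒪))) := by
    apply mem_span_X_of_constantCoeff_eq_zero
    rw [map_sub, MvPowerSeries.constantCoeff_C, sub_self]
  have h1 : φ (f - MvPowerSeries.C c) ∈ maximalIdeal A := by
    have := algHom_mem_pow_of_mem_pow_span_X 𝒪 d φ hloc 1 _ (by rwa [pow_one])
    rwa [pow_one] at this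
  have h2 : φ (MvPowerSeries.C c) ∈ maximalIdeal A := by
    have hcA : (MvPowerSeries.C c : MvPowerSeries (Fin d) 𝒪) =
        algebraMap 𝒪 (MvPowerSeries (Fin d) 𝒪) c := by
      rw [MvPowerSeries.algebraMap_apply]; rfl
    rw [hcA, AlgHom.commutes, mem_maximalIdeal, mem_nonunits_iff]
    exact fun hu => hc (isUnit_of_map_unit (algebraMap 𝒪 A) c hu)
  have h3 : φ f ∈ maximalIdeal A := by
    have : φ f = φ (f - MvPowerSeries.C c) + φ (MvPowerSeries.C c) := by
      rw [← map_add, sub_add_cancel]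
    rw [this]
    exact Ideal.add_mem _ h1 h2
  exact (mem_nonunits_iff.mp ((mem_maximalIdeal _).mp h3)) hf

/-- L4d. `𝔪_S^n` is generated by `(𝔪_𝒪, X)^n`: every element of `S` is a polynomial modulo
`𝔪_S^n`. -/
theorem mvPowerSeries_exists_polynomial_sub_mem (n : ℕ)
    (f : MvPowerSeries (Fin d) 𝒪) :
    ∃ p : MvPolynomial (Fin d) 𝒪, f - (p : MvPowerSeries (Fin d) 𝒪) ∈
      maximalIdeal (MvPowerSeries (Fin d) 𝒪) ^ n := by
  obtain ⟨p, hp⟩ := exists_polynomial_sub_mem_pow_span_X n f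
  exact ⟨p, Ideal.pow_right_mono (span_X_le_maximalIdeal 𝒪 d) n hp⟩

end localhom

end Fermat.Agent.S53
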