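/-
S53 (universal deformation ring), part R1: construction of the pro-system data `ProData`.
The ring `R` is the quotient of `S = 𝒪⟦X₁,…,X_d⟧` by the intersection `J` of the kernels of the
evaluation maps `ev a : S → RpreE E ⧸ 𝔞` over the good ideals `𝔞 ≤ 𝔞₀`.
Owner: helper62.
-/
import Fermat.Agent.S53.UnivDefs
import Fermat.Agent.S53.Cotangent
import Fermat.Agent.S53.FiniteQuotient
import Fermat.Agent.S53.PowerSeriesComplete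
import Fermat.Agent.S53.LemmaL
import Fermat.Agent.S53.PowerSeriesEval
import Fermat.Prelude.Thm_IsLocalRing_isAdicComplete_of_module_finite

set_option autoImplicit false
set_option linter.unusedSectionVars false

namespace Fermat.Agent.S53

open IsLocalRing

namespace ProC

variable {𝒪 : Type} [CommRing 𝒪] [IsLocalRing 𝒪] (rt : GQ → M2 𝒪) (E : Set (PolyRing 𝒪))
  (𝒟 : ∀ ⦃A : Type⦄ [CommRing A] [IsLocalRing A] [Algebra 𝒪 A], GaloisRepAdic A → Prop)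

/-- The index type: good ideals below `𝔞₀`. -/
abbrev Idx (𝔞₀ : Ideal (RpreE E)) : Type :=
  {𝔞 : Ideal (RpreE E) // IsGoodIdeal rt E 𝒟 𝔞 ∧ 𝔞 ≤ 𝔞₀}

variable {rt E 𝒟} {𝔞₀ : Ideal (RpreE E)}

/-- The test algebra attached to an index. -/
abbrev T (a : Idx rt E 𝒟 𝔞₀) : Type := RpreE E ⧸ a.1

instance instIsLocalRingT (a : Idx rt E 𝒟 𝔞₀) : IsLocalRing (T a) := a.2.1.choose

theorem testA (a : Idx rt E 𝒟 𝔞₀) : GaloisRep.IsArtinianTestAlgebra 𝒪 (T a) :=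
  a.2.1.choose_spec.1

theorem goodA (a : Idx rt E 𝒟 𝔞₀) : IsGoodLift rt E 𝒟 (rQuot E a.1) :=
  a.2.1.choose_spec.2

instance instIsLocalHomT (a : Idx rt E 𝒟 𝔞₀) : IsLocalHom (algebraMap 𝒪 (T a)) :=
  (testA a).isLocalHom

instance instIsArtinianT (a : Idx rt E 𝒟 𝔞₀) : IsArtinianRing (T a) :=
  (testA a).isArtinian

theorem rQuot_apply (𝔞 : Ideal (RpreE E)) (g : GQ) (i j : Fin 2) :
    rQuot E 𝔞 g i j = Ideal.Quotient.mk 𝔞 (Presentation.gen 𝒪 E g i j) := rfl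

theorem mk_yGen (𝔞 : Ideal (RpreE E)) (x : GQ × Fin 2 × Fin 2) :
    Ideal.Quotient.mk 𝔞 (yGen rt E x) =
      rQuot E 𝔞 x.1 x.2.1 x.2.2 - algebraMap 𝒪 (RpreE E ⧸ 𝔞) (rt x.1 x.2.1 x.2.2) := by
  rw [yGen, map_sub, rQuot_apply]
  rfl

theorem mk_yGen_mem (a : Idx rt E 𝒟 𝔞₀) (x : GQ × Fin 2 × Fin 2) :
    Ideal.Quotient.mk a.1 (yGen rt E x) ∈ maximalIdeal (T a) := by
  rw [mk_yGen]
  exact (goodA a).lift x.1 x.2.1 x.2.2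

section ev

variable (d : ℕ) (x : Fin d → GQ × Fin 2 × Fin 2)

/-- The power series ring. -/
abbrev S (𝒪 : Type) [CommRing 𝒪] (d : ℕ) : Type := MvPowerSeries (Fin d) 𝒪

/-- The evaluation map `S → T a`, `X i ↦ mk (yGen (x i))`. -/
noncomputable def ev (a : Idx rt E 𝒟 𝔞₀) : S 𝒪 d →ₐ[𝒪] T a :=
  (exists_mvPowerSeries_algHom 𝒪 d (fun i => Ideal.Quotient.mk a.1 (yGen rt E (x i)))
    (fun i => mk_yGen_mem a (x i))).choose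

theorem ev_coe (a : Idx rt E 𝒟 𝔞₀) (p : MvPolynomial (Fin d) 𝒪) :
    ev d x a (p : MvPowerSeries (Fin d) 𝒪) =
      Ideal.Quotient.mk a.1 (MvPolynomial.aeval (fun i => yGen rt E (x i)) p) := by
  have h := (exists_mvPowerSeries_algHom 𝒪 d (fun i => Ideal.Quotient.mk a.1 (yGen rt E (x i)))
    (fun i => mk_yGen_mem a (x i))).choose_spec p
  rw [ev, h]
  exact (MvPolynomial.comp_aeval_apply (fun i => yGen rt E (x i))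
    (Ideal.Quotient.mkₐ 𝒪 a.1) p).symm

theorem ev_X (a : Idx rt E 𝒟 𝔞₀) (i : Fin d) :
    ev d x a (MvPowerSeries.X i) = Ideal.Quotient.mk a.1 (yGen rt E (x i)) := by
  have h := ev_coe d x a (MvPolynomial.X i)
  rwa [MvPolynomial.coe_X, MvPolynomial.aeval_X] at h

theorem ev_X_mem (a : Idx rt E 𝒟 𝔞₀) (i : Fin d) :
    ev d x a (MvPowerSeries.X i) ∈ maximalIdeal (T a) := by
  rw [ev_X]
  exact mk_yGen_mem a (x i)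

instance ev_isLocalHom (a : Idx rt E 𝒟 𝔞₀) : IsLocalHom (ev d x a : S 𝒪 d →+* T a) :=
  mvPowerSeries_algHom_isLocalHom 𝒪 d (ev d x a) (ev_X_mem d x a)

theorem ev_factor {a b : Idx rt E 𝒟 𝔞₀} (hab : a ≤ b) :
    ev d x b = (Ideal.Quotient.factorₐ 𝒪 (show a.1 ≤ b.1 from hab)).comp (ev d x a) := by
  refine mvPowerSeries_algHom_ext 𝒪 d _ _ (ev_X_mem d x b) fun i => ?_
  rw [AlgHom.comp_apply, ev_X, ev_X]
  rfl

theorem ev_ker_mono {a b : Idx rt E 𝒟 𝔞₀} (hab : a ≤ b) :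
    RingHom.ker (ev d x a : S 𝒪 d →+* T a) ≤ RingHom.ker (ev d x b : S 𝒪 d →+* T b) := by
  intro s hs
  rw [RingHom.mem_ker] at hs ⊢
  change ev d x a s = 0 at hs
  change ev d x b s = 0
  rw [ev_factor d x hab, AlgHom.comp_apply, hs, map_zero]

theorem ev_open (a : Idx rt E 𝒟 𝔞₀) :
    ∃ n, maximalIdeal (S 𝒪 d) ^ n ≤ RingHom.ker (ev d x a : S 𝒪 d →+* T a) := by
  obtain ⟨n, hn⟩ := exists_maximalIdeal_pow_eq_bot (T a)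
  refine ⟨n, fun s hs => ?_⟩
  rw [RingHom.mem_ker]
  have h1 : (ev d x a : S 𝒪 d →+* T a) s ∈
      Ideal.map (ev d x a : S 𝒪 d →+* T a) (maximalIdeal (S 𝒪 d) ^ n) :=
    Ideal.mem_map_of_mem _ hs
  rw [Ideal.map_pow] at h1
  have h2 := Ideal.pow_right_mono (map_maximalIdeal_le (ev d x a : S 𝒪 d →+* T a)) n h1
  rwa [hn, Ideal.mem_bot] at h2

theorem ev_surjective
    (hgen : ∀ 𝔞, IsGoodIdeal rt E 𝒟 𝔞 → 𝔞 ≤ 𝔞₀ → ∀ z : RpreE E,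
        ∃ p : MvPolynomial (Fin d) 𝒪,
          z - MvPolynomial.aeval (fun i => yGen rt E (x i)) p ∈ 𝔞)
    (a : Idx rt E 𝒟 𝔞₀) : Function.Surjective (ev d x a) := by
  intro t
  obtain ⟨z, rfl⟩ := Ideal.Quotient.mk_surjective t
  obtain ⟨p, hp⟩ := hgen a.1 a.2.1 a.2.2 z
  refine ⟨(p : MvPowerSeries (Fin d) 𝒪), ?_⟩
  rw [ev_coe]
  exact (Ideal.Quotient.eq.mpr hp).symm

end ev

section ring

variable (rt E 𝒟 𝔞₀) (d : ℕ) (x : Fin d → GQ × Fin 2 × Fin 2)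

/-- The intersection of the kernels of the evaluation maps. -/
noncomputable def J : Ideal (S 𝒪 d) :=
  ⨅ a : Idx rt E 𝒟 𝔞₀, RingHom.ker (ev d x a : S 𝒪 d →+* T a)

theorem mem_J {s : S 𝒪 d} : s ∈ J rt E 𝒟 𝔞₀ d x ↔ ∀ a : Idx rt E 𝒟 𝔞₀, ev d x a s = 0 := by
  rw [J, Ideal.mem_iInf]
  rfl

/-- The universal ring. -/
abbrev RR : Type := S 𝒪 d ⧸ J rt E 𝒟 𝔞₀ d x

variable {rt E 𝒟 𝔞₀}

theorem J_ne_top (h₀ : IsGoodIdeal rt E 𝒟 𝔞₀) : J rt E 𝒟 𝔞₀ d x ≠ ⊤ := by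
  intro h
  have h1 : (1 : S 𝒪 d) ∈ J rt E 𝒟 𝔞₀ d x := h ▸ Submodule.mem_top
  obtain ⟨a⟩ : Nonempty (Idx rt E 𝒟 𝔞₀) := ⟨⟨𝔞₀, h₀, le_rfl⟩⟩
  have h2 := (mem_J rt E 𝒟 𝔞₀ d x).mp h1 a
  rw [map_one] at h2
  exact one_ne_zero h2

theorem RR_nontrivial (h₀ : IsGoodIdeal rt E 𝒟 𝔞₀) : Nontrivial (RR rt E 𝒟 𝔞₀ d x) :=
  Ideal.Quotient.nontrivial_iff.mpr (J_ne_top d x h₀)

theorem RR_isLocalRing (h₀ : IsGoodIdeal rt E 𝒟 𝔞₀) : IsLocalRing (RR rt E 𝒟 𝔞₀ d x) :=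
  haveI := RR_nontrivial d x h₀
  IsLocalRing.of_surjective' (Ideal.Quotient.mk (J rt E 𝒟 𝔞₀ d x)) Ideal.Quotient.mk_surjective

section withLocal

variable [hR : IsLocalRing (RR rt E 𝒟 𝔞₀ d x)]

instance mk_isLocalHom : IsLocalHom (Ideal.Quotient.mk (J rt E 𝒟 𝔞₀ d x)) :=
  IsLocalHom.of_surjective _ Ideal.Quotient.mk_surjective

theorem C_isLocalHom : IsLocalHom (algebraMap 𝒪 (S 𝒪 d)) := by
  refine ⟨fun c hc => ?_⟩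
  rw [MvPowerSeries.isUnit_iff_constantCoeff, MvPowerSeries.algebraMap_apply,
    MvPowerSeries.constantCoeff_C] at hc
  exact hc

instance RR_isLocalHom_algebraMap : IsLocalHom (algebraMap 𝒪 (RR rt E 𝒟 𝔞₀ d x)) := by
  have h : algebraMap 𝒪 (RR rt E 𝒟 𝔞₀ d x) =
      (Ideal.Quotient.mk (J rt E 𝒟 𝔞₀ d x)).comp (algebraMap 𝒪 (S 𝒪 d)) := rfl
  rw [h]
  have := C_isLocalHom (𝒪 := 𝒪) d
  exact RingHom.isLocalHom_comp _ _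

theorem RR_isAdicComplete [IsNoetherianRing 𝒪] [IsAdicComplete (maximalIdeal 𝒪) 𝒪] :
    IsAdicComplete (maximalIdeal (RR rt E 𝒟 𝔞₀ d x)) (RR rt E 𝒟 𝔞₀ d x) := by
  have : IsAdicComplete (maximalIdeal (S 𝒪 d)) (S 𝒪 d) := mvPowerSeries_isAdicComplete 𝒪 d
  have : IsLocalHom (algebraMap (S 𝒪 d) (RR rt E 𝒟 𝔞₀ d x)) :=
    mk_isLocalHom (rt := rt) (E := E) (𝒟 := 𝒟) (𝔞₀ := 𝔞₀) d x
  exact IsLocalRing.isAdicComplete_of_module_finite (𝒪 := S 𝒪 d) (T := RR rt E 𝒟 𝔞₀ d x)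

theorem RR_residue_surjective :
    Function.Surjective (residue (RR rt E 𝒟 𝔞₀ d x) ∘ algebraMap 𝒪 (RR rt E 𝒟 𝔞₀ d x)) := by
  intro t
  obtain ⟨r, rfl⟩ := IsLocalRing.residue_surjective t
  obtain ⟨s, rfl⟩ := Ideal.Quotient.mk_surjective r
  refine ⟨MvPowerSeries.constantCoeff s, ?_⟩
  rw [Function.comp_apply, ← sub_eq_zero, ← map_sub, residue_eq_zero_iff]
  have h : algebraMap 𝒪 (RR rt E 𝒟 𝔞₀ d x) (MvPowerSeries.constantCoeff s) =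
      Ideal.Quotient.mk (J rt E 𝒟 𝔞₀ d x) (MvPowerSeries.C (MvPowerSeries.constantCoeff s)) := rfl
  rw [h, ← map_sub]
  refine map_nonunit (Ideal.Quotient.mk (J rt E 𝒟 𝔞₀ d x)) _ ?_
  rw [maximalIdeal_mvPowerSeries, Ideal.mem_comap, map_sub, MvPowerSeries.constantCoeff_C,
    sub_self]
  exact zero_mem _

end withLocal

/-- The projections `R → T a`. -/
noncomputable def π (a : Idx rt E 𝒟 𝔞₀) : RR rt E 𝒟 𝔞₀ d x →ₐ[𝒪] T a :=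
  Ideal.Quotient.liftₐ (J rt E 𝒟 𝔞₀ d x) (ev d x a)
    (fun _ hs => (mem_J rt E 𝒟 𝔞₀ d x).mp hs a)

theorem π_mk (a : Idx rt E 𝒟 𝔞₀) (s : S 𝒪 d) :
    π d x a (Ideal.Quotient.mk (J rt E 𝒟 𝔞₀ d x) s) = ev d x a s := rfl

theorem π_surjective
    (hgen : ∀ 𝔞, IsGoodIdeal rt E 𝒟 𝔞 → 𝔞 ≤ 𝔞₀ → ∀ z : RpreE E,
        ∃ p : MvPolynomial (Fin d) 𝒪,
          z - MvPolynomial.aeval (fun i => yGen rt E (x i)) p ∈ 𝔞)
    (a : Idx rt E 𝒟 𝔞₀) : Function.Surjective (π d x a) := by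
  intro t
  obtain ⟨s, hs⟩ := ev_surjective d x hgen a t
  exact ⟨Ideal.Quotient.mk _ s, hs⟩

theorem π_injective (z : RR rt E 𝒟 𝔞₀ d x) (hz : ∀ a : Idx rt E 𝒟 𝔞₀, π d x a z = 0) :
    z = 0 := by
  obtain ⟨s, rfl⟩ := Ideal.Quotient.mk_surjective z
  rw [Ideal.Quotient.eq_zero_iff_mem, mem_J]
  exact fun a => hz a

theorem π_ext {z z' : RR rt E 𝒟 𝔞₀ d x}
    (h : ∀ a : Idx rt E 𝒟 𝔞₀, π d x a z = π d x a z') : z = z' := by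
  rw [← sub_eq_zero]
  refine π_injective d x _ fun a => ?_
  rw [map_sub, h a, sub_self]

theorem idx_isDirected
    (hinf : ∀ 𝔞 𝔟, IsGoodIdeal rt E 𝒟 𝔞 → IsGoodIdeal rt E 𝒟 𝔟 → IsGoodIdeal rt E 𝒟 (𝔞 ⊓ 𝔟)) :
    IsDirected (Idx rt E 𝒟 𝔞₀) (· ≥ ·) :=
  ⟨fun a b => ⟨⟨a.1 ⊓ b.1, hinf a.1 b.1 a.2.1 b.2.1, inf_le_left.trans a.2.2⟩,
    (inf_le_left : a.1 ⊓ b.1 ≤ a.1), (inf_le_right : a.1 ⊓ b.1 ≤ b.1)⟩⟩

section complete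

variable [IsNoetherianRing 𝒪] [IsAdicComplete (maximalIdeal 𝒪) 𝒪] [Finite (ResidueField 𝒪)]

theorem exists_sel
    (hinf : ∀ 𝔞 𝔟, IsGoodIdeal rt E 𝒟 𝔞 → IsGoodIdeal rt E 𝒟 𝔟 → IsGoodIdeal rt E 𝒟 (𝔞 ⊓ 𝔟))
    (h₀ : IsGoodIdeal rt E 𝒟 𝔞₀)
    (hgen : ∀ 𝔞, IsGoodIdeal rt E 𝒟 𝔞 → 𝔞 ≤ 𝔞₀ → ∀ z : RpreE E,
        ∃ p : MvPolynomial (Fin d) 𝒪,
          z - MvPolynomial.aeval (fun i => yGen rt E (x i)) p ∈ 𝔞)
    (g : GQ) (i j : Fin 2) :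
    ∃ s : S 𝒪 d, ∀ a : Idx rt E 𝒟 𝔞₀,
      ev d x a s = Ideal.Quotient.mk a.1 (Presentation.gen 𝒪 E g i j) := by
  have : IsAdicComplete (maximalIdeal (S 𝒪 d)) (S 𝒪 d) := mvPowerSeries_isAdicComplete 𝒪 d
  have : Finite (ResidueField (S 𝒪 d)) := mvPowerSeries_residueField_finite 𝒪 d
  have : IsDirected (Idx rt E 𝒟 𝔞₀) (· ≥ ·) := idx_isDirected hinf
  have : Nonempty (Idx rt E 𝒟 𝔞₀) := ⟨⟨𝔞₀, h₀, le_rfl⟩⟩
  refine lemmaL_surj (S := S 𝒪 d) (T := fun a : Idx rt E 𝒟 𝔞₀ => T a)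
    (fun a => (ev d x a : S 𝒪 d →+* T a)) (fun a => ev_surjective d x hgen a)
    (fun a b hab => ev_ker_mono d x hab) (fun a => ev_open d x a)
    (fun a => Ideal.Quotient.mk a.1 (Presentation.gen 𝒪 E g i j)) ?_
  intro a b hab y hy
  change ev d x a y = _ at hy
  change ev d x b y = _
  rw [ev_factor d x hab, AlgHom.comp_apply, hy]
  rfl

theorem exists_cofinal_ev
    (hinf : ∀ 𝔞 𝔟, IsGoodIdeal rt E 𝒟 𝔞 → IsGoodIdeal rt E 𝒟 𝔟 → IsGoodIdeal rt E 𝒟 (𝔞 ⊓ 𝔟))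
    (h₀ : IsGoodIdeal rt E 𝒟 𝔞₀)
    (hgen : ∀ 𝔞, IsGoodIdeal rt E 𝒟 𝔞 → 𝔞 ≤ 𝔞₀ → ∀ z : RpreE E,
        ∃ p : MvPolynomial (Fin d) 𝒪,
          z - MvPolynomial.aeval (fun i => yGen rt E (x i)) p ∈ 𝔞)
    (n : ℕ) :
    ∃ a : Idx rt E 𝒟 𝔞₀, RingHom.ker (ev d x a : S 𝒪 d →+* T a) ≤
      J rt E 𝒟 𝔞₀ d x ⊔ maximalIdeal (S 𝒪 d) ^ n := by
  have : IsAdicComplete (maximalIdeal (S 𝒪 d)) (S 𝒪 d) := mvPowerSeries_isAdicComplete 𝒪 d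
  have : Finite (ResidueField (S 𝒪 d)) := mvPowerSeries_residueField_finite 𝒪 d
  have : IsDirected (Idx rt E 𝒟 𝔞₀) (· ≥ ·) := idx_isDirected hinf
  have : Nonempty (Idx rt E 𝒟 𝔞₀) := ⟨⟨𝔞₀, h₀, le_rfl⟩⟩
  exact lemmaL_cofinal (S := S 𝒪 d) (T := fun a : Idx rt E 𝒟 𝔞₀ => T a)
    (fun a => (ev d x a : S 𝒪 d →+* T a)) (fun a => ev_surjective d x hgen a)
    (fun a b hab => ev_ker_mono d x hab) (fun a => ev_open d x a) n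

end complete

end ring

end ProC

open ProC in
/-- R1. construction of the pro-system data. -/
theorem nonempty_proData {𝒪 : Type} [CommRing 𝒪] [IsLocalRing 𝒪] (rt : GQ → M2 𝒪)
    (E : Set (PolyRing 𝒪))
    (𝒟 : ∀ ⦃A : Type⦄ [CommRing A] [IsLocalRing A] [Algebra 𝒪 A], GaloisRepAdic A → Prop)
    [IsNoetherianRing 𝒪] [IsAdicComplete (IsLocalRing.maximalIdeal 𝒪) 𝒪]
    [Finite (IsLocalRing.ResidueField 𝒪)]
    (hinf : ∀ 𝔞 𝔟, IsGoodIdeal rt E 𝒟 𝔞 → IsGoodIdeal rt E 𝒟 𝔟 → IsGoodIdeal rt E 𝒟 (𝔞 ⊓ 𝔟))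
    (d : ℕ) (x : Fin d → GQ × Fin 2 × Fin 2) (𝔞₀ : Ideal (RpreE E))
    (h₀ : IsGoodIdeal rt E 𝒟 𝔞₀)
    (hgen : ∀ 𝔞, IsGoodIdeal rt E 𝒟 𝔞 → 𝔞 ≤ 𝔞₀ → ∀ z : RpreE E,
        ∃ p : MvPolynomial (Fin d) 𝒪,
          z - MvPolynomial.aeval (fun i => yGen rt E (x i)) p ∈ 𝔞) :
    Nonempty (ProData rt E 𝒟) := by
  classical
  have hloc : IsLocalRing (RR rt E 𝒟 𝔞₀ d x) := RR_isLocalRing d x h₀
  have hcompl : IsAdicComplete (maximalIdeal (RR rt E 𝒟 𝔞₀ d x)) (RR rt E 𝒟 𝔞₀ d x) :=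
    RR_isAdicComplete d x
  choose sel hsel using exists_sel d x hinf h₀ hgen
  let ruFun : GQ → M2 (RR rt E 𝒟 𝔞₀ d x) := fun g =>
    Matrix.of fun i j => Ideal.Quotient.mk (J rt E 𝒟 𝔞₀ d x) (sel g i j)
  have hπru : ∀ (a : Idx rt E 𝒟 𝔞₀) (g : GQ) (i j : Fin 2),
      π d x a (ruFun g i j) = Ideal.Quotient.mk a.1 (Presentation.gen 𝒪 E g i j) :=
    fun a g i j => hsel g i j a
  have hone : ruFun 1 = 1 := by
    ext i j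
    refine π_ext d x fun a => ?_
    rw [hπru, Presentation.gen_one, Matrix.one_apply]
    split_ifs <;> simp
  have hmul : ∀ g h : GQ, ruFun (g * h) = ruFun g * ruFun h := by
    intro g h
    ext i j
    refine π_ext d x fun a => ?_
    rw [hπru, Matrix.mul_apply, map_sum, Presentation.gen_mul, map_sum]
    refine Finset.sum_congr rfl fun l _ => ?_
    rw [map_mul, map_mul, hπru, hπru]
  let ru : GQ →* M2 (RR rt E 𝒟 𝔞₀ d x) :=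
    { toFun := ruFun, map_one' := hone, map_mul' := hmul }
  refine ⟨{
    R := RR rt E 𝒟 𝔞₀ d x
    residue_surjective := RR_residue_surjective d x
    ru := ru
    ι := Idx rt E 𝒟 𝔞₀
    ι_nonempty := ⟨⟨𝔞₀, h₀, le_rfl⟩⟩
    𝔞 := fun a => a.1
    good := fun a => a.2.1
    cofinalGood := fun 𝔟 h𝔟 => ⟨⟨𝔟 ⊓ 𝔞₀, hinf 𝔟 𝔞₀ h𝔟 h₀, inf_le_right⟩, inf_le_left⟩
    π := π d x
    π_surj := π_surjective d x hgen
    π_ru := hπru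
    π_inj := π_injective d x
    cofinal := ?_
    d := d
    x := x
    q := Ideal.Quotient.mkₐ 𝒪 (J rt E 𝒟 𝔞₀ d x)
    q_surj := Ideal.Quotient.mkₐ_surjective 𝒪 _
    q_X := ?_ }⟩
  · intro n
    obtain ⟨a, ha⟩ := exists_cofinal_ev d x hinf h₀ hgen n
    refine ⟨a, fun z hz => ?_⟩
    obtain ⟨s, rfl⟩ := Ideal.Quotient.mk_surjective z
    have hs : s ∈ RingHom.ker (ev d x a : S 𝒪 d →+* T a) := hz
    obtain ⟨j, hj, m, hm, rfl⟩ := Submodule.mem_sup.mp (ha hs)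
    rw [map_add, Ideal.Quotient.eq_zero_iff_mem.mpr hj, zero_add]
    have h1 : Ideal.Quotient.mk (J rt E 𝒟 𝔞₀ d x) m ∈
        Ideal.map (Ideal.Quotient.mk (J rt E 𝒟 𝔞₀ d x)) (maximalIdeal (S 𝒪 d) ^ n) :=
      Ideal.mem_map_of_mem _ hm
    rw [Ideal.map_pow] at h1
    exact Ideal.pow_right_mono (map_maximalIdeal_le (Ideal.Quotient.mk (J rt E 𝒟 𝔞₀ d x))) n h1
  · intro i
    refine π_ext d x fun a => ?_
    rw [map_sub, AlgHom.commutes]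
    change ev d x a (MvPowerSeries.X i) = π d x a (ruFun (x i).1 (x i).2.1 (x i).2.2) - _
    rw [hπru, ev_X, mk_yGen, rQuot_apply]

end Fermat.Agent.S53
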