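/-
S53, item C2 (`lemmas` id 28): the kernel of the classifying map of a good lift over an Artinian
test algebra is a good ideal, plus two toolkit statements.  Owner: helper77.

The mathematics is in helper30's `GoodIdeals.lean` (namespace `Fermat.Agent.S53.GoodIdeals`);
this file re-exports it under the exact names/statements requested by the S53 architect, in the
namespace `Fermat.Agent.S53`.

`finite_of_isArtinianTestAlgebra` (and `finite_residueField_of_isArtinianTestAlgebra`) with the
requested statement were landed first by helper66 in `TangentBound.lean` under the same fully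
qualified names; to keep every S53 file loadable together this file imports `TangentBound` and
does not redeclare them (call: `finite_of_isArtinianTestAlgebra hB : Finite B`).
-/
import Fermat.Agent.S53.Core
import Fermat.Agent.S53.MatrixForm
import Fermat.Agent.S53.Cotangent
import Fermat.Agent.S53.FiniteQuotient
import Fermat.Agent.S53.GoodIdeals
import Fermat.Agent.S53.TangentBound

set_option autoImplicit false

namespace Fermat.Agent.S53

variable {𝒪 : Type} [CommRing 𝒪] [IsLocalRing 𝒪] (rt : GQ → M2 𝒪) (E : Set (PolyRing 𝒪))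
  (𝒟 : ∀ ⦃A : Type⦄ [CommRing A] [IsLocalRing A] [Algebra 𝒪 A], GaloisRepAdic A → Prop)

/-- T-toolkit: for Artinian local `B`, `MatCont ↔` finite level. -/
theorem matCont_iff_finiteLevel {B : Type} [CommRing B] [IsLocalRing B] [IsArtinianRing B]
    (r : GQ →* M2 B) : MatCont r ↔ GaloisFactorsThroughFiniteLevel r :=
  GoodIdeals.matCont_iff_finiteLevel r

/-- C2. The kernel of the classifying map of a good lift over an Artinian test algebra is good. -/
theorem isGoodIdeal_ker [Finite (IsLocalRing.ResidueField 𝒪)]
    (h𝒟 : GaloisRep.IsDeformationCondition 𝒪 𝒟)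
    {B : Type} [CommRing B] [IsLocalRing B] [Algebra 𝒪 B]
    (hB : GaloisRep.IsArtinianTestAlgebra 𝒪 B) (s : GQ →* M2 B) (hs : IsGoodLift rt E 𝒟 s) :
    IsGoodIdeal rt E 𝒟 (RingHom.ker (Presentation.lift s hs.norm : RpreE E →ₐ[𝒪] B)) :=
  (GoodIdeals.isGoodIdeal_ker h𝒟 hB s hs).1

/-- C2, companion: the classifying map factors through an injective local `𝒪`-algebra map out of
the quotient by its kernel. -/
theorem exists_injective_of_isGoodIdeal_ker [Finite (IsLocalRing.ResidueField 𝒪)]
    (h𝒟 : GaloisRep.IsDeformationCondition 𝒪 𝒟)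
    {B : Type} [CommRing B] [IsLocalRing B] [Algebra 𝒪 B]
    (hB : GaloisRep.IsArtinianTestAlgebra 𝒪 B) (s : GQ →* M2 B) (hs : IsGoodLift rt E 𝒟 s) :
    ∃ ι : RpreE E ⧸ RingHom.ker (Presentation.lift s hs.norm : RpreE E →ₐ[𝒪] B) →ₐ[𝒪] B,
      Function.Injective ι ∧
      IsLocalHom (ι : RpreE E ⧸ RingHom.ker (Presentation.lift s hs.norm : RpreE E →ₐ[𝒪] B)
        →+* B) ∧
      ι.comp (Ideal.Quotient.mkₐ 𝒪
        (RingHom.ker (Presentation.lift s hs.norm : RpreE E →ₐ[𝒪] B))) =
        Presentation.lift s hs.norm :=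
  (GoodIdeals.isGoodIdeal_ker h𝒟 hB s hs).2

end Fermat.Agent.S53
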