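/-
S53 helper (owner: helper31): ring-side facts for a quotient `S ⧸ J` of a complete noetherian local
`𝒪`-algebra `S` (used for `R = S ⧸ J` in the construction of the universal ring).
-/
import Mathlib
import Fermat.Prelude.Thm_IsLocalRing_isAdicComplete_of_module_finite

set_option autoImplicit false
set_option linter.unusedSectionVars false
set_option linter.unnecessarySimpa false

namespace Fermat.Agent.S53.QuotCNL

open IsLocalRing

variable {𝒪 : Type} [CommRing 𝒪] [IsLocalRing 𝒪]
  {S : Type} [CommRing S] [IsLocalRing S] [Algebra 𝒪 S]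

/-- A surjective ring hom between local rings is local. -/
theorem isLocalHom_of_surjective {A B : Type*} [CommRing A] [CommRing B] [IsLocalRing A]
    [IsLocalRing B] (f : A →+* B) (hf : Function.Surjective f) : IsLocalHom f := by
  refine ⟨fun a ha => ?_⟩
  by_contra hna
  have hmem : a ∈ maximalIdeal A := (mem_maximalIdeal a).mpr hna
  -- `1 - a * b` style: pick `b` with `f a * f b = 1`
  obtain ⟨u, hu⟩ := ha
  obtain ⟨b, hb⟩ := hf (↑u⁻¹ : B)
  have h1 : f (a * b) = 1 := by rw [map_mul, hb, ← hu]; exact u.mul_inv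
  have h2 : a * b ∈ maximalIdeal A := Ideal.mul_mem_right _ _ hmem
  have h3 : IsUnit (1 - a * b) := by
    by_contra h
    have h4 : 1 - a * b ∈ maximalIdeal A := (mem_maximalIdeal _).mpr h
    have : (1 : A) ∈ maximalIdeal A := by
      have := Ideal.add_mem _ h4 h2
      simpa using this
    exact (Ideal.ne_top_iff_one _).mp (maximalIdeal.isMaximal A).ne_top this
  have h5 : f (1 - a * b) = 0 := by rw [map_sub, map_one, h1, sub_self]
  have : IsUnit (0 : B) := h5 ▸ h3.map f
  exact not_isUnit_zero this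

section quot

variable (J : Ideal S) (hJ : J ≠ ⊤)

include hJ in
theorem isLocalRing_quotient : IsLocalRing (S ⧸ J) := by
  have : Nontrivial (S ⧸ J) := Ideal.Quotient.nontrivial_iff.mpr hJ
  exact IsLocalRing.of_surjective' (Ideal.Quotient.mk J) Ideal.Quotient.mk_surjective

variable [IsLocalRing (S ⧸ J)]

theorem isLocalHom_mk : IsLocalHom (Ideal.Quotient.mk J) :=
  isLocalHom_of_surjective _ Ideal.Quotient.mk_surjective

theorem isLocalHom_algebraMap_quotient [IsLocalHom (algebraMap 𝒪 S)] :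
    IsLocalHom (algebraMap 𝒪 (S ⧸ J)) := by
  have h1 : IsLocalHom (Ideal.Quotient.mk J) := isLocalHom_mk J
  have : algebraMap 𝒪 (S ⧸ J) = (Ideal.Quotient.mk J).comp (algebraMap 𝒪 S) := rfl
  rw [this]
  exact RingHom.isLocalHom_comp _ _

theorem mk_mem_maximalIdeal_iff (s : S) :
    Ideal.Quotient.mk J s ∈ maximalIdeal (S ⧸ J) ↔ s ∈ maximalIdeal S := by
  have h1 : IsLocalHom (Ideal.Quotient.mk J) := isLocalHom_mk J
  rw [mem_maximalIdeal, mem_maximalIdeal, mem_nonunits_iff, mem_nonunits_iff]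
  exact not_congr ⟨fun h => isUnit_of_map_unit _ _ h, fun h => h.map _⟩

theorem map_maximalIdeal : (maximalIdeal S).map (Ideal.Quotient.mk J) = maximalIdeal (S ⧸ J) := by
  apply le_antisymm
  · rw [Ideal.map_le_iff_le_comap]
    intro s hs
    exact (mk_mem_maximalIdeal_iff J s).mpr hs
  · intro x hx
    obtain ⟨s, rfl⟩ := Ideal.Quotient.mk_surjective x
    exact Ideal.mem_map_of_mem _ ((mk_mem_maximalIdeal_iff J s).mp hx)

theorem map_maximalIdeal_pow (n : ℕ) :
    (maximalIdeal S ^ n).map (Ideal.Quotient.mk J) = maximalIdeal (S ⧸ J) ^ n := by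
  rw [Ideal.map_pow, map_maximalIdeal]

theorem residue_surjective_quotient
    (hS : Function.Surjective (residue S ∘ algebraMap 𝒪 S)) :
    Function.Surjective (residue (S ⧸ J) ∘ algebraMap 𝒪 (S ⧸ J)) := by
  intro x
  obtain ⟨y, rfl⟩ := residue_surjective x
  obtain ⟨s, rfl⟩ := Ideal.Quotient.mk_surjective y
  obtain ⟨o, ho⟩ := hS (residue S s)
  refine ⟨o, ?_⟩
  rw [Function.comp_apply] at ho ⊢
  have h1 : algebraMap 𝒪 S o - s ∈ maximalIdeal S := by
    rw [← residue_eq_zero_iff, map_sub, ho, sub_self]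
  have h2 : Ideal.Quotient.mk J (algebraMap 𝒪 S o - s) ∈ maximalIdeal (S ⧸ J) :=
    (mk_mem_maximalIdeal_iff J _).mpr h1
  rw [map_sub, ← residue_eq_zero_iff, map_sub, sub_eq_zero] at h2
  exact h2

theorem isAdicComplete_quotient [IsNoetherianRing S] [IsAdicComplete (maximalIdeal S) S] :
    IsAdicComplete (maximalIdeal (S ⧸ J)) (S ⧸ J) := by
  have h1 : IsLocalHom (algebraMap S (S ⧸ J)) := isLocalHom_mk J
  have h2 : Module.Finite S (S ⧸ J) := Module.Finite.of_surjective
    (Algebra.linearMap S (S ⧸ J)) Ideal.Quotient.mk_surjective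
  exact IsLocalRing.isAdicComplete_of_module_finite (𝒪 := S) (T := S ⧸ J)

end quot

end Fermat.Agent.S53.QuotCNL
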