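/-
S53: the universal lift of a `ProData` is a good lift (item R2, hedge by helper53).
-/
import Fermat.Agent.S53.UnivDefs
import Fermat.Agent.S53.GoodKer
import Fermat.Agent.S53.TypeTransport
import Fermat.Agent.S53.QuotCNL

set_option autoImplicit false

namespace Fermat.Agent.S53

namespace ProGoodH

open IsLocalRing

variable {𝒪 : Type} [CommRing 𝒪] [IsLocalRing 𝒪] {rt : GQ → M2 𝒪} {E : Set (PolyRing 𝒪)}
  {𝒟 : ∀ ⦃A : Type⦄ [CommRing A] [IsLocalRing A] [Algebra 𝒪 A], GaloisRepAdic A → Prop}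

/-- `mapMat (π a) ru = rQuot`. -/
theorem mapMat_π_ru (D : ProData rt E 𝒟) (a : D.ι) :
    mapMat (D.π a : D.R →+* (RpreE E ⧸ D.𝔞 a)) D.ru = rQuot E (D.𝔞 a) := by
  ext g i j
  rw [mapMat_apply_apply]
  exact D.π_ru a g i j

theorem π_sub_one (D : ProData rt E 𝒟) (a : D.ι) (σ : GQ) (i j : Fin 2) :
    D.π a ((D.ru σ - 1) i j) = (rQuot E (D.𝔞 a) σ - 1) i j := by
  rw [Matrix.sub_apply, Matrix.sub_apply, map_sub, ← mapMat_π_ru D a, mapMat_apply_apply]
  congr 1
  rw [Matrix.one_apply, Matrix.one_apply]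
  split_ifs <;> simp

/-- R2. the universal lift is good. -/
theorem good_ru [Finite (ResidueField 𝒪)] (h𝒟 : GaloisRep.IsDeformationCondition 𝒪 𝒟)
    (D : ProData rt E 𝒟) : IsGoodLift rt E 𝒟 D.ru := by
  classical
  -- continuity first
  have hcont : MatCont D.ru := by
    intro n
    obtain ⟨a, ha⟩ := D.cofinal n
    obtain ⟨hloc, hT, hg⟩ := D.good a
    haveI : IsArtinianRing (RpreE E ⧸ D.𝔞 a) := hT.isArtinian
    obtain ⟨L, hL, h1⟩ := (matCont_iff_finiteLevel (rQuot E (D.𝔞 a))).mp hg.cont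
    refine ⟨L, hL, fun σ hσ i j => ha ?_⟩
    rw [RingHom.mem_ker]
    show D.π a ((D.ru σ - 1) i j) = 0
    rw [π_sub_one, h1 σ hσ, sub_self, Matrix.zero_apply]
  refine ⟨?_, ?_, hcont, ?_⟩
  · -- lift
    intro g i j
    obtain ⟨a⟩ := D.ι_nonempty
    obtain ⟨hloc, hT, hg⟩ := D.good a
    haveI : IsLocalHom (D.π a : D.R →+* (RpreE E ⧸ D.𝔞 a)) :=
      QuotCNL.isLocalHom_of_surjective _ (D.π_surj a)
    have h1 : (D.π a : D.R →+* (RpreE E ⧸ D.𝔞 a))
        (D.ru g i j - algebraMap 𝒪 D.R (rt g i j)) ∈ maximalIdeal (RpreE E ⧸ D.𝔞 a) := by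
      have := hg.lift g i j
      rw [RingHom.coe_coe, map_sub, AlgHom.commutes, D.π_ru]
      exact this
    rw [mem_maximalIdeal] at h1 ⊢
    exact (map_mem_nonunits_iff (D.π a : D.R →+* (RpreE E ⧸ D.𝔞 a)) _).mp h1
  · -- norm
    intro p hp
    refine D.π_inj _ fun a => ?_
    obtain ⟨hloc, hT, hg⟩ := D.good a
    have h1 := hg.norm p hp
    have h2 : (fun g => (D.π a).mapMatrix (D.ru g)) = fun g => rQuot E (D.𝔞 a) g := by
      funext g
      have := congrArg (fun r => r g) (mapMat_π_ru D a)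
      exact this
    have h3 := Presentation.evalPoly_map (O := 𝒪) (D.π a) (fun g => D.ru g)
    rw [h2] at h3
    have h4 := congrArg (fun f => f p) h3
    simp only [AlgHom.comp_apply] at h4
    rw [← h4]
    exact h1
  · -- type
    rw [type_ofMat_iff_forall_surjective h𝒟 D.instIsLocalHom D.residue_surjective hcont]
    intro B _ _ _ hB q hq hqs
    haveI : IsArtinianRing B := hB.isArtinian
    obtain ⟨n, hn⟩ := exists_maximalIdeal_pow_eq_bot B
    obtain ⟨a, ha⟩ := D.cofinal n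
    obtain ⟨hloc, hT, hg⟩ := D.good a
    have hker : RingHom.ker (D.π a).toRingHom ≤ RingHom.ker q.toRingHom := by
      intro z hz
      have hz' : z ∈ maximalIdeal D.R ^ n := ha hz
      have hmap : (maximalIdeal D.R ^ n).map (q : D.R →+* B) ≤ maximalIdeal B ^ n := by
        rw [Ideal.map_pow]
        exact Ideal.pow_right_mono (Ideal.map_le_iff_le_comap.mpr fun x hx =>
          Ideal.mem_comap.mpr (haveI := hq; map_nonunit (q : D.R →+* B) x hx)) n
      have : (q : D.R →+* B) z ∈ maximalIdeal B ^ n := hmap (Ideal.mem_map_of_mem _ hz')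
      rw [hn, Ideal.mem_bot] at this
      exact this
    let q' : (RpreE E ⧸ D.𝔞 a) →ₐ[𝒪] B := AlgHom.liftOfSurjective (D.π a) (D.π_surj a) q hker
    have hq'π : ∀ z, q' (D.π a z) = q z := fun z =>
      AlgHom.liftOfSurjective_apply (D.π a) (D.π_surj a) q hker z
    have hq's : Function.Surjective q' :=
      AlgHom.liftOfSurjective_surjective (D.π a) (D.π_surj a) q hker hqs
    have hq'loc : IsLocalHom (q' : (RpreE E ⧸ D.𝔞 a) →+* B) :=
      QuotCNL.isLocalHom_of_surjective _ hq's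
    have heq : mapMat (q : D.R →+* B) D.ru =
        mapMat (q' : (RpreE E ⧸ D.𝔞 a) →+* B) (rQuot E (D.𝔞 a)) := by
      ext g i j
      rw [mapMat_apply_apply, mapMat_apply_apply, ← mapMat_π_ru D a, mapMat_apply_apply]
      exact (hq'π _).symm
    have h1 := type_mapMat h𝒟 hT hB q' hq'loc hg.cont hg.type
    exact GoodIdeals.type_congr heq.symm _ _ h1

end ProGoodH

end Fermat.Agent.S53
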