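/-
S53, part R3 (lemma-queue item 38): universal property of `ProData` at the matrix level.
Owner: helper87.

* `ProData.hom_ext`  (R3a): classifying maps are determined by the pushed-forward representation.
* `ProUniversal.exists_hom_aux` (R3b modulo item C2): existence of classifying maps, with the
  statement of `isGoodIdeal_ker` (item 28, file `GoodKer.lean`) as an explicit hypothesis `hker`.
* `ProData.exists_hom` (R3b): existence of classifying maps (uses `isGoodIdeal_ker`).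
-/
import Fermat.Agent.S53.UnivDefs
import Fermat.Agent.S53.MatrixForm
import Fermat.Agent.S53.Cotangent
import Fermat.Agent.S53.FiniteQuotient
import Fermat.Agent.S53.PowerSeriesEval
import Fermat.Agent.S53.GoodKer

set_option autoImplicit false
set_option linter.unusedSectionVars false

namespace Fermat.Agent.S53

open IsLocalRing

namespace ProUniversal

section Quot

variable (𝒪 : Type) [CommRing 𝒪] [IsLocalRing 𝒪]
variable (A : Type) [CommRing A] [IsLocalRing A] [Algebra 𝒪 A]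

/-- The truncation `A / 𝔪^(n+1)`. -/
abbrev Trunc (n : ℕ) : Type := A ⧸ (maximalIdeal A ^ (n + 1))

instance trunc_nontrivial (n : ℕ) : Nontrivial (Trunc A n) := by
  rw [Ideal.Quotient.nontrivial_iff]
  intro h
  have : maximalIdeal A ^ (n + 1) ≤ maximalIdeal A := Ideal.pow_le_self (Nat.succ_ne_zero n)
  rw [h, top_le_iff] at this
  exact (maximalIdeal.isMaximal A).ne_top this

instance trunc_isLocalRing (n : ℕ) : IsLocalRing (Trunc A n) :=
  IsLocalRing.of_surjective' (Ideal.Quotient.mk (maximalIdeal A ^ (n + 1)))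
    Ideal.Quotient.mk_surjective

/-- The truncation map as an algebra hom. -/
noncomputable abbrev truncMk (n : ℕ) : A →ₐ[𝒪] Trunc A n :=
  Ideal.Quotient.mkₐ 𝒪 (maximalIdeal A ^ (n + 1))

theorem truncMk_surjective (n : ℕ) : Function.Surjective (truncMk 𝒪 A n) :=
  Ideal.Quotient.mkₐ_surjective 𝒪 _

theorem truncMk_isLocalHom (n : ℕ) :
    IsLocalHom ((truncMk 𝒪 A n : A →ₐ[𝒪] Trunc A n) : A →+* Trunc A n) :=
  IsLocalHom.of_surjective _ (truncMk_surjective 𝒪 A n)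

theorem truncMk_eq_zero_iff (n : ℕ) (a : A) :
    truncMk 𝒪 A n a = 0 ↔ a ∈ maximalIdeal A ^ (n + 1) :=
  Ideal.Quotient.eq_zero_iff_mem

theorem truncMk_mem_maximalIdeal (n : ℕ) {a : A} (ha : a ∈ maximalIdeal A) :
    truncMk 𝒪 A n a ∈ maximalIdeal (Trunc A n) := by
  rw [mem_maximalIdeal, mem_nonunits_iff] at ha ⊢
  exact fun hu => ha ((truncMk_isLocalHom 𝒪 A n).map_nonunit a hu)

variable [IsLocalHom (algebraMap 𝒪 A)]

theorem trunc_isLocalHom_algebraMap (n : ℕ) : IsLocalHom (algebraMap 𝒪 (Trunc A n)) := by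
  have h1 := truncMk_isLocalHom 𝒪 A n
  have : algebraMap 𝒪 (Trunc A n) =
      ((truncMk 𝒪 A n : A →ₐ[𝒪] Trunc A n) : A →+* Trunc A n).comp (algebraMap 𝒪 A) := rfl
  rw [this]
  exact RingHom.isLocalHom_comp _ _

theorem trunc_residue_surjective (hA : Function.Surjective (residue A ∘ algebraMap 𝒪 A)) (n : ℕ) :
    Function.Surjective (residue (Trunc A n) ∘ algebraMap 𝒪 (Trunc A n)) := by
  intro y
  obtain ⟨b, rfl⟩ := residue_surjective y
  obtain ⟨a, rfl⟩ := truncMk_surjective 𝒪 A n b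
  obtain ⟨o, ho⟩ := hA (residue A a)
  refine ⟨o, ?_⟩
  rw [Function.comp_apply] at ho ⊢
  rw [← sub_eq_zero, ← map_sub, residue_eq_zero_iff] at ho ⊢
  have := truncMk_mem_maximalIdeal 𝒪 A n ho
  rwa [map_sub, AlgHom.commutes] at this

theorem finite_residueField_of_surjective [Finite (ResidueField 𝒪)]
    (hA : Function.Surjective (residue A ∘ algebraMap 𝒪 A)) : Finite (ResidueField A) :=
  Finite.of_surjective _ (residueFieldMap_bijective hA).2

theorem trunc_finite [IsNoetherianRing A] [Finite (ResidueField 𝒪)]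
    (hA : Function.Surjective (residue A ∘ algebraMap 𝒪 A)) (n : ℕ) : Finite (Trunc A n) :=
  haveI := finite_residueField_of_surjective 𝒪 A hA
  finite_quotient_maximalIdeal_pow A (n + 1)

theorem trunc_isArtinianTestAlgebra [IsNoetherianRing A] [Finite (ResidueField 𝒪)]
    (hA : Function.Surjective (residue A ∘ algebraMap 𝒪 A)) (n : ℕ) :
    GaloisRep.IsArtinianTestAlgebra 𝒪 (Trunc A n) where
  isLocalHom := trunc_isLocalHom_algebraMap 𝒪 A n
  residue_surjective := trunc_residue_surjective 𝒪 A hA n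
  isArtinian := by
    have := trunc_finite 𝒪 A hA n
    infer_instance

end Quot

section GoodTrunc

variable {𝒪 : Type} [CommRing 𝒪] [IsLocalRing 𝒪] {rt : GQ → M2 𝒪} {E : Set (PolyRing 𝒪)}
  {𝒟 : ∀ ⦃A : Type⦄ [CommRing A] [IsLocalRing A] [Algebra 𝒪 A], GaloisRepAdic A → Prop}
variable {A : Type} [CommRing A] [IsLocalRing A] [IsNoetherianRing A]
  [IsAdicComplete (maximalIdeal A) A] [Algebra 𝒪 A] [IsLocalHom (algebraMap 𝒪 A)]

/-- The truncation of a good lift is a good lift. -/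
theorem isGoodLift_trunc [Finite (ResidueField 𝒪)] (h𝒟 : GaloisRep.IsDeformationCondition 𝒪 𝒟)
    (hA : Function.Surjective (residue A ∘ algebraMap 𝒪 A))
    {r : GQ →* M2 A} (hr : IsGoodLift rt E 𝒟 r) (n : ℕ) :
    IsGoodLift rt E 𝒟 (mapMat ((truncMk 𝒪 A n : A →ₐ[𝒪] Trunc A n) : A →+* Trunc A n) r) := by
  have hloc := truncMk_isLocalHom 𝒪 A n
  have hB := trunc_isArtinianTestAlgebra 𝒪 A hA n
  have hcont : MatCont (mapMat ((truncMk 𝒪 A n : A →ₐ[𝒪] Trunc A n) : A →+* Trunc A n) r) :=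
    matCont_mapMat _ hloc hr.cont
  refine ⟨?_, ?_, hcont, ?_⟩
  · intro g i j
    have := truncMk_mem_maximalIdeal 𝒪 A n (hr.lift g i j)
    rwa [map_sub, AlgHom.commutes] at this
  · exact hr.norm.map (truncMk 𝒪 A n)
  · have h1 := (h𝒟.iff_forall_surjective (inferInstance : IsLocalHom (algebraMap 𝒪 A)) hA
      (ofMat r hr.cont)).mp hr.type hB (truncMk 𝒪 A n) hloc (truncMk_surjective 𝒪 A n)
    exact h𝒟.of_isEquiv hB (isEquiv_baseChangeAlong_ofMat _ hloc hr.cont) h1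

end GoodTrunc

section Exists

variable {𝒪 : Type} [CommRing 𝒪] [IsLocalRing 𝒪] {rt : GQ → M2 𝒪} {E : Set (PolyRing 𝒪)}
  {𝒟 : ∀ ⦃A : Type⦄ [CommRing A] [IsLocalRing A] [Algebra 𝒪 A], GaloisRepAdic A → Prop}
variable {A : Type} [CommRing A] [IsLocalRing A] [IsNoetherianRing A]
  [IsAdicComplete (maximalIdeal A) A] [Algebra 𝒪 A] [IsLocalHom (algebraMap 𝒪 A)]

/-- Level `n` comparison data. -/
theorem exists_level [Finite (ResidueField 𝒪)] (h𝒟 : GaloisRep.IsDeformationCondition 𝒪 𝒟)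
    (hker : ∀ {B : Type} [CommRing B] [IsLocalRing B] [Algebra 𝒪 B],
      GaloisRep.IsArtinianTestAlgebra 𝒪 B → ∀ (s : GQ →* M2 B) (hs : IsGoodLift rt E 𝒟 s),
        IsGoodIdeal rt E 𝒟 (RingHom.ker (Presentation.lift s hs.norm : RpreE E →ₐ[𝒪] B)))
    (D : ProData rt E 𝒟)
    (hA : Function.Surjective (residue A ∘ algebraMap 𝒪 A))
    (r : GQ →* M2 A) (hr : IsGoodLift rt E 𝒟 r)
    (Φ : MvPowerSeries (Fin D.d) 𝒪 →ₐ[𝒪] A)
    (hΦX : ∀ i, Φ (MvPowerSeries.X i) =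
      r (D.x i).1 (D.x i).2.1 (D.x i).2.2 - algebraMap 𝒪 A (rt (D.x i).1 (D.x i).2.1 (D.x i).2.2))
    (n : ℕ) :
    ∃ (a : D.ι) (θ : (RpreE E ⧸ D.𝔞 a) →ₐ[𝒪] Trunc A n),
      (∀ g i j, θ (Ideal.Quotient.mk (D.𝔞 a) (Presentation.gen 𝒪 E g i j)) =
        truncMk 𝒪 A n (r g i j)) ∧
      ∀ s, truncMk 𝒪 A n (Φ s) = θ (D.π a (D.q s)) := by
  have hgl := isGoodLift_trunc h𝒟 hA hr n
  have hB := trunc_isArtinianTestAlgebra 𝒪 A hA n
  have hgood := hker hB _ hgl
  obtain ⟨a, ha⟩ := D.cofinalGood _ hgood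
  let θ : (RpreE E ⧸ D.𝔞 a) →ₐ[𝒪] Trunc A n :=
    Ideal.Quotient.liftₐ (D.𝔞 a) (Presentation.lift _ hgl.norm)
      (fun x hx => (RingHom.mem_ker).1 (ha hx))
  have hθ : ∀ g i j, θ (Ideal.Quotient.mk (D.𝔞 a) (Presentation.gen 𝒪 E g i j)) =
      truncMk 𝒪 A n (r g i j) := by
    intro g i j
    exact Presentation.lift_gen _ hgl.norm g i j
  refine ⟨a, θ, hθ, ?_⟩
  -- the two homs agree
  have hloc1 : ∀ i, ((truncMk 𝒪 A n).comp Φ) (MvPowerSeries.X i) ∈ maximalIdeal (Trunc A n) := by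
    intro i
    rw [AlgHom.comp_apply, hΦX]
    exact truncMk_mem_maximalIdeal 𝒪 A n (hr.lift _ _ _)
  have heq : (truncMk 𝒪 A n).comp Φ = θ.comp ((D.π a).comp D.q) := by
    apply mvPowerSeries_algHom_ext 𝒪 D.d _ _ hloc1
    intro i
    rw [AlgHom.comp_apply, hΦX, AlgHom.comp_apply, AlgHom.comp_apply, D.q_X, map_sub, map_sub,
      map_sub, AlgHom.commutes, AlgHom.commutes, AlgHom.commutes, D.π_ru, hθ]
  intro s
  exact DFunLike.congr_fun heq s

/-- An element all of whose truncations vanish is zero. -/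
theorem eq_zero_of_forall_truncMk (z : A) (h : ∀ n, truncMk 𝒪 A n z = 0) : z = 0 := by
  apply IsHausdorff.haus' (I := maximalIdeal A)
  intro n
  rw [SModEq.zero, smul_eq_mul, Ideal.mul_top]
  have := (truncMk_eq_zero_iff 𝒪 A n z).1 (h n)
  exact Ideal.pow_le_pow_right (Nat.le_succ n) this

/-- R3b with the kernel lemma (item C2) as a hypothesis. -/
theorem exists_hom_aux [Finite (ResidueField 𝒪)] (h𝒟 : GaloisRep.IsDeformationCondition 𝒪 𝒟)
    (hker : ∀ {B : Type} [CommRing B] [IsLocalRing B] [Algebra 𝒪 B],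
      GaloisRep.IsArtinianTestAlgebra 𝒪 B → ∀ (s : GQ →* M2 B) (hs : IsGoodLift rt E 𝒟 s),
        IsGoodIdeal rt E 𝒟 (RingHom.ker (Presentation.lift s hs.norm : RpreE E →ₐ[𝒪] B)))
    (D : ProData rt E 𝒟)
    (hA : Function.Surjective (residue A ∘ algebraMap 𝒪 A))
    (r : GQ →* M2 A) (hr : IsGoodLift rt E 𝒟 r) :
    ∃ φ : D.R →ₐ[𝒪] A, IsLocalHom (φ : D.R →+* A) ∧ mapMat (φ : D.R →+* A) D.ru = r := by
  classical
  -- the evaluation hom `Φ`
  have hy : ∀ i, r (D.x i).1 (D.x i).2.1 (D.x i).2.2 -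
      algebraMap 𝒪 A (rt (D.x i).1 (D.x i).2.1 (D.x i).2.2) ∈ maximalIdeal A :=
    fun i => hr.lift _ _ _
  obtain ⟨Φ, hΦ⟩ := exists_mvPowerSeries_algHom 𝒪 D.d _ hy
  have hΦX : ∀ i, Φ (MvPowerSeries.X i) = r (D.x i).1 (D.x i).2.1 (D.x i).2.2 -
      algebraMap 𝒪 A (rt (D.x i).1 (D.x i).2.1 (D.x i).2.2) := by
    intro i
    have := hΦ (MvPolynomial.X i)
    rwa [MvPolynomial.coe_X, MvPolynomial.aeval_X] at this
  have hlev := exists_level h𝒟 hker D hA r hr Φ hΦX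
  -- `ker q ≤ ker Φ`
  have hkerle : RingHom.ker D.q.toRingHom ≤ RingHom.ker Φ.toRingHom := by
    intro s hs
    rw [RingHom.mem_ker] at hs ⊢
    apply eq_zero_of_forall_truncMk (𝒪 := 𝒪)
    intro n
    obtain ⟨a, θ, -, h2⟩ := hlev n
    have : D.q s = 0 := hs
    have h3 := h2 s
    rw [this, map_zero, map_zero] at h3
    exact h3
  let φ : D.R →ₐ[𝒪] A := AlgHom.liftOfSurjective D.q D.q_surj Φ hkerle
  have hφq : ∀ s, φ (D.q s) = Φ s := fun s => AlgHom.liftOfSurjective_apply D.q D.q_surj Φ hkerle s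
  have hΦloc : IsLocalHom (Φ : MvPowerSeries (Fin D.d) 𝒪 →+* A) :=
    mvPowerSeries_algHom_isLocalHom 𝒪 D.d Φ (fun i => by rw [hΦX]; exact hy i)
  refine ⟨φ, ⟨fun z hz => ?_⟩, ?_⟩
  · obtain ⟨s, rfl⟩ := D.q_surj z
    have h1 : IsUnit (Φ s) := by
      have : (φ : D.R →+* A) (D.q s) = Φ s := hφq s
      rwa [this] at hz
    exact (hΦloc.map_nonunit s h1).map D.q
  · ext g i j
    rw [mapMat_apply_apply, ← sub_eq_zero]
    apply eq_zero_of_forall_truncMk (𝒪 := 𝒪)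
    intro n
    obtain ⟨a, θ, h1, h2⟩ := hlev n
    obtain ⟨s, hs⟩ := D.q_surj (D.ru g i j)
    have e1 : (φ : D.R →+* A) (D.ru g i j) = Φ s := by rw [← hs]; exact hφq s
    rw [map_sub, sub_eq_zero, e1, h2 s, hs, D.π_ru, h1]

end Exists

end ProUniversal

variable {𝒪 : Type} [CommRing 𝒪] [IsLocalRing 𝒪] (rt : GQ → M2 𝒪) (E : Set (PolyRing 𝒪))
  (𝒟 : ∀ ⦃A : Type⦄ [CommRing A] [IsLocalRing A] [Algebra 𝒪 A], GaloisRepAdic A → Prop)

namespace ProUniversal

variable {rt E 𝒟}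

/-- The structure map `q` of a `ProData` is a local homomorphism. -/
theorem isLocalHom_q (D : ProData rt E 𝒟) :
    IsLocalHom (D.q : MvPowerSeries (Fin D.d) 𝒪 →+* D.R) :=
  IsLocalHom.of_surjective _ D.q_surj

/-- The image of the variable `X i` under `φ ∘ q` in terms of `ru`. -/
theorem comp_q_X (D : ProData rt E 𝒟) {A : Type} [CommRing A] [Algebra 𝒪 A]
    (φ : D.R →ₐ[𝒪] A) (i : Fin D.d) :
    (φ.comp D.q) (MvPowerSeries.X i) =
      mapMat (φ : D.R →+* A) D.ru (D.x i).1 (D.x i).2.1 (D.x i).2.2 -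
        algebraMap 𝒪 A (rt (D.x i).1 (D.x i).2.1 (D.x i).2.2) := by
  rw [AlgHom.comp_apply, D.q_X, map_sub, AlgHom.commutes, mapMat_apply_apply]
  rfl

end ProUniversal

open ProUniversal

/-- R3a. uniqueness of classifying maps. -/
theorem ProData.hom_ext (D : ProData rt E 𝒟)
    (A : Type) [CommRing A] [IsLocalRing A] [IsNoetherianRing A]
    [IsAdicComplete (IsLocalRing.maximalIdeal A) A] [Algebra 𝒪 A] [IsLocalHom (algebraMap 𝒪 A)]
    (φ φ' : D.R →ₐ[𝒪] A) (hφ : IsLocalHom (φ : D.R →+* A)) (hφ' : IsLocalHom (φ' : D.R →+* A))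
    (h : mapMat (φ : D.R →+* A) D.ru = mapMat (φ' : D.R →+* A) D.ru) : φ = φ' := by
  have hq := isLocalHom_q D
  have hloc : ∀ i, (φ.comp D.q) (MvPowerSeries.X i) ∈ maximalIdeal A := by
    intro i
    rw [mem_maximalIdeal, mem_nonunits_iff, AlgHom.comp_apply]
    intro hu
    have h1 : IsUnit (D.q (MvPowerSeries.X i)) := hφ.map_nonunit _ hu
    have h2 : IsUnit (MvPowerSeries.X i : MvPowerSeries (Fin D.d) 𝒪) := hq.map_nonunit _ h1
    rw [MvPowerSeries.isUnit_iff_constantCoeff, MvPowerSeries.constantCoeff_X] at h2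
    exact not_isUnit_zero h2
  have heq : φ.comp D.q = φ'.comp D.q := by
    apply mvPowerSeries_algHom_ext 𝒪 D.d _ _ hloc
    intro i
    rw [comp_q_X, comp_q_X, h]
  ext z
  obtain ⟨s, rfl⟩ := D.q_surj z
  exact DFunLike.congr_fun heq s

/-- R3b. existence of classifying maps. -/
theorem ProData.exists_hom [Finite (IsLocalRing.ResidueField 𝒪)]
    (h𝒟 : GaloisRep.IsDeformationCondition 𝒪 𝒟)
    (D : ProData rt E 𝒟)
    (A : Type) [CommRing A] [IsLocalRing A] [IsNoetherianRing A]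
    [IsAdicComplete (IsLocalRing.maximalIdeal A) A] [Algebra 𝒪 A] [IsLocalHom (algebraMap 𝒪 A)]
    (hA : Function.Surjective (IsLocalRing.residue A ∘ algebraMap 𝒪 A))
    (r : GQ →* M2 A) (hr : IsGoodLift rt E 𝒟 r) :
    ∃ φ : D.R →ₐ[𝒪] A, IsLocalHom (φ : D.R →+* A) ∧ mapMat (φ : D.R →+* A) D.ru = r :=
  exists_hom_aux h𝒟 (fun hB s hs => isGoodIdeal_ker rt E 𝒟 h𝒟 hB s hs) D hA r hr

end Fermat.Agent.S53
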