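/-
S53 helper (owner: helper90): a surjective image `R` of a noetherian ring `S` that is
`I`-adically complete is `I.map ψ`-adically complete; packaged for local `R` whose maximal
ideal is `I.map ψ`.  Intended use: `S = MvPowerSeries (Fin (d+1)) 𝒪`, `I = span (range X)`,
`ψ X₀ = ϖ`, so that only the `X`-adic completeness of `S` (a Mathlib instance) is needed.
-/
import Mathlib
import Fermat.Prelude.Thm_IsAdicComplete_of_module_finite

set_option autoImplicit false

namespace Fermat.Agent.S53.AdicLim

theorem isAdicComplete_map_of_surjective {S R : Type*} [CommRing S] [IsNoetherianRing S]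
    (I : Ideal S) [IsAdicComplete I S] [CommRing R] (ψ : S →+* R)
    (hψ : Function.Surjective ψ) : IsAdicComplete (I.map ψ) R := by
  let _ : Algebra S R := ψ.toAlgebra
  have : Module.Finite S R := Module.Finite.of_surjective (Algebra.linearMap S R) hψ
  have : IsAdicComplete I R := IsAdicComplete.of_module_finite I R
  exact (IsAdicComplete.map_algebraMap_iff (R := S) (S := R) (M := R) (I := I)).mpr inferInstance

theorem isAdicComplete_maximalIdeal_of_surjective {S R : Type*} [CommRing S]
    [IsNoetherianRing S] (I : Ideal S) [IsAdicComplete I S] [CommRing R] [IsLocalRing R]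
    (ψ : S →+* R) (hψ : Function.Surjective ψ)
    (hI : I.map ψ = IsLocalRing.maximalIdeal R) :
    IsAdicComplete (IsLocalRing.maximalIdeal R) R := by
  rw [← hI]
  exact isAdicComplete_map_of_surjective I ψ hψ

end Fermat.Agent.S53.AdicLim
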