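/-
S53 helper (owner: helper90): evaluation of multivariate power series at a tuple generating a
nilpotent ideal (purely algebraic, through `MvPowerSeries.truncTotalAlgHom`).
-/
import Mathlib

set_option autoImplicit false

namespace Fermat.Agent.S53.AdicLim

open MvPowerSeries

variable {𝒪 : Type*} [CommRing 𝒪] {σ : Type*} [Finite σ]
variable {B : Type*} [CommRing B] [Algebra 𝒪 B]

omit [Finite σ] in
theorem aeval_mem_span_pow (t : σ → B) (n : ℕ) (p : MvPolynomial σ 𝒪)
    (hp : p ∈ MvPolynomial.idealOfVars σ 𝒪 ^ n) :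
    MvPolynomial.aeval t p ∈ Ideal.span (Set.range t) ^ n := by
  have h1 : (MvPolynomial.idealOfVars σ 𝒪).map (MvPolynomial.aeval t : MvPolynomial σ 𝒪 →ₐ[𝒪] B)
      = Ideal.span (Set.range t) := by
    rw [MvPolynomial.idealOfVars, Ideal.map_span, ← Set.range_comp]
    congr 2
    ext i
    simp
  rw [← h1, ← Ideal.map_pow]
  exact Ideal.mem_map_of_mem _ hp

/-- Evaluation of a power series at a tuple `t` with `(span (range t)) ^ n = ⊥`. -/
noncomputable def evalNilp (t : σ → B) (n : ℕ) (h : Ideal.span (Set.range t) ^ n = ⊥) :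
    MvPowerSeries σ 𝒪 →ₐ[𝒪] B :=
  (Ideal.Quotient.liftₐ (MvPolynomial.idealOfVars σ 𝒪 ^ n) (MvPolynomial.aeval t)
      (fun p hp => by
        have := aeval_mem_span_pow t n p hp
        rwa [h, Ideal.mem_bot] at this)).comp
    ((truncTotalAlgHom σ 𝒪 n).restrictScalars 𝒪)

theorem evalNilp_apply (t : σ → B) (n : ℕ) (h : Ideal.span (Set.range t) ^ n = ⊥)
    (p : MvPowerSeries σ 𝒪) :
    evalNilp t n h p = MvPolynomial.aeval t (truncTotal n p) := rfl

theorem evalNilp_coe (t : σ → B) (n : ℕ) (h : Ideal.span (Set.range t) ^ n = ⊥)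
    (p : MvPolynomial σ 𝒪) :
    evalNilp t n h (p : MvPowerSeries σ 𝒪) = MvPolynomial.aeval t p := by
  have h1 : truncTotalAlgHom σ 𝒪 n (p : MvPowerSeries σ 𝒪) =
      Ideal.Quotient.mk (MvPolynomial.idealOfVars σ 𝒪 ^ n) p :=
    (truncTotalAlgHom σ 𝒪 n).commutes p
  rw [evalNilp_apply]
  have h2 : Ideal.Quotient.mk (MvPolynomial.idealOfVars σ 𝒪 ^ n) (truncTotal n (p : MvPowerSeries σ 𝒪))
      = Ideal.Quotient.mk (MvPolynomial.idealOfVars σ 𝒪 ^ n) p := h1
  rw [Ideal.Quotient.eq] at h2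
  have h3 := aeval_mem_span_pow t n _ h2
  rw [h, Ideal.mem_bot, map_sub, sub_eq_zero] at h3
  exact h3

theorem evalNilp_X (t : σ → B) (n : ℕ) (h : Ideal.span (Set.range t) ^ n = ⊥) (i : σ) :
    evalNilp t n h (X i : MvPowerSeries σ 𝒪) = t i := by
  have := evalNilp_coe (𝒪 := 𝒪) t n h (MvPolynomial.X i)
  rw [MvPolynomial.coe_X] at this
  rw [this, MvPolynomial.aeval_X]

/-- `evalNilp` only depends on the truncation: if `B → B'` is an algebra map and the exponents
differ, the two evaluations are compatible. -/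
theorem evalNilp_comp {B' : Type*} [CommRing B'] [Algebra 𝒪 B'] (f : B →ₐ[𝒪] B')
    (t : σ → B) (n : ℕ) (h : Ideal.span (Set.range t) ^ n = ⊥)
    (t' : σ → B') (n' : ℕ) (h' : Ideal.span (Set.range t') ^ n' = ⊥)
    (htt' : ∀ i, f (t i) = t' i) (hnn' : n' ≤ n) (p : MvPowerSeries σ 𝒪) :
    f (evalNilp t n h p) = evalNilp t' n' h' p := by
  rw [evalNilp_apply, evalNilp_apply]
  have h1 : f (MvPolynomial.aeval t (truncTotal n p)) =
      MvPolynomial.aeval t' (truncTotal n p) := by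
    have : f.comp (MvPolynomial.aeval t) = (MvPolynomial.aeval t' : MvPolynomial σ 𝒪 →ₐ[𝒪] B') := by
      apply MvPolynomial.algHom_ext
      intro i
      simp [htt']
    exact congrArg (fun g : MvPolynomial σ 𝒪 →ₐ[𝒪] B' => g (truncTotal n p)) this
  rw [h1, ← sub_eq_zero, ← map_sub]
  have h2 := aeval_mem_span_pow t' n' _
    (truncTotal_sub_truncTotal_mem_pow_idealOfVars (l := n') (m := n) (n := n') hnn' le_rfl p)
  rwa [h', Ideal.mem_bot] at h2

theorem evalNilp_surjective (t : σ → B) (n : ℕ) (h : Ideal.span (Set.range t) ^ n = ⊥)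
    (hsurj : Function.Surjective (MvPolynomial.aeval t : MvPolynomial σ 𝒪 →ₐ[𝒪] B)) :
    Function.Surjective (evalNilp (𝒪 := 𝒪) t n h) := by
  intro b
  obtain ⟨p, rfl⟩ := hsurj b
  exact ⟨p, evalNilp_coe t n h p⟩

end Fermat.Agent.S53.AdicLim
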