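/-
S53 helper (owner: helper90): sequential Mittag-Leffler in an `I`-adically precomplete ring.
No topology; everything in terms of `IsPrecomplete`.
-/
import Mathlib.RingTheory.AdicCompletion.Basic

set_option autoImplicit false

namespace Fermat.Agent.S53.AdicLim

variable {P : Type*} [CommRing P]

/-- A sequence whose successive differences lie in `I ^ n` has an `I`-adic limit. -/
theorem exists_adic_limit (I : Ideal P) [IsPrecomplete I P] (q : ℕ → P)
    (hq : ∀ n, q (n + 1) - q n ∈ I ^ n) :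
    ∃ x : P, ∀ n, x - q n ∈ I ^ n := by
  have hmn : ∀ m k, q (m + k) - q m ∈ I ^ m := by
    intro m k
    induction k with
    | zero => simp
    | succ k ih =>
      have h1 : q (m + (k + 1)) - q (m + k) ∈ I ^ m :=
        Ideal.pow_le_pow_right (Nat.le_add_right m k) (by simpa [add_assoc] using hq (m + k))
      have : q (m + (k + 1)) - q m = (q (m + (k + 1)) - q (m + k)) + (q (m + k) - q m) := by ring
      rw [this]
      exact Ideal.add_mem _ h1 ih
  obtain ⟨x, hx⟩ := IsPrecomplete.prec (I := I) (M := P) inferInstance (f := q) (by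
    intro m n hmn'
    obtain ⟨k, rfl⟩ := Nat.exists_eq_add_of_le hmn'
    rw [SModEq.sub_mem, smul_eq_mul, Ideal.mul_top]
    have := hmn m k
    rw [← Ideal.neg_mem_iff] at this
    simpa using this)
  refine ⟨x, fun n => ?_⟩
  have := hx n
  rw [SModEq.sub_mem, smul_eq_mul, Ideal.mul_top] at this
  rw [← Ideal.neg_mem_iff]
  simpa using this

/-- **Sequential Mittag-Leffler, part (a)**: compatible residues lift.
`L n` is a decreasing chain of ideals with `I ^ n ≤ L n` and `L n ≤ L (n+1) ⊔ I ^ n`. -/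
theorem exists_forall_sub_mem_of_chain (I : Ideal P) [IsPrecomplete I P]
    (L : ℕ → Ideal P) (hIL : ∀ n, I ^ n ≤ L n)
    (hstep : ∀ n, L n ≤ L (n + 1) ⊔ I ^ n)
    (p : ℕ → P) (hp : ∀ n, p (n + 1) - p n ∈ L n) :
    ∃ x : P, ∀ n, x - p n ∈ L n := by
  -- build `q n` with `q n - p n ∈ L n` and `q (n+1) - q n ∈ I ^ n`
  have key : ∀ n (q : P), q - p n ∈ L n → ∃ q' : P, q' - p (n + 1) ∈ L (n + 1) ∧ q' - q ∈ I ^ n := by
    intro n q hq
    have h1 : p (n + 1) - q ∈ L n := by
      have : p (n + 1) - q = (p (n + 1) - p n) - (q - p n) := by ring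
      rw [this]
      exact Ideal.sub_mem _ (hp n) hq
    obtain ⟨l, hl, i, hi, hli⟩ := Submodule.mem_sup.mp (hstep n h1)
    refine ⟨q + i, ?_, by simpa using hi⟩
    have : q + i - p (n + 1) = -l := by
      have : i = p (n + 1) - q - l := by rw [← hli]; ring
      rw [this]; ring
    rw [this]
    exact Ideal.neg_mem_iff _ |>.mpr hl
  choose! F hF1 hF2 using key
  let Q : (n : ℕ) → {q : P // q - p n ∈ L n} := fun n =>
    Nat.rec (motive := fun n => {q : P // q - p n ∈ L n}) ⟨p 0, by simp⟩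
      (fun n q => ⟨F n q.1, hF1 n q.1 q.2⟩) n
  have hQ : ∀ n, (Q (n + 1)).1 - (Q n).1 ∈ I ^ n := fun n => hF2 n (Q n).1 (Q n).2
  obtain ⟨x, hx⟩ := exists_adic_limit I (fun n => (Q n).1) hQ
  refine ⟨x, fun n => ?_⟩
  have : x - p n = (x - (Q n).1) + ((Q n).1 - p n) := by ring
  rw [this]
  exact Ideal.add_mem _ (hIL n (hx n)) (Q n).2

/-- **Sequential Mittag-Leffler, part (b)**: `L n = (⨅ m, L m) ⊔ I ^ n`. -/
theorem chain_eq_iInf_sup_pow (I : Ideal P) [IsPrecomplete I P]
    (L : ℕ → Ideal P) (hIL : ∀ n, I ^ n ≤ L n) (hmono : ∀ n, L (n + 1) ≤ L n)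
    (hstep : ∀ n, L n ≤ L (n + 1) ⊔ I ^ n) (n : ℕ) :
    L n = (⨅ m, L m) ⊔ I ^ n := by
  have hanti : ∀ m k, L (m + k) ≤ L m := by
    intro m k
    induction k with
    | zero => simp
    | succ k ih => exact le_trans (by simpa [add_assoc] using hmono (m + k)) ih
  apply le_antisymm
  · intro a ha
    -- build `l j ∈ L (n + j)` with `l 0 = a`, `l (j+1) - l j ∈ I ^ (n + j)`
    have key : ∀ j (l : P), l ∈ L (n + j) →
        ∃ l' : P, l' ∈ L (n + (j + 1)) ∧ l' - l ∈ I ^ (n + j) := by
      intro j l hl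
      obtain ⟨l', hl', i, hi, hli⟩ := Submodule.mem_sup.mp (hstep (n + j) hl)
      refine ⟨l', hl', ?_⟩
      have : l' - l = -i := by rw [← hli]; ring
      rw [this]
      exact (Ideal.neg_mem_iff _).mpr hi
    choose! F hF1 hF2 using key
    let Q : (j : ℕ) → {l : P // l ∈ L (n + j)} := fun j =>
      Nat.rec (motive := fun j => {l : P // l ∈ L (n + j)}) ⟨a, by simpa using ha⟩
        (fun j q => ⟨F j q.1, hF1 j q.1 q.2⟩) j
    have hQ0 : (Q 0).1 = a := rfl
    have hQ : ∀ j, (Q (j + 1)).1 - (Q j).1 ∈ I ^ (n + j) := fun j => hF2 j (Q j).1 (Q j).2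
    have hQn : ∀ j, (Q j).1 - a ∈ I ^ n := by
      intro j
      induction j with
      | zero => simp [hQ0]
      | succ j ih =>
        have : (Q (j + 1)).1 - a = ((Q (j + 1)).1 - (Q j).1) + ((Q j).1 - a) := by ring
        rw [this]
        exact Ideal.add_mem _ (Ideal.pow_le_pow_right (Nat.le_add_right n j) (hQ j)) ih
    obtain ⟨x, hx⟩ := exists_adic_limit I (fun j => (Q j).1)
      (fun j => Ideal.pow_le_pow_right (Nat.le_add_left j n) (hQ j))
    have hxL : ∀ m, x ∈ L m := by
      intro m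
      have h1 : x - (Q m).1 ∈ L m := hIL m (hx m)
      have h2 : (Q m).1 ∈ L m := by
        have h3 : (Q m).1 ∈ L (n + m) := (Q m).2
        have h4 : L (n + m) ≤ L m := by
          rw [add_comm]; exact hanti m n
        exact h4 h3
      have : x = (x - (Q m).1) + (Q m).1 := by ring
      rw [this]
      exact Ideal.add_mem _ h1 h2
    have hxa : a - x ∈ I ^ n := by
      have : a - x = -((x - (Q n).1) + ((Q n).1 - a)) := by ring
      rw [this]
      exact (Ideal.neg_mem_iff _).mpr (Ideal.add_mem _ (hx n) (hQn n))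
    refine Submodule.mem_sup.mpr ⟨x, ?_, a - x, hxa, by ring⟩
    exact (Submodule.mem_iInf _).mpr hxL
  · exact sup_le (iInf_le _ n) (hIL n)

end Fermat.Agent.S53.AdicLim
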