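/-
S53 helper (owner: helper90): the inverse limit `lim_n T ⧸ a n` of a "𝔪-adic" chain of ideals
`a n` of an `𝒪`-algebra `T` (no finiteness on `T`; in the application `T` is a polynomial ring in
infinitely many variables) is a complete noetherian local ring, as soon as `𝔪` is generated modulo
`a 2` by finitely many elements.  The proof exhibits the limit as a quotient of a power series
ring over `𝒪`.
-/
import Mathlib
import Fermat.Agent.S53.MittagLeffler
import Fermat.Agent.S53.NilpotentGeneration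
import Fermat.Agent.S53.CompleteQuotient
import Fermat.Agent.S53.EvalNilp

set_option autoImplicit false

namespace Fermat.Agent.S53.AdicLim

open MvPowerSeries

section Lim

variable (𝒪 : Type*) [CommRing 𝒪] {T : Type*} [CommRing T] [Algebra 𝒪 T]

/-- The inverse limit of the `T ⧸ a n`, as a subalgebra of the product. -/
def limSubalgebra (a : ℕ → Ideal T) (hmono : ∀ n, a (n + 1) ≤ a n) :
    Subalgebra 𝒪 (∀ n, T ⧸ a n) where
  carrier := {x | ∀ n, Ideal.Quotient.factor (hmono n) (x (n + 1)) = x n}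
  mul_mem' := fun {x y} hx hy n => by
    simp only [Pi.mul_apply, map_mul]
    rw [hx n, hy n]
  one_mem' := fun n => by simp
  add_mem' := fun {x y} hx hy n => by
    simp only [Pi.add_apply, map_add]
    rw [hx n, hy n]
  zero_mem' := fun n => by simp
  algebraMap_mem' := fun r n => by
    simp only [Pi.algebraMap_apply]
    rfl

variable (a : ℕ → Ideal T) (hmono : ∀ n, a (n + 1) ≤ a n)

/-- The projection of the limit to `T ⧸ a n`. -/
def limProj (n : ℕ) : limSubalgebra 𝒪 a hmono →ₐ[𝒪] T ⧸ a n :=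
  (Pi.evalAlgHom 𝒪 (fun n => T ⧸ a n) n).comp (limSubalgebra 𝒪 a hmono).val

theorem limProj_apply (n : ℕ) (x : limSubalgebra 𝒪 a hmono) : limProj 𝒪 a hmono n x = x.1 n := rfl

theorem limProj_succ (n : ℕ) (x : limSubalgebra 𝒪 a hmono) :
    Ideal.Quotient.factor (hmono n) (limProj 𝒪 a hmono (n + 1) x) = limProj 𝒪 a hmono n x :=
  x.2 n

variable {𝒪} in
theorem lim_ext {x y : limSubalgebra 𝒪 a hmono} (h : ∀ n, limProj 𝒪 a hmono n x = limProj 𝒪 a hmono n y) :
    x = y := Subtype.ext (funext h)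

/-- The canonical map from `T` to the limit. -/
def limOf : T →ₐ[𝒪] limSubalgebra 𝒪 a hmono :=
  (AlgHom.pi (fun n => Ideal.Quotient.mkₐ 𝒪 (a n))).codRestrict _
    (fun _ _ => rfl)

theorem limProj_limOf (n : ℕ) (x : T) :
    limProj 𝒪 a hmono n (limOf 𝒪 a hmono x) = Ideal.Quotient.mk (a n) x := rfl

/-- A compatible family of algebra maps into the `T ⧸ a n` induces a map into the limit. -/
def limLift {P : Type*} [CommRing P] [Algebra 𝒪 P] (f : ∀ n, P →ₐ[𝒪] T ⧸ a n)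
    (hf : ∀ n p, Ideal.Quotient.factor (hmono n) (f (n + 1) p) = f n p) :
    P →ₐ[𝒪] limSubalgebra 𝒪 a hmono :=
  (AlgHom.pi f).codRestrict _ (fun p n => hf n p)

theorem limProj_limLift {P : Type*} [CommRing P] [Algebra 𝒪 P] (f : ∀ n, P →ₐ[𝒪] T ⧸ a n)
    (hf : ∀ n p, Ideal.Quotient.factor (hmono n) (f (n + 1) p) = f n p) (n : ℕ) (p : P) :
    limProj 𝒪 a hmono n (limLift 𝒪 a hmono f hf p) = f n p := rfl

end Lim

section Chain

variable {𝒪 : Type*} [CommRing 𝒪] {T : Type*} [CommRing T] [Algebra 𝒪 T]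
variable (𝔪 : Ideal T) (a : ℕ → Ideal T)

/-- `a` is decreasing. -/
theorem chain_anti (hmono : ∀ n, a (n + 1) ≤ a n) {m n : ℕ} (h : m ≤ n) : a n ≤ a m := by
  obtain ⟨k, rfl⟩ := Nat.exists_eq_add_of_le h
  induction k with
  | zero => simp
  | succ k ih => exact (hmono (m + k)).trans (ih (Nat.le_add_right m k))

theorem chain_le_sup_pow (hmono : ∀ n, a (n + 1) ≤ a n) (hstep : ∀ n, a n ≤ a (n + 1) ⊔ 𝔪 ^ n)
    (j n : ℕ) : a j ≤ a n ⊔ 𝔪 ^ j := by
  rcases le_total n j with h | h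
  · exact (chain_anti a hmono h).trans le_sup_left
  · obtain ⟨k, rfl⟩ := Nat.exists_eq_add_of_le h
    induction k with
    | zero => simp
    | succ k ih =>
      refine (ih (Nat.le_add_right j k)).trans (sup_le ?_ le_sup_right)
      refine (hstep (j + k)).trans (sup_le le_sup_left ?_)
      exact (Ideal.pow_le_pow_right (Nat.le_add_right j k)).trans le_sup_right

variable {𝔪 a}

/-- The image of `𝔪` in `T ⧸ a n`. -/
abbrev chainN (𝔪 : Ideal T) (a : ℕ → Ideal T) (n : ℕ) : Ideal (T ⧸ a n) :=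
  𝔪.map (Ideal.Quotient.mk (a n))

theorem chainN_pow_eq_bot (hpow : ∀ n, 𝔪 ^ n ≤ a n) (n : ℕ) : chainN 𝔪 a n ^ n = ⊥ := by
  rw [chainN, ← Ideal.map_pow, Ideal.map_eq_bot_iff_le_ker, Ideal.mk_ker]
  exact hpow n

theorem chainN_le_span_sup_sq (hmono : ∀ n, a (n + 1) ≤ a n)
    (hstep : ∀ n, a n ≤ a (n + 1) ⊔ 𝔪 ^ n) {σ : Type*} (t : σ → T)
    (hgen : 𝔪 ≤ a 2 ⊔ Ideal.span (Set.range t)) (n : ℕ) :
    chainN 𝔪 a n ≤ Ideal.span (Set.range (fun i => Ideal.Quotient.mk (a n) (t i))) ⊔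
      chainN 𝔪 a n ^ 2 := by
  have h1 : 𝔪 ≤ a n ⊔ 𝔪 ^ 2 ⊔ Ideal.span (Set.range t) :=
    hgen.trans (sup_le_sup_right (chain_le_sup_pow 𝔪 a hmono hstep 2 n) _)
  have h2 := Ideal.map_mono (f := Ideal.Quotient.mk (a n)) h1
  rw [Ideal.map_sup, Ideal.map_sup, Ideal.map_quotient_self, bot_sup_eq, Ideal.map_pow,
    Ideal.map_span, ← Set.range_comp, sup_comm] at h2
  exact h2

/-- The images of the `t i` in `T ⧸ a n`. -/
abbrev chainT (a : ℕ → Ideal T) {σ : Type*} (t : σ → T) (n : ℕ) : σ → T ⧸ a n :=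
  fun i => Ideal.Quotient.mk (a n) (t i)

section Gen

variable (hpow : ∀ n, 𝔪 ^ n ≤ a n) (hmono : ∀ n, a (n + 1) ≤ a n)
  (hstep : ∀ n, a n ≤ a (n + 1) ⊔ 𝔪 ^ n)
  (hres : Function.Surjective (algebraMap 𝒪 (T ⧸ 𝔪)))
  {σ : Type*} [Finite σ] (t : σ → T) (ht : ∀ i, t i ∈ 𝔪)
  (hgen : 𝔪 ≤ a 2 ⊔ Ideal.span (Set.range t))

include hpow hmono hstep hgen in
omit [Finite σ] in
theorem chainN_le_span (n : ℕ) : chainN 𝔪 a n ≤ Ideal.span (Set.range (chainT a t n)) :=
  le_of_le_sup_sq_of_pow_eq_bot _ _ (chainN_le_span_sup_sq hmono hstep t hgen n)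
    (chainN_pow_eq_bot hpow n)

include ht in
omit [Finite σ] in
theorem span_le_chainN (n : ℕ) : Ideal.span (Set.range (chainT a t n)) ≤ chainN 𝔪 a n := by
  rw [Ideal.span_le]
  rintro _ ⟨i, rfl⟩
  exact Ideal.mem_map_of_mem _ (ht i)

include hpow hmono hstep hgen ht in
omit [Finite σ] in
theorem chainN_eq_span (n : ℕ) : chainN 𝔪 a n = Ideal.span (Set.range (chainT a t n)) :=
  le_antisymm (chainN_le_span hpow hmono hstep t hgen n) (span_le_chainN t ht n)

include hpow hmono hstep hgen ht in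
omit [Finite σ] in
theorem span_chainT_pow_eq_bot (n : ℕ) : Ideal.span (Set.range (chainT a t n)) ^ n = ⊥ := by
  rw [← chainN_eq_span hpow hmono hstep t ht hgen n]
  exact chainN_pow_eq_bot hpow n

include hpow hmono hstep hres hgen ht in
theorem aeval_chainT_surjective (n : ℕ) :
    Function.Surjective (MvPolynomial.aeval (chainT a t n) : MvPolynomial σ 𝒪 →ₐ[𝒪] T ⧸ a n) := by
  rw [← AlgHom.range_eq_top]
  refine subalgebra_eq_top_of_nilpotent (chainN 𝔪 a n) _ ?_ (chainT a t n) ?_ ?_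
    (chainN_le_span_sup_sq hmono hstep t hgen n) (chainN_pow_eq_bot hpow n)
  · intro x
    obtain ⟨y, rfl⟩ := Ideal.Quotient.mk_surjective x
    obtain ⟨r, hr⟩ := hres (Ideal.Quotient.mk 𝔪 y)
    refine ⟨algebraMap 𝒪 (T ⧸ a n) r, Subalgebra.algebraMap_mem _ r, ?_⟩
    have h1 : y - algebraMap 𝒪 T r ∈ 𝔪 := by
      rw [← Ideal.Quotient.eq, ← hr]
      rfl
    have h2 : Ideal.Quotient.mk (a n) y - algebraMap 𝒪 (T ⧸ a n) r =
        Ideal.Quotient.mk (a n) (y - algebraMap 𝒪 T r) := by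
      rw [map_sub]; rfl
    rw [h2]
    exact Ideal.mem_map_of_mem _ h1
  · intro i
    exact ⟨MvPolynomial.X i, by simp⟩
  · intro i
    exact Ideal.mem_map_of_mem _ (ht i)

variable (𝒪)

/-- The evaluation map from the power series ring to `T ⧸ a n`. -/
noncomputable def chainPsi (n : ℕ) : MvPowerSeries σ 𝒪 →ₐ[𝒪] T ⧸ a n :=
  evalNilp (chainT a t n) n (span_chainT_pow_eq_bot hpow hmono hstep t ht hgen n)

theorem chainPsi_X (n : ℕ) (i : σ) :
    chainPsi 𝒪 hpow hmono hstep t ht hgen n (X i) = Ideal.Quotient.mk (a n) (t i) :=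
  evalNilp_X _ _ _ i

theorem chainPsi_compat (n : ℕ) (p : MvPowerSeries σ 𝒪) :
    Ideal.Quotient.factor (hmono n) (chainPsi 𝒪 hpow hmono hstep t ht hgen (n + 1) p) =
      chainPsi 𝒪 hpow hmono hstep t ht hgen n p :=
  evalNilp_comp (Ideal.Quotient.factorₐ 𝒪 (hmono n)) _ _ _ _ _ _ (fun _ => rfl)
    (Nat.le_succ n) p

include hres in
theorem chainPsi_surjective (n : ℕ) :
    Function.Surjective (chainPsi 𝒪 hpow hmono hstep t ht hgen n) :=
  evalNilp_surjective _ _ _ (aeval_chainT_surjective hpow hmono hstep hres t ht hgen n)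

theorem map_span_X_chainPsi (n : ℕ) :
    (Ideal.span (Set.range (X : σ → MvPowerSeries σ 𝒪))).map
      (chainPsi 𝒪 hpow hmono hstep t ht hgen n) = chainN 𝔪 a n := by
  rw [Ideal.map_span, ← Set.range_comp, chainN_eq_span hpow hmono hstep t ht hgen n]
  congr 2
  ext i
  exact chainPsi_X 𝒪 hpow hmono hstep t ht hgen n i

/-- The kernels of the evaluation maps. -/
noncomputable def chainL (n : ℕ) : Ideal (MvPowerSeries σ 𝒪) :=
  RingHom.ker (chainPsi 𝒪 hpow hmono hstep t ht hgen n)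

theorem span_X_pow_le_chainL (n : ℕ) :
    Ideal.span (Set.range (X : σ → MvPowerSeries σ 𝒪)) ^ n ≤
      chainL 𝒪 hpow hmono hstep t ht hgen n := by
  rw [chainL, ← Ideal.map_eq_bot_iff_le_ker, Ideal.map_pow,
    map_span_X_chainPsi 𝒪 hpow hmono hstep t ht hgen n]
  exact chainN_pow_eq_bot hpow n

theorem chainL_mono (n : ℕ) :
    chainL 𝒪 hpow hmono hstep t ht hgen (n + 1) ≤ chainL 𝒪 hpow hmono hstep t ht hgen n := by
  intro p hp
  rw [chainL, RingHom.mem_ker] at hp ⊢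
  rw [← chainPsi_compat 𝒪 hpow hmono hstep t ht hgen n p, hp, map_zero]

include hres in
theorem chainL_step (n : ℕ) :
    chainL 𝒪 hpow hmono hstep t ht hgen n ≤ chainL 𝒪 hpow hmono hstep t ht hgen (n + 1) ⊔
      Ideal.span (Set.range (X : σ → MvPowerSeries σ 𝒪)) ^ n := by
  intro p hp
  rw [chainL, RingHom.mem_ker] at hp
  -- `ψ_{n+1} p` lies in the image of `a n`, hence of `𝔪 ^ n`
  have h1 : chainPsi 𝒪 hpow hmono hstep t ht hgen (n + 1) p ∈ chainN 𝔪 a (n + 1) ^ n := by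
    obtain ⟨y, hy⟩ := Ideal.Quotient.mk_surjective (chainPsi 𝒪 hpow hmono hstep t ht hgen (n + 1) p)
    have h2 : y ∈ a n := by
      rw [← Ideal.Quotient.eq_zero_iff_mem, ← hp, ← chainPsi_compat 𝒪 hpow hmono hstep t ht hgen n p,
        ← hy]
      rfl
    obtain ⟨u, hu, v, hv, huv⟩ := Submodule.mem_sup.mp (hstep n h2)
    rw [← hy, ← huv, map_add, Ideal.Quotient.eq_zero_iff_mem.mpr hu, zero_add, chainN,
      ← Ideal.map_pow]
    exact Ideal.mem_map_of_mem _ hv
  rw [← map_span_X_chainPsi 𝒪 hpow hmono hstep t ht hgen (n + 1), ← Ideal.map_pow] at h1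
  obtain ⟨i, hi, hip⟩ := (Ideal.mem_map_iff_of_surjective _
    (chainPsi_surjective 𝒪 hpow hmono hstep hres t ht hgen (n + 1))).mp h1
  refine Submodule.mem_sup.mpr ⟨p - i, ?_, i, hi, by ring⟩
  rw [chainL, RingHom.mem_ker, map_sub, hip, sub_self]

/-- The map from the power series ring to the limit. -/
noncomputable def chainPsiLim : MvPowerSeries σ 𝒪 →ₐ[𝒪] limSubalgebra 𝒪 a hmono :=
  limLift 𝒪 a hmono (chainPsi 𝒪 hpow hmono hstep t ht hgen)
    (chainPsi_compat 𝒪 hpow hmono hstep t ht hgen)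

theorem limProj_chainPsiLim (n : ℕ) (p : MvPowerSeries σ 𝒪) :
    limProj 𝒪 a hmono n (chainPsiLim 𝒪 hpow hmono hstep t ht hgen p) =
      chainPsi 𝒪 hpow hmono hstep t ht hgen n p := rfl

include hres in
theorem chainPsiLim_surjective :
    Function.Surjective (chainPsiLim 𝒪 hpow hmono hstep t ht hgen) := by
  intro r
  choose p hp using fun n => chainPsi_surjective 𝒪 hpow hmono hstep hres t ht hgen n
    (limProj 𝒪 a hmono n r)
  obtain ⟨x, hx⟩ := exists_forall_sub_mem_of_chain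
    (Ideal.span (Set.range (X : σ → MvPowerSeries σ 𝒪)))
    (chainL 𝒪 hpow hmono hstep t ht hgen) (span_X_pow_le_chainL 𝒪 hpow hmono hstep t ht hgen)
    (chainL_step 𝒪 hpow hmono hstep hres t ht hgen) p (by
      intro n
      rw [chainL, RingHom.mem_ker, map_sub, hp n, ← chainPsi_compat 𝒪 hpow hmono hstep t ht hgen n,
        hp (n + 1), limProj_succ, sub_self])
  refine ⟨x, lim_ext a hmono fun n => ?_⟩
  have := hx n
  rw [chainL, RingHom.mem_ker, map_sub, sub_eq_zero, hp n] at this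
  rw [limProj_chainPsiLim, this]

include hpow hstep hres ht hgen in
theorem limProj_surjective (n : ℕ) : Function.Surjective (limProj 𝒪 a hmono n) := by
  intro x
  obtain ⟨p, hp⟩ := chainPsi_surjective 𝒪 hpow hmono hstep hres t ht hgen n x
  exact ⟨chainPsiLim 𝒪 hpow hmono hstep t ht hgen p, hp⟩

include hres in
theorem ker_limProj_eq_map_chainL (n : ℕ) :
    RingHom.ker (limProj 𝒪 a hmono n) =
      (chainL 𝒪 hpow hmono hstep t ht hgen n).map (chainPsiLim 𝒪 hpow hmono hstep t ht hgen) := by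
  apply le_antisymm
  · intro r hr
    obtain ⟨p, rfl⟩ := chainPsiLim_surjective 𝒪 hpow hmono hstep hres t ht hgen r
    rw [RingHom.mem_ker, limProj_chainPsiLim] at hr
    exact Ideal.mem_map_of_mem _ hr
  · rw [Ideal.map_le_iff_le_comap]
    intro p hp
    rw [Ideal.mem_comap, RingHom.mem_ker, limProj_chainPsiLim]
    exact hp

include hres in
/-- The kernel of the projection to `T ⧸ a n` is the `n`-th power of the ideal generated by the
images of the power series variables. -/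
theorem ker_limProj_eq_pow (n : ℕ) :
    RingHom.ker (limProj 𝒪 a hmono n) =
      ((Ideal.span (Set.range (X : σ → MvPowerSeries σ 𝒪))).map
        (chainPsiLim 𝒪 hpow hmono hstep t ht hgen)) ^ n := by
  rw [ker_limProj_eq_map_chainL 𝒪 hpow hmono hstep hres t ht hgen n,
    chain_eq_iInf_sup_pow (Ideal.span (Set.range (X : σ → MvPowerSeries σ 𝒪)))
      (chainL 𝒪 hpow hmono hstep t ht hgen) (span_X_pow_le_chainL 𝒪 hpow hmono hstep t ht hgen)
      (chainL_mono 𝒪 hpow hmono hstep t ht hgen)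
      (chainL_step 𝒪 hpow hmono hstep hres t ht hgen) n,
    Ideal.map_sup, Ideal.map_pow]
  have h0 : (⨅ m, chainL 𝒪 hpow hmono hstep t ht hgen m).map
      (chainPsiLim 𝒪 hpow hmono hstep t ht hgen) = ⊥ := by
    rw [Ideal.map_eq_bot_iff_le_ker]
    intro p hp
    rw [RingHom.mem_ker]
    refine lim_ext a hmono fun m => ?_
    have := (Submodule.mem_iInf _).mp hp m
    rw [chainL, RingHom.mem_ker] at this
    rw [limProj_chainPsiLim, this, map_zero]
  rw [h0, bot_sup_eq]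

end Gen

/-! ### Packaged results -/

section Main

variable (𝒪)
variable (hpow : ∀ n, 𝔪 ^ n ≤ a n) (hmono : ∀ n, a (n + 1) ≤ a n)
  (hstep : ∀ n, a n ≤ a (n + 1) ⊔ 𝔪 ^ n)
  (hres : Function.Surjective (algebraMap 𝒪 (T ⧸ 𝔪)))
  {σ : Type*} [Finite σ] (t : σ → T) (ht : ∀ i, t i ∈ 𝔪)
  (hgen : 𝔪 ≤ a 2 ⊔ Ideal.span (Set.range t))

include hpow hstep hres ht hgen in
theorem lim_isNoetherianRing [IsNoetherianRing 𝒪] :
    IsNoetherianRing (limSubalgebra 𝒪 a hmono) :=
  isNoetherianRing_of_surjective (MvPowerSeries σ 𝒪) _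
    (chainPsiLim 𝒪 hpow hmono hstep t ht hgen : MvPowerSeries σ 𝒪 →+* limSubalgebra 𝒪 a hmono)
    (chainPsiLim_surjective 𝒪 hpow hmono hstep hres t ht hgen)

include hpow hstep hres ht hgen in
theorem lim_nontrivial (h1 : a 1 ≠ ⊤) : Nontrivial (limSubalgebra 𝒪 a hmono) := by
  have : Nontrivial (T ⧸ a 1) := Ideal.Quotient.nontrivial_iff.mpr h1
  exact (limProj_surjective 𝒪 hpow hmono hstep hres t ht hgen 1).nontrivial

include hpow hstep hres ht hgen in
theorem lim_isLocalRing [IsLocalRing 𝒪] (h1 : a 1 ≠ ⊤) :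
    IsLocalRing (limSubalgebra 𝒪 a hmono) := by
  have := lim_nontrivial 𝒪 hpow hmono hstep hres t ht hgen h1
  exact IsLocalRing.of_surjective'
    (chainPsiLim 𝒪 hpow hmono hstep t ht hgen : MvPowerSeries σ 𝒪 →+* limSubalgebra 𝒪 a hmono)
    (chainPsiLim_surjective 𝒪 hpow hmono hstep hres t ht hgen)

include hpow hstep hres ht hgen in
/-- The maximal ideal of the limit is the kernel of the projection to `T ⧸ a 1 = T ⧸ 𝔪`, and is
generated by the images of the power series variables. -/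
theorem lim_maximalIdeal_eq_map [𝔪.IsMaximal] [IsLocalRing (limSubalgebra 𝒪 a hmono)]
    (h1 : a 1 ≤ 𝔪) :
    IsLocalRing.maximalIdeal (limSubalgebra 𝒪 a hmono) =
      (Ideal.span (Set.range (X : σ → MvPowerSeries σ 𝒪))).map
        (chainPsiLim 𝒪 hpow hmono hstep t ht hgen) := by
  have ha1 : a 1 = 𝔪 := le_antisymm h1 (by simpa using hpow 1)
  have hmax : (a 1).IsMaximal := ha1 ▸ inferInstance
  have hk : (RingHom.ker (limProj 𝒪 a hmono 1)).IsMaximal := by
    have hbot : (⊥ : Ideal (T ⧸ a 1)).IsMaximal := Ideal.bot_quotient_isMaximal_iff _ |>.mpr hmax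
    have := Ideal.comap_isMaximal_of_surjective
      (limProj 𝒪 a hmono 1 : limSubalgebra 𝒪 a hmono →+* T ⧸ a 1)
      (limProj_surjective 𝒪 hpow hmono hstep hres t ht hgen 1) (K := ⊥)
    exact this
  rw [← IsLocalRing.eq_maximalIdeal hk,
    ker_limProj_eq_pow 𝒪 hpow hmono hstep hres t ht hgen 1, pow_one]

include hpow hstep hres ht hgen in
theorem lim_ker_limProj_eq_maximalIdeal_pow [𝔪.IsMaximal]
    [IsLocalRing (limSubalgebra 𝒪 a hmono)] (h1 : a 1 ≤ 𝔪) (n : ℕ) :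
    RingHom.ker (limProj 𝒪 a hmono n) =
      IsLocalRing.maximalIdeal (limSubalgebra 𝒪 a hmono) ^ n := by
  rw [lim_maximalIdeal_eq_map 𝒪 hpow hmono hstep hres t ht hgen h1,
    ker_limProj_eq_pow 𝒪 hpow hmono hstep hres t ht hgen n]

include hpow hstep hres ht hgen in
theorem lim_isAdicComplete [IsNoetherianRing 𝒪] [𝔪.IsMaximal]
    [IsLocalRing (limSubalgebra 𝒪 a hmono)] (h1 : a 1 ≤ 𝔪) :
    IsAdicComplete (IsLocalRing.maximalIdeal (limSubalgebra 𝒪 a hmono))
      (limSubalgebra 𝒪 a hmono) :=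
  isAdicComplete_maximalIdeal_of_surjective
    (Ideal.span (Set.range (X : σ → MvPowerSeries σ 𝒪)))
    (chainPsiLim 𝒪 hpow hmono hstep t ht hgen : MvPowerSeries σ 𝒪 →+* limSubalgebra 𝒪 a hmono)
    (chainPsiLim_surjective 𝒪 hpow hmono hstep hres t ht hgen)
    (lim_maximalIdeal_eq_map 𝒪 hpow hmono hstep hres t ht hgen h1).symm

include hpow hres in
theorem algebraMap_quot_one_surjective (h1 : a 1 ≤ 𝔪) :
    Function.Surjective (algebraMap 𝒪 (T ⧸ a 1)) := by
  have ha1 : a 1 = 𝔪 := le_antisymm h1 (by simpa using hpow 1)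
  rw [ha1]; exact hres

include hpow hres in
omit [Finite σ] in
theorem lim_isLocalHom_algebraMap [IsLocalRing 𝒪] [𝔪.IsMaximal]
    [IsLocalRing (limSubalgebra 𝒪 a hmono)] (h1 : a 1 ≤ 𝔪) :
    IsLocalHom (algebraMap 𝒪 (limSubalgebra 𝒪 a hmono)) := by
  have ha1 : a 1 = 𝔪 := le_antisymm h1 (by simpa using hpow 1)
  have hne : a 1 ≠ ⊤ := ha1 ▸ Ideal.IsMaximal.ne_top inferInstance
  have : Nontrivial (T ⧸ a 1) := Ideal.Quotient.nontrivial_iff.mpr hne
  have hloc : IsLocalHom (algebraMap 𝒪 (T ⧸ a 1)) :=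
    IsLocalHom.of_surjective _ (algebraMap_quot_one_surjective 𝒪 hpow hres h1)
  have hcomp : ((limProj 𝒪 a hmono 1 : limSubalgebra 𝒪 a hmono →+* T ⧸ a 1).comp
      (algebraMap 𝒪 (limSubalgebra 𝒪 a hmono))) = algebraMap 𝒪 (T ⧸ a 1) :=
    (limProj 𝒪 a hmono 1).comp_algebraMap
  have : IsLocalHom ((limProj 𝒪 a hmono 1 : limSubalgebra 𝒪 a hmono →+* T ⧸ a 1).comp
      (algebraMap 𝒪 (limSubalgebra 𝒪 a hmono))) := hcomp ▸ hloc
  exact isLocalHom_of_comp _ (limProj 𝒪 a hmono 1 : limSubalgebra 𝒪 a hmono →+* T ⧸ a 1)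

include hpow hstep hres ht hgen in
theorem lim_residue_surjective [𝔪.IsMaximal]
    [IsLocalRing (limSubalgebra 𝒪 a hmono)] (h1 : a 1 ≤ 𝔪) :
    Function.Surjective (IsLocalRing.residue (limSubalgebra 𝒪 a hmono) ∘
      algebraMap 𝒪 (limSubalgebra 𝒪 a hmono)) := by
  intro y
  obtain ⟨r, rfl⟩ := IsLocalRing.residue_surjective y
  obtain ⟨x, hx⟩ := algebraMap_quot_one_surjective 𝒪 hpow hres h1 (limProj 𝒪 a hmono 1 r)
  refine ⟨x, ?_⟩
  rw [Function.comp_apply, ← sub_eq_zero, ← map_sub, IsLocalRing.residue_eq_zero_iff,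
    ← pow_one (IsLocalRing.maximalIdeal _),
    ← lim_ker_limProj_eq_maximalIdeal_pow 𝒪 hpow hmono hstep hres t ht hgen h1 1,
    RingHom.mem_ker, map_sub, sub_eq_zero, ← hx]
  exact (limProj 𝒪 a hmono 1).commutes x

end Main

end Chain

end Fermat.Agent.S53.AdicLim
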