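/-
S53 helper (owner: helper90): homomorphisms out of the limit `limSubalgebra 𝒪 a hmono` of
`AdicLimit.lean`: descent to an adically complete algebra, uniqueness, factorisation of maps
killing `ker (limProj n)`.
-/
import Mathlib
import Fermat.Agent.S53.AdicLimit

set_option autoImplicit false

namespace Fermat.Agent.S53.AdicLim

section

variable (𝒪 : Type*) [CommRing 𝒪] {T : Type*} [CommRing T] [Algebra 𝒪 T]
variable (a : ℕ → Ideal T) (hmono : ∀ n, a (n + 1) ≤ a n)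

/-- Every element of the limit is congruent to (the image of) an element of `T` modulo
`ker (limProj n)`. -/
theorem exists_limOf_sub_mem_ker (n : ℕ) (r : limSubalgebra 𝒪 a hmono) :
    ∃ x : T, limProj 𝒪 a hmono n r = Ideal.Quotient.mk (a n) x ∧
      r - limOf 𝒪 a hmono x ∈ RingHom.ker (limProj 𝒪 a hmono n) := by
  obtain ⟨x, hx⟩ := Ideal.Quotient.mk_surjective (limProj 𝒪 a hmono n r)
  refine ⟨x, hx.symm, ?_⟩
  rw [RingHom.mem_ker, map_sub, limProj_limOf, hx, sub_self]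

theorem factor_limProj {m n : ℕ} (hle : m ≤ n) (r : limSubalgebra 𝒪 a hmono) :
    Ideal.Quotient.factor (chain_anti a hmono hle) (limProj 𝒪 a hmono n r) =
      limProj 𝒪 a hmono m r := by
  induction n, hle using Nat.le_induction with
  | base => simp
  | succ n hmn ih =>
    rw [← ih, ← limProj_succ 𝒪 a hmono n r, Ideal.Quotient.factor_comp_apply]

variable {A : Type*} [CommRing A] [Algebra 𝒪 A] (I : Ideal A)

/-- The maps `lim → T ⧸ a n → A ⧸ I ^ n` induced by `θ : T → A` with `θ (a n) ⊆ I ^ n`. -/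
noncomputable def limDescAux (θ : T →ₐ[𝒪] A) (hθ : ∀ n, ∀ x ∈ a n, θ x ∈ I ^ n) (n : ℕ) :
    limSubalgebra 𝒪 a hmono →ₐ[𝒪] A ⧸ I ^ n :=
  (Ideal.Quotient.liftₐ (a n) ((Ideal.Quotient.mkₐ 𝒪 (I ^ n)).comp θ) (fun x hx => by
    rw [AlgHom.comp_apply, Ideal.Quotient.mkₐ_eq_mk, Ideal.Quotient.eq_zero_iff_mem]
    exact hθ n x hx)).comp (limProj 𝒪 a hmono n)

theorem limDescAux_apply (θ : T →ₐ[𝒪] A) (hθ : ∀ n, ∀ x ∈ a n, θ x ∈ I ^ n) (n : ℕ)
    (r : limSubalgebra 𝒪 a hmono) (x : T)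
    (hx : limProj 𝒪 a hmono n r = Ideal.Quotient.mk (a n) x) :
    limDescAux 𝒪 a hmono I θ hθ n r = Ideal.Quotient.mk (I ^ n) (θ x) := by
  rw [limDescAux, AlgHom.comp_apply, hx]
  rfl

theorem limDescAux_compat (θ : T →ₐ[𝒪] A) (hθ : ∀ n, ∀ x ∈ a n, θ x ∈ I ^ n) {m n : ℕ}
    (hle : m ≤ n) :
    (Ideal.Quotient.factorₐ 𝒪 (Ideal.pow_le_pow_right hle)).comp (limDescAux 𝒪 a hmono I θ hθ n) =
      limDescAux 𝒪 a hmono I θ hθ m := by
  ext r
  obtain ⟨x, hx, -⟩ := exists_limOf_sub_mem_ker 𝒪 a hmono n r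
  have hx' : limProj 𝒪 a hmono m r = Ideal.Quotient.mk (a m) x := by
    rw [← factor_limProj 𝒪 a hmono hle r, hx]
    rfl
  rw [AlgHom.comp_apply, limDescAux_apply 𝒪 a hmono I θ hθ n r x hx,
    limDescAux_apply 𝒪 a hmono I θ hθ m r x hx']
  rfl

variable [IsAdicComplete I A]

/-- Descent of `θ : T → A` to the limit, for `A` an `I`-adically complete algebra and
`θ (a n) ⊆ I ^ n`. -/
noncomputable def limDesc (θ : T →ₐ[𝒪] A) (hθ : ∀ n, ∀ x ∈ a n, θ x ∈ I ^ n) :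
    limSubalgebra 𝒪 a hmono →ₐ[𝒪] A :=
  IsAdicComplete.liftAlgHom I (limDescAux 𝒪 a hmono I θ hθ)
    (fun hle => limDescAux_compat 𝒪 a hmono I θ hθ hle)

theorem mk_limDesc (θ : T →ₐ[𝒪] A) (hθ : ∀ n, ∀ x ∈ a n, θ x ∈ I ^ n) (n : ℕ)
    (r : limSubalgebra 𝒪 a hmono) (x : T)
    (hx : limProj 𝒪 a hmono n r = Ideal.Quotient.mk (a n) x) :
    Ideal.Quotient.mk (I ^ n) (limDesc 𝒪 a hmono I θ hθ r) = Ideal.Quotient.mk (I ^ n) (θ x) := by
  rw [limDesc, IsAdicComplete.mk_liftAlgHom, limDescAux_apply 𝒪 a hmono I θ hθ n r x hx]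

theorem limDesc_limOf (θ : T →ₐ[𝒪] A) (hθ : ∀ n, ∀ x ∈ a n, θ x ∈ I ^ n) (x : T) :
    limDesc 𝒪 a hmono I θ hθ (limOf 𝒪 a hmono x) = θ x := by
  rw [IsHausdorff.eq_iff_smodEq (I := I)]
  intro n
  rw [SModEq.sub_mem, smul_eq_mul, Ideal.mul_top, ← Ideal.Quotient.eq]
  exact mk_limDesc 𝒪 a hmono I θ hθ n _ x (limProj_limOf 𝒪 a hmono n x)

theorem limDesc_mem_pow (θ : T →ₐ[𝒪] A) (hθ : ∀ n, ∀ x ∈ a n, θ x ∈ I ^ n) (n : ℕ)
    (r : limSubalgebra 𝒪 a hmono) (hr : r ∈ RingHom.ker (limProj 𝒪 a hmono n)) :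
    limDesc 𝒪 a hmono I θ hθ r ∈ I ^ n := by
  rw [← Ideal.Quotient.eq_zero_iff_mem,
    mk_limDesc 𝒪 a hmono I θ hθ n r 0 (by rw [RingHom.mem_ker.mp hr, map_zero]), map_zero, map_zero]

end

section

variable (𝒪 : Type*) [CommRing 𝒪] {T : Type*} [CommRing T] [Algebra 𝒪 T]
variable (a : ℕ → Ideal T) (hmono : ∀ n, a (n + 1) ≤ a n)
variable {A : Type*} [CommRing A] [Algebra 𝒪 A] (I : Ideal A)

/-- Two algebra maps from the limit to an `I`-adically separated algebra which send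
`ker (limProj n)` into `I ^ n` and agree on the image of `T` are equal. -/
theorem lim_algHom_ext [IsHausdorff I A] (φ φ' : limSubalgebra 𝒪 a hmono →ₐ[𝒪] A)
    (hφ : ∀ n, ∀ r ∈ RingHom.ker (limProj 𝒪 a hmono n), φ r ∈ I ^ n)
    (hφ' : ∀ n, ∀ r ∈ RingHom.ker (limProj 𝒪 a hmono n), φ' r ∈ I ^ n)
    (h : ∀ x : T, φ (limOf 𝒪 a hmono x) = φ' (limOf 𝒪 a hmono x)) : φ = φ' := by
  ext r
  rw [IsHausdorff.eq_iff_smodEq (I := I)]
  intro n
  rw [SModEq.sub_mem, smul_eq_mul, Ideal.mul_top]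
  obtain ⟨x, -, hx⟩ := exists_limOf_sub_mem_ker 𝒪 a hmono n r
  have : φ r - φ' r = φ (r - limOf 𝒪 a hmono x) - φ' (r - limOf 𝒪 a hmono x) := by
    rw [map_sub, map_sub, h x]; ring
  rw [this]
  exact Ideal.sub_mem _ (hφ n _ hx) (hφ' n _ hx)

/-- A map out of the limit killing `ker (limProj n)` factors through `T ⧸ a n`
(given that `limProj n` is surjective). -/
theorem exists_factor_limProj (n : ℕ) (hsurj : Function.Surjective (limProj 𝒪 a hmono n))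
    (q : limSubalgebra 𝒪 a hmono →ₐ[𝒪] A)
    (hq : RingHom.ker (limProj 𝒪 a hmono n) ≤ RingHom.ker q) :
    ∃ q' : T ⧸ a n →ₐ[𝒪] A, q'.comp (limProj 𝒪 a hmono n) = q ∧
      ∀ x : T, q' (Ideal.Quotient.mk (a n) x) = q (limOf 𝒪 a hmono x) := by
  have hq' : RingHom.ker (limProj 𝒪 a hmono n).toRingHom ≤ RingHom.ker q.toRingHom := hq
  refine ⟨AlgHom.liftOfSurjective (limProj 𝒪 a hmono n) hsurj q hq',
    AlgHom.liftOfSurjective_comp _ hsurj q hq', fun x => ?_⟩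
  rw [← limProj_limOf 𝒪 a hmono n x]
  exact AlgHom.liftOfSurjective_apply _ hsurj q hq' _

end

/-- A local homomorphism maps `𝔪 ^ n` into `𝔪 ^ n`. -/
theorem map_mem_maximalIdeal_pow {R A : Type*} [CommRing R] [CommRing A] [IsLocalRing R]
    [IsLocalRing A] (φ : R →+* A) [IsLocalHom φ] (n : ℕ) (r : R)
    (hr : r ∈ IsLocalRing.maximalIdeal R ^ n) : φ r ∈ IsLocalRing.maximalIdeal A ^ n := by
  have h1 : (IsLocalRing.maximalIdeal R ^ n).map φ ≤ IsLocalRing.maximalIdeal A ^ n := by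
    rw [Ideal.map_pow]
    exact Ideal.pow_right_mono (IsLocalRing.map_maximalIdeal_le φ) n
  exact h1 (Ideal.mem_map_of_mem φ hr)

end Fermat.Agent.S53.AdicLim
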