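/-
S53, PART D (final assembly).  Owner: helper68.
From a slice package `P` and the universal normalised lift `U : UnivData rt P.E 𝒟` we build the
`GaloisRep.DeformationRingData`.  All the real work is in `NormalForm.lean` (helper35):
existence/uniqueness of normal forms, and in `UnivDefs.lean` (the interface `UnivData`).
-/
import Fermat.Agent.S53.UnivDefs
import Fermat.Agent.S53.NormalForm

set_option autoImplicit false
set_option linter.unusedSectionVars false

namespace Fermat.Agent.S53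

open IsLocalRing

section Assembly

variable {𝒪 : Type} [CommRing 𝒪] [IsDomain 𝒪] [IsDiscreteValuationRing 𝒪]
  [IsAdicComplete (IsLocalRing.maximalIdeal 𝒪) 𝒪] (rt : GQ → M2 𝒪)
  (𝒟 : ∀ ⦃A : Type⦄ [CommRing A] [IsLocalRing A] [Algebra 𝒪 A], GaloisRepAdic A → Prop)

/-- D0. `𝒟` is invariant under `IsEquiv` also over complete noetherian local rings. -/
theorem type_of_isEquiv (h𝒟 : GaloisRep.IsDeformationCondition 𝒪 𝒟)
    {A : Type} [CommRing A] [IsLocalRing A] [IsNoetherianRing A]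
    [IsAdicComplete (IsLocalRing.maximalIdeal A) A] [Algebra 𝒪 A] [IsLocalHom (algebraMap 𝒪 A)]
    (hA : Function.Surjective (IsLocalRing.residue A ∘ algebraMap 𝒪 A))
    {ρ ρ' : GaloisRepAdic A} (h : ρ.IsEquiv ρ') (hρ : 𝒟 ρ) : 𝒟 ρ' :=
  type_of_isEquiv_cnl h𝒟 inferInstance hA h hρ

/-- Pushing a normalised hom along an `𝒪`-algebra hom keeps it normalised. -/
theorem isNorm_mapMat_algHom {𝒪 : Type} [CommRing 𝒪] (E : Set (PolyRing 𝒪))
    {A B : Type} [CommRing A] [CommRing B] [Algebra 𝒪 A] [Algebra 𝒪 B] (φ : A →ₐ[𝒪] B)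
    {r : GQ →* M2 A} (hr : IsNorm E r) : IsNorm E (mapMat (φ : A →+* B) r) :=
  Presentation.IsNormalised.map (O := 𝒪) (E := E) φ hr

/-- D. final assembly. -/
theorem nonempty_deformationRingData_of_univData
    (ρbar : ResidualGaloisRep (IsLocalRing.ResidueField 𝒪)) (habs : ρbar.IsAbsolutelyIrreducible)
    (h𝒟 : GaloisRep.IsDeformationCondition 𝒪 𝒟)
    (rbar : GQ →* M2 (IsLocalRing.ResidueField 𝒪)) (hfl : GaloisFactorsThroughFiniteLevel rbar)
    (he : ρbar.IsEquiv (ofMatRes rbar hfl)) (hrt : ∀ g, (rt g).map (IsLocalRing.residue 𝒪) = rbar g)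
    (P : SlicePkg 𝒪 rt) (U : UnivData rt P.E 𝒟) :
    Nonempty (GaloisRep.DeformationRingData 𝒪 ρbar 𝒟) := by
  refine ⟨{ R := U.R
            residue_surjective := U.residue_surjective
            absIrr := habs
            ρ := ofMat U.ru U.good.cont
            isOfType := U.good.type
            residual_isEquiv :=
              residual_isEquiv_of_isLiftRt rt he hrt U.good.cont U.good.lift
            universal := ?_ }⟩
  intro A _ _ _ _ _ _ hA ρA hDρA hres
  obtain ⟨r2, hgood, hequiv⟩ := exists_goodLift_cnl h𝒟 P he hrt hA ρA hDρA hres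
  obtain ⟨φ, hφ, hφr⟩ := U.exists_hom A hA r2 hgood
  refine ⟨φ, ⟨hφ, ?_⟩, ?_⟩
  · -- existence: `(ofMat ru).baseChangeAlong φ ≃ ofMat (mapMat φ ru) = ofMat r2 ≃ ρA`
    obtain ⟨e1⟩ := isEquiv_baseChangeAlong_ofMat (φ : U.R →+* A) hφ U.good.cont
    subst hφr
    obtain ⟨e2⟩ := hequiv (matCont_mapMat (φ : U.R →+* A) hφ U.good.cont)
    exact ⟨e1.trans e2.symm⟩
  · -- uniqueness
    rintro φ' ⟨hφ', ⟨e'⟩⟩
    obtain ⟨e1⟩ := isEquiv_baseChangeAlong_ofMat (φ' : U.R →+* A) hφ' U.good.cont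
    obtain ⟨e2⟩ := hequiv hgood.cont
    have hcont' : MatCont (mapMat (φ' : U.R →+* A) U.ru) :=
      matCont_mapMat (φ' : U.R →+* A) hφ' U.good.cont
    have heq : mapMat (φ' : U.R →+* A) U.ru = r2 :=
      normalForm_unique P hA hcont' hgood.cont
        (isLiftRt_mapMat rt φ' hφ' U.good.lift) hgood.lift
        (isNorm_mapMat_algHom P.E φ' U.good.norm) hgood.norm
        ⟨(e1.symm.trans e').trans e2⟩
    exact U.hom_ext A φ' φ hφ' hφ (heq.trans hφr.symm)

end Assembly

end Fermat.Agent.S53
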