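import Fermat.Agent.S53.GoodIdeals

/-!
# S53: uniform cardinality bound for good quotients (sequential route, hypothesis `hC`)

Given uniform generators `yGen rt E (x i)` (`i : Fin d`) of all good quotients below a fixed good
ideal `𝔞₀` (the output of part G3), every good quotient `RpreE E ⧸ 𝔞` with `mP ^ n ≤ 𝔞` is a quotient
of the fixed finite ring `MvPolynomial (Fin d) 𝒪 ⧸ M ^ n`; in particular its cardinality is bounded
independently of `𝔞`.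
-/

set_option autoImplicit false
set_option linter.unusedSectionVars false

noncomputable section

namespace Fermat.Agent.S53.GoodCard

open IsLocalRing Fermat.Agent.S53 Fermat.Agent.S53.Presentation Fermat.Agent.S53.QuotFibre
open Fermat.Agent.S53.GoodIdeals

variable {𝒪 : Type} [CommRing 𝒪] [IsLocalRing 𝒪] {rt : GQ → M2 𝒪} {E : Set (PolyRing 𝒪)}
  {𝒟 : ∀ ⦃A : Type⦄ [CommRing A] [IsLocalRing A] [Algebra 𝒪 A], GaloisRepAdic A → Prop}

/-- Good quotients are finite. -/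
theorem finite_quotient_of_isGoodIdeal [Finite (ResidueField 𝒪)] {𝔞 : Ideal (RpreE E)}
    (h : IsGoodIdeal rt E 𝒟 𝔞) : Finite (RpreE E ⧸ 𝔞) := by
  obtain ⟨hloc, htest, -⟩ := h
  have : IsArtinianRing (RpreE E ⧸ 𝔞) := htest.isArtinian
  have : Finite (ResidueField (RpreE E ⧸ 𝔞)) := by
    have hlh : IsLocalHom (algebraMap 𝒪 (RpreE E ⧸ 𝔞)) := htest.isLocalHom
    refine Finite.of_surjective
      (IsLocalRing.ResidueField.map (algebraMap 𝒪 (RpreE E ⧸ 𝔞))) fun y => ?_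
    obtain ⟨o, ho⟩ := htest.residue_surjective y
    exact ⟨IsLocalRing.residue 𝒪 o, by rw [← ho]; rfl⟩
  exact finite_of_isArtinianRing_of_finite_residueField _

/-- The evaluation map of polynomials at the chosen generators. -/
def evY (rt : GQ → M2 𝒪) (E : Set (PolyRing 𝒪)) {d : ℕ} (x : Fin d → GQ × Fin 2 × Fin 2) :
    MvPolynomial (Fin d) 𝒪 →ₐ[𝒪] RpreE E :=
  MvPolynomial.aeval fun i => yGen rt E (x i)

/-- Uniform cardinality bound for the good quotients containing `mP ^ n`. -/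
theorem exists_card_bound [IsNoetherianRing 𝒪] [Finite (ResidueField 𝒪)]
    (h𝒟 : GaloisRep.IsDeformationCondition 𝒪 𝒟)
    (d : ℕ) (x : Fin d → GQ × Fin 2 × Fin 2) (𝔞₀ : Ideal (RpreE E))
    (h₀ : IsGoodIdeal rt E 𝒟 𝔞₀)
    (hgen : ∀ 𝔞, IsGoodIdeal rt E 𝒟 𝔞 → 𝔞 ≤ 𝔞₀ → ∀ z : RpreE E,
        ∃ p : MvPolynomial (Fin d) 𝒪,
          z - MvPolynomial.aeval (fun i => yGen rt E (x i)) p ∈ 𝔞) (n : ℕ) :
    ∃ C : ℕ, ∀ 𝔞, IsGoodIdeal rt E 𝒟 𝔞 → mP rt E ^ n ≤ 𝔞 →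
      Finite (RpreE E ⧸ 𝔞) ∧ Nat.card (RpreE E ⧸ 𝔞) ≤ C := by
  classical
  set ev : MvPolynomial (Fin d) 𝒪 →ₐ[𝒪] RpreE E := evY rt E x with hev
  set M : Ideal (MvPolynomial (Fin d) 𝒪) := (mP rt E).comap (ev : _ →+* RpreE E) with hM
  -- `Q ⧸ M` is finite
  have hfinmP : Finite (RpreE E ⧸ mP rt E) :=
    finite_quotient_of_isGoodIdeal (isGoodIdeal_mP h𝒟 h₀)
  have hfinM : Finite (MvPolynomial (Fin d) 𝒪 ⧸ M) := by
    refine Finite.of_injective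
      (Ideal.quotientMap (mP rt E) (ev : MvPolynomial (Fin d) 𝒪 →+* RpreE E) le_rfl) ?_
    exact Ideal.quotientMap_injective
  have hfinMn : Finite (MvPolynomial (Fin d) 𝒪 ⧸ M ^ n) :=
    Ideal.finite_quotient_pow (IsNoetherian.noetherian M) n
  refine ⟨Nat.card (MvPolynomial (Fin d) 𝒪 ⧸ M ^ n), fun 𝔞 h𝔞 hn => ?_⟩
  -- the surjection `Q ⧸ M ^ n → RpreE E ⧸ 𝔞`
  have hkill : M ^ n ≤ RingHom.ker
      ((Ideal.Quotient.mk 𝔞).comp (ev : MvPolynomial (Fin d) 𝒪 →+* RpreE E)) := by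
    have h1 : (M ^ n).map (ev : MvPolynomial (Fin d) 𝒪 →+* RpreE E) ≤ mP rt E ^ n := by
      rw [Ideal.map_pow]
      exact Ideal.pow_right_mono (Ideal.map_comap_le) n
    intro p hp
    rw [RingHom.mem_ker, RingHom.comp_apply, Ideal.Quotient.eq_zero_iff_mem]
    exact hn (h1 (Ideal.mem_map_of_mem _ hp))
  let f : MvPolynomial (Fin d) 𝒪 ⧸ M ^ n →+* RpreE E ⧸ 𝔞 :=
    Ideal.Quotient.lift (M ^ n)
      ((Ideal.Quotient.mk 𝔞).comp (ev : MvPolynomial (Fin d) 𝒪 →+* RpreE E))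
      (fun p hp => (RingHom.mem_ker).mp (hkill hp))
  have hf : Function.Surjective f := by
    intro y
    obtain ⟨z, rfl⟩ := Ideal.Quotient.mk_surjective y
    obtain ⟨p, hp⟩ := hgen (𝔞 ⊓ 𝔞₀) (isGoodIdeal_inf h𝒟 h𝔞 h₀) inf_le_right z
    refine ⟨Ideal.Quotient.mk _ p, ?_⟩
    rw [Ideal.Quotient.lift_mk, RingHom.comp_apply, eq_comm, Ideal.Quotient.eq]
    exact (inf_le_left : 𝔞 ⊓ 𝔞₀ ≤ 𝔞) hp
  exact ⟨Finite.of_surjective f hf, Nat.card_le_card_of_surjective f hf⟩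

end Fermat.Agent.S53.GoodCard

end
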