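/-
S53 helper (owner: helper90): from a family `AA` of ideals of `T` (the "good" ideals) closed under
binary intersection and under `a ↦ a ⊔ 𝔪 ^ n`, with uniformly bounded finite quotients at each
level, produce the canonical decreasing chain `a n := min {a ∈ AA | 𝔪 ^ n ≤ a}` satisfying the
hypotheses of `Fermat.Agent.S53.AdicLim` (file `AdicLimit.lean`).
-/
import Mathlib

set_option autoImplicit false

namespace Fermat.Agent.S53.AdicLim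

variable {T : Type*} [CommRing T]

/-- A nonempty family of ideals, closed under binary intersection, with finite quotients of bounded
cardinality, has a least element. -/
theorem exists_least_of_inf_closed (X : Set (Ideal T)) (hne : X.Nonempty)
    (hinf : ∀ a ∈ X, ∀ b ∈ X, a ⊓ b ∈ X) (hfin : ∀ a ∈ X, Finite (T ⧸ a))
    (C : ℕ) (hC : ∀ a ∈ X, Nat.card (T ⧸ a) ≤ C) :
    ∃ a ∈ X, ∀ b ∈ X, a ≤ b := by
  classical
  let s : Set ℕ := (fun a : Ideal T => Nat.card (T ⧸ a)) '' X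
  have hs1 : s.Nonempty := hne.image _
  have hs2 : BddAbove s := ⟨C, by rintro _ ⟨a, ha, rfl⟩; exact hC a ha⟩
  obtain ⟨a, haX, ha⟩ := Nat.sSup_mem hs1 hs2
  refine ⟨a, haX, fun b hb => ?_⟩
  have hc : a ⊓ b ∈ X := hinf a haX b hb
  have hle : Nat.card (T ⧸ (a ⊓ b)) ≤ Nat.card (T ⧸ a) := by
    have h1 : Nat.card (T ⧸ (a ⊓ b)) ≤ sSup s := le_csSup hs2 ⟨a ⊓ b, hc, rfl⟩
    exact h1.trans_eq ha.symm
  have : Finite (T ⧸ (a ⊓ b)) := hfin _ hc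
  have hbij : Function.Bijective (Ideal.Quotient.factor (inf_le_left : a ⊓ b ≤ a)) :=
    (Ideal.Quotient.factor_surjective (inf_le_left : a ⊓ b ≤ a)).bijective_of_nat_card_le hle
  intro x hx
  have h0 : Ideal.Quotient.factor (inf_le_left : a ⊓ b ≤ a) (Ideal.Quotient.mk (a ⊓ b) x) =
      Ideal.Quotient.factor (inf_le_left : a ⊓ b ≤ a) 0 := by
    rw [map_zero, Ideal.Quotient.factor_mk, Ideal.Quotient.eq_zero_iff_mem]
    exact hx
  have h1 := hbij.1 h0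
  rw [Ideal.Quotient.eq_zero_iff_mem] at h1
  exact h1.2

/-- The canonical chain attached to a family of good ideals. -/
theorem exists_min_chain (𝔪 : Ideal T) (AA : Set (Ideal T))
    (hinf : ∀ a ∈ AA, ∀ b ∈ AA, a ⊓ b ∈ AA)
    (hsup : ∀ a ∈ AA, ∀ n : ℕ, 1 ≤ n → a ⊔ 𝔪 ^ n ∈ AA)
    (h𝔪 : 𝔪 ∈ AA)
    (hfin : ∀ a ∈ AA, Finite (T ⧸ a))
    (hC : ∀ n : ℕ, ∃ C : ℕ, ∀ a ∈ AA, 𝔪 ^ n ≤ a → Nat.card (T ⧸ a) ≤ C) :
    ∃ a : ℕ → Ideal T,
      (∀ n, 1 ≤ n → a n ∈ AA) ∧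
      (∀ n, 𝔪 ^ n ≤ a n) ∧
      (∀ n, a (n + 1) ≤ a n) ∧
      (∀ n, a n ≤ a (n + 1) ⊔ 𝔪 ^ n) ∧
      a 1 ≤ 𝔪 ∧
      (∀ n, 1 ≤ n → ∀ b ∈ AA, 𝔪 ^ n ≤ b → a n ≤ b) := by
  classical
  have key : ∀ n : ℕ, 1 ≤ n → ∃ a ∈ AA, 𝔪 ^ n ≤ a ∧ ∀ b ∈ AA, 𝔪 ^ n ≤ b → a ≤ b := by
    intro n hn
    obtain ⟨C, hC'⟩ := hC n
    obtain ⟨a, ⟨ha1, ha2⟩, ha3⟩ := exists_least_of_inf_closed {a | a ∈ AA ∧ 𝔪 ^ n ≤ a}
      ⟨𝔪, h𝔪, Ideal.pow_le_self (Nat.one_le_iff_ne_zero.mp hn)⟩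
      (fun a ha b hb => ⟨hinf a ha.1 b hb.1, le_inf ha.2 hb.2⟩)
      (fun a ha => hfin a ha.1) C (fun a ha => hC' a ha.1 ha.2)
    exact ⟨a, ha1, ha2, fun b hb hb' => ha3 b ⟨hb, hb'⟩⟩
  choose! f hf1 hf2 hf3 using key
  refine ⟨fun n => if n = 0 then ⊤ else f n, ?_, ?_, ?_, ?_, ?_, ?_⟩
  · intro n hn
    simp only [Nat.one_le_iff_ne_zero.mp hn, if_false]
    exact hf1 n hn
  · intro n
    by_cases hn : n = 0
    · simp [hn]
    · simp only [hn, if_false]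
      exact hf2 n (Nat.one_le_iff_ne_zero.mpr hn)
  · intro n
    by_cases hn : n = 0
    · simp [hn]
    · have hn1 : 1 ≤ n := Nat.one_le_iff_ne_zero.mpr hn
      simp only [hn, Nat.succ_ne_zero, if_false]
      exact hf3 (n + 1) (Nat.le_add_left 1 n) (f n) (hf1 n hn1)
        ((Ideal.pow_le_pow_right (Nat.le_succ n)).trans (hf2 n hn1))
  · intro n
    by_cases hn : n = 0
    · simp [hn]
    · have hn1 : 1 ≤ n := Nat.one_le_iff_ne_zero.mpr hn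
      simp only [hn, Nat.succ_ne_zero, if_false]
      exact hf3 n hn1 _ (hsup _ (hf1 (n + 1) (Nat.le_add_left 1 n)) n hn1) le_sup_right
  · simp only [one_ne_zero, if_false]
    exact hf3 1 le_rfl 𝔪 h𝔪 (by simp)
  · intro n hn b hb hb'
    simp only [Nat.one_le_iff_ne_zero.mp hn, if_false]
    exact hf3 n hn b hb hb'

end Fermat.Agent.S53.AdicLim
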