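import Fermat.Agent.S53.GoodCard
import Fermat.Agent.S53.MinChain

/-!
# S53: the canonical chain of good ideals (inputs of the sequential `AdicLim` construction)

From the uniform generators of part G3 we produce the chain `a n := min {𝔞 good | mP ^ n ≤ 𝔞}` of
good ideals of `RpreE E`, together with all the hypotheses of `AdicLim` (file `AdicLimit.lean`)
for `T := RpreE E`, `𝔪 := GoodIdeals.mP rt E`.
-/

set_option autoImplicit false
set_option linter.unusedSectionVars false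

noncomputable section

namespace Fermat.Agent.S53.GoodChain

open IsLocalRing Fermat.Agent.S53 Fermat.Agent.S53.Presentation Fermat.Agent.S53.QuotFibre
open Fermat.Agent.S53.GoodIdeals Fermat.Agent.S53.GoodCard

variable {𝒪 : Type} [CommRing 𝒪] [IsLocalRing 𝒪] {rt : GQ → M2 𝒪} {E : Set (PolyRing 𝒪)}
  {𝒟 : ∀ ⦃A : Type⦄ [CommRing A] [IsLocalRing A] [Algebra 𝒪 A], GaloisRepAdic A → Prop}

/-- `hres` of `AdicLim`: the residue field of `RpreE E` at `mP` is generated by `𝒪`. -/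
theorem algebraMap_quotient_mP_surjective (rt : GQ → M2 𝒪) (E : Set (PolyRing 𝒪)) :
    Function.Surjective (algebraMap 𝒪 (RpreE E ⧸ mP rt E)) := by
  intro y
  obtain ⟨z, rfl⟩ := Ideal.Quotient.mk_surjective y
  obtain ⟨o, ho⟩ := exists_sub_algebraMap_mem_mP rt E z
  refine ⟨o, ?_⟩
  rw [eq_comm]
  exact (Ideal.Quotient.eq).mpr ho

/-- Evaluating a polynomial at elements `y i` differs from its constant term by an element of
the ideal generated by the `y i`. -/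
theorem aeval_sub_constantCoeff_mem {R : Type*} [CommRing R] [Algebra 𝒪 R] {d : ℕ}
    (y : Fin d → R) (p : MvPolynomial (Fin d) 𝒪) :
    MvPolynomial.aeval y p - algebraMap 𝒪 R (MvPolynomial.constantCoeff p) ∈
      Ideal.span (Set.range y) := by
  induction p using MvPolynomial.induction_on with
  | C a =>
    rw [MvPolynomial.aeval_C, MvPolynomial.constantCoeff_C, sub_self]
    exact Ideal.zero_mem _
  | add p q hp hq =>
    rw [map_add, map_add, map_add, add_sub_add_comm]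
    exact Ideal.add_mem _ hp hq
  | mul_X p i _ =>
    rw [map_mul, map_mul, MvPolynomial.aeval_X, MvPolynomial.constantCoeff_X, mul_zero, map_zero,
      sub_zero]
    exact Ideal.mul_mem_left _ _ (Ideal.subset_span ⟨i, rfl⟩)

/-- The canonical chain of good ideals, with all the hypotheses of `AdicLim`. -/
theorem exists_good_chain [IsNoetherianRing 𝒪] [Finite (ResidueField 𝒪)]
    (h𝒟 : GaloisRep.IsDeformationCondition 𝒪 𝒟)
    (d : ℕ) (x : Fin d → GQ × Fin 2 × Fin 2) (𝔞₀ : Ideal (RpreE E))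
    (h₀ : IsGoodIdeal rt E 𝒟 𝔞₀)
    (hgen : ∀ 𝔞, IsGoodIdeal rt E 𝒟 𝔞 → 𝔞 ≤ 𝔞₀ → ∀ z : RpreE E,
        ∃ p : MvPolynomial (Fin d) 𝒪,
          z - MvPolynomial.aeval (fun i => yGen rt E (x i)) p ∈ 𝔞) :
    ∃ (a : ℕ → Ideal (RpreE E)) (σ : Type) (_ : Finite σ) (t : σ → RpreE E),
      (∀ n, 1 ≤ n → IsGoodIdeal rt E 𝒟 (a n)) ∧
      (∀ n, mP rt E ^ n ≤ a n) ∧
      (∀ n, a (n + 1) ≤ a n) ∧
      (∀ n, a n ≤ a (n + 1) ⊔ mP rt E ^ n) ∧
      a 1 ≤ mP rt E ∧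
      (∀ n, 1 ≤ n → ∀ b, IsGoodIdeal rt E 𝒟 b → mP rt E ^ n ≤ b → a n ≤ b) ∧
      (∀ i, t i ∈ mP rt E) ∧
      mP rt E ≤ a 2 ⊔ Ideal.span (Set.range t) := by
  classical
  have hne : mP rt E ≠ ⊤ := mP_ne_top_of_isGoodIdeal h₀
  obtain ⟨a, ha1, ha2, ha3, ha4, ha5, ha6⟩ :=
    AdicLim.exists_min_chain (mP rt E) {𝔞 | IsGoodIdeal rt E 𝒟 𝔞}
      (fun 𝔞 h𝔞 𝔟 h𝔟 => isGoodIdeal_inf h𝒟 h𝔞 h𝔟)
      (fun 𝔞 h𝔞 n hn => isGoodIdeal_sup_pow h𝒟 h𝔞 hn)
      (isGoodIdeal_mP h𝒟 h₀)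
      (fun 𝔞 h𝔞 => finite_quotient_of_isGoodIdeal h𝔞)
      (fun n => by
        obtain ⟨C, hC⟩ := exists_card_bound h𝒟 d x 𝔞₀ h₀ hgen n
        exact ⟨C, fun 𝔞 h𝔞 hn => (hC 𝔞 h𝔞 hn).2⟩)
  -- generators of the maximal ideal of `𝒪`
  obtain ⟨s, hs⟩ := (IsNoetherian.noetherian (maximalIdeal 𝒪) : (maximalIdeal 𝒪).FG)
  let y : Fin d → RpreE E := fun i => yGen rt E (x i)
  let t : (↥s ⊕ Fin d) → RpreE E := Sum.elim (fun j => algebraMap 𝒪 (RpreE E) (j : 𝒪)) y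
  have hy : ∀ i, y i ∈ mP rt E := fun i => yGen_mem_mP rt E (x i)
  have hs_mem : ∀ j : ↥s, (j : 𝒪) ∈ maximalIdeal 𝒪 := fun j => by
    rw [← hs]; exact Ideal.subset_span j.2
  have ht : ∀ i, t i ∈ mP rt E := by
    rintro (j | i)
    · exact algebraMap_mem_mP rt E (hs_mem j)
    · exact hy i
  have hspany : Ideal.span (Set.range y) ≤ Ideal.span (Set.range t) :=
    Ideal.span_mono (by rintro _ ⟨i, rfl⟩; exact ⟨Sum.inr i, rfl⟩)
  have hspans : ∀ c ∈ maximalIdeal 𝒪, algebraMap 𝒪 (RpreE E) c ∈ Ideal.span (Set.range t) := by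
    intro c hc
    have h1 : algebraMap 𝒪 (RpreE E) c ∈
        (Ideal.span (s : Set 𝒪)).map (algebraMap 𝒪 (RpreE E)) :=
      Ideal.mem_map_of_mem _ (by
        have hc' : c ∈ Submodule.span 𝒪 (s : Set 𝒪) := by rw [hs]; exact hc
        exact hc')
    rw [Ideal.map_span] at h1
    refine Ideal.span_mono ?_ h1
    rintro _ ⟨j, hj, rfl⟩
    exact ⟨Sum.inl ⟨j, hj⟩, rfl⟩
  refine ⟨a, ↥s ⊕ Fin d, inferInstance, t, ha1, ha2, ha3, ha4, ha5, ha6, ht, ?_⟩
  intro z hz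
  have hgood2 : IsGoodIdeal rt E 𝒟 (a 2) := ha1 2 (by norm_num)
  have hb : IsGoodIdeal rt E 𝒟 (a 2 ⊓ 𝔞₀) := isGoodIdeal_inf h𝒟 hgood2 h₀
  obtain ⟨p, hp⟩ := hgen (a 2 ⊓ 𝔞₀) hb inf_le_right z
  have hevmem : MvPolynomial.aeval y p ∈ mP rt E := by
    have h1 : z - MvPolynomial.aeval y p ∈ mP rt E := le_mP_of_isGoodIdeal hb hp
    have := (mP rt E).sub_mem hz h1
    rwa [sub_sub_cancel] at this
  have hdiff := aeval_sub_constantCoeff_mem (𝒪 := 𝒪) y p
  have hc : algebraMap 𝒪 (RpreE E) (MvPolynomial.constantCoeff p) ∈ mP rt E := by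
    have h1 : MvPolynomial.aeval y p - algebraMap 𝒪 (RpreE E) (MvPolynomial.constantCoeff p) ∈
        mP rt E := (Ideal.span_le.mpr (by rintro _ ⟨i, rfl⟩; exact hy i)) hdiff
    have := (mP rt E).sub_mem hevmem h1
    rwa [sub_sub_cancel] at this
  have hc' : MvPolynomial.constantCoeff p ∈ maximalIdeal 𝒪 := by
    by_contra hcon
    have hu : IsUnit (MvPolynomial.constantCoeff p) := by
      rwa [IsLocalRing.mem_maximalIdeal, mem_nonunits_iff, not_not] at hcon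
    exact hne (Ideal.eq_top_of_isUnit_mem _ hc (hu.map (algebraMap 𝒪 (RpreE E))))
  have hev : MvPolynomial.aeval y p ∈ Ideal.span (Set.range t) := by
    have := Ideal.add_mem _ (hspany hdiff) (hspans _ hc')
    rwa [sub_add_cancel] at this
  have hz' : z = (z - MvPolynomial.aeval y p) + MvPolynomial.aeval y p := by ring
  rw [hz']
  exact Ideal.add_mem _ (Ideal.mem_sup_left ((inf_le_left : a 2 ⊓ 𝔞₀ ≤ a 2) hp))
    (Ideal.mem_sup_right hev)

end Fermat.Agent.S53.GoodChain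

end
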