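/-
S53, part C5: the residual representation itself gives a good ideal.
Owner: helper69.
-/
import Fermat.Agent.S53.Core
import Fermat.Agent.S53.MatrixForm
import Fermat.Agent.S53.MatFormResidual
import Fermat.Agent.S53.GoodKer

set_option autoImplicit false

namespace Fermat.Agent.S53

open IsLocalRing

/-- T-toolkit: the residue field is an Artinian test algebra. -/
theorem isArtinianTestAlgebra_residueField (𝒪 : Type) [CommRing 𝒪] [IsLocalRing 𝒪] :
    GaloisRep.IsArtinianTestAlgebra 𝒪 (IsLocalRing.ResidueField 𝒪) where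
  isLocalHom := by
    rw [IsLocalRing.ResidueField.algebraMap_eq]
    infer_instance
  residue_surjective := by
    apply Function.Surjective.comp
    · exact IsLocalRing.residue_surjective
    · rw [IsLocalRing.ResidueField.algebraMap_eq]
      exact IsLocalRing.residue_surjective
  isArtinian := inferInstance

variable {𝒪 : Type} [CommRing 𝒪] [IsLocalRing 𝒪] (rt : GQ → M2 𝒪) (E : Set (PolyRing 𝒪))
  (𝒟 : ∀ ⦃A : Type⦄ [CommRing A] [IsLocalRing A] [Algebra 𝒪 A], GaloisRepAdic A → Prop)

/-- The residual matrix representation is a good lift of itself. -/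
theorem isGoodLift_residual (h𝒟 : GaloisRep.IsDeformationCondition 𝒪 𝒟)
    (rbar : GQ →* M2 (IsLocalRing.ResidueField 𝒪))
    (hrt : ∀ g, (rt g).map (IsLocalRing.residue 𝒪) = rbar g)
    (hfl : GaloisFactorsThroughFiniteLevel rbar) (hE : IsNorm E rbar)
    (hbar : 𝒟 (GaloisRepAdic.ofResidualGaloisRep (ofMatRes rbar hfl))) :
    IsGoodLift rt E 𝒟 rbar where
  lift := by
    intro g i j
    have h : rbar g i j = algebraMap 𝒪 (ResidueField 𝒪) (rt g i j) := by
      rw [← hrt g, IsLocalRing.ResidueField.algebraMap_eq]; rfl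
    rw [h, sub_self]
    exact Ideal.zero_mem _
  norm := hE
  cont := matCont_of_finiteLevel hfl
  type := h𝒟.of_isEquiv (isArtinianTestAlgebra_residueField 𝒪)
    (ofResidualGaloisRep_ofMatRes_isEquiv rbar hfl) hbar

/-- C5. The residual representation itself gives a good ideal. -/
theorem exists_isGoodIdeal [Finite (IsLocalRing.ResidueField 𝒪)]
    (h𝒟 : GaloisRep.IsDeformationCondition 𝒪 𝒟)
    (rbar : GQ →* M2 (IsLocalRing.ResidueField 𝒪))
    (hrt : ∀ g, (rt g).map (IsLocalRing.residue 𝒪) = rbar g)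
    (hfl : GaloisFactorsThroughFiniteLevel rbar) (hE : IsNorm E rbar)
    (hbar : 𝒟 (GaloisRepAdic.ofResidualGaloisRep (ofMatRes rbar hfl))) :
    ∃ 𝔞, IsGoodIdeal rt E 𝒟 𝔞 :=
  ⟨_, isGoodIdeal_ker rt E 𝒟 h𝒟 (isArtinianTestAlgebra_residueField 𝒪) rbar
    (isGoodLift_residual rt E 𝒟 h𝒟 rbar hrt hfl hE hbar)⟩

end Fermat.Agent.S53
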