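/-
S53, C3: good ideals are closed under binary intersection (fibre product over the residue field).
Owner: helper48.
-/
import Fermat.Agent.S53.Core
import Fermat.Agent.S53.MatrixForm
import Fermat.Agent.S53.Cotangent
import Fermat.Agent.S53.GoodKer

set_option autoImplicit false

namespace Fermat.Agent.S53

open IsLocalRing

namespace GoodInf

section FibreProduct

variable {𝒪 : Type} [CommRing 𝒪] [IsLocalRing 𝒪]
variable {A : Type} [CommRing A] [IsLocalRing A] [Algebra 𝒪 A]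
variable {B : Type} [CommRing B] [IsLocalRing B] [Algebra 𝒪 B]

/-- The residue map of an Artinian test algebra, as an `𝒪`-algebra hom to the residue field
of `𝒪`. -/
noncomputable def resAlg (hA : GaloisRep.IsArtinianTestAlgebra 𝒪 A) : A →ₐ[𝒪] ResidueField 𝒪 :=
  have := hA.isLocalHom
  { resTo hA.residue_surjective with
    commutes' := fun o => by
      show resTo hA.residue_surjective (algebraMap 𝒪 A o) = _
      rw [resTo_algebraMap]
      rfl }

theorem resAlg_apply (hA : GaloisRep.IsArtinianTestAlgebra 𝒪 A) (a : A) :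
    resAlg hA a = (haveI := hA.isLocalHom; resTo hA.residue_surjective a) := rfl

theorem resAlg_eq_zero_iff (hA : GaloisRep.IsArtinianTestAlgebra 𝒪 A) (a : A) :
    resAlg hA a = 0 ↔ a ∈ maximalIdeal A := by
  have := hA.isLocalHom
  rw [resAlg_apply]
  exact resTo_eq_zero_iff hA.residue_surjective a

theorem resAlg_eq_of_sub_mem (hA : GaloisRep.IsArtinianTestAlgebra 𝒪 A) {a : A} {o : 𝒪}
    (h : a - algebraMap 𝒪 A o ∈ maximalIdeal A) : resAlg hA a = residue 𝒪 o := by
  have := hA.isLocalHom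
  rw [resAlg_apply]
  exact resTo_eq_of_sub_mem hA.residue_surjective h

theorem isUnit_iff_resAlg_ne_zero (hA : GaloisRep.IsArtinianTestAlgebra 𝒪 A) (a : A) :
    IsUnit a ↔ resAlg hA a ≠ 0 := by
  rw [Ne, resAlg_eq_zero_iff, mem_maximalIdeal, mem_nonunits_iff, not_not]

theorem isLocalHom_resAlg (hA : GaloisRep.IsArtinianTestAlgebra 𝒪 A) :
    IsLocalHom (resAlg hA) :=
  ⟨fun a ha => (isUnit_iff_resAlg_ne_zero hA a).mpr ha.ne_zero⟩

theorem resAlg_surjective (hA : GaloisRep.IsArtinianTestAlgebra 𝒪 A) :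
    Function.Surjective (resAlg hA) := by
  intro y
  obtain ⟨o, rfl⟩ := residue_surjective y
  exact ⟨algebraMap 𝒪 A o, by rw [AlgHom.commutes]; rfl⟩

/-- The residue field is an Artinian test algebra. -/
theorem isArtinianTestAlgebra_resField (𝒪 : Type) [CommRing 𝒪] [IsLocalRing 𝒪] :
    GaloisRep.IsArtinianTestAlgebra 𝒪 (ResidueField 𝒪) where
  isLocalHom := by
    rw [ResidueField.algebraMap_eq]
    infer_instance
  residue_surjective := by
    intro y
    obtain ⟨x, rfl⟩ := residue_surjective y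
    obtain ⟨o, rfl⟩ := residue_surjective x
    exact ⟨o, rfl⟩
  isArtinian := inferInstance

variable (hA : GaloisRep.IsArtinianTestAlgebra 𝒪 A) (hB : GaloisRep.IsArtinianTestAlgebra 𝒪 B)

/-- The fibre product `A ×_k B` as a subalgebra of `A × B`. -/
noncomputable abbrev fibProd : Subalgebra 𝒪 (A × B) :=
  AlgHom.pullback (resAlg hA) (resAlg hB)

theorem mem_fibProd (x : A × B) : x ∈ fibProd hA hB ↔ resAlg hA x.1 = resAlg hB x.2 :=
  Iff.rfl

/-- First projection. -/
noncomputable abbrev fibFst : fibProd hA hB →ₐ[𝒪] A :=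
  AlgHom.pullbackFst (resAlg hA) (resAlg hB)

/-- Second projection. -/
noncomputable abbrev fibSnd : fibProd hA hB →ₐ[𝒪] B :=
  AlgHom.pullbackSnd (resAlg hA) (resAlg hB)

theorem isLocalHom_fibFst : IsLocalHom ((fibFst hA hB : fibProd hA hB →ₐ[𝒪] A) :
    fibProd hA hB →+* A) := by
  refine ⟨fun x hx => ?_⟩
  obtain ⟨⟨a, b⟩, h⟩ := x
  have ha : IsUnit a := hx
  refine (AlgHom.isUnit_pullback_mk_iff (resAlg hA) (resAlg hB) h).mpr ⟨ha, ?_⟩
  rw [isUnit_iff_resAlg_ne_zero hB]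
  have h' : resAlg hA a = resAlg hB b := h
  rw [← h']
  exact (isUnit_iff_resAlg_ne_zero hA a).mp ha

theorem isLocalHom_fibSnd : IsLocalHom ((fibSnd hA hB : fibProd hA hB →ₐ[𝒪] B) :
    fibProd hA hB →+* B) := by
  refine ⟨fun x hx => ?_⟩
  obtain ⟨⟨a, b⟩, h⟩ := x
  have hb : IsUnit b := hx
  refine (AlgHom.isUnit_pullback_mk_iff (resAlg hA) (resAlg hB) h).mpr ⟨?_, hb⟩
  rw [isUnit_iff_resAlg_ne_zero hA]
  have h' : resAlg hA a = resAlg hB b := h
  rw [h']
  exact (isUnit_iff_resAlg_ne_zero hB b).mp hb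

theorem isLocalRing_fibProd : IsLocalRing (fibProd hA hB) :=
  have := isLocalHom_fibFst hA hB
  RingHom.domain_isLocalRing ((fibFst hA hB : fibProd hA hB →ₐ[𝒪] A) : fibProd hA hB →+* A)

theorem isArtinianTestAlgebra_fibProd [Finite (ResidueField 𝒪)] :
    @GaloisRep.IsArtinianTestAlgebra 𝒪 _ ↥(fibProd hA hB) _ (isLocalRing_fibProd hA hB) _ := by
  have := isLocalRing_fibProd hA hB
  refine ⟨?_, ?_, ?_⟩
  · -- the structure map is local
    refine ⟨fun o ho => ?_⟩
    have h1 : IsUnit (fibFst hA hB (algebraMap 𝒪 (fibProd hA hB) o)) := ho.map (fibFst hA hB)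
    rw [AlgHom.commutes] at h1
    have := hA.isLocalHom
    exact isUnit_of_map_unit (algebraMap 𝒪 A) o h1
  · -- residue surjective
    intro y
    obtain ⟨x, rfl⟩ := residue_surjective y
    have := hA.isLocalHom
    obtain ⟨o, ho⟩ := exists_sub_algebraMap_mem hA.residue_surjective (fibFst hA hB x)
    refine ⟨o, ?_⟩
    show residue _ (algebraMap 𝒪 _ o) = residue _ x
    rw [eq_comm, ← sub_eq_zero, ← map_sub, residue_eq_zero_iff, mem_maximalIdeal,
      mem_nonunits_iff]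
    intro hu
    have h2 := hu.map (fibFst hA hB)
    rw [map_sub, AlgHom.commutes] at h2
    exact (mem_nonunits_iff.mp ((mem_maximalIdeal _).mp ho)) h2
  · -- Artinian, being finite
    have := finite_of_isArtinianTestAlgebra hA
    have := finite_of_isArtinianTestAlgebra hB
    have : Finite (fibProd hA hB) := Subtype.finite
    exact isArtinian_of_finite

end FibreProduct

section ofMatCongr

variable {A : Type} [CommRing A] [IsLocalRing A]

/-- Equal matrix homs give equivalent matrix representations. -/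
theorem ofMat_isEquiv_of_eq {r r' : GQ →* M2 A} (h : r = r') (hr : MatCont r) (hr' : MatCont r') :
    (ofMat r hr).IsEquiv (ofMat r' hr') := by
  subst h
  exact ⟨GaloisRepAdic.Equiv.refl _⟩

end ofMatCongr

end GoodInf

section Main

variable {𝒪 : Type} [CommRing 𝒪] [IsLocalRing 𝒪] (rt : GQ → M2 𝒪) (E : Set (PolyRing 𝒪))
  (𝒟 : ∀ ⦃A : Type⦄ [CommRing A] [IsLocalRing A] [Algebra 𝒪 A], GaloisRepAdic A → Prop)

open GoodInf

/-- C3. Good ideals are closed under binary intersection. -/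
theorem IsGoodIdeal.inf [Finite (IsLocalRing.ResidueField 𝒪)]
    (h𝒟 : GaloisRep.IsDeformationCondition 𝒪 𝒟)
    {𝔞 𝔟 : Ideal (RpreE E)} (ha : IsGoodIdeal rt E 𝒟 𝔞) (hb : IsGoodIdeal rt E 𝒟 𝔟) :
    IsGoodIdeal rt E 𝒟 (𝔞 ⊓ 𝔟) := by
  obtain ⟨instA, hA, hgA⟩ := ha
  obtain ⟨instB, hB, hgB⟩ := hb
  have instP : IsLocalRing (fibProd hA hB) := isLocalRing_fibProd hA hB
  have hP : GaloisRep.IsArtinianTestAlgebra 𝒪 (fibProd hA hB) := isArtinianTestAlgebra_fibProd hA hB
  have hk : GaloisRep.IsArtinianTestAlgebra 𝒪 (ResidueField 𝒪) := isArtinianTestAlgebra_resField 𝒪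
  have hpA := isLocalHom_fibFst hA hB
  have hpB := isLocalHom_fibSnd hA hB
  -- entries of the two quotient representations
  have hentA : ∀ g i j, rQuot E 𝔞 g i j =
      Ideal.Quotient.mkₐ 𝒪 𝔞 (Presentation.gen 𝒪 E g i j) := fun _ _ _ => rfl
  have hentB : ∀ g i j, rQuot E 𝔟 g i j =
      Ideal.Quotient.mkₐ 𝒪 𝔟 (Presentation.gen 𝒪 E g i j) := fun _ _ _ => rfl
  -- the two residue maps agree on `RpreE E`
  have hres : (resAlg hA).comp (Ideal.Quotient.mkₐ 𝒪 𝔞) =
      (resAlg hB).comp (Ideal.Quotient.mkₐ 𝒪 𝔟) := by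
    apply Presentation.algHom_ext
    intro g i j
    rw [AlgHom.comp_apply, AlgHom.comp_apply, ← hentA, ← hentB,
      resAlg_eq_of_sub_mem hA (hgA.lift g i j), resAlg_eq_of_sub_mem hB (hgB.lift g i j)]
  -- the classifying map to the fibre product
  let ψ : RpreE E →ₐ[𝒪] fibProd hA hB :=
    AlgHom.codRestrict ((Ideal.Quotient.mkₐ 𝒪 𝔞).prod (Ideal.Quotient.mkₐ 𝒪 𝔟)) (fibProd hA hB)
      (fun x => by
        rw [mem_fibProd]
        exact congrArg (fun f => f x) hres)
  have hψA : ∀ x, fibFst hA hB (ψ x) = Ideal.Quotient.mkₐ 𝒪 𝔞 x := fun _ => rfl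
  have hψB : ∀ x, fibSnd hA hB (ψ x) = Ideal.Quotient.mkₐ 𝒪 𝔟 x := fun _ => rfl
  let sP : GQ →* M2 (fibProd hA hB) := Presentation.repOf ψ
  have hsA : mapMat ((fibFst hA hB : fibProd hA hB →ₐ[𝒪] _) : fibProd hA hB →+* _) sP =
      rQuot E 𝔞 := by
    ext g i j
    rw [mapMat_apply_apply, Presentation.repOf_apply, hentA]
    exact hψA _
  have hsB : mapMat ((fibSnd hA hB : fibProd hA hB →ₐ[𝒪] _) : fibProd hA hB →+* _) sP =
      rQuot E 𝔟 := by
    ext g i j
    rw [mapMat_apply_apply, Presentation.repOf_apply, hentB]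
    exact hψB _
  -- `sP` is a good lift
  have hlift : IsLiftRt rt sP := by
    intro g i j
    rw [mem_maximalIdeal, mem_nonunits_iff]
    intro hu
    have h2 := hu.map (fibFst hA hB)
    rw [map_sub, AlgHom.commutes] at h2
    have h3 : fibFst hA hB (sP g i j) = rQuot E 𝔞 g i j := by
      rw [← hsA]; rfl
    rw [h3] at h2
    exact (mem_nonunits_iff.mp ((mem_maximalIdeal _).mp (hgA.lift g i j))) h2
  have hnorm : IsNorm E sP := Presentation.repOf_isNormalised ψ
  have hcont : MatCont sP := by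
    have := hA.isArtinian
    have := hB.isArtinian
    have := hP.isArtinian
    rw [matCont_iff_finiteLevel]
    obtain ⟨L1, hL1, h1⟩ := (matCont_iff_finiteLevel _).mp hgA.cont
    obtain ⟨L2, hL2, h2⟩ := (matCont_iff_finiteLevel _).mp hgB.cont
    refine ⟨L1 ⊔ L2, IntermediateField.finiteDimensional_sup L1 L2, fun σ hσ => ?_⟩
    have e1 : rQuot E 𝔞 σ = 1 := h1 σ fun x hx => hσ x ((le_sup_left : L1 ≤ L1 ⊔ L2) hx)
    have e2 : rQuot E 𝔟 σ = 1 := h2 σ fun x hx => hσ x ((le_sup_right : L2 ≤ L1 ⊔ L2) hx)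
    refine Matrix.ext fun i j => Subtype.ext (Prod.ext ?_ ?_)
    · have : fibFst hA hB (sP σ i j) = rQuot E 𝔞 σ i j := by rw [← hsA]; rfl
      show fibFst hA hB (sP σ i j) = fibFst hA hB ((1 : M2 (fibProd hA hB)) i j)
      rw [this, e1, Matrix.one_apply, Matrix.one_apply]
      split_ifs <;> simp
    · have : fibSnd hA hB (sP σ i j) = rQuot E 𝔟 σ i j := by rw [← hsB]; rfl
      show fibSnd hA hB (sP σ i j) = fibSnd hA hB ((1 : M2 (fibProd hA hB)) i j)
      rw [this, e2, Matrix.one_apply, Matrix.one_apply]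
      split_ifs <;> simp
  have htype : 𝒟 (ofMat sP hcont) := by
    refine h𝒟.of_fibreProduct hA hB hk hP (resAlg hA) (resAlg hB) (fibFst hA hB) (fibSnd hA hB)
      hpA hpB ?_ ?_ ?_ ?_ ?_
    · exact AlgHom.pullback_comm_sq (resAlg hA) (resAlg hB)
    · intro x y hxy
      apply Subtype.ext
      exact hxy
    · intro a b hab
      exact ⟨⟨(a, b), hab⟩, rfl, rfl⟩
    · refine h𝒟.of_isEquiv hA ?_ hgA.type
      have e1 := isEquiv_baseChangeAlong_ofMat (A := fibProd hA hB) (B := RpreE E ⧸ 𝔞)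
        ((fibFst hA hB : fibProd hA hB →ₐ[𝒪] RpreE E ⧸ 𝔞) : fibProd hA hB →+* RpreE E ⧸ 𝔞)
        hpA hcont
      obtain ⟨e1⟩ := e1
      obtain ⟨e2⟩ := ofMat_isEquiv_of_eq hsA (matCont_mapMat _ hpA hcont) hgA.cont
      exact ⟨(e1.trans e2).symm⟩
    · refine h𝒟.of_isEquiv hB ?_ hgB.type
      have e1 := isEquiv_baseChangeAlong_ofMat (A := fibProd hA hB) (B := RpreE E ⧸ 𝔟)
        ((fibSnd hA hB : fibProd hA hB →ₐ[𝒪] RpreE E ⧸ 𝔟) : fibProd hA hB →+* RpreE E ⧸ 𝔟)
        hpB hcont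
      obtain ⟨e1⟩ := e1
      obtain ⟨e2⟩ := ofMat_isEquiv_of_eq hsB (matCont_mapMat _ hpB hcont) hgB.cont
      exact ⟨(e1.trans e2).symm⟩
  have hgood : IsGoodLift rt E 𝒟 sP := ⟨hlift, hnorm, hcont, htype⟩
  have hker := isGoodIdeal_ker rt E 𝒟 h𝒟 hP sP hgood
  have hlift_eq : Presentation.lift sP hgood.norm = ψ := Presentation.lift_repOf ψ
  have hkerψ : RingHom.ker (Presentation.lift sP hgood.norm : RpreE E →ₐ[𝒪] fibProd hA hB) =
      𝔞 ⊓ 𝔟 := by
    rw [hlift_eq]
    ext x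
    rw [RingHom.mem_ker, Ideal.mem_inf]
    constructor
    · intro hx
      have h1 : fibFst hA hB (ψ x) = 0 := by rw [hx, map_zero]
      have h2 : fibSnd hA hB (ψ x) = 0 := by rw [hx, map_zero]
      rw [hψA] at h1
      rw [hψB] at h2
      exact ⟨Ideal.Quotient.eq_zero_iff_mem.mp h1, Ideal.Quotient.eq_zero_iff_mem.mp h2⟩
    · rintro ⟨h1, h2⟩
      apply Subtype.ext
      apply Prod.ext
      · exact Ideal.Quotient.eq_zero_iff_mem.mpr h1
      · exact Ideal.Quotient.eq_zero_iff_mem.mpr h2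
  rw [← hkerψ]
  exact hker

end Main

end Fermat.Agent.S53
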