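/-
S53, lemma A3: base change of matrix-form representations.
Owner: helper16.
-/
import Fermat.Agent.S53.Defs

set_option autoImplicit false

namespace Fermat.Agent.S53

open IsLocalRing TensorProduct

/-- Key computation: under `B ⊗[A] (Fin 2 → A) ≃ (Fin 2 → B)` the base change of `mulVec M`
is `mulVec` of the entrywise image of `M`. -/
theorem piScalarRight_baseChange_mulVec {A B : Type} [CommRing A] [CommRing B] [Algebra A B]
    (M : M2 A) (x : B ⊗[A] (Fin 2 → A)) :
    TensorProduct.piScalarRight A B B (Fin 2) ((Matrix.toLin' M).baseChange B x) =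
      (M.map (algebraMap A B)).mulVec (TensorProduct.piScalarRight A B B (Fin 2) x) := by
  induction x using TensorProduct.induction_on with
  | zero => simp only [map_zero, Matrix.mulVec_zero]
  | tmul b v =>
    rw [LinearMap.baseChange_tmul, Matrix.toLin'_apply]
    funext i
    rw [TensorProduct.piScalarRight_apply, TensorProduct.piScalarRightHom_tmul,
      TensorProduct.piScalarRight_apply, TensorProduct.piScalarRightHom_tmul]
    simp only [Matrix.mulVec, dotProduct, Matrix.map_apply, Algebra.smul_def,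
      map_sum, map_mul, Finset.sum_mul]
    refine Finset.sum_congr rfl fun j _ => ?_
    ring
  | add x y hx hy => simp only [map_add, hx, hy, Matrix.mulVec_add]

variable {A : Type} [CommRing A] [IsLocalRing A]

/-- A local hom maps `𝔪_A ^ n` into `𝔪_B ^ n`. -/
theorem map_maximalIdeal_pow_le {B : Type} [CommRing B] [IsLocalRing B] (φ : A →+* B)
    (hφ : IsLocalHom φ) (n : ℕ) :
    (maximalIdeal A ^ n).map φ ≤ maximalIdeal B ^ n := by
  rw [Ideal.map_pow]
  exact Ideal.pow_right_mono (Ideal.map_le_iff_le_comap.mpr fun a ha =>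
    Ideal.mem_comap.mpr (haveI := hφ; map_nonunit φ a ha)) n

omit [IsLocalRing A] in
theorem mapMat_sub_one_apply {B : Type} [CommRing B] (φ : A →+* B) (r : GQ →* M2 A) (σ : GQ)
    (i j : Fin 2) : (mapMat φ r σ - 1) i j = φ ((r σ - 1) i j) := by
  rw [Matrix.sub_apply, Matrix.sub_apply, mapMat_apply_apply, map_sub, Matrix.one_apply,
    Matrix.one_apply]
  split_ifs <;> simp

/-- A3a. Continuity is preserved by local homs. -/
theorem MatCont.map {B : Type} [CommRing B] [IsLocalRing B] (φ : A →+* B) (hφ : IsLocalHom φ)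
    {r : GQ →* M2 A} (hr : MatCont r) : MatCont (mapMat φ r) := by
  intro n
  obtain ⟨L, hL, h⟩ := hr n
  refine ⟨L, hL, fun σ hσ i j => ?_⟩
  rw [mapMat_sub_one_apply]
  exact map_maximalIdeal_pow_le φ hφ n (Ideal.mem_map_of_mem φ (h σ hσ i j))

/-- A3c. Base change of a matrix representation is the entrywise image. -/
theorem ofMat_baseChangeAlong_isEquiv {B : Type} [CommRing B] [IsLocalRing B] (φ : A →+* B)
    (hφ : IsLocalHom φ) (r : GQ →* M2 A) (hr : MatCont r) :
    ((ofMat r hr).baseChangeAlong φ hφ).IsEquiv (ofMat (mapMat φ r) (hr.map φ hφ)) := by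
  letI : Algebra A B := φ.toAlgebra
  exact ⟨⟨TensorProduct.piScalarRight A B B (Fin 2), fun σ x =>
    piScalarRight_baseChange_mulVec (r σ) x⟩⟩

/-- A3d. `IsEquiv` is preserved by base change. -/
theorem isEquiv_baseChangeAlong {B : Type} [CommRing B] [IsLocalRing B] (φ : A →+* B)
    (hφ : IsLocalHom φ) {ρ₁ ρ₂ : GaloisRepAdic A} (h : ρ₁.IsEquiv ρ₂) :
    (ρ₁.baseChangeAlong φ hφ).IsEquiv (ρ₂.baseChangeAlong φ hφ) :=
  h.elim fun e => ⟨e.baseChangeAlong φ hφ⟩

/-- A3e. transitivity of base change up to equivalence. -/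
theorem baseChangeAlong_comp_isEquiv {B C : Type} [CommRing B] [IsLocalRing B] [CommRing C]
    [IsLocalRing C] (φ : A →+* B) (hφ : IsLocalHom φ) (ψ : B →+* C) (hψ : IsLocalHom ψ)
    (hψφ : IsLocalHom (ψ.comp φ)) (ρ : GaloisRepAdic A) :
    ((ρ.baseChangeAlong φ hφ).baseChangeAlong ψ hψ).IsEquiv
      (ρ.baseChangeAlong (ψ.comp φ) hψφ) := by
  letI : Algebra A B := φ.toAlgebra
  letI : Algebra B C := ψ.toAlgebra
  letI : Algebra A C := (ψ.comp φ).toAlgebra
  haveI : IsScalarTower A B C := IsScalarTower.of_algebraMap_eq fun _ => rfl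
  refine ⟨⟨TensorProduct.AlgebraTensorModule.cancelBaseChange A B C C ρ.V, fun σ x => ?_⟩⟩
  show TensorProduct.AlgebraTensorModule.cancelBaseChange A B C C ρ.V
      (((ρ.ρ σ).baseChange B).baseChange C x) =
    (ρ.ρ σ).baseChange C (TensorProduct.AlgebraTensorModule.cancelBaseChange A B C C ρ.V x)
  rw [LinearMap.baseChange_baseChange]
  simp only [LinearMap.coe_comp, LinearEquiv.coe_coe, Function.comp_apply,
    LinearEquiv.apply_symm_apply]

end Fermat.Agent.S53
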