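/-
S53: matrix form of `GaloisRepAdic` (lemma-queue item 5: A1 + A2 + A3b).
Owner: helper26.
-/
import Fermat.Agent.S53.Defs

set_option autoImplicit false

namespace Fermat.Agent.S53

open IsLocalRing

namespace MatFormBasic

section general

variable {A : Type*} [CommRing A]

/-- Coordinates (w.r.t. any basis) of an element of `I • ⊤` lie in `I`. -/
lemma repr_mem_of_mem_smul_top {ι V : Type*} [AddCommGroup V] [Module A V]
    (b : Module.Basis ι A V) (I : Ideal A) {x : V} (hx : x ∈ I • (⊤ : Submodule A V)) (i : ι) :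
    b.repr x i ∈ I := by
  refine Submodule.smul_induction_on (p := fun x => b.repr x i ∈ I) hx ?_ ?_
  · intro a ha w _
    rw [map_smul, Finsupp.smul_apply, smul_eq_mul]
    exact Ideal.mul_mem_right _ _ ha
  · intro x y hx hy
    rw [map_add, Finsupp.add_apply]
    exact Ideal.add_mem _ hx hy

/-- Entries of `M * N` lie in `I` if all entries of `N` do. -/
lemma mul_entry_mem_of_right {I : Ideal A} (M N : M2 A) (hN : ∀ i j, N i j ∈ I) (i j : Fin 2) :
    (M * N) i j ∈ I := by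
  rw [Matrix.mul_apply]
  exact Ideal.sum_mem _ fun k _ => Ideal.mul_mem_left _ _ (hN k j)

/-- Entries of `M * N` lie in `I` if all entries of `M` do. -/
lemma mul_entry_mem_of_left {I : Ideal A} (M N : M2 A) (hM : ∀ i j, M i j ∈ I) (i j : Fin 2) :
    (M * N) i j ∈ I := by
  rw [Matrix.mul_apply]
  exact Ideal.sum_mem _ fun k _ => Ideal.mul_mem_right _ _ (hM i k)

/-- `γ * X * γ⁻¹ - 1 = γ * (X - 1) * γ⁻¹`. -/
lemma conj_sub_one (γ : (M2 A)ˣ) (X : M2 A) :
    (γ : M2 A) * X * ((γ⁻¹ : (M2 A)ˣ) : M2 A) - 1 =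
      (γ : M2 A) * (X - 1) * ((γ⁻¹ : (M2 A)ˣ) : M2 A) := by
  rw [mul_sub, sub_mul, mul_one, Units.mul_inv]

end general

end MatFormBasic

section local_

set_option linter.unusedSectionVars false

variable {A : Type} [CommRing A] [IsLocalRing A]

/-- A3b. Continuity is preserved by conjugation. -/
theorem MatCont.conj (γ : (M2 A)ˣ) {r : GQ →* M2 A} (hr : MatCont r) : MatCont (conjMat γ r) := by
  intro n
  obtain ⟨L, hL, h⟩ := hr n
  refine ⟨L, hL, fun σ hσ i j => ?_⟩
  rw [conjMat_apply, MatFormBasic.conj_sub_one]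
  exact MatFormBasic.mul_entry_mem_of_left _ _
    (fun i j => MatFormBasic.mul_entry_mem_of_right _ _ (h σ hσ) i j) i j

namespace MatFormBasic

/-- The matrix valued hom attached to a `GaloisRepAdic` and a basis of its underlying module. -/
noncomputable def matOfBasis (ρ : GaloisRepAdic A) (b : Module.Basis (Fin 2) A ρ.V) :
    GQ →* M2 A :=
  ((LinearMap.toMatrixAlgEquiv b : Module.End A ρ.V ≃ₐ[A] M2 A) :
      Module.End A ρ.V →* M2 A).comp ρ.ρ

lemma matOfBasis_apply (ρ : GaloisRepAdic A) (b : Module.Basis (Fin 2) A ρ.V) (σ : GQ) :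
    matOfBasis ρ b σ = LinearMap.toMatrix b b (ρ.ρ σ) := rfl

lemma matOfBasis_sub_one_apply (ρ : GaloisRepAdic A) (b : Module.Basis (Fin 2) A ρ.V) (σ : GQ)
    (i j : Fin 2) : (matOfBasis ρ b σ - 1) i j = b.repr (ρ.ρ σ (b j) - b j) i := by
  rw [matOfBasis_apply, Matrix.sub_apply, LinearMap.toMatrix_apply, map_sub, Finsupp.sub_apply,
    Module.Basis.repr_self, Matrix.one_apply, Finsupp.single_apply]
  congr 1
  by_cases h : i = j
  · simp [h]
  · simp [h, Ne.symm h]

lemma matCont_matOfBasis (ρ : GaloisRepAdic A) (b : Module.Basis (Fin 2) A ρ.V) :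
    MatCont (matOfBasis ρ b) := by
  intro n
  obtain ⟨L, hL, h⟩ := ρ.isAdicContinuous n
  refine ⟨L, hL, fun σ hσ i j => ?_⟩
  rw [matOfBasis_sub_one_apply]
  exact repr_mem_of_mem_smul_top b _ (h σ hσ (b j)) i

/-- The equivalence between `ρ` and its matrix form w.r.t. a basis. -/
noncomputable def equivOfBasis (ρ : GaloisRepAdic A) (b : Module.Basis (Fin 2) A ρ.V) :
    GaloisRepAdic.Equiv ρ (ofMat (matOfBasis ρ b) (matCont_matOfBasis ρ b)) where
  toLinearEquiv := b.equivFun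
  map_apply σ x := by
    rw [ofMat_ρ_apply, matOfBasis_apply]
    exact (LinearMap.toMatrix_mulVec_repr b b (ρ.ρ σ) x).symm

end MatFormBasic

/-- A1. Every `GaloisRepAdic` is equivalent to a matrix one (choose a basis). -/
theorem exists_ofMat_isEquiv (ρ : GaloisRepAdic A) :
    ∃ (r : GQ →* M2 A) (hr : MatCont r), ρ.IsEquiv (ofMat r hr) :=
  ⟨MatFormBasic.matOfBasis ρ (Module.finBasisOfFinrankEq A ρ.V ρ.finrank_eq),
    MatFormBasic.matCont_matOfBasis ρ _, ⟨MatFormBasic.equivOfBasis ρ _⟩⟩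

namespace MatFormBasic

/-- The linear automorphism of `Fin 2 → A` attached to an invertible matrix. -/
noncomputable def unitToLinearEquiv (γ : (M2 A)ˣ) : (Fin 2 → A) ≃ₗ[A] (Fin 2 → A) :=
  LinearEquiv.ofLinearMap (Matrix.toLin' (γ : M2 A)) (Matrix.toLin' ((γ⁻¹ : (M2 A)ˣ) : M2 A))
    (by rw [← Matrix.toLin'_mul, Units.mul_inv, Matrix.toLin'_one])
    (by rw [← Matrix.toLin'_mul, Units.inv_mul, Matrix.toLin'_one])

@[simp] lemma unitToLinearEquiv_apply (γ : (M2 A)ˣ) (v : Fin 2 → A) :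
    unitToLinearEquiv γ v = (γ : M2 A).mulVec v := rfl

/-- The invertible matrix attached to a linear automorphism of `Fin 2 → A`. -/
noncomputable def linearEquivToUnit (e : (Fin 2 → A) ≃ₗ[A] (Fin 2 → A)) : (M2 A)ˣ where
  val := LinearMap.toMatrix' (e : (Fin 2 → A) →ₗ[A] (Fin 2 → A))
  inv := LinearMap.toMatrix' (e.symm : (Fin 2 → A) →ₗ[A] (Fin 2 → A))
  val_inv := by
    rw [← LinearMap.toMatrix'_comp, LinearEquiv.comp_coe, LinearEquiv.symm_trans_self,
      LinearEquiv.refl_toLinearMap, LinearMap.toMatrix'_id]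
  inv_val := by
    rw [← LinearMap.toMatrix'_comp, LinearEquiv.comp_coe, LinearEquiv.self_trans_symm,
      LinearEquiv.refl_toLinearMap, LinearMap.toMatrix'_id]

@[simp] lemma linearEquivToUnit_val (e : (Fin 2 → A) ≃ₗ[A] (Fin 2 → A)) :
    ((linearEquivToUnit e : (M2 A)ˣ) : M2 A) =
      LinearMap.toMatrix' (e : (Fin 2 → A) →ₗ[A] (Fin 2 → A)) := rfl

/-- Conjugate matrix representations are equivalent. -/
noncomputable def equivOfConj (r r' : GQ →* M2 A) (hr : MatCont r) (hr' : MatCont r')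
    (γ : (M2 A)ˣ) (h : ∀ σ, (γ : M2 A) * r σ = r' σ * (γ : M2 A)) :
    GaloisRepAdic.Equiv (ofMat r hr) (ofMat r' hr') where
  toLinearEquiv := unitToLinearEquiv γ
  map_apply σ x := by
    change (γ : M2 A).mulVec ((r σ).mulVec x) = (r' σ).mulVec ((γ : M2 A).mulVec x)
    rw [Matrix.mulVec_mulVec, Matrix.mulVec_mulVec, h σ]

end MatFormBasic

open MatFormBasic in
/-- A2. Equivalence of matrix representations = conjugacy. -/
theorem ofMat_isEquiv_iff (r r' : GQ →* M2 A) (hr : MatCont r) (hr' : MatCont r') :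
    (ofMat r hr).IsEquiv (ofMat r' hr') ↔
      ∃ γ : (M2 A)ˣ, ∀ σ, (γ : M2 A) * r σ = r' σ * (γ : M2 A) := by
  constructor
  · rintro ⟨e⟩
    let e' : (Fin 2 → A) ≃ₗ[A] (Fin 2 → A) := e.toLinearEquiv
    refine ⟨linearEquivToUnit e', fun σ => ?_⟩
    have h1 : (e' : (Fin 2 → A) →ₗ[A] (Fin 2 → A)) ∘ₗ Matrix.toLin' (r σ) =
        Matrix.toLin' (r' σ) ∘ₗ (e' : (Fin 2 → A) →ₗ[A] (Fin 2 → A)) := by
      refine LinearMap.ext fun x => ?_
      have := e.map_apply σ x
      rw [ofMat_ρ_apply, ofMat_ρ_apply] at this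
      rw [LinearMap.comp_apply, LinearMap.comp_apply, Matrix.toLin'_apply, Matrix.toLin'_apply]
      exact this
    have h2 := congrArg LinearMap.toMatrix' h1
    rw [LinearMap.toMatrix'_comp, LinearMap.toMatrix'_comp, LinearMap.toMatrix'_toLin',
      LinearMap.toMatrix'_toLin'] at h2
    rw [linearEquivToUnit_val]
    exact h2
  · rintro ⟨γ, h⟩
    exact ⟨equivOfConj r r' hr hr' γ h⟩

/-- A matrix representation is equivalent to each of its conjugates. -/
theorem ofMat_isEquiv_conjMat (γ : (M2 A)ˣ) (r : GQ →* M2 A) (hr : MatCont r) :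
    (ofMat r hr).IsEquiv (ofMat (conjMat γ r) (hr.conj γ)) := by
  rw [ofMat_isEquiv_iff]
  refine ⟨γ, fun σ => ?_⟩
  rw [conjMat_apply, mul_assoc, mul_assoc, Units.inv_mul, mul_one]

end local_

end Fermat.Agent.S53
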