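import Mathlib
import Fermat.Prelude.Def_GaloisRep_Residual

set_option autoImplicit false

open scoped TensorProduct

namespace Fermat.Agent.S53

variable {k : Type} [Field k]

/-- Schur: an endomorphism of an absolutely irreducible residual representation commuting
with the Galois action is a scalar. -/
theorem schur_scalar (ρbar : ResidualGaloisRep k) (habs : ρbar.IsAbsolutelyIrreducible)
    (f : Module.End k ρbar.V)
    (hf : ∀ σ : AlgebraicClosure ℚ ≃ₐ[ℚ] AlgebraicClosure ℚ, f ∘ₗ ρbar.ρ σ = ρbar.ρ σ ∘ₗ f) :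
    ∃ c : k, f = c • (1 : Module.End k ρbar.V) := by
  classical
  set K := AlgebraicClosure k with hK
  set fK : Module.End K (K ⊗[k] ρbar.V) := f.baseChange K with hfK
  have hrank : Module.finrank K (K ⊗[k] ρbar.V) = 2 := by
    rw [Module.finrank_baseChange, ρbar.finrank_eq]
  have : Nontrivial (K ⊗[k] ρbar.V) := by
    apply Module.nontrivial_of_finrank_pos (R := K)
    rw [hrank]; norm_num
  obtain ⟨μ, hμ⟩ := Module.End.exists_eigenvalue fK
  set W : Submodule K (K ⊗[k] ρbar.V) := Module.End.eigenspace fK μ with hW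
  have hstable : ∀ σ : AlgebraicClosure ℚ ≃ₐ[ℚ] AlgebraicClosure ℚ,
      ∀ x ∈ W, (ρbar.baseChange K).ρ σ x ∈ W := by
    intro σ x hx
    rw [hW, Module.End.mem_eigenspace_iff] at hx ⊢
    show fK ((ρbar.ρ σ).baseChange K x) = μ • (ρbar.ρ σ).baseChange K x
    have hcomm : fK ∘ₗ (ρbar.ρ σ).baseChange K = (ρbar.ρ σ).baseChange K ∘ₗ fK := by
      rw [hfK, ← LinearMap.baseChange_comp, ← LinearMap.baseChange_comp]
      congr 1
      exact hf σ
    have := LinearMap.congr_fun hcomm x
    simp only [LinearMap.comp_apply] at this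
    rw [this, hx, map_smul]
  have hWtop : W = ⊤ := by
    rcases habs W hstable with h | h
    · exact absurd h (Module.End.hasEigenvalue_iff.mp hμ)
    · exact h
  have hfKμ : ∀ x, fK x = μ • x := by
    intro x
    have : x ∈ W := by rw [hWtop]; trivial
    rwa [hW, Module.End.mem_eigenspace_iff] at this
  obtain ⟨b⟩ : Nonempty (Module.Basis (Fin 2) k ρbar.V) :=
    ⟨Module.finBasisOfFinrankEq k ρbar.V ρbar.finrank_eq⟩
  set bK : Module.Basis (Fin 2) K (K ⊗[k] ρbar.V) := b.baseChange K with hbK
  set a : k := b.repr (f (b 0)) 0 with ha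
  have hμa : μ = algebraMap k K a := by
    have h1 := hfKμ ((1 : K) ⊗ₜ[k] b 0)
    rw [hfK, LinearMap.baseChange_tmul] at h1
    have h2 := congrArg (fun v => bK.repr v 0) h1
    simp only [hbK, Module.Basis.baseChange_repr_tmul, map_smul, Finsupp.smul_apply,
      Module.Basis.repr_self, Finsupp.single_eq_same, smul_eq_mul, mul_one, one_smul] at h2
    rw [← h2, ha, Algebra.smul_def, mul_one]
  refine ⟨a, ?_⟩
  apply LinearMap.ext
  intro v
  have h1 := hfKμ ((1 : K) ⊗ₜ[k] v)
  rw [hfK, LinearMap.baseChange_tmul, hμa, algebraMap_smul] at h1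
  have hinj : Function.Injective (fun v : ρbar.V => (1 : K) ⊗ₜ[k] v) := by
    intro x y hxy
    have hx := congrArg (bK.repr) hxy
    apply b.repr.injective
    ext i
    have := DFunLike.congr_fun hx i
    simp only [hbK, Module.Basis.baseChange_repr_tmul] at this
    have h3 : algebraMap k K (b.repr x i) = algebraMap k K (b.repr y i) := by
      simpa [Algebra.smul_def] using this
    exact (algebraMap k K).injective h3
  apply hinj
  simp only [LinearMap.smul_apply, Module.End.one_apply]
  rw [h1, TensorProduct.tmul_smul]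

/-- Same as `schur_scalar`, with the commutation hypothesis stated with `*`. -/
theorem schur_scalar_mul (ρbar : ResidualGaloisRep k) (habs : ρbar.IsAbsolutelyIrreducible)
    (f : Module.End k ρbar.V)
    (hf : ∀ σ : AlgebraicClosure ℚ ≃ₐ[ℚ] AlgebraicClosure ℚ, f * ρbar.ρ σ = ρbar.ρ σ * f) :
    ∃ c : k, f = c • (1 : Module.End k ρbar.V) :=
  schur_scalar ρbar habs f hf

end Fermat.Agent.S53
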