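/-
S53: matrix form of `ResidualGaloisRep`, base change, matrix-level Schur (lemma A5 + A6).
Owner: helper6.
-/
import Mathlib
import Fermat.Agent.S53.Defs
import Fermat.Agent.S53.Schur

set_option autoImplicit false

open scoped TensorProduct

namespace Fermat.Agent.S53

variable {k : Type} [Field k]

/-- The matrix valued hom attached to a residual representation and a basis. -/
noncomputable def matOfRes (ρ : ResidualGaloisRep k) (b : Module.Basis (Fin 2) k ρ.V) :
    GQ →* M2 k :=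
  ((LinearMap.toMatrixAlgEquiv b : Module.End k ρ.V ≃ₐ[k] M2 k) :
    Module.End k ρ.V →* M2 k).comp ρ.ρ

lemma matOfRes_apply (ρ : ResidualGaloisRep k) (b : Module.Basis (Fin 2) k ρ.V) (σ : GQ) :
    matOfRes ρ b σ = LinearMap.toMatrix b b (ρ.ρ σ) := rfl

lemma finiteLevel_matOfRes (ρ : ResidualGaloisRep k) (b : Module.Basis (Fin 2) k ρ.V) :
    GaloisFactorsThroughFiniteLevel (matOfRes ρ b) := by
  obtain ⟨L, hL, h⟩ := ρ.factorsThroughFiniteLevel
  refine ⟨L, hL, fun σ hσ => ?_⟩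
  rw [matOfRes, MonoidHom.comp_apply, h σ hσ, map_one]

lemma equivFun_ρ_apply (ρ : ResidualGaloisRep k) (b : Module.Basis (Fin 2) k ρ.V) (σ : GQ)
    (x : ρ.V) :
    b.equivFun (ρ.ρ σ x) = (LinearMap.toMatrix b b (ρ.ρ σ)).mulVec (b.equivFun x) := by
  have h := LinearMap.toMatrix_mulVec_repr b b (ρ.ρ σ) x
  funext i
  rw [Module.Basis.equivFun_apply]
  exact (congrFun h i).symm

/-- The equivalence between a residual representation and its matrix form in a basis. -/
noncomputable def equivOfMatRes (ρ : ResidualGaloisRep k) (b : Module.Basis (Fin 2) k ρ.V) :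
    ResidualGaloisRep.Equiv ρ (ofMatRes (matOfRes ρ b) (finiteLevel_matOfRes ρ b)) where
  toLinearEquiv := b.equivFun
  map_apply σ x := equivFun_ρ_apply ρ b σ x

/-- A5a. Every residual representation is a matrix one. -/
theorem exists_ofMatRes_isEquiv (ρ : ResidualGaloisRep k) :
    ∃ (r : GQ →* M2 k) (hr : GaloisFactorsThroughFiniteLevel r), ρ.IsEquiv (ofMatRes r hr) :=
  let b := Module.finBasisOfFinrankEq k ρ.V ρ.finrank_eq
  ⟨matOfRes ρ b, finiteLevel_matOfRes ρ b, ⟨equivOfMatRes ρ b⟩⟩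

/-- A5b. -/
theorem ofMatRes_isEquiv_iff (r r' : GQ →* M2 k) (hr : GaloisFactorsThroughFiniteLevel r)
    (hr' : GaloisFactorsThroughFiniteLevel r') :
    (ofMatRes r hr).IsEquiv (ofMatRes r' hr') ↔
      ∃ γ : (M2 k)ˣ, ∀ σ, (γ : M2 k) * r σ = r' σ * (γ : M2 k) := by
  constructor
  · rintro ⟨e⟩
    have e' : (Fin 2 → k) ≃ₗ[k] (Fin 2 → k) := e.toLinearEquiv
    set E : (Fin 2 → k) ≃ₗ[k] (Fin 2 → k) := e.toLinearEquiv with hE
    have h1 : LinearMap.toMatrix' (E : (Fin 2 → k) →ₗ[k] (Fin 2 → k)) *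
        LinearMap.toMatrix' (E.symm : (Fin 2 → k) →ₗ[k] (Fin 2 → k)) = 1 := by
      rw [← LinearMap.toMatrix'_comp, LinearEquiv.comp_coe, LinearEquiv.symm_trans_self,
        LinearEquiv.refl_toLinearMap, LinearMap.toMatrix'_id]
    have h2 : LinearMap.toMatrix' (E.symm : (Fin 2 → k) →ₗ[k] (Fin 2 → k)) *
        LinearMap.toMatrix' (E : (Fin 2 → k) →ₗ[k] (Fin 2 → k)) = 1 := by
      rw [← LinearMap.toMatrix'_comp, LinearEquiv.comp_coe, LinearEquiv.self_trans_symm,
        LinearEquiv.refl_toLinearMap, LinearMap.toMatrix'_id]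
    refine ⟨⟨_, _, h1, h2⟩, fun σ => ?_⟩
    show LinearMap.toMatrix' (E : (Fin 2 → k) →ₗ[k] (Fin 2 → k)) * r σ =
      r' σ * LinearMap.toMatrix' (E : (Fin 2 → k) →ₗ[k] (Fin 2 → k))
    apply Matrix.toLin'.injective
    apply LinearMap.ext
    intro v
    rw [Matrix.toLin'_mul, Matrix.toLin'_mul, Matrix.toLin'_toMatrix', LinearMap.comp_apply,
      LinearMap.comp_apply, Matrix.toLin'_apply, Matrix.toLin'_apply]
    exact e.map_apply σ v
  · rintro ⟨γ, hγ⟩
    refine ⟨⟨Matrix.toLin'OfInv γ.inv_mul γ.mul_inv, fun σ x => ?_⟩⟩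
    show Matrix.toLin' (γ : M2 k) ((r σ).mulVec x) = (r' σ).mulVec (Matrix.toLin' (γ : M2 k) x)
    rw [Matrix.toLin'_apply, Matrix.toLin'_apply, Matrix.mulVec_mulVec, Matrix.mulVec_mulVec,
      hγ σ]

theorem finiteLevel_mapMat {k' : Type} [Field k'] (ψ : k →+* k') {r : GQ →* M2 k}
    (hr : GaloisFactorsThroughFiniteLevel r) : GaloisFactorsThroughFiniteLevel (mapMat ψ r) := by
  obtain ⟨L, hL, h⟩ := hr
  refine ⟨L, hL, fun σ hσ => ?_⟩
  rw [mapMat, MonoidHom.comp_apply, h σ hσ, map_one]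

lemma piScalarRight_baseChange_toLin' {k' : Type} [Field k'] [Algebra k k'] (M : M2 k)
    (x : k' ⊗[k] (Fin 2 → k)) :
    TensorProduct.piScalarRight k k' k' (Fin 2) ((Matrix.toLin' M).baseChange k' x) =
      (M.map (algebraMap k k')).mulVec (TensorProduct.piScalarRight k k' k' (Fin 2) x) := by
  induction x using TensorProduct.induction_on with
  | zero => simp only [map_zero, Matrix.mulVec_zero]
  | tmul c v =>
    rw [LinearMap.baseChange_tmul, Matrix.toLin'_apply, TensorProduct.piScalarRight_apply,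
      TensorProduct.piScalarRight_apply, TensorProduct.piScalarRightHom_tmul,
      TensorProduct.piScalarRightHom_tmul]
    funext i
    simp only [Matrix.mulVec, dotProduct, Matrix.map_apply, Algebra.smul_def,
      map_sum, map_mul, Finset.sum_mul, mul_assoc]
  | add x y hx hy => rw [map_add, map_add, map_add, hx, hy, Matrix.mulVec_add]

/-- A5d. base change with an explicit algebra instance (the form used in `TangentFinite`). -/
theorem ofMatRes_baseChange_isEquiv {k' : Type} [Field k'] [Algebra k k'] (r : GQ →* M2 k)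
    (hr : GaloisFactorsThroughFiniteLevel r) :
    ((ofMatRes r hr).baseChange k').IsEquiv
      (ofMatRes (mapMat (algebraMap k k') r) (finiteLevel_mapMat _ hr)) :=
  ⟨⟨TensorProduct.piScalarRight k k' k' (Fin 2), fun σ x =>
    piScalarRight_baseChange_toLin' (r σ) x⟩⟩

/-- A5c. -/
theorem ofMatRes_baseChangeAlong_isEquiv {k' : Type} [Field k'] (ψ : k →+* k') (r : GQ →* M2 k)
    (hr : GaloisFactorsThroughFiniteLevel r) :
    ((ofMatRes r hr).baseChangeAlong ψ).IsEquiv (ofMatRes (mapMat ψ r) (finiteLevel_mapMat ψ hr)) := by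
  let _ : Algebra k k' := ψ.toAlgebra
  exact ofMatRes_baseChange_isEquiv (k' := k') r hr

/-- A5e. `IsEquiv` of residual reps is preserved by `baseChangeAlong` / `baseChange`. -/
theorem res_isEquiv_baseChangeAlong {k' : Type} [Field k'] (ψ : k →+* k')
    {ρ₁ ρ₂ : ResidualGaloisRep k} (h : ρ₁.IsEquiv ρ₂) :
    (ρ₁.baseChangeAlong ψ).IsEquiv (ρ₂.baseChangeAlong ψ) :=
  h.elim fun e => ⟨e.baseChangeAlong ψ⟩

theorem res_isEquiv_baseChange {k' : Type} [Field k'] [Algebra k k']
    {ρ₁ ρ₂ : ResidualGaloisRep k} (h : ρ₁.IsEquiv ρ₂) :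
    (ρ₁.baseChange k').IsEquiv (ρ₂.baseChange k') := by
  obtain ⟨e⟩ := h
  refine ⟨⟨e.toLinearEquiv.baseChange k k' ρ₁.V ρ₂.V, fun σ x => ?_⟩⟩
  show e.toLinearEquiv.baseChange k k' ρ₁.V ρ₂.V ((ρ₁.ρ σ).baseChange k' x) =
    (ρ₂.ρ σ).baseChange k' (e.toLinearEquiv.baseChange k k' ρ₁.V ρ₂.V x)
  induction x using TensorProduct.induction_on with
  | zero => simp only [map_zero]
  | tmul b v =>
    rw [LinearMap.baseChange_tmul, LinearEquiv.baseChange_tmul, LinearEquiv.baseChange_tmul,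
      LinearMap.baseChange_tmul, e.map_apply]
  | add x y hx hy => simp only [map_add, hx, hy]

/-- A6. Matrix-level Schur from module-level absolute irreducibility. -/
theorem isSchur_of_isEquiv (ρbar : ResidualGaloisRep k) (habs : ρbar.IsAbsolutelyIrreducible)
    (r : GQ →* M2 k) (hr : GaloisFactorsThroughFiniteLevel r)
    (he : ρbar.IsEquiv (ofMatRes r hr)) : IsSchur r := by
  obtain ⟨e⟩ := he
  intro X hX
  set E : ρbar.V ≃ₗ[k] (Fin 2 → k) := e.toLinearEquiv with hE
  have hEρ : ∀ σ x, E (ρbar.ρ σ x) = (r σ).mulVec (E x) := fun σ x => e.map_apply σ x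
  obtain ⟨f, hfx⟩ : ∃ f : Module.End k ρbar.V, ∀ x, E (f x) = X.mulVec (E x) :=
    ⟨(E.symm : (Fin 2 → k) →ₗ[k] ρbar.V) ∘ₗ Matrix.toLin' X ∘ₗ (E : ρbar.V →ₗ[k] (Fin 2 → k)),
      fun x => by
        simp only [LinearMap.comp_apply, LinearEquiv.coe_coe, LinearEquiv.apply_symm_apply,
          Matrix.toLin'_apply]⟩
  obtain ⟨c, hc⟩ := schur_scalar ρbar habs f (by
    intro σ
    apply LinearMap.ext
    intro x
    apply E.injective
    rw [LinearMap.comp_apply, LinearMap.comp_apply, hfx, hEρ, hEρ, hfx, Matrix.mulVec_mulVec,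
      Matrix.mulVec_mulVec, hX σ])
  refine ⟨c, ?_⟩
  apply Matrix.toLin'.injective
  apply LinearMap.ext
  intro v
  have h1 := hfx (E.symm v)
  rw [LinearEquiv.apply_symm_apply, hc, LinearMap.smul_apply, Module.End.one_apply, map_smul,
    LinearEquiv.apply_symm_apply] at h1
  rw [Matrix.toLin'_apply, ← h1, Matrix.toLin'_apply]
  funext i
  simp [Matrix.mulVec, dotProduct, Matrix.scalar_apply, Matrix.diagonal_apply]

end Fermat.Agent.S53
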