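/-
S53 helper (owner: helper90): Nakayama-type generation statements for a nilpotent ideal `N`
(no finiteness hypothesis on `N`).
-/
import Mathlib

set_option autoImplicit false

namespace Fermat.Agent.S53.AdicLim

variable {B : Type*} [CommRing B]

/-- If `N ≤ J ⊔ N ^ 2` then `N ≤ J ⊔ N ^ j` for all `j ≥ 1`. -/
theorem le_sup_pow_of_le_sup_sq (N J : Ideal B) (hN : N ≤ J ⊔ N ^ 2) (j : ℕ) :
    N ≤ J ⊔ N ^ (j + 1) := by
  induction j with
  | zero => simp
  | succ j ih =>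
    refine hN.trans (sup_le le_sup_left ?_)
    have h1 : N ^ 2 ≤ N * (J ⊔ N ^ (j + 1)) := by
      rw [pow_two]
      exact Ideal.mul_mono_right ih
    refine h1.trans ?_
    rw [Ideal.mul_sup]
    have h2 : N * J ≤ J := Ideal.mul_le_right
    have h3 : N * N ^ (j + 1) = N ^ (j + 1 + 1) := (pow_succ' N (j + 1)).symm
    rw [h3]
    exact sup_le_sup_right h2 _

/-- Nakayama for a nilpotent ideal: `N ≤ J ⊔ N ^ 2` and `N ^ n = ⊥` imply `N ≤ J`. -/
theorem le_of_le_sup_sq_of_pow_eq_bot (N J : Ideal B) (hN : N ≤ J ⊔ N ^ 2) {n : ℕ}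
    (hn : N ^ n = ⊥) : N ≤ J := by
  have h := le_sup_pow_of_le_sup_sq N J hN n
  have h2 : N ^ (n + 1) = ⊥ := by rw [pow_succ, hn, Ideal.bot_mul]
  rwa [h2, sup_bot_eq] at h

variable {𝒪 : Type*} [CommRing 𝒪] [Algebra 𝒪 B]

/-- A subalgebra `C` with `C + N = B`, containing elements `t i ∈ N` generating `N` as an ideal,
satisfies `C + N ^ j = B` for all `j`. -/
theorem exists_sub_mem_pow_of_span {ι : Type*} [Finite ι] (N : Ideal B) (C : Subalgebra 𝒪 B)
    (hCN : ∀ x : B, ∃ c ∈ C, x - c ∈ N) (t : ι → B) (htC : ∀ i, t i ∈ C) (htN : ∀ i, t i ∈ N)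
    (hN : N ≤ Ideal.span (Set.range t)) (j : ℕ) :
    ∀ x : B, ∃ c ∈ C, x - c ∈ N ^ j := by
  cases nonempty_fintype ι
  induction j with
  | zero => intro x; exact ⟨0, C.zero_mem, by simp⟩
  | succ j ih =>
    intro x
    obtain ⟨c, hc, hxc⟩ := hCN x
    obtain ⟨b, hb⟩ := (Submodule.mem_span_range_iff_exists_fun B).mp (hN hxc)
    choose c' hc' hbc' using fun i => ih (b i)
    refine ⟨c + ∑ i, c' i * t i, C.add_mem hc (C.sum_mem fun i _ => C.mul_mem (hc' i) (htC i)), ?_⟩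
    have : x - (c + ∑ i, c' i * t i) = ∑ i, (b i - c' i) * t i := by
      have h1 : x - c = ∑ i, b i * t i := by rw [← hb]; simp [smul_eq_mul]
      have h2 : ∑ i, (b i - c' i) * t i = ∑ i, b i * t i - ∑ i, c' i * t i := by
        rw [← Finset.sum_sub_distrib]
        exact Finset.sum_congr rfl fun i _ => by ring
      rw [h2, ← h1]; ring
    rw [this, pow_succ]
    exact Ideal.sum_mem _ fun i _ => Ideal.mul_mem_mul (hbc' i) (htN i)

/-- If moreover `N` is nilpotent, then `C = ⊤`. -/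
theorem subalgebra_eq_top_of_nilpotent {ι : Type*} [Finite ι] (N : Ideal B) (C : Subalgebra 𝒪 B)
    (hCN : ∀ x : B, ∃ c ∈ C, x - c ∈ N) (t : ι → B) (htC : ∀ i, t i ∈ C) (htN : ∀ i, t i ∈ N)
    (hN : N ≤ Ideal.span (Set.range t) ⊔ N ^ 2) {n : ℕ} (hn : N ^ n = ⊥) : C = ⊤ := by
  have hN' : N ≤ Ideal.span (Set.range t) := le_of_le_sup_sq_of_pow_eq_bot N _ hN hn
  rw [eq_top_iff]
  intro x _
  obtain ⟨c, hc, hxc⟩ := exists_sub_mem_pow_of_span N C hCN t htC htN hN' n x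
  rw [hn, Ideal.mem_bot, sub_eq_zero] at hxc
  rw [hxc]; exact hc

end Fermat.Agent.S53.AdicLim
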