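import Mathlib

set_option autoImplicit false

namespace Fermat.Agent.S53

open IsLocalRing

section OneVar

variable {B : Type*} [CommRing B] (𝔞 : Ideal B)

/-- The filtration on `B⟦X⟧` that computes the powers of `comap constantCoeff 𝔞`:
series whose `k`-th coefficient lies in `𝔞 ^ (n - k)` for `k < n`. -/
noncomputable def psFilt (n : ℕ) : Ideal (PowerSeries B) where
  carrier := {f | ∀ k, PowerSeries.coeff k f ∈ 𝔞 ^ (n - k)}
  zero_mem' := by intro k; simp
  add_mem' := by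
    intro f g hf hg k
    rw [map_add]; exact Ideal.add_mem _ (hf k) (hg k)
  smul_mem' := by
    intro c f hf k
    rw [smul_eq_mul, PowerSeries.coeff_mul]
    refine Ideal.sum_mem _ ?_
    rintro ⟨i, j⟩ hij
    rw [Finset.HasAntidiagonal.mem_antidiagonal] at hij
    exact Ideal.mul_mem_left _ _ (Ideal.pow_le_pow_right (by omega) (hf j))

theorem mem_psFilt {n : ℕ} {f : PowerSeries B} :
    f ∈ psFilt 𝔞 n ↔ ∀ k, PowerSeries.coeff k f ∈ 𝔞 ^ (n - k) := Iff.rfl

theorem mem_psFilt_iff_lt {n : ℕ} {f : PowerSeries B} :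
    f ∈ psFilt 𝔞 n ↔ ∀ k, k < n → PowerSeries.coeff k f ∈ 𝔞 ^ (n - k) := by
  refine ⟨fun h k _ => h k, fun h k => ?_⟩
  by_cases hk : k < n
  · exact h k hk
  · have : n - k = 0 := by omega
    rw [this, pow_zero]; simp

theorem psFilt_mul {a b : ℕ} {f g : PowerSeries B} (hf : f ∈ psFilt 𝔞 a) (hg : g ∈ psFilt 𝔞 b) :
    f * g ∈ psFilt 𝔞 (a + b) := by
  intro k
  rw [PowerSeries.coeff_mul]
  refine Ideal.sum_mem _ ?_
  rintro ⟨i, j⟩ hij
  rw [Finset.HasAntidiagonal.mem_antidiagonal] at hij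
  have h1 : PowerSeries.coeff i f * PowerSeries.coeff j g ∈ 𝔞 ^ (a - i) * 𝔞 ^ (b - j) :=
    Ideal.mul_mem_mul (hf i) (hg j)
  rw [← pow_add] at h1
  exact Ideal.pow_le_pow_right (by omega) h1

/-- The ideal of series with constant coefficient in `𝔞`. -/
noncomputable abbrev psIdeal : Ideal (PowerSeries B) := Ideal.comap PowerSeries.constantCoeff 𝔞

theorem psIdeal_le_psFilt_one : psIdeal 𝔞 ≤ psFilt 𝔞 1 := by
  intro f hf
  rw [mem_psFilt_iff_lt]
  intro k hk
  obtain rfl : k = 0 := by omega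
  simpa using hf

theorem psIdeal_pow_le_psFilt (n : ℕ) : psIdeal 𝔞 ^ n ≤ psFilt 𝔞 n := by
  induction n with
  | zero =>
    intro f _ k
    simp
  | succ n ih =>
    rw [pow_succ, Ideal.mul_le]
    intro r hr s hs
    exact psFilt_mul 𝔞 (ih hr) (psIdeal_le_psFilt_one 𝔞 hs)

theorem X_mem_psIdeal : (PowerSeries.X : PowerSeries B) ∈ psIdeal 𝔞 := by
  simp [psIdeal, Ideal.mem_comap]

theorem C_mem_psIdeal_pow {m : ℕ} {a : B} (ha : a ∈ 𝔞 ^ m) :
    PowerSeries.C a ∈ psIdeal 𝔞 ^ m := by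
  have h1 : PowerSeries.C a ∈ (𝔞 ^ m).map (PowerSeries.C : B →+* PowerSeries B) :=
    Ideal.mem_map_of_mem _ ha
  rw [Ideal.map_pow] at h1
  refine Ideal.pow_right_mono ?_ m h1
  rw [Ideal.map_le_iff_le_comap]
  intro x hx
  simpa [psIdeal, Ideal.mem_comap] using hx

theorem psFilt_le_psIdeal_pow (n : ℕ) : psFilt 𝔞 n ≤ psIdeal 𝔞 ^ n := by
  intro f hf
  set p : PowerSeries B :=
    ∑ k ∈ Finset.range n, PowerSeries.C (PowerSeries.coeff k f) * PowerSeries.X ^ k with hp
  have hcoeff : ∀ m, PowerSeries.coeff m p = if m < n then PowerSeries.coeff m f else 0 := by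
    intro m
    rw [hp, map_sum]
    simp only [PowerSeries.coeff_C_mul_X_pow]
    rw [Finset.sum_ite_eq]
    simp
  have hdvd : PowerSeries.X ^ n ∣ f - p := by
    rw [PowerSeries.X_pow_dvd_iff]
    intro m hm
    rw [map_sub, hcoeff m, if_pos hm, sub_self]
  have hp_mem : p ∈ psIdeal 𝔞 ^ n := by
    rw [hp]
    refine Ideal.sum_mem _ ?_
    intro k hk
    rw [Finset.mem_range] at hk
    have h1 : PowerSeries.C (PowerSeries.coeff k f) ∈ psIdeal 𝔞 ^ (n - k) :=
      C_mem_psIdeal_pow 𝔞 (hf k)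
    have h2 : (PowerSeries.X : PowerSeries B) ^ k ∈ psIdeal 𝔞 ^ k :=
      Ideal.pow_mem_pow (X_mem_psIdeal 𝔞) k
    have h3 := Ideal.mul_mem_mul h1 h2
    rwa [← pow_add, Nat.sub_add_cancel hk.le] at h3
  obtain ⟨g, hg⟩ := hdvd
  have hX : (PowerSeries.X : PowerSeries B) ^ n * g ∈ psIdeal 𝔞 ^ n :=
    Ideal.mul_mem_right _ _ (Ideal.pow_mem_pow (X_mem_psIdeal 𝔞) n)
  have : f = p + PowerSeries.X ^ n * g := by rw [← hg]; ring
  rw [this]
  exact Ideal.add_mem _ hp_mem hX

theorem psIdeal_pow_eq_psFilt (n : ℕ) : psIdeal 𝔞 ^ n = psFilt 𝔞 n :=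
  le_antisymm (psIdeal_pow_le_psFilt 𝔞 n) (psFilt_le_psIdeal_pow 𝔞 n)

theorem mem_psIdeal_pow_iff {n : ℕ} {f : PowerSeries B} :
    f ∈ psIdeal 𝔞 ^ n ↔ ∀ k, PowerSeries.coeff k f ∈ 𝔞 ^ (n - k) := by
  rw [psIdeal_pow_eq_psFilt]; rfl

theorem powerSeries_isHausdorff [IsHausdorff 𝔞 B] : IsHausdorff (psIdeal 𝔞) (PowerSeries B) := by
  refine ⟨fun f hf => ?_⟩
  ext k
  rw [map_zero]
  refine IsHausdorff.haus' (I := 𝔞) _ fun m => ?_
  have h1 := hf (m + k)
  rw [SModEq.zero, smul_eq_mul, Ideal.mul_top, mem_psIdeal_pow_iff] at h1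
  have h2 := h1 k
  rw [Nat.add_sub_cancel] at h2
  rw [SModEq.zero, smul_eq_mul, Ideal.mul_top]
  exact h2

theorem powerSeries_isPrecomplete [IsPrecomplete 𝔞 B] :
    IsPrecomplete (psIdeal 𝔞) (PowerSeries B) := by
  refine ⟨fun g hg => ?_⟩
  have key : ∀ k : ℕ, ∃ L : B, ∀ m : ℕ,
      PowerSeries.coeff k (g (m + k)) ≡ L [SMOD (𝔞 ^ m • ⊤ : Submodule B B)] := by
    intro k
    refine IsPrecomplete.prec' (I := 𝔞) (fun m => PowerSeries.coeff k (g (m + k))) ?_
    intro m n hmn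
    have h1 := hg (m := m + k) (n := n + k) (by omega)
    rw [SModEq.sub_mem, smul_eq_mul, Ideal.mul_top, mem_psIdeal_pow_iff] at h1
    have h2 := h1 k
    rw [Nat.add_sub_cancel, map_sub] at h2
    rw [SModEq.sub_mem, smul_eq_mul, Ideal.mul_top]
    exact h2
  choose L hL using key
  refine ⟨PowerSeries.mk L, fun n => ?_⟩
  rw [SModEq.sub_mem, smul_eq_mul, Ideal.mul_top, psIdeal_pow_eq_psFilt, mem_psFilt_iff_lt]
  intro k hk
  have h1 := hL k (n - k)
  rw [SModEq.sub_mem, smul_eq_mul, Ideal.mul_top, Nat.sub_add_cancel hk.le] at h1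
  rw [map_sub, PowerSeries.coeff_mk]
  exact h1

theorem powerSeries_isAdicComplete [IsAdicComplete 𝔞 B] :
    IsAdicComplete (psIdeal 𝔞) (PowerSeries B) :=
  { powerSeries_isHausdorff 𝔞, powerSeries_isPrecomplete 𝔞 with }

end OneVar

section MultiVar

variable {B : Type*} [CommRing B] (𝔞 : Ideal B)

/-- The ideal of multivariate series with constant coefficient in `𝔞`. -/
noncomputable abbrev mvIdeal (d : ℕ) : Ideal (MvPowerSeries (Fin d) B) :=
  Ideal.comap (MvPowerSeries.constantCoeff (σ := Fin d) (R := B)) 𝔞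

theorem constantCoeff_finSuccEquiv_symm (d : ℕ)
    (y : PowerSeries (MvPowerSeries (Fin d) B)) :
    MvPowerSeries.constantCoeff ((MvPowerSeries.finSuccEquiv B d).symm y) =
      MvPowerSeries.constantCoeff (PowerSeries.constantCoeff y) := by
  have h := MvPowerSeries.coeff_coeff_finSuccEquiv (R := B) (n := d)
    ((MvPowerSeries.finSuccEquiv B d).symm y) (k := 0) (x := 0)
  rw [AlgEquiv.apply_symm_apply, Finsupp.cons_zero_zero] at h
  rw [← MvPowerSeries.coeff_zero_eq_constantCoeff_apply,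
    ← MvPowerSeries.coeff_zero_eq_constantCoeff_apply,
    ← PowerSeries.coeff_zero_eq_constantCoeff_apply]
  exact h.symm

theorem map_finSuccEquiv_mvIdeal (d : ℕ) :
    (mvIdeal 𝔞 (d + 1)).map (MvPowerSeries.finSuccEquiv B d).toRingEquiv =
      psIdeal (mvIdeal 𝔞 d) := by
  ext y
  rw [← Ideal.symm_apply_mem_of_equiv_iff]
  simp only [mvIdeal, psIdeal, Ideal.mem_comap]
  have := constantCoeff_finSuccEquiv_symm (B := B) d y
  rw [← this]
  rfl

theorem map_isEmptyEquiv_mvIdeal :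
    (mvIdeal 𝔞 0).map (MvPowerSeries.isEmptyEquiv (Fin 0) B).toRingEquiv = 𝔞 := by
  ext y
  rw [← Ideal.symm_apply_mem_of_equiv_iff]
  simp only [mvIdeal, Ideal.mem_comap]
  have : MvPowerSeries.constantCoeff
      ((MvPowerSeries.isEmptyEquiv (Fin 0) B).toRingEquiv.symm y) = y := by
    change MvPowerSeries.constantCoeff (MvPowerSeries.C (σ := Fin 0) y) = y
    simp
  rw [this]

/-- Power series in finitely many variables over an `𝔞`-adically complete ring are complete
for the ideal of series with constant coefficient in `𝔞`. -/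
theorem mvPowerSeries_isAdicComplete_comap [IsAdicComplete 𝔞 B] (d : ℕ) :
    IsAdicComplete (mvIdeal 𝔞 d) (MvPowerSeries (Fin d) B) := by
  induction d with
  | zero =>
    rw [← IsAdicComplete.congr_ringEquiv _ (MvPowerSeries.isEmptyEquiv (Fin 0) B).toRingEquiv,
      map_isEmptyEquiv_mvIdeal]
    infer_instance
  | succ d ih =>
    rw [← IsAdicComplete.congr_ringEquiv _ (MvPowerSeries.finSuccEquiv B d).toRingEquiv,
      map_finSuccEquiv_mvIdeal]
    exact powerSeries_isAdicComplete _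

end MultiVar

section Local

variable (𝒪 : Type*) [CommRing 𝒪] [IsLocalRing 𝒪]

theorem maximalIdeal_mvPowerSeries (d : ℕ) :
    maximalIdeal (MvPowerSeries (Fin d) 𝒪) = mvIdeal (maximalIdeal 𝒪) d := by
  ext f
  rw [mem_maximalIdeal, mem_nonunits_iff, MvPowerSeries.isUnit_iff_constantCoeff,
    Ideal.mem_comap, mem_maximalIdeal, mem_nonunits_iff]

/-- L1. Power series over a complete noetherian local ring are complete for the maximal ideal. -/
theorem mvPowerSeries_isAdicComplete [IsNoetherianRing 𝒪]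
    [IsAdicComplete (maximalIdeal 𝒪) 𝒪] (d : ℕ) :
    IsAdicComplete (maximalIdeal (MvPowerSeries (Fin d) 𝒪)) (MvPowerSeries (Fin d) 𝒪) := by
  rw [maximalIdeal_mvPowerSeries]
  exact mvPowerSeries_isAdicComplete_comap _ d

/-- L2'. residue field of the power series ring is finite -/
theorem mvPowerSeries_residueField_finite [Finite (ResidueField 𝒪)] (d : ℕ) :
    Finite (ResidueField (MvPowerSeries (Fin d) 𝒪)) := by
  have hloc : IsLocalHom (MvPowerSeries.C (σ := Fin d) (R := 𝒪)) := by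
    refine ⟨fun a ha => ?_⟩
    rw [MvPowerSeries.isUnit_iff_constantCoeff] at ha
    simpa using ha
  refine Finite.of_surjective
    (ResidueField.map (MvPowerSeries.C (σ := Fin d) (R := 𝒪))) ?_
  intro x
  obtain ⟨f, rfl⟩ := IsLocalRing.residue_surjective x
  refine ⟨residue 𝒪 (MvPowerSeries.constantCoeff f), ?_⟩
  rw [ResidueField.map_residue]
  rw [← sub_eq_zero, ← map_sub, residue_eq_zero_iff, maximalIdeal_mvPowerSeries, Ideal.mem_comap]
  simp

end Local

end Fermat.Agent.S53
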