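import Mathlib
import Fermat.Prelude.Def_GaloisRep_Residual
import Fermat.Agent.S53.Schur

set_option autoImplicit false

open scoped TensorProduct

namespace Fermat.Agent.S53

/-- Matrix form of Schur's lemma: with respect to any basis `b` of `ρbar.V`, a matrix
commuting with all the matrices of the Galois action is scalar. -/
theorem schur_scalar_matrix {k : Type} [Field k] (ρbar : ResidualGaloisRep k)
    (habs : ρbar.IsAbsolutelyIrreducible) {ι : Type} [Fintype ι] [DecidableEq ι]
    (b : Module.Basis ι k ρbar.V) (X : Matrix ι ι k)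
    (hX : ∀ σ, X * LinearMap.toMatrix b b (ρbar.ρ σ) = LinearMap.toMatrix b b (ρbar.ρ σ) * X) :
    ∃ c : k, X = c • (1 : Matrix ι ι k) := by
  obtain ⟨c, hc⟩ := schur_scalar ρbar habs (Matrix.toLin b b X) (by
    intro σ
    apply (LinearMap.toMatrix b b).injective
    rw [LinearMap.toMatrix_comp b b b, LinearMap.toMatrix_comp b b b, LinearMap.toMatrix_toLin]
    exact hX σ)
  refine ⟨c, ?_⟩
  have := congrArg (LinearMap.toMatrix b b) hc
  rw [LinearMap.toMatrix_toLin] at this
  rw [this, map_smul]
  congr 1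
  exact LinearMap.toMatrix_one b

/-- Variant of `schur_scalar_matrix` for a family of matrices `rbar σ` known to be the matrices
of the Galois action in the basis `b`. -/
theorem schur_scalar_of_eq_toMatrix {k : Type} [Field k] (ρbar : ResidualGaloisRep k)
    (habs : ρbar.IsAbsolutelyIrreducible) {ι : Type} [Fintype ι] [DecidableEq ι]
    (b : Module.Basis ι k ρbar.V)
    (rbar : (AlgebraicClosure ℚ ≃ₐ[ℚ] AlgebraicClosure ℚ) → Matrix ι ι k)
    (hr : ∀ σ, rbar σ = LinearMap.toMatrix b b (ρbar.ρ σ))
    (X : Matrix ι ι k) (hX : ∀ σ, X * rbar σ = rbar σ * X) :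
    ∃ c : k, X = c • (1 : Matrix ι ι k) :=
  schur_scalar_matrix ρbar habs b X (fun σ => by rw [← hr σ]; exact hX σ)

end Fermat.Agent.S53
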