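/-
S53 (sequential route, owner: helper90): toolkit for the good ideals of `Core.lean`:
accessors, upward closure (`IsGoodIdeal.of_le`), the common "maximal ideal" of `RpreE E`,
finiteness of good quotients.
-/
import Fermat.Agent.S53.Core
import Fermat.Agent.S53.MatrixForm
import Fermat.Agent.S53.TypeTransport
import Fermat.Agent.S53.NormalForm
import Fermat.Agent.S53.FiniteQuotient

set_option autoImplicit false
set_option linter.unusedSectionVars false
set_option linter.style.haveILetI false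

namespace Fermat.Agent.S53.Seq

open IsLocalRing GaloisRep

variable {𝒪 : Type} [CommRing 𝒪] [IsLocalRing 𝒪] {rt : GQ → M2 𝒪} {E : Set (PolyRing 𝒪)}
  {𝒟 : ∀ ⦃A : Type⦄ [CommRing A] [IsLocalRing A] [Algebra 𝒪 A], GaloisRepAdic A → Prop}

/-! ### Accessors -/

theorem isLocalRing_of_good {𝔞 : Ideal (RpreE E)} (h : IsGoodIdeal rt E 𝒟 𝔞) :
    IsLocalRing (RpreE E ⧸ 𝔞) := h.fst

theorem testAlg_of_good {𝔞 : Ideal (RpreE E)} (h : IsGoodIdeal rt E 𝒟 𝔞) :
    haveI := isLocalRing_of_good h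
    IsArtinianTestAlgebra 𝒪 (RpreE E ⧸ 𝔞) := h.snd.1

theorem goodLift_of_good {𝔞 : Ideal (RpreE E)} (h : IsGoodIdeal rt E 𝒟 𝔞) :
    haveI := isLocalRing_of_good h
    IsGoodLift rt E 𝒟 (rQuot E 𝔞) := h.snd.2

theorem ne_top_of_good {𝔞 : Ideal (RpreE E)} (h : IsGoodIdeal rt E 𝒟 𝔞) : 𝔞 ≠ ⊤ := by
  haveI := isLocalRing_of_good h
  exact Ideal.Quotient.nontrivial_iff.mp inferInstance

/-- `rQuot` of a bigger ideal is the push-forward of `rQuot` of a smaller one. -/
theorem mapMat_factor_rQuot {𝔞 𝔟 : Ideal (RpreE E)} (hle : 𝔞 ≤ 𝔟) :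
    mapMat (Ideal.Quotient.factor hle) (rQuot E 𝔞) = rQuot E 𝔟 := rfl

/-! ### Quotients of Artinian test algebras -/

/-- A surjective image (Artinian, local) of a local `𝒪`-algebra with local structure map and
residue field `k` is an Artinian test algebra. -/
theorem testAlg_of_surjective' {A B : Type} [CommRing A] [IsLocalRing A] [Algebra 𝒪 A]
    [CommRing B] [IsLocalRing B] [Algebra 𝒪 B] (hloc : IsLocalHom (algebraMap 𝒪 A))
    (hsurj : Function.Surjective (residue A ∘ algebraMap 𝒪 A))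
    (f : A →ₐ[𝒪] B) (hf : Function.Surjective f) [IsArtinianRing B] :
    IsArtinianTestAlgebra 𝒪 B := by
  have hfl : IsLocalHom (f : A →+* B) := IsLocalHom.of_surjective _ hf
  refine ⟨?_, ?_, inferInstance⟩
  · have h2 : IsLocalHom ((f : A →+* B).comp (algebraMap 𝒪 A)) := RingHom.isLocalHom_comp _ _
    have h3 : (f : A →+* B).comp (algebraMap 𝒪 A) = algebraMap 𝒪 B := f.comp_algebraMap
    rwa [h3] at h2
  · intro y
    obtain ⟨b, rfl⟩ := residue_surjective y
    obtain ⟨a, rfl⟩ := hf b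
    obtain ⟨c, hc⟩ := hsurj (residue A a)
    refine ⟨c, ?_⟩
    rw [Function.comp_apply] at hc ⊢
    rw [← sub_eq_zero, ← map_sub, residue_eq_zero_iff] at hc ⊢
    have h4 : algebraMap 𝒪 B c - f a = f (algebraMap 𝒪 A c - a) := by
      rw [map_sub, AlgHom.commutes]
    rw [h4]
    exact map_nonunit (f : A →+* B) _ hc

/-- A nontrivial quotient of an Artinian test algebra is an Artinian test algebra. -/
theorem testAlg_of_surjective {A B : Type} [CommRing A] [IsLocalRing A] [Algebra 𝒪 A]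
    [CommRing B] [IsLocalRing B] [Algebra 𝒪 B] (hA : IsArtinianTestAlgebra 𝒪 A)
    (f : A →ₐ[𝒪] B) (hf : Function.Surjective f) : IsArtinianTestAlgebra 𝒪 B := by
  have := hA.isArtinian
  have : IsArtinianRing B := Function.Surjective.isArtinianRing (f := (f : A →+* B)) hf
  exact testAlg_of_surjective' hA.isLocalHom hA.residue_surjective f hf

/-- The quotient of a noetherian local `𝒪`-algebra (local structure map, residue field `k`) by a
power `≥ 1` of its maximal ideal is an Artinian test algebra. -/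
theorem testAlg_quot_pow {A : Type} [CommRing A] [IsLocalRing A] [IsNoetherianRing A]
    [Algebra 𝒪 A] (hloc : IsLocalHom (algebraMap 𝒪 A))
    (hsurj : Function.Surjective (residue A ∘ algebraMap 𝒪 A)) (n : ℕ)
    [IsLocalRing (A ⧸ maximalIdeal A ^ n)] :
    IsArtinianTestAlgebra 𝒪 (A ⧸ maximalIdeal A ^ n) := by
  have hmk : Function.Surjective (Ideal.Quotient.mkₐ 𝒪 (maximalIdeal A ^ n)) :=
    Ideal.Quotient.mkₐ_surjective 𝒪 _
  haveI : IsLocalHom (Ideal.Quotient.mk (maximalIdeal A ^ n)) :=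
    IsLocalHom.of_surjective _ Ideal.Quotient.mk_surjective
  haveI : IsArtinianRing (A ⧸ maximalIdeal A ^ n) := by
    rw [isArtinianRing_iff_isNilpotent_maximalIdeal]
    refine ⟨n, ?_⟩
    have h1 : maximalIdeal (A ⧸ maximalIdeal A ^ n) =
        (maximalIdeal A).map (Ideal.Quotient.mk (maximalIdeal A ^ n)) := by
      have h2 := IsLocalRing.maximalIdeal_comap (Ideal.Quotient.mk (maximalIdeal A ^ n))
      have h3 := Ideal.map_comap_of_surjective (Ideal.Quotient.mk (maximalIdeal A ^ n))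
        Ideal.Quotient.mk_surjective (maximalIdeal (A ⧸ maximalIdeal A ^ n))
      rw [h2] at h3
      exact h3.symm
    rw [h1, ← Ideal.map_pow, Ideal.map_quotient_self, Ideal.zero_eq_bot]
  exact testAlg_of_surjective' hloc hsurj (Ideal.Quotient.mkₐ 𝒪 (maximalIdeal A ^ n)) hmk

/-- `𝒟 (ofMat r _)` only depends on `r`. -/
theorem type_congr {A : Type} [CommRing A] [IsLocalRing A] [Algebra 𝒪 A] {r r' : GQ →* M2 A}
    (h : r = r') (hr : MatCont r) (hr' : MatCont r') (hD : 𝒟 (ofMat r hr)) :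
    𝒟 (ofMat r' hr') := by
  subst h; exact hD

/-! ### Upward closure -/

/-- Good ideals are upward closed (among proper ideals). -/
theorem isGoodIdeal_of_le (h𝒟 : IsDeformationCondition 𝒪 𝒟) {𝔞 𝔟 : Ideal (RpreE E)}
    (ha : IsGoodIdeal rt E 𝒟 𝔞) (hle : 𝔞 ≤ 𝔟) (hb : 𝔟 ≠ ⊤) : IsGoodIdeal rt E 𝒟 𝔟 := by
  haveI := isLocalRing_of_good ha
  have hA := testAlg_of_good ha
  have hg := goodLift_of_good ha
  haveI : Nontrivial (RpreE E ⧸ 𝔟) := Ideal.Quotient.nontrivial_iff.mpr hb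
  let f : RpreE E ⧸ 𝔞 →ₐ[𝒪] RpreE E ⧸ 𝔟 := Ideal.Quotient.factorₐ 𝒪 hle
  have hf : Function.Surjective f := Ideal.Quotient.factor_surjective hle
  haveI : IsLocalRing (RpreE E ⧸ 𝔟) :=
    IsLocalRing.of_surjective' (f : RpreE E ⧸ 𝔞 →+* RpreE E ⧸ 𝔟) hf
  have hfl : IsLocalHom (f : RpreE E ⧸ 𝔞 →+* RpreE E ⧸ 𝔟) := IsLocalHom.of_surjective _ hf
  have hB : IsArtinianTestAlgebra 𝒪 (RpreE E ⧸ 𝔟) := testAlg_of_surjective hA f hf
  refine ⟨inferInstance, hB, ?_⟩
  have hcont : MatCont (mapMat (f : RpreE E ⧸ 𝔞 →+* RpreE E ⧸ 𝔟) (rQuot E 𝔞)) :=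
    matCont_mapMat (f : RpreE E ⧸ 𝔞 →+* RpreE E ⧸ 𝔟) hfl hg.cont
  have hlift : IsLiftRt rt (mapMat (f : RpreE E ⧸ 𝔞 →+* RpreE E ⧸ 𝔟) (rQuot E 𝔞)) :=
    isLiftRt_mapMat rt f hfl hg.lift
  have hnorm : IsNorm E (mapMat (f : RpreE E ⧸ 𝔞 →+* RpreE E ⧸ 𝔟) (rQuot E 𝔞)) :=
    Presentation.IsNormalised.map f hg.norm
  have htype : 𝒟 (ofMat (mapMat (f : RpreE E ⧸ 𝔞 →+* RpreE E ⧸ 𝔟) (rQuot E 𝔞)) hcont) :=
    type_mapMat h𝒟 hA hB f hfl hg.cont hg.type
  have heq : mapMat (f : RpreE E ⧸ 𝔞 →+* RpreE E ⧸ 𝔟) (rQuot E 𝔞) = rQuot E 𝔟 := rfl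
  rw [heq] at hlift hnorm
  have htype' : 𝒟 (ofMat (rQuot E 𝔟) (heq ▸ hcont)) := by
    have : ∀ (r r' : GQ →* M2 (RpreE E ⧸ 𝔟)) (h : r = r') (hr : MatCont r),
        𝒟 (ofMat r hr) → 𝒟 (ofMat r' (h ▸ hr)) := by
      intro r r' h hr hD; subst h; exact hD
    exact this _ _ heq hcont htype
  exact ⟨hlift, hnorm, heq ▸ hcont, htype'⟩

/-! ### The maximal ideal of `RpreE E` -/

/-- The ideal of `RpreE E` generated by the `X (g,i,j) - rt g i j` and by `𝔪_𝒪`. -/
noncomputable def mPre (rt : GQ → M2 𝒪) (E : Set (PolyRing 𝒪)) : Ideal (RpreE E) :=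
  Ideal.span (Set.range (yGen rt E)) ⊔ (maximalIdeal 𝒪).map (algebraMap 𝒪 (RpreE E))

theorem yGen_mem_mPre (x : GQ × Fin 2 × Fin 2) : yGen rt E x ∈ mPre rt E :=
  Ideal.mem_sup_left (Ideal.subset_span ⟨x, rfl⟩)

theorem algebraMap_mem_mPre {c : 𝒪} (hc : c ∈ maximalIdeal 𝒪) :
    algebraMap 𝒪 (RpreE E) c ∈ mPre rt E :=
  Ideal.mem_sup_right (Ideal.mem_map_of_mem _ hc)

/-- Every element of `RpreE E` is congruent to a constant modulo the `yGen`. -/
theorem exists_sub_algebraMap_mem_span_yGen (z : RpreE E) :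
    ∃ c : 𝒪, z - algebraMap 𝒪 (RpreE E) c ∈ Ideal.span (Set.range (yGen rt E)) := by
  have hz : z ∈ Algebra.adjoin 𝒪 (Set.range fun x : GQ × Fin 2 × Fin 2 =>
      Presentation.gen 𝒪 E x.1 x.2.1 x.2.2) := by
    rw [Presentation.adjoin_gen_eq_top]; trivial
  induction hz using Algebra.adjoin_induction with
  | mem z hz =>
    obtain ⟨x, rfl⟩ := hz
    refine ⟨rt x.1 x.2.1 x.2.2, ?_⟩
    exact Ideal.subset_span ⟨x, rfl⟩
  | algebraMap c => exact ⟨c, by simp⟩
  | add z w _ _ hz hw =>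
    obtain ⟨c, hc⟩ := hz
    obtain ⟨c', hc'⟩ := hw
    refine ⟨c + c', ?_⟩
    have : z + w - algebraMap 𝒪 (RpreE E) (c + c') =
        (z - algebraMap 𝒪 (RpreE E) c) + (w - algebraMap 𝒪 (RpreE E) c') := by
      rw [map_add]; ring
    rw [this]
    exact Ideal.add_mem _ hc hc'
  | mul z w _ _ hz hw =>
    obtain ⟨c, hc⟩ := hz
    obtain ⟨c', hc'⟩ := hw
    refine ⟨c * c', ?_⟩
    have : z * w - algebraMap 𝒪 (RpreE E) (c * c') =
        (z - algebraMap 𝒪 (RpreE E) c) * w +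
          algebraMap 𝒪 (RpreE E) c * (w - algebraMap 𝒪 (RpreE E) c') := by
      rw [map_mul]; ring
    rw [this]
    exact Ideal.add_mem _ (Ideal.mul_mem_right _ _ hc) (Ideal.mul_mem_left _ _ hc')

/-- For a good ideal, the preimage of the maximal ideal of the quotient is `mPre`. -/
theorem comap_maximalIdeal_of_good {𝔞 : Ideal (RpreE E)} (h : IsGoodIdeal rt E 𝒟 𝔞) :
    haveI := isLocalRing_of_good h
    (maximalIdeal (RpreE E ⧸ 𝔞)).comap (Ideal.Quotient.mk 𝔞) = mPre rt E := by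
  haveI := isLocalRing_of_good h
  have hA := testAlg_of_good h
  have hg := goodLift_of_good h
  haveI := hA.isLocalHom
  have hy : ∀ x, Ideal.Quotient.mk 𝔞 (yGen rt E x) ∈ maximalIdeal (RpreE E ⧸ 𝔞) := by
    intro x
    have := hg.lift x.1 x.2.1 x.2.2
    simpa [yGen, rQuot, mapMat_apply_apply] using this
  have hspan : Ideal.span (Set.range (yGen rt E)) ≤
      (maximalIdeal (RpreE E ⧸ 𝔞)).comap (Ideal.Quotient.mk 𝔞) := by
    rw [Ideal.span_le]
    rintro _ ⟨x, rfl⟩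
    exact hy x
  apply le_antisymm
  · intro z hz
    obtain ⟨c, hc⟩ := exists_sub_algebraMap_mem_span_yGen (rt := rt) z
    have h1 : algebraMap 𝒪 (RpreE E) c ∈
        (maximalIdeal (RpreE E ⧸ 𝔞)).comap (Ideal.Quotient.mk 𝔞) := by
      have : algebraMap 𝒪 (RpreE E) c = z - (z - algebraMap 𝒪 (RpreE E) c) := by ring
      rw [this]
      exact Ideal.sub_mem _ hz (hspan hc)
    have h2 : c ∈ maximalIdeal 𝒪 := by
      by_contra hcu
      rw [mem_maximalIdeal, mem_nonunits_iff, not_not] at hcu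
      have h3 : IsUnit (algebraMap 𝒪 (RpreE E ⧸ 𝔞) c) := hcu.map _
      exact (mem_maximalIdeal _).mp h1 h3
    have : z = (z - algebraMap 𝒪 (RpreE E) c) + algebraMap 𝒪 (RpreE E) c := by ring
    rw [this]
    exact Ideal.add_mem _ (Ideal.mem_sup_left hc) (algebraMap_mem_mPre h2)
  · refine sup_le hspan ?_
    rw [Ideal.map_le_iff_le_comap]
    intro c hc
    rw [Ideal.mem_comap, Ideal.mem_comap]
    exact map_nonunit (algebraMap 𝒪 (RpreE E ⧸ 𝔞)) c hc

theorem le_mPre_of_good {𝔞 : Ideal (RpreE E)} (h : IsGoodIdeal rt E 𝒟 𝔞) : 𝔞 ≤ mPre rt E := by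
  haveI := isLocalRing_of_good h
  rw [← comap_maximalIdeal_of_good h]
  intro z hz
  rw [Ideal.mem_comap, Ideal.Quotient.eq_zero_iff_mem.mpr hz]
  exact Ideal.zero_mem _

theorem mPre_isMaximal_of_good {𝔞 : Ideal (RpreE E)} (h : IsGoodIdeal rt E 𝒟 𝔞) :
    (mPre rt E).IsMaximal := by
  haveI := isLocalRing_of_good h
  rw [← comap_maximalIdeal_of_good h]
  exact Ideal.comap_isMaximal_of_surjective _ Ideal.Quotient.mk_surjective

theorem map_mPre_of_good {𝔞 : Ideal (RpreE E)} (h : IsGoodIdeal rt E 𝒟 𝔞) :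
    haveI := isLocalRing_of_good h
    (mPre rt E).map (Ideal.Quotient.mk 𝔞) = maximalIdeal (RpreE E ⧸ 𝔞) := by
  haveI := isLocalRing_of_good h
  rw [← comap_maximalIdeal_of_good h]
  exact Ideal.map_comap_of_surjective _ Ideal.Quotient.mk_surjective _

/-- `mPre ^ n ≤ 𝔞` iff the `n`-th power of the maximal ideal of the quotient vanishes. -/
theorem mPre_pow_le_iff_of_good {𝔞 : Ideal (RpreE E)} (h : IsGoodIdeal rt E 𝒟 𝔞) (n : ℕ) :
    haveI := isLocalRing_of_good h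
    mPre rt E ^ n ≤ 𝔞 ↔ maximalIdeal (RpreE E ⧸ 𝔞) ^ n = ⊥ := by
  haveI := isLocalRing_of_good h
  rw [← map_mPre_of_good h, ← Ideal.map_pow, Ideal.map_eq_bot_iff_le_ker, Ideal.mk_ker]

theorem exists_mPre_pow_le_of_good {𝔞 : Ideal (RpreE E)} (h : IsGoodIdeal rt E 𝒟 𝔞) :
    ∃ n : ℕ, mPre rt E ^ n ≤ 𝔞 := by
  haveI := isLocalRing_of_good h
  haveI := (testAlg_of_good h).isArtinian
  have hnil := IsArtinianRing.isNilpotent_jacobson_bot (R := RpreE E ⧸ 𝔞)
  rw [IsLocalRing.jacobson_eq_maximalIdeal ⊥ bot_ne_top] at hnil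
  obtain ⟨n, hn⟩ := hnil
  exact ⟨n, (mPre_pow_le_iff_of_good h n).mpr hn⟩

/-- The structure map `𝒪 → RpreE E ⧸ mPre` is surjective. -/
theorem algebraMap_quot_mPre_surjective :
    Function.Surjective (algebraMap 𝒪 (RpreE E ⧸ mPre rt E)) := by
  intro y
  obtain ⟨z, rfl⟩ := Ideal.Quotient.mk_surjective y
  obtain ⟨c, hc⟩ := exists_sub_algebraMap_mem_span_yGen (rt := rt) z
  refine ⟨c, ?_⟩
  have h1 : algebraMap 𝒪 (RpreE E ⧸ mPre rt E) c =
      Ideal.Quotient.mk (mPre rt E) (algebraMap 𝒪 (RpreE E) c) := rfl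
  rw [h1, eq_comm, Ideal.Quotient.eq]
  exact Ideal.mem_sup_left hc

/-- The residue field of an Artinian test algebra is finite when that of `𝒪` is. -/
theorem finite_residueField_of_testAlg [Finite (ResidueField 𝒪)] {A : Type} [CommRing A]
    [IsLocalRing A] [Algebra 𝒪 A] (hsurj : Function.Surjective (residue A ∘ algebraMap 𝒪 A)) :
    Finite (ResidueField A) := by
  -- the surjection `𝒪 → ResidueField A` factors through `ResidueField 𝒪`? we only need a
  -- surjection from a finite type; use the quotient of `𝒪` by the kernel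
  let φ : 𝒪 →+* ResidueField A := (residue A).comp (algebraMap 𝒪 A)
  have hφ : Function.Surjective φ := hsurj
  have hker : maximalIdeal 𝒪 ≤ RingHom.ker φ := by
    have hne : RingHom.ker φ ≠ ⊤ := RingHom.ker_ne_top φ
    have hmax : (RingHom.ker φ).IsMaximal := RingHom.ker_isMaximal_of_surjective φ hφ
    exact (IsLocalRing.eq_maximalIdeal hmax).ge
  let ψ : ResidueField 𝒪 →+* ResidueField A := Ideal.Quotient.lift (maximalIdeal 𝒪) φ
    (fun a ha => hker ha)
  have hψ : Function.Surjective ψ := by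
    intro y
    obtain ⟨c, rfl⟩ := hφ y
    exact ⟨residue 𝒪 c, rfl⟩
  exact Finite.of_surjective ψ hψ

theorem finite_quot_of_good [Finite (ResidueField 𝒪)] {𝔞 : Ideal (RpreE E)}
    (h : IsGoodIdeal rt E 𝒟 𝔞) : Finite (RpreE E ⧸ 𝔞) := by
  haveI := isLocalRing_of_good h
  have hA := testAlg_of_good h
  haveI := hA.isArtinian
  haveI := finite_residueField_of_testAlg hA.residue_surjective
  exact finite_of_isArtinianRing_of_finite_residueField _

end Fermat.Agent.S53.Seq
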