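/-
S53 (sequential route, owner: helper90): construction of the universal normalised lift
(`UnivData` of `UnivDefs.lean`) from the good-ideal facts, through the inverse limit of
`AdicLimit.lean` (no power series completeness, no compactness).
-/
import Fermat.Agent.S53.UnivDefs
import Fermat.Agent.S53.SeqGood
import Fermat.Agent.S53.AdicLimitHom
import Fermat.Agent.S53.MinChain

set_option autoImplicit false
set_option linter.unusedSectionVars false
set_option linter.style.haveILetI false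

namespace Fermat.Agent.S53.Seq

open IsLocalRing GaloisRep AdicLim

variable {𝒪 : Type} [CommRing 𝒪] [IsLocalRing 𝒪] {rt : GQ → M2 𝒪} {E : Set (PolyRing 𝒪)}
  {𝒟 : ∀ ⦃A : Type⦄ [CommRing A] [IsLocalRing A] [Algebra 𝒪 A], GaloisRepAdic A → Prop}

/-! ### Section 1: generators -/

/-- A polynomial without constant term evaluates into the ideal generated by the point. -/
theorem aeval_sub_C_mem_span {B : Type*} [CommRing B] [Algebra 𝒪 B] {σ : Type*} (y : σ → B)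
    (p : MvPolynomial σ 𝒪) :
    MvPolynomial.aeval y p - algebraMap 𝒪 B (MvPolynomial.constantCoeff p) ∈
      Ideal.span (Set.range y) := by
  have h1 : p - MvPolynomial.C (MvPolynomial.constantCoeff p) ∈
      MvPolynomial.idealOfVars σ 𝒪 ^ 1 := by
    rw [MvPolynomial.mem_pow_idealOfVars_iff']
    intro x hx
    have hx0 : x = 0 := by
      have : x.degree = 0 := by omega
      exact Finsupp.degree_eq_zero_iff x |>.mp this
    subst hx0
    simp [MvPolynomial.constantCoeff_eq]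
  have h2 := aeval_mem_span_pow y 1 _ h1
  rw [pow_one, map_sub, MvPolynomial.aeval_C] at h2
  exact h2

section Gens

variable (hinf : ∀ 𝔞 𝔟, IsGoodIdeal rt E 𝒟 𝔞 → IsGoodIdeal rt E 𝒟 𝔟 → IsGoodIdeal rt E 𝒟 (𝔞 ⊓ 𝔟))
  {d : ℕ} (x : Fin d → GQ × Fin 2 × Fin 2) {𝔞₀ : Ideal (RpreE E)}
  (h₀ : IsGoodIdeal rt E 𝒟 𝔞₀)
  (hgen : ∀ 𝔞, IsGoodIdeal rt E 𝒟 𝔞 → 𝔞 ≤ 𝔞₀ → ∀ z : RpreE E,
    ∃ p : MvPolynomial (Fin d) 𝒪,
      z - MvPolynomial.aeval (fun i => yGen rt E (x i)) p ∈ 𝔞)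

include hinf h₀ hgen in
/-- The generation statement holds for all good ideals. -/
theorem hgen_all {𝔞 : Ideal (RpreE E)} (ha : IsGoodIdeal rt E 𝒟 𝔞) (z : RpreE E) :
    ∃ p : MvPolynomial (Fin d) 𝒪,
      z - MvPolynomial.aeval (fun i => yGen rt E (x i)) p ∈ 𝔞 := by
  obtain ⟨p, hp⟩ := hgen (𝔞 ⊓ 𝔞₀) (hinf 𝔞 𝔞₀ ha h₀) inf_le_right z
  exact ⟨p, hp.1⟩

/-- The family of generators: generators of `𝔪_𝒪` together with the `yGen (x i)`. -/
noncomputable def tGen {s : ℕ} (ϖ : Fin s → 𝒪) (x : Fin d → GQ × Fin 2 × Fin 2) :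
    Fin s ⊕ Fin d → RpreE E :=
  Sum.elim (fun i => algebraMap 𝒪 (RpreE E) (ϖ i)) (fun i => yGen rt E (x i))

theorem tGen_mem_mPre {s : ℕ} (ϖ : Fin s → 𝒪) (hϖ : ∀ i, ϖ i ∈ maximalIdeal 𝒪)
    (i : Fin s ⊕ Fin d) : tGen (rt := rt) (E := E) ϖ x i ∈ mPre rt E := by
  rcases i with i | i
  · exact algebraMap_mem_mPre (hϖ i)
  · exact yGen_mem_mPre _

include hinf h₀ hgen in
/-- `mPre` is generated modulo any good ideal by the `tGen`. -/
theorem mPre_le_sup_span_tGen {s : ℕ} (ϖ : Fin s → 𝒪)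
    (hϖ : Ideal.span (Set.range ϖ) = maximalIdeal 𝒪)
    {𝔞 : Ideal (RpreE E)} (ha : IsGoodIdeal rt E 𝒟 𝔞) :
    mPre rt E ≤ 𝔞 ⊔ Ideal.span (Set.range (tGen (rt := rt) (E := E) ϖ x)) := by
  intro z hz
  obtain ⟨p, hp⟩ := hgen_all hinf x h₀ hgen ha z
  set y : Fin d → RpreE E := fun i => yGen rt E (x i) with hy
  set c := MvPolynomial.constantCoeff p with hc
  have h1 : MvPolynomial.aeval y p - algebraMap 𝒪 (RpreE E) c ∈ Ideal.span (Set.range y) :=
    aeval_sub_C_mem_span y p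
  have hyt : Ideal.span (Set.range y) ≤
      Ideal.span (Set.range (tGen (rt := rt) (E := E) ϖ x)) := by
    apply Ideal.span_mono
    rintro _ ⟨i, rfl⟩
    exact ⟨Sum.inr i, rfl⟩
  have hymPre : Ideal.span (Set.range y) ≤ mPre rt E := by
    rw [Ideal.span_le]
    rintro _ ⟨i, rfl⟩
    exact yGen_mem_mPre _
  -- the constant term lies in `𝔪_𝒪`
  have h2 : algebraMap 𝒪 (RpreE E) c ∈ mPre rt E := by
    have : algebraMap 𝒪 (RpreE E) c =
        z - (z - MvPolynomial.aeval y p) - (MvPolynomial.aeval y p - algebraMap 𝒪 (RpreE E) c) := by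
      ring
    rw [this]
    exact Ideal.sub_mem _ (Ideal.sub_mem _ hz (le_mPre_of_good ha hp)) (hymPre h1)
  have h3 : c ∈ maximalIdeal 𝒪 := by
    by_contra hcu
    rw [mem_maximalIdeal, mem_nonunits_iff, not_not] at hcu
    have hu : IsUnit (algebraMap 𝒪 (RpreE E) c) := hcu.map _
    exact (mPre_isMaximal_of_good ha).ne_top (Ideal.eq_top_of_isUnit_mem _ h2 hu)
  have h4 : algebraMap 𝒪 (RpreE E) c ∈
      Ideal.span (Set.range (tGen (rt := rt) (E := E) ϖ x)) := by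
    rw [← hϖ] at h3
    have h5 := Ideal.mem_map_of_mem (algebraMap 𝒪 (RpreE E)) h3
    rw [Ideal.map_span, ← Set.range_comp] at h5
    refine Ideal.span_mono ?_ h5
    rintro _ ⟨i, rfl⟩
    exact ⟨Sum.inl i, rfl⟩
  have : z = (z - MvPolynomial.aeval y p) +
      ((MvPolynomial.aeval y p - algebraMap 𝒪 (RpreE E) c) + algebraMap 𝒪 (RpreE E) c) := by ring
  rw [this]
  exact Ideal.add_mem _ (Ideal.mem_sup_left hp)
    (Ideal.mem_sup_right (Ideal.add_mem _ (hyt h1) h4))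

/-- The residue field of a power series ring over `𝒪` is finite. -/
theorem finite_residueField_mvPowerSeries [Finite (ResidueField 𝒪)] (σ : Type) [Finite σ] :
    Finite (ResidueField (MvPowerSeries σ 𝒪)) := by
  apply finite_residueField_of_testAlg (𝒪 := 𝒪)
  intro y
  obtain ⟨f, rfl⟩ := residue_surjective y
  refine ⟨MvPowerSeries.constantCoeff f, ?_⟩
  rw [Function.comp_apply, ← sub_eq_zero, ← map_sub, residue_eq_zero_iff, mem_maximalIdeal,
    mem_nonunits_iff, MvPowerSeries.isUnit_iff_constantCoeff, map_sub,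
    MvPowerSeries.algebraMap_apply, Algebra.algebraMap_self, RingHom.id_apply,
    MvPowerSeries.constantCoeff_C, sub_self]
  exact not_isUnit_zero

include hinf h₀ hgen in
/-- Evaluation at the images of `tGen` is surjective onto every good quotient. -/
theorem aeval_tGen_surjective {s : ℕ} (ϖ : Fin s → 𝒪) {𝔞 : Ideal (RpreE E)}
    (ha : IsGoodIdeal rt E 𝒟 𝔞) :
    Function.Surjective (MvPolynomial.aeval
      (fun i => Ideal.Quotient.mk 𝔞 (tGen (rt := rt) (E := E) ϖ x i)) :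
        MvPolynomial (Fin s ⊕ Fin d) 𝒪 →ₐ[𝒪] RpreE E ⧸ 𝔞) := by
  intro b
  obtain ⟨z, rfl⟩ := Ideal.Quotient.mk_surjective b
  obtain ⟨p, hp⟩ := hgen_all hinf x h₀ hgen ha z
  refine ⟨MvPolynomial.rename Sum.inr p, ?_⟩
  rw [MvPolynomial.aeval_rename]
  have h1 : (fun i => Ideal.Quotient.mk 𝔞 (tGen (rt := rt) (E := E) ϖ x i)) ∘ Sum.inr =
      fun i => Ideal.Quotient.mkₐ 𝒪 𝔞 (yGen rt E (x i)) := rfl
  rw [h1, ← MvPolynomial.comp_aeval_apply, Ideal.Quotient.mkₐ_eq_mk, eq_comm, Ideal.Quotient.eq]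
  exact hp

include hinf h₀ hgen in
/-- Uniform cardinality bound for good quotients killed by `mPre ^ n`. -/
theorem card_quot_le [IsNoetherianRing 𝒪] [Finite (ResidueField 𝒪)] {s : ℕ} (ϖ : Fin s → 𝒪)
    (hϖ : ∀ i, ϖ i ∈ maximalIdeal 𝒪) (n : ℕ) {𝔞 : Ideal (RpreE E)}
    (ha : IsGoodIdeal rt E 𝒟 𝔞) (hn : mPre rt E ^ n ≤ 𝔞) :
    Nat.card (RpreE E ⧸ 𝔞) ≤
      Nat.card (MvPowerSeries (Fin s ⊕ Fin d) 𝒪 ⧸
        maximalIdeal (MvPowerSeries (Fin s ⊕ Fin d) 𝒪) ^ n) := by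
  haveI := isLocalRing_of_good ha
  have hmax : maximalIdeal (RpreE E ⧸ 𝔞) ^ n = ⊥ := (mPre_pow_le_iff_of_good ha n).mp hn
  set tb : Fin s ⊕ Fin d → RpreE E ⧸ 𝔞 :=
    fun i => Ideal.Quotient.mk 𝔞 (tGen (rt := rt) (E := E) ϖ x i) with htb
  have hspan : Ideal.span (Set.range tb) ^ n = ⊥ := by
    rw [eq_bot_iff, ← hmax]
    apply Ideal.pow_right_mono
    rw [Ideal.span_le]
    rintro _ ⟨i, rfl⟩
    rw [← map_mPre_of_good ha]
    exact Ideal.mem_map_of_mem _ (tGen_mem_mPre x ϖ hϖ i)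
  let ev : MvPowerSeries (Fin s ⊕ Fin d) 𝒪 →ₐ[𝒪] RpreE E ⧸ 𝔞 := evalNilp tb n hspan
  have hev : Function.Surjective ev :=
    evalNilp_surjective tb n hspan (aeval_tGen_surjective hinf x h₀ hgen ϖ ha)
  haveI : IsLocalHom (ev : MvPowerSeries (Fin s ⊕ Fin d) 𝒪 →+* RpreE E ⧸ 𝔞) :=
    IsLocalHom.of_surjective _ hev
  have hker : maximalIdeal (MvPowerSeries (Fin s ⊕ Fin d) 𝒪) ^ n ≤
      RingHom.ker (ev : MvPowerSeries (Fin s ⊕ Fin d) 𝒪 →+* RpreE E ⧸ 𝔞) := by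
    intro f hf
    have := map_mem_maximalIdeal_pow
      (ev : MvPowerSeries (Fin s ⊕ Fin d) 𝒪 →+* RpreE E ⧸ 𝔞) n f hf
    rwa [hmax, Ideal.mem_bot] at this
  haveI := finite_residueField_mvPowerSeries (𝒪 := 𝒪) (Fin s ⊕ Fin d)
  haveI : Finite (MvPowerSeries (Fin s ⊕ Fin d) 𝒪 ⧸
      maximalIdeal (MvPowerSeries (Fin s ⊕ Fin d) 𝒪) ^ n) :=
    finite_quotient_maximalIdeal_pow _ n
  refine Nat.card_le_card_of_surjective
    (Ideal.Quotient.lift _ (ev : MvPowerSeries (Fin s ⊕ Fin d) 𝒪 →+* RpreE E ⧸ 𝔞)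
      (fun f hf => hker hf)) ?_
  intro b
  obtain ⟨f, rfl⟩ := hev b
  exact ⟨Ideal.Quotient.mk _ f, rfl⟩

end Gens

/-! ### Section 2: the canonical chain of good ideals -/

/-- The data of a chain of good ideals to which `AdicLimit.lean` applies. -/
structure SeqChain (rt : GQ → M2 𝒪) (E : Set (PolyRing 𝒪))
    (𝒟 : ∀ ⦃A : Type⦄ [CommRing A] [IsLocalRing A] [Algebra 𝒪 A], GaloisRepAdic A → Prop) where
  a : ℕ → Ideal (RpreE E)
  good : ∀ n, 1 ≤ n → IsGoodIdeal rt E 𝒟 (a n)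
  hpow : ∀ n, mPre rt E ^ n ≤ a n
  hmono : ∀ n, a (n + 1) ≤ a n
  hstep : ∀ n, a n ≤ a (n + 1) ⊔ mPre rt E ^ n
  h1 : a 1 ≤ mPre rt E
  hmin : ∀ n, 1 ≤ n → ∀ b, IsGoodIdeal rt E 𝒟 b → mPre rt E ^ n ≤ b → a n ≤ b
  m : ℕ
  t : Fin m → RpreE E
  ht : ∀ i, t i ∈ mPre rt E
  hgen : mPre rt E ≤ a 2 ⊔ Ideal.span (Set.range t)
  hmax : (mPre rt E).IsMaximal

theorem nonempty_seqChain [IsNoetherianRing 𝒪] [Finite (ResidueField 𝒪)]
    (h𝒟 : IsDeformationCondition 𝒪 𝒟)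
    (hinf : ∀ 𝔞 𝔟, IsGoodIdeal rt E 𝒟 𝔞 → IsGoodIdeal rt E 𝒟 𝔟 → IsGoodIdeal rt E 𝒟 (𝔞 ⊓ 𝔟))
    {d : ℕ} (x : Fin d → GQ × Fin 2 × Fin 2) {𝔞₀ : Ideal (RpreE E)}
    (h₀ : IsGoodIdeal rt E 𝒟 𝔞₀)
    (hgen : ∀ 𝔞, IsGoodIdeal rt E 𝒟 𝔞 → 𝔞 ≤ 𝔞₀ → ∀ z : RpreE E,
      ∃ p : MvPolynomial (Fin d) 𝒪,
        z - MvPolynomial.aeval (fun i => yGen rt E (x i)) p ∈ 𝔞) :
    Nonempty (SeqChain rt E 𝒟) := by
  have hmax : (mPre rt E).IsMaximal := mPre_isMaximal_of_good h₀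
  -- generators of the maximal ideal of `𝒪`
  obtain ⟨s, ϖ, hϖ⟩ := Submodule.fg_iff_exists_fin_generating_family.mp
    (IsNoetherian.noetherian (maximalIdeal 𝒪))
  have hϖ' : Ideal.span (Set.range ϖ) = maximalIdeal 𝒪 := hϖ
  have hϖmem : ∀ i, ϖ i ∈ maximalIdeal 𝒪 := fun i => hϖ' ▸ Ideal.subset_span ⟨i, rfl⟩
  -- the chain
  obtain ⟨a, ha1, ha2, ha3, ha4, ha5, ha6⟩ := exists_min_chain (mPre rt E)
    {𝔞 | IsGoodIdeal rt E 𝒟 𝔞}
    (fun 𝔞 h𝔞 𝔟 h𝔟 => hinf 𝔞 𝔟 h𝔞 h𝔟)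
    (fun 𝔞 h𝔞 n hn => isGoodIdeal_of_le h𝒟 h𝔞 le_sup_left (fun htop => hmax.ne_top (by
      rw [eq_top_iff, ← htop]
      exact sup_le (le_mPre_of_good h𝔞) (Ideal.pow_le_self (Nat.one_le_iff_ne_zero.mp hn)))))
    (isGoodIdeal_of_le h𝒟 h₀ (le_mPre_of_good h₀) hmax.ne_top)
    (fun 𝔞 h𝔞 => finite_quot_of_good h𝔞)
    (fun n => ⟨_, fun 𝔞 h𝔞 hn => card_quot_le hinf x h₀ hgen ϖ hϖmem n h𝔞 hn⟩)
  let e := finSumFinEquiv (m := s) (n := d)
  have hrange : Set.range (tGen (rt := rt) (E := E) ϖ x ∘ e.symm) =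
      Set.range (tGen (rt := rt) (E := E) ϖ x) := e.symm.surjective.range_comp _
  refine ⟨⟨a, ha1, ha2, ha3, ha4, ha5, ha6, s + d, tGen (rt := rt) (E := E) ϖ x ∘ e.symm,
    fun i => tGen_mem_mPre x ϖ hϖmem _, ?_, hmax⟩⟩
  rw [hrange]
  exact mPre_le_sup_span_tGen hinf x h₀ hgen ϖ hϖ' (ha1 2 (by norm_num))

/-! ### Section 3: the universal ring -/

namespace SeqChain

variable (C : SeqChain rt E 𝒟)

/-- The universal ring: the inverse limit of the good quotients `RpreE E ⧸ a n`. -/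
abbrev R : Type := limSubalgebra 𝒪 C.a C.hmono

theorem a_one_ne_top : C.a 1 ≠ ⊤ := fun h =>
  C.hmax.ne_top (eq_top_iff.mpr (h ▸ C.h1))

instance instIsLocalRingR : IsLocalRing C.R :=
  lim_isLocalRing 𝒪 C.hpow C.hmono C.hstep algebraMap_quot_mPre_surjective C.t C.ht C.hgen
    C.a_one_ne_top

instance instIsNoetherianRingR [IsNoetherianRing 𝒪] : IsNoetherianRing C.R :=
  lim_isNoetherianRing 𝒪 C.hpow C.hmono C.hstep algebraMap_quot_mPre_surjective C.t C.ht C.hgen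

instance instIsAdicCompleteR [IsNoetherianRing 𝒪] : IsAdicComplete (maximalIdeal C.R) C.R :=
  haveI := C.hmax
  lim_isAdicComplete 𝒪 C.hpow C.hmono C.hstep algebraMap_quot_mPre_surjective C.t C.ht C.hgen C.h1

instance instIsLocalHomR : IsLocalHom (algebraMap 𝒪 C.R) :=
  haveI := C.hmax
  lim_isLocalHom_algebraMap 𝒪 C.hpow C.hmono algebraMap_quot_mPre_surjective C.h1

theorem residue_surjective : Function.Surjective (residue C.R ∘ algebraMap 𝒪 C.R) :=
  haveI := C.hmax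
  lim_residue_surjective 𝒪 C.hpow C.hmono C.hstep algebraMap_quot_mPre_surjective C.t C.ht
    C.hgen C.h1

theorem ker_limProj (n : ℕ) :
    RingHom.ker (limProj 𝒪 C.a C.hmono n) = maximalIdeal C.R ^ n :=
  haveI := C.hmax
  lim_ker_limProj_eq_maximalIdeal_pow 𝒪 C.hpow C.hmono C.hstep algebraMap_quot_mPre_surjective
    C.t C.ht C.hgen C.h1 n

theorem limProj_surj (n : ℕ) : Function.Surjective (limProj 𝒪 C.a C.hmono n) :=
  limProj_surjective 𝒪 C.hpow C.hmono C.hstep algebraMap_quot_mPre_surjective C.t C.ht C.hgen n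

/-- The universal lift. -/
noncomputable def ru : GQ →* M2 C.R :=
  mapMat (limOf 𝒪 C.a C.hmono : RpreE E →+* C.R) (Presentation.rtaut 𝒪 E)

theorem ru_apply (g : GQ) (i j : Fin 2) :
    C.ru g i j = limOf 𝒪 C.a C.hmono (Presentation.gen 𝒪 E g i j) := rfl

theorem mapMat_limProj_ru (n : ℕ) :
    mapMat (limProj 𝒪 C.a C.hmono n : C.R →+* RpreE E ⧸ C.a n) C.ru = rQuot E (C.a n) := rfl

/-! ### Section 4: the universal lift is good -/

theorem ru_isLiftRt : IsLiftRt rt C.ru := by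
  intro g i j
  have h1 : C.ru g i j - algebraMap 𝒪 C.R (rt g i j) =
      limOf 𝒪 C.a C.hmono (yGen rt E (g, i, j)) := by
    rw [ru_apply, yGen, map_sub, AlgHom.commutes]
  rw [h1, ← pow_one (maximalIdeal C.R), ← C.ker_limProj 1, RingHom.mem_ker, limProj_limOf,
    Ideal.Quotient.eq_zero_iff_mem]
  exact C.hpow 1 (by rw [pow_one]; exact yGen_mem_mPre _)

theorem ru_isNorm : IsNorm E C.ru :=
  (Presentation.rtaut_isNormalised 𝒪 E).map (limOf 𝒪 C.a C.hmono)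

theorem limProj_ru_sub_one (n : ℕ) (σ : GQ) (i j : Fin 2) :
    limProj 𝒪 C.a C.hmono n ((C.ru σ - 1) i j) = (rQuot E (C.a n) σ - 1) i j := by
  rw [Matrix.sub_apply, Matrix.sub_apply, map_sub, Matrix.one_apply, Matrix.one_apply]
  congr 1
  split_ifs <;> simp

theorem ru_matCont : MatCont C.ru := by
  intro n
  rcases Nat.eq_zero_or_pos n with rfl | hn
  · refine ⟨⊥, inferInstance, fun σ _ i j => ?_⟩
    rw [pow_zero, Ideal.one_eq_top]
    trivial
  · have hgood := C.good n hn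
    haveI := isLocalRing_of_good hgood
    have hg := goodLift_of_good hgood
    obtain ⟨L, hL, h⟩ := hg.cont n
    refine ⟨L, hL, fun σ hσ i j => ?_⟩
    have h0 : maximalIdeal (RpreE E ⧸ C.a n) ^ n = ⊥ :=
      (mPre_pow_le_iff_of_good hgood n).mp (C.hpow n)
    have h1 := h σ hσ i j
    rw [h0, Ideal.mem_bot] at h1
    rw [← C.ker_limProj n, RingHom.mem_ker, C.limProj_ru_sub_one, h1]

theorem ru_type [IsNoetherianRing 𝒪] (h𝒟 : IsDeformationCondition 𝒪 𝒟) :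
    𝒟 (ofMat C.ru C.ru_matCont) := by
  rw [type_ofMat_iff_forall_surjective h𝒟 (inferInstance : IsLocalHom (algebraMap 𝒪 C.R))
    C.residue_surjective C.ru_matCont]
  intro B _ _ _ hB q hq hqs
  haveI := hB.isArtinian
  -- the maximal ideal of `B` is nilpotent
  obtain ⟨n, hn⟩ : ∃ n : ℕ, maximalIdeal B ^ n = ⊥ := by
    have hnil := IsArtinianRing.isNilpotent_jacobson_bot (R := B)
    rw [IsLocalRing.jacobson_eq_maximalIdeal ⊥ bot_ne_top] at hnil
    exact hnil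
  have hn1 : maximalIdeal B ^ (n + 1) = ⊥ := by rw [pow_succ, hn, Ideal.bot_mul]
  have hN : 1 ≤ n + 1 := Nat.le_add_left 1 n
  haveI : IsLocalHom (q : C.R →+* B) := hq
  have hker : RingHom.ker (limProj 𝒪 C.a C.hmono (n + 1)) ≤ RingHom.ker q := by
    rw [C.ker_limProj]
    intro r hr
    have := map_mem_maximalIdeal_pow (q : C.R →+* B) (n + 1) r hr
    rw [hn1, Ideal.mem_bot] at this
    exact this
  obtain ⟨q', hq'comp, hq'⟩ :=
    exists_factor_limProj 𝒪 C.a C.hmono (n + 1) (C.limProj_surj (n + 1)) q hker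
  have hgood := C.good (n + 1) hN
  haveI := isLocalRing_of_good hgood
  have hA := testAlg_of_good hgood
  have hg := goodLift_of_good hgood
  have hq's : Function.Surjective q' := by
    intro b
    obtain ⟨r, rfl⟩ := hqs b
    exact ⟨limProj 𝒪 C.a C.hmono (n + 1) r, by rw [← hq'comp]; rfl⟩
  have hq'l : IsLocalHom (q' : RpreE E ⧸ C.a (n + 1) →+* B) := IsLocalHom.of_surjective _ hq's
  have h1 := type_mapMat h𝒟 hA hB q' hq'l hg.cont hg.type
  have heq : mapMat (q' : RpreE E ⧸ C.a (n + 1) →+* B) (rQuot E (C.a (n + 1))) =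
      mapMat (q : C.R →+* B) C.ru := by
    ext g i j
    exact hq' _
  exact type_congr heq _ _ h1

theorem ru_good [IsNoetherianRing 𝒪] (h𝒟 : IsDeformationCondition 𝒪 𝒟) :
    IsGoodLift rt E 𝒟 C.ru :=
  ⟨C.ru_isLiftRt, C.ru_isNorm, C.ru_matCont, C.ru_type h𝒟⟩

/-! ### Section 5: universality -/

end SeqChain

section Trunc

variable {A : Type} [CommRing A] [IsLocalRing A] [Algebra 𝒪 A]

theorem quot_pow_nontrivial (n : ℕ) : Nontrivial (A ⧸ maximalIdeal A ^ (n + 1)) := by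
  rw [Ideal.Quotient.nontrivial_iff]
  intro h
  have : maximalIdeal A ^ (n + 1) ≤ maximalIdeal A := Ideal.pow_le_self (Nat.succ_ne_zero n)
  rw [h, top_le_iff] at this
  exact (maximalIdeal.isMaximal A).ne_top this

theorem quot_pow_isLocalRing (n : ℕ) : IsLocalRing (A ⧸ maximalIdeal A ^ (n + 1)) :=
  haveI := quot_pow_nontrivial (A := A) n
  IsLocalRing.of_surjective' (Ideal.Quotient.mk (maximalIdeal A ^ (n + 1)))
    Ideal.Quotient.mk_surjective

/-- The truncation of a good lift is a good lift. -/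
theorem goodLift_quot_pow [IsNoetherianRing A] [IsAdicComplete (maximalIdeal A) A]
    (h𝒟 : IsDeformationCondition 𝒪 𝒟) (hloc : IsLocalHom (algebraMap 𝒪 A))
    (hA : Function.Surjective (residue A ∘ algebraMap 𝒪 A))
    {r : GQ →* M2 A} (hr : IsGoodLift rt E 𝒟 r) (n : ℕ)
    [IsLocalRing (A ⧸ maximalIdeal A ^ (n + 1))] :
    IsGoodLift rt E 𝒟 (mapMat ((Ideal.Quotient.mkₐ 𝒪 (maximalIdeal A ^ (n + 1)) :
      A →ₐ[𝒪] A ⧸ maximalIdeal A ^ (n + 1)) : A →+* A ⧸ maximalIdeal A ^ (n + 1)) r) := by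
  set mk : A →ₐ[𝒪] A ⧸ maximalIdeal A ^ (n + 1) :=
    Ideal.Quotient.mkₐ 𝒪 (maximalIdeal A ^ (n + 1)) with hmk
  have hsurj : Function.Surjective mk := Ideal.Quotient.mkₐ_surjective 𝒪 _
  have hmkl : IsLocalHom (mk : A →+* A ⧸ maximalIdeal A ^ (n + 1)) :=
    IsLocalHom.of_surjective _ hsurj
  have hB := testAlg_quot_pow hloc hA (n + 1)
  have hcont : MatCont (mapMat (mk : A →+* A ⧸ maximalIdeal A ^ (n + 1)) r) :=
    matCont_mapMat _ hmkl hr.cont
  have h1 : IsLiftRt rt (mapMat (mk : A →+* A ⧸ maximalIdeal A ^ (n + 1)) r) :=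
    isLiftRt_mapMat rt mk hmkl hr.lift
  have h2 : IsNorm E (mapMat (mk : A →+* A ⧸ maximalIdeal A ^ (n + 1)) r) :=
    hr.norm.map mk
  have h3 : 𝒟 (ofMat (mapMat (mk : A →+* A ⧸ maximalIdeal A ^ (n + 1)) r) hcont) :=
    (type_ofMat_iff_forall_surjective h𝒟 hloc hA hr.cont).mp hr.type hB mk hmkl hsurj
  exact ⟨h1, h2, hcont, h3⟩

/-- The classifying map of a lift of `rt` maps `mPre` into the maximal ideal. -/
theorem mPre_le_comap_lift (hloc : IsLocalHom (algebraMap 𝒪 A)) {r : GQ →* M2 A}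
    (hl : IsLiftRt rt r) (hn : IsNorm E r) :
    mPre rt E ≤ (maximalIdeal A).comap (Presentation.lift r hn : RpreE E →ₐ[𝒪] A) := by
  rw [mPre, sup_le_iff, Ideal.span_le, Ideal.map_le_iff_le_comap]
  constructor
  · rintro _ ⟨x, rfl⟩
    rw [SetLike.mem_coe, Ideal.mem_comap, yGen, map_sub, Presentation.lift_gen, AlgHom.commutes]
    exact hl _ _ _
  · intro c hc
    rw [Ideal.mem_comap, Ideal.mem_comap, AlgHom.commutes]
    rw [mem_maximalIdeal, mem_nonunits_iff] at hc ⊢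
    exact fun hu => hc (hloc.map_nonunit c hu)

theorem lift_mem_pow_of_mem_mPre_pow (hloc : IsLocalHom (algebraMap 𝒪 A)) {r : GQ →* M2 A}
    (hl : IsLiftRt rt r) (hn : IsNorm E r) (n : ℕ) {z : RpreE E} (hz : z ∈ mPre rt E ^ n) :
    Presentation.lift r hn z ∈ maximalIdeal A ^ n := by
  have h1 : mPre rt E ^ n ≤
      (maximalIdeal A ^ n).comap (Presentation.lift r hn : RpreE E →ₐ[𝒪] A) :=
    (Ideal.pow_right_mono (mPre_le_comap_lift hloc hl hn) n).trans (Ideal.le_comap_pow _ n)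
  exact h1 hz

end Trunc

namespace SeqChain

variable (C : SeqChain rt E 𝒟)

section Univ

variable (hker : ∀ {B : Type} [CommRing B] [IsLocalRing B] [Algebra 𝒪 B]
    (hB : IsArtinianTestAlgebra 𝒪 B) (s : GQ →* M2 B) (hs : IsGoodLift rt E 𝒟 s),
    IsGoodIdeal rt E 𝒟 (RingHom.ker (Presentation.lift s hs.norm : RpreE E →ₐ[𝒪] B)))
  (A : Type) [CommRing A] [IsLocalRing A] [IsNoetherianRing A]
  [IsAdicComplete (maximalIdeal A) A] [Algebra 𝒪 A] [IsLocalHom (algebraMap 𝒪 A)]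

include hker in
/-- The classifying map of a good lift maps the `n`-th ideal of the chain into `𝔪 ^ n`. -/
theorem lift_mem_pow (h𝒟 : IsDeformationCondition 𝒪 𝒟)
    (hA : Function.Surjective (residue A ∘ algebraMap 𝒪 A))
    (r : GQ →* M2 A) (hr : IsGoodLift rt E 𝒟 r) (n : ℕ) (z : RpreE E) (hz : z ∈ C.a n) :
    Presentation.lift r hr.norm z ∈ maximalIdeal A ^ n := by
  rcases n with _ | n
  · rw [pow_zero, Ideal.one_eq_top]
    trivial
  · have hloc : IsLocalHom (algebraMap 𝒪 A) := inferInstance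
    haveI := quot_pow_isLocalRing (A := A) n
    have hB := testAlg_quot_pow hloc hA (n + 1)
    have hg := goodLift_quot_pow h𝒟 hloc hA hr n
    have hgood := hker hB _ hg
    have hcomp : Presentation.lift _ hg.norm =
        (Ideal.Quotient.mkₐ 𝒪 (maximalIdeal A ^ (n + 1))).comp (Presentation.lift r hr.norm) := by
      apply Presentation.algHom_ext
      intro g i j
      rw [Presentation.lift_gen, AlgHom.comp_apply, Presentation.lift_gen]
      rfl
    have hpow : mPre rt E ^ (n + 1) ≤ RingHom.ker (Presentation.lift _ hg.norm) := by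
      intro w hw
      rw [RingHom.mem_ker, hcomp, AlgHom.comp_apply, Ideal.Quotient.mkₐ_eq_mk,
        Ideal.Quotient.eq_zero_iff_mem]
      exact lift_mem_pow_of_mem_mPre_pow hloc hr.lift hr.norm (n + 1) hw
    have h1 := C.hmin (n + 1) (Nat.le_add_left 1 n) _ hgood hpow hz
    rw [RingHom.mem_ker, hcomp, AlgHom.comp_apply, Ideal.Quotient.mkₐ_eq_mk,
      Ideal.Quotient.eq_zero_iff_mem] at h1
    exact h1

include hker in
theorem exists_hom [IsNoetherianRing 𝒪] (h𝒟 : IsDeformationCondition 𝒪 𝒟)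
    (hA : Function.Surjective (residue A ∘ algebraMap 𝒪 A))
    (r : GQ →* M2 A) (hr : IsGoodLift rt E 𝒟 r) :
    ∃ φ : C.R →ₐ[𝒪] A, IsLocalHom (φ : C.R →+* A) ∧ mapMat (φ : C.R →+* A) C.ru = r := by
  have hθ : ∀ n, ∀ z ∈ C.a n, Presentation.lift r hr.norm z ∈ maximalIdeal A ^ n :=
    fun n z hz => C.lift_mem_pow hker A h𝒟 hA r hr n z hz
  refine ⟨limDesc 𝒪 C.a C.hmono (maximalIdeal A) (Presentation.lift r hr.norm) hθ, ?_, ?_⟩
  · constructor
    intro x hx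
    by_contra hnu
    have hxm : x ∈ RingHom.ker (limProj 𝒪 C.a C.hmono 1) := by
      rw [C.ker_limProj 1, pow_one]
      exact hnu
    have h2 := limDesc_mem_pow 𝒪 C.a C.hmono (maximalIdeal A) (Presentation.lift r hr.norm) hθ 1
      x hxm
    rw [pow_one] at h2
    exact h2 hx
  · ext g i j
    rw [mapMat_apply_apply, C.ru_apply]
    exact (limDesc_limOf 𝒪 C.a C.hmono (maximalIdeal A) (Presentation.lift r hr.norm) hθ _).trans
      (Presentation.lift_gen r hr.norm g i j)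

theorem hom_ext [IsNoetherianRing 𝒪] (φ φ' : C.R →ₐ[𝒪] A) (hφ : IsLocalHom (φ : C.R →+* A))
    (hφ' : IsLocalHom (φ' : C.R →+* A))
    (h : mapMat (φ : C.R →+* A) C.ru = mapMat (φ' : C.R →+* A) C.ru) : φ = φ' := by
  apply lim_algHom_ext 𝒪 C.a C.hmono (maximalIdeal A) φ φ'
  · intro n x hx
    rw [C.ker_limProj n] at hx
    exact map_mem_maximalIdeal_pow (φ : C.R →+* A) n x hx
  · intro n x hx
    rw [C.ker_limProj n] at hx
    exact map_mem_maximalIdeal_pow (φ' : C.R →+* A) n x hx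
  · have hcomp : φ.comp (limOf 𝒪 C.a C.hmono) = φ'.comp (limOf 𝒪 C.a C.hmono) := by
      apply Presentation.algHom_ext
      intro g i j
      have := congrFun (congrFun (DFunLike.congr_fun h g) i) j
      exact this
    intro x
    exact DFunLike.congr_fun hcomp x

end Univ

end SeqChain

/-! ### Final statement -/

/-- The universal normalised lift exists, given the good-ideal facts (intersection, kernels,
existence, uniform generation). -/
theorem nonempty_univData [IsNoetherianRing 𝒪] [Finite (ResidueField 𝒪)]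
    (h𝒟 : IsDeformationCondition 𝒪 𝒟)
    (hinf : ∀ 𝔞 𝔟, IsGoodIdeal rt E 𝒟 𝔞 → IsGoodIdeal rt E 𝒟 𝔟 → IsGoodIdeal rt E 𝒟 (𝔞 ⊓ 𝔟))
    (hker : ∀ {B : Type} [CommRing B] [IsLocalRing B] [Algebra 𝒪 B]
      (hB : IsArtinianTestAlgebra 𝒪 B) (s : GQ →* M2 B) (hs : IsGoodLift rt E 𝒟 s),
      IsGoodIdeal rt E 𝒟 (RingHom.ker (Presentation.lift s hs.norm : RpreE E →ₐ[𝒪] B)))
    (d : ℕ) (x : Fin d → GQ × Fin 2 × Fin 2) (𝔞₀ : Ideal (RpreE E))
    (h₀ : IsGoodIdeal rt E 𝒟 𝔞₀)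
    (hgen : ∀ 𝔞, IsGoodIdeal rt E 𝒟 𝔞 → 𝔞 ≤ 𝔞₀ → ∀ z : RpreE E,
      ∃ p : MvPolynomial (Fin d) 𝒪,
        z - MvPolynomial.aeval (fun i => yGen rt E (x i)) p ∈ 𝔞) :
    Nonempty (UnivData rt E 𝒟) := by
  obtain ⟨C⟩ := nonempty_seqChain h𝒟 hinf x h₀ hgen
  exact ⟨{
    R := C.R
    instCommRing := inferInstance
    instIsLocalRing := C.instIsLocalRingR
    instIsNoetherianRing := C.instIsNoetherianRingR
    instIsAdicComplete := C.instIsAdicCompleteR
    instAlgebra := inferInstance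
    instIsLocalHom := C.instIsLocalHomR
    residue_surjective := C.residue_surjective
    ru := C.ru
    good := C.ru_good h𝒟
    exists_hom := fun A _ _ _ _ _ _ hA r hr => C.exists_hom hker A h𝒟 hA r hr
    hom_ext := fun A _ _ _ _ _ _ φ φ' hφ hφ' h => C.hom_ext A φ φ' hφ hφ' h }⟩

end Fermat.Agent.S53.Seq
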