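import Mathlib

set_option autoImplicit false

namespace Fermat.Agent.S53.Slice3

open Matrix

/-- 2×2 matrices. -/
abbrev M2 (A : Type*) := Matrix (Fin 2) (Fin 2) A

section Defs

variable {A : Type*} [CommRing A]

/-- The three commutator coordinates. -/
def phi (R : Fin 3 → M2 A) (i j : Fin 3 → Fin 2) (X : M2 A) : Fin 3 → A :=
  fun a => (X * R a - R a * X) (i a) (j a)

/-- A complement of the scalar matrices. -/
def par (y : Fin 3 → A) : M2 A := !![y 2, y 0; y 1, 0]

/-- The 3×3 matrix of `phi ∘ par`. -/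
def sliceMat (R : Fin 3 → M2 A) (i j : Fin 3 → Fin 2) : Matrix (Fin 3) (Fin 3) A :=
  Matrix.of fun a b => phi R i j (par (Pi.single b 1)) a

/-- Coordinates of a matrix modulo scalars. -/
def coords (X : M2 A) : Fin 3 → A := ![X 0 1, X 1 0, X 0 0 - X 1 1]

theorem eq_par_coords_add (X : M2 A) : X = par (coords X) + X 1 1 • (1 : M2 A) := by
  ext p q
  fin_cases p <;> fin_cases q <;> simp [par, coords]

theorem phi_add (R : Fin 3 → M2 A) (i j : Fin 3 → Fin 2) (X Y : M2 A) :
    phi R i j (X + Y) = phi R i j X + phi R i j Y := by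
  funext a
  simp only [phi, Pi.add_apply, add_mul, mul_add, Matrix.sub_apply, Matrix.add_apply]
  ring

theorem phi_smul_one (R : Fin 3 → M2 A) (i j : Fin 3 → Fin 2) (s : A) :
    phi R i j (s • (1 : M2 A)) = 0 := by
  funext a
  simp [phi]

@[simp] theorem par_00 (y : Fin 3 → A) : par y 0 0 = y 2 := rfl
@[simp] theorem par_01 (y : Fin 3 → A) : par y 0 1 = y 0 := rfl
@[simp] theorem par_10 (y : Fin 3 → A) : par y 1 0 = y 1 := rfl
@[simp] theorem par_11 (y : Fin 3 → A) : par y 1 1 = 0 := rfl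

theorem phi_par (R : Fin 3 → M2 A) (i j : Fin 3 → Fin 2) (y : Fin 3 → A) :
    phi R i j (par y) = sliceMat R i j *ᵥ y := by
  funext a
  simp only [phi, sliceMat, mulVec, dotProduct, of_apply, Fin.sum_univ_three]
  generalize R a = M
  generalize i a = p
  generalize j a = q
  fin_cases p <;> fin_cases q <;>
    simp only [Matrix.sub_apply, Matrix.mul_apply, Fin.sum_univ_two, par_00, par_01, par_10,
      par_11, Fin.zero_eta, Fin.mk_one, Pi.single_apply] <;>
    simp <;> ring

theorem phi_eq_mulVec (R : Fin 3 → M2 A) (i j : Fin 3 → Fin 2) (X : M2 A) :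
    phi R i j X = sliceMat R i j *ᵥ coords X := by
  conv_lhs => rw [eq_par_coords_add X, phi_add, phi_smul_one, add_zero, phi_par]

end Defs

section EntIn

variable {A : Type*} [CommRing A]

/-- All entries of a matrix lie in the ideal `J`. -/
def EntIn {m n : Type*} (J : Ideal A) (X : Matrix m n A) : Prop := ∀ p q, X p q ∈ J

namespace EntIn

variable {l m n : Type*} {J K : Ideal A}

theorem zero : EntIn J (0 : Matrix m n A) := fun _ _ => J.zero_mem

theorem add {X Y : Matrix m n A} (hX : EntIn J X) (hY : EntIn J Y) : EntIn J (X + Y) :=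
  fun p q => J.add_mem (hX p q) (hY p q)

theorem sub {X Y : Matrix m n A} (hX : EntIn J X) (hY : EntIn J Y) : EntIn J (X - Y) :=
  fun p q => J.sub_mem (hX p q) (hY p q)

theorem neg {X : Matrix m n A} (hX : EntIn J X) : EntIn J (-X) :=
  fun p q => J.neg_mem (hX p q)

theorem mono (h : J ≤ K) {X : Matrix m n A} (hX : EntIn J X) : EntIn K X :=
  fun p q => h (hX p q)

theorem smul (s : A) {X : Matrix m n A} (hX : EntIn J X) : EntIn J (s • X) :=
  fun p q => J.mul_mem_left s (hX p q)

theorem mul_left [Fintype m] (Y : Matrix l m A) {X : Matrix m n A} (hX : EntIn J X) :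
    EntIn J (Y * X) := fun p q => by
  rw [Matrix.mul_apply]
  exact J.sum_mem fun c _ => J.mul_mem_left _ (hX c q)

theorem mul_right [Fintype m] {X : Matrix l m A} (hX : EntIn J X) (Y : Matrix m n A) :
    EntIn J (X * Y) := fun p q => by
  rw [Matrix.mul_apply]
  exact J.sum_mem fun c _ => J.mul_mem_right _ (hX p c)

theorem mul [Fintype m] {X : Matrix l m A} {Y : Matrix m n A} (hX : EntIn J X)
    (hY : EntIn K Y) : EntIn (J * K) (X * Y) := fun p q => by
  rw [Matrix.mul_apply]
  exact (J * K).sum_mem fun c _ => Ideal.mul_mem_mul (hX p c) (hY c q)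

theorem mulVec [Fintype n] (M : Matrix m n A) {v : n → A} (hv : ∀ q, v q ∈ J) (p : m) :
    (M *ᵥ v) p ∈ J := by
  rw [Matrix.mulVec, dotProduct]
  exact J.sum_mem fun c _ => J.mul_mem_left _ (hv c)

end EntIn

theorem det_sub_det_mem {n : Type*} [Fintype n] [DecidableEq n] {J : Ideal A}
    {M M' : Matrix n n A} (h : EntIn J (M - M')) : M.det - M'.det ∈ J := by
  rw [← Ideal.Quotient.eq, RingHom.map_det, RingHom.map_det]
  congr 1
  ext p q
  simp only [RingHom.mapMatrix_apply, Matrix.map_apply, Ideal.Quotient.eq]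
  exact h p q

theorem isUnit_of_sub_mem {I : Ideal A} (hI : I ≤ Ideal.jacobson ⊥) {u v : A} (hu : IsUnit u)
    (h : v - u ∈ I) : IsUnit v := by
  obtain ⟨u', rfl⟩ := hu
  have h1 : IsUnit ((↑u'⁻¹ * (v - ↑u')) * 1 + 1) :=
    Ideal.mem_jacobson_bot.mp (hI (I.mul_mem_left _ h)) 1
  have h2 : v = ↑u' * ((↑u'⁻¹ * (v - ↑u')) * 1 + 1) := by
    rw [mul_one, mul_add, ← mul_assoc, Units.mul_inv, one_mul, mul_one]; ring
  rw [h2]
  exact u'.isUnit.mul h1

theorem isUnit_of_entIn_sub_one {I : Ideal A} (hI : I ≤ Ideal.jacobson ⊥) {g : M2 A}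
    (h : EntIn I (g - 1)) : IsUnit g := by
  rw [Matrix.isUnit_iff_isUnit_det]
  refine isUnit_of_sub_mem hI (u := (1 : M2 A).det) ?_ (det_sub_det_mem h)
  rw [Matrix.det_one]; exact isUnit_one

end EntIn

section Existence

variable {A : Type*} [CommRing A] {I : Ideal A}

/-- Perturbing the three matrices by entries in `J` perturbs the slice matrix by entries in `J`. -/
theorem entIn_sliceMat_sub {J : Ideal A} {R R' : Fin 3 → M2 A} (i j : Fin 3 → Fin 2)
    (h : ∀ a, EntIn J (R' a - R a)) : EntIn J (sliceMat R' i j - sliceMat R i j) := by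
  intro a b
  simp only [sliceMat, Matrix.sub_apply, Matrix.of_apply, phi]
  set P : M2 A := par (Pi.single b 1) with hP
  have : (P * R' a) (i a) (j a) - (R' a * P) (i a) (j a) -
      ((P * R a) (i a) (j a) - (R a * P) (i a) (j a)) =
      (P * (R' a - R a) - (R' a - R a) * P : M2 A) (i a) (j a) := by
    simp only [mul_sub, sub_mul, Matrix.sub_apply]
    ring
  rw [this]
  exact ((h a).mul_left _).sub ((h a).mul_right _) _ _

theorem isUnit_det_sliceMat_of_entIn (hI : I ≤ Ideal.jacobson ⊥) {R R' : Fin 3 → M2 A}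
    (i j : Fin 3 → Fin 2) (h : ∀ a, EntIn I (R' a - R a))
    (hM : IsUnit (sliceMat R i j).det) : IsUnit (sliceMat R' i j).det :=
  isUnit_of_sub_mem hI hM (det_sub_det_mem (entIn_sliceMat_sub i j h))

/-- Conjugating by `g ≡ 1` changes a matrix by entries in the ideal. -/
theorem entIn_conj_sub {J : Ideal A} (g : (M2 A)ˣ) (h : EntIn J (g.1 - 1)) (M : M2 A) :
    EntIn J (g.1 * M * g⁻¹.1 - M) := by
  have : g.1 * M * g⁻¹.1 - M = ((g.1 - 1) * M - M * (g.1 - 1)) * g⁻¹.1 := by
    have h0 : (g.1 - 1) * M - M * (g.1 - 1) = g.1 * M - M * g.1 := by noncomm_ring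
    rw [h0, sub_mul, mul_assoc M, Units.mul_inv, mul_one]
  rw [this]
  exact ((h.mul_right _).sub (h.mul_left _)).mul_right _

/-- The approximation step. -/
theorem step (hI : I ≤ Ideal.jacobson ⊥) (R : Fin 3 → M2 A) (i j : Fin 3 → Fin 2) (c : Fin 3 → A)
    (hM : IsUnit (sliceMat R i j).det) (n : ℕ) (hn : 1 ≤ n) (g : (M2 A)ˣ)
    (hg1 : EntIn I (g.1 - 1))
    (herr : ∀ a, c a - (g.1 * R a * g⁻¹.1) (i a) (j a) ∈ I ^ n) :
    ∃ g' : (M2 A)ˣ, EntIn (I ^ n) (g'.1 - g.1) ∧
      ∀ a, c a - (g'.1 * R a * g'⁻¹.1) (i a) (j a) ∈ I ^ (n + 1) := by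
  have hIn : I ^ n ≤ I := Ideal.pow_le_self (by omega)
  set R' : Fin 3 → M2 A := fun a => g.1 * R a * g⁻¹.1 with hR'
  have hM' : IsUnit (sliceMat R' i j).det :=
    isUnit_det_sliceMat_of_entIn hI i j (fun a => entIn_conj_sub g hg1 (R a)) hM
  set e : Fin 3 → A := fun a => c a - R' a (i a) (j a) with he
  set y : Fin 3 → A := (sliceMat R' i j)⁻¹ *ᵥ e with hy
  have hyI : ∀ q, y q ∈ I ^ n := fun q => EntIn.mulVec _ herr q
  have hMy : sliceMat R' i j *ᵥ y = e := by
    rw [hy, Matrix.mulVec_mulVec, Matrix.mul_nonsing_inv _ hM', Matrix.one_mulVec]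
  set X : M2 A := par y with hX
  have hXI : EntIn (I ^ n) X := by
    intro p q
    fin_cases p <;> fin_cases q
    · exact hyI 2
    · exact hyI 0
    · exact hyI 1
    · exact (I ^ n).zero_mem
  have hu : IsUnit (1 + X) := by
    apply isUnit_of_entIn_sub_one hI
    rw [add_sub_cancel_left]
    exact hXI.mono hIn
  obtain ⟨u, hu'⟩ := hu
  refine ⟨u * g, ?_, ?_⟩
  · have : (u * g).1 - g.1 = X * g.1 := by
      rw [Units.val_mul, hu']; noncomm_ring
    rw [this]
    exact hXI.mul_right _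
  · intro a
    have hinv : u⁻¹.1 = 1 - X * u⁻¹.1 := by
      have h1 : (1 + X) * u⁻¹.1 = 1 := by rw [← hu', Units.mul_inv]
      rw [add_mul, one_mul] at h1
      exact eq_sub_of_add_eq h1
    have hconj : (u * g).1 * R a * (u * g)⁻¹.1 = u.1 * R' a * u⁻¹.1 := by
      rw [_root_.mul_inv_rev, Units.val_mul, Units.val_mul, hR']
      simp only [mul_assoc]
    set C : M2 A := X * R' a - R' a * X with hC
    have h2 : C * u⁻¹.1 = u.1 * R' a * u⁻¹.1 - R' a := by
      have h0 : C = u.1 * R' a - R' a * u.1 := by rw [hC, hu']; noncomm_ring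
      rw [h0, sub_mul, mul_assoc (R' a), Units.mul_inv, mul_one]
    have h3 : C * u⁻¹.1 = C - C * X * u⁻¹.1 := by
      conv_lhs => rw [hinv]
      rw [mul_sub, mul_one, mul_assoc]
    have key : u.1 * R' a * u⁻¹.1 = R' a + C - C * X * u⁻¹.1 := by
      rw [add_sub_assoc, ← h3, h2]; abel
    have hphi : C (i a) (j a) = e a := by
      have := congrFun (phi_par R' i j y) a
      rw [hMy] at this
      exact this
    rw [hconj, key]
    have : c a - (R' a + C - C * X * u⁻¹.1) (i a) (j a) = (C * X * u⁻¹.1) (i a) (j a) := by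
      rw [Matrix.sub_apply, Matrix.add_apply, hphi, he]
      ring
    rw [this]
    have h4 : EntIn (I ^ n * I ^ n) (C * X) :=
      ((hXI.mul_right _).sub (hXI.mul_left _)).mul hXI
    have h5 : I ^ n * I ^ n ≤ I ^ (n + 1) := by
      rw [← pow_add]
      exact Ideal.pow_le_pow_right (by omega)
    exact ((h4.mono h5).mul_right _) _ _

end Existence

section Limit

variable {A : Type*} [CommRing A] {I : Ideal A}

/-- Property carried along the approximation sequence. -/
def Approx (I : Ideal A) (R : Fin 3 → M2 A) (i j : Fin 3 → Fin 2) (c : Fin 3 → A) (n : ℕ)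
    (g : (M2 A)ˣ) : Prop :=
  EntIn I (g.1 - 1) ∧ ∀ a, c a - (g.1 * R a * g⁻¹.1) (i a) (j a) ∈ I ^ (n + 1)

theorem approx_step (hI : I ≤ Ideal.jacobson ⊥) (R : Fin 3 → M2 A) (i j : Fin 3 → Fin 2)
    (c : Fin 3 → A) (hM : IsUnit (sliceMat R i j).det) (n : ℕ) (g : (M2 A)ˣ)
    (h : Approx I R i j c n g) :
    ∃ g' : (M2 A)ˣ, Approx I R i j c (n + 1) g' ∧ EntIn (I ^ (n + 1)) (g'.1 - g.1) := by
  obtain ⟨g', h1, h2⟩ := step hI R i j c hM (n + 1) (by omega) g h.1 h.2
  refine ⟨g', ⟨?_, h2⟩, h1⟩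
  have : g'.1 - 1 = (g'.1 - g.1) + (g.1 - 1) := by abel
  rw [this]
  exact (h1.mono (Ideal.pow_le_self (by omega))).add h.1

theorem exists_seq (hI : I ≤ Ideal.jacobson ⊥) (R : Fin 3 → M2 A) (i j : Fin 3 → Fin 2)
    (c : Fin 3 → A) (hM : IsUnit (sliceMat R i j).det) (h0 : Approx I R i j c 0 1) :
    ∃ s : ℕ → (M2 A)ˣ, (∀ n, Approx I R i j c n (s n)) ∧
      ∀ n, EntIn (I ^ (n + 1)) ((s (n + 1)).1 - (s n).1) := by
  classical
  choose f hf using fun (n : ℕ) (g : {g : (M2 A)ˣ // Approx I R i j c n g}) =>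
    approx_step hI R i j c hM n g.1 g.2
  let s : (n : ℕ) → {g : (M2 A)ˣ // Approx I R i j c n g} := fun n =>
    Nat.rec ⟨1, h0⟩ (fun n g => ⟨f n g, (hf n g).1⟩) n
  exact ⟨fun n => (s n).1, fun n => (s n).2, fun n => (hf n (s n)).2⟩

theorem entIn_seq_sub {s : ℕ → (M2 A)ˣ}
    (hs : ∀ n, EntIn (I ^ (n + 1)) ((s (n + 1)).1 - (s n).1)) {m n : ℕ} (hmn : m ≤ n) :
    EntIn (I ^ (m + 1)) ((s n).1 - (s m).1) := by
  induction n, hmn using Nat.le_induction with
  | base => rw [sub_self]; exact EntIn.zero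
  | succ n hmn ih =>
    have : (s (n + 1)).1 - (s m).1 = ((s (n + 1)).1 - (s n).1) + ((s n).1 - (s m).1) := by abel
    rw [this]
    exact ((hs n).mono (Ideal.pow_le_pow_right (by omega))).add ih

theorem entIn_inv_sub_inv {J : Ideal A} (g h : (M2 A)ˣ) (hgh : EntIn J (g.1 - h.1)) :
    EntIn J (g⁻¹.1 - h⁻¹.1) := by
  have : g⁻¹.1 - h⁻¹.1 = g⁻¹.1 * (h.1 - g.1) * h⁻¹.1 := by
    rw [mul_sub, sub_mul, mul_assoc, Units.mul_inv, mul_one, Units.inv_mul, one_mul]
  rw [this]
  have h' : EntIn J (h.1 - g.1) := by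
    have : h.1 - g.1 = -(g.1 - h.1) := by abel
    rw [this]; exact hgh.neg
  exact (h'.mul_left _).mul_right _

theorem entIn_conj_sub_conj {J : Ideal A} (g h : (M2 A)ˣ) (hgh : EntIn J (g.1 - h.1)) (M : M2 A) :
    EntIn J (g.1 * M * g⁻¹.1 - h.1 * M * h⁻¹.1) := by
  have : g.1 * M * g⁻¹.1 - h.1 * M * h⁻¹.1 =
      (g.1 - h.1) * M * g⁻¹.1 + h.1 * M * (g⁻¹.1 - h⁻¹.1) := by noncomm_ring
  rw [this]
  exact ((hgh.mul_right _).mul_right _).add ((entIn_inv_sub_inv g h hgh).mul_left _)

/-- **Slice lemma, existence.** -/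
theorem slice_exists [IsAdicComplete I A] (R : Fin 3 → M2 A) (i j : Fin 3 → Fin 2)
    (c : Fin 3 → A) (hc : ∀ a, c a - R a (i a) (j a) ∈ I)
    (hM : IsUnit (sliceMat R i j).det) :
    ∃ g : (M2 A)ˣ, EntIn I (g.1 - 1) ∧ ∀ a, (g.1 * R a * g⁻¹.1) (i a) (j a) = c a := by
  have hI : I ≤ Ideal.jacobson ⊥ := IsAdicComplete.le_jacobson_bot I
  have h0 : Approx I R i j c 0 1 := by
    refine ⟨by rw [Units.val_one, sub_self]; exact EntIn.zero, fun a => ?_⟩
    simpa using hc a
  obtain ⟨s, hs1, hs2⟩ := exists_seq hI R i j c hM h0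
  have htop : ∀ n : ℕ, (I ^ n • ⊤ : Submodule A A) = I ^ n := fun n => by
    rw [smul_eq_mul, Ideal.mul_top]
  -- limits of the entries
  have hL : ∀ p q : Fin 2, ∃ L : A, ∀ n, (s n).1 p q - L ∈ I ^ n := by
    intro p q
    have hcauchy : ∀ {m n : ℕ}, m ≤ n →
        (s m).1 p q ≡ (s n).1 p q [SMOD (I ^ m • ⊤ : Submodule A A)] := by
      intro m n hmn
      rw [SModEq.sub_mem, htop]
      have h1 := entIn_seq_sub hs2 hmn p q
      have h2 : (s m).1 p q - (s n).1 p q = -(((s n).1 - (s m).1) p q) := by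
        rw [Matrix.sub_apply]; ring
      rw [h2]
      exact (I ^ m).neg_mem (Ideal.pow_le_pow_right (by omega) h1)
    obtain ⟨L, hL⟩ := IsPrecomplete.prec (I := I) (M := A) inferInstance hcauchy
    refine ⟨L, fun n => ?_⟩
    have := hL n
    rwa [SModEq.sub_mem, htop] at this
  choose L hL using hL
  set gL : M2 A := Matrix.of L with hgL
  have hsL : ∀ n, EntIn (I ^ n) ((s n).1 - gL) := fun n p q => by
    rw [Matrix.sub_apply, hgL, Matrix.of_apply]; exact hL p q n
  have hgL1 : EntIn I (gL - 1) := by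
    have : gL - 1 = -((s 1).1 - gL) + ((s 1).1 - 1) := by abel
    rw [this]
    have h1 := hsL 1
    rw [pow_one] at h1
    exact h1.neg.add (hs1 1).1
  obtain ⟨G, hG⟩ := isUnit_of_entIn_sub_one hI hgL1
  refine ⟨G, by rw [hG]; exact hgL1, fun a => ?_⟩
  have hGs : ∀ n, EntIn (I ^ n) (G.1 - (s n).1) := fun n => by
    have : G.1 - (s n).1 = -((s n).1 - gL) := by rw [hG]; abel
    rw [this]; exact (hsL n).neg
  have herr : ∀ n, c a - (G.1 * R a * G⁻¹.1) (i a) (j a) ∈ I ^ n := by
    intro n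
    have h1 : c a - (G.1 * R a * G⁻¹.1) (i a) (j a) =
        (c a - ((s n).1 * R a * (s n)⁻¹.1) (i a) (j a)) -
          (G.1 * R a * G⁻¹.1 - (s n).1 * R a * (s n)⁻¹.1) (i a) (j a) := by
      rw [Matrix.sub_apply]; ring
    rw [h1]
    exact (I ^ n).sub_mem (Ideal.pow_le_pow_right (by omega) ((hs1 n).2 a))
      (entIn_conj_sub_conj G (s n) (hGs n) (R a) _ _)
  have hzero : c a - (G.1 * R a * G⁻¹.1) (i a) (j a) = 0 := by
    apply IsHausdorff.haus' (I := I)
    intro n
    rw [SModEq.zero, htop]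
    exact herr n
  exact (sub_eq_zero.mp hzero).symm

end Limit

section Uniqueness

variable {A : Type*} [CommRing A] {I : Ideal A}

theorem par_zero : par (0 : Fin 3 → A) = 0 := by
  ext p q
  fin_cases p <;> fin_cases q <;> rfl

theorem entIn_par {J : Ideal A} {y : Fin 3 → A} (hy : ∀ q, y q ∈ J) : EntIn J (par y) := by
  intro p q
  fin_cases p <;> fin_cases q
  · exact hy 2
  · exact hy 0
  · exact hy 1
  · exact J.zero_mem

/-- **Slice lemma, uniqueness.** A conjugator between two normalised triples which is scalar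
modulo `I` is a scalar. -/
theorem slice_unique [IsHausdorff I A] (R R' : Fin 3 → M2 A) (i j : Fin 3 → Fin 2)
    (hM : IsUnit (sliceMat R i j).det)
    (hnorm : ∀ a, R a (i a) (j a) = R' a (i a) (j a))
    (g : (M2 A)ˣ) (s : A) (hs : EntIn I (g.1 - s • (1 : M2 A)))
    (hg : ∀ a, g.1 * R a = R' a * g.1) : ∃ t : A, g.1 = t • (1 : M2 A) := by
  have htop : ∀ n : ℕ, (I ^ n • ⊤ : Submodule A A) = I ^ n := fun n => by
    rw [smul_eq_mul, Ideal.mul_top]
  set X : M2 A := par (coords g.1) with hX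
  have hgX : g.1 = X + g.1 1 1 • (1 : M2 A) := eq_par_coords_add g.1
  have hcomm : ∀ M : M2 A, g.1 * M - M * g.1 = X * M - M * X := by
    intro M
    conv_lhs => rw [hgX]
    simp only [add_mul, mul_add, Matrix.smul_mul, Matrix.mul_smul, one_mul, mul_one]
    abel
  have key : ∀ n : ℕ, ∀ q, coords g.1 q ∈ I ^ n := by
    intro n
    induction n with
    | zero => intro q; simp
    | succ n ih =>
      have hXI : EntIn (I ^ n) X := entIn_par ih
      have hphi : ∀ a, phi R i j X a ∈ I ^ (n + 1) := by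
        intro a
        set D : M2 A := R' a - R a with hD
        have hD1 : D = (X * R a - R a * X) * g⁻¹.1 := by
          rw [← hcomm, sub_mul, hg a, mul_assoc, mul_assoc, Units.mul_inv, mul_one, mul_one]
        have hDI : EntIn (I ^ n) D := by
          rw [hD1]
          exact ((hXI.mul_right _).sub (hXI.mul_left _)).mul_right _
        have hD2 : X * R a - R a * X = s • D + D * (g.1 - s • (1 : M2 A)) := by
          have : X * R a - R a * X = D * g.1 := by
            rw [hD1, mul_assoc, Units.inv_mul, mul_one]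
          rw [this, mul_sub, Matrix.mul_smul, mul_one]
          abel
        have hD0 : D (i a) (j a) = 0 := by
          rw [hD, Matrix.sub_apply, hnorm a, sub_self]
        show (X * R a - R a * X) (i a) (j a) ∈ I ^ (n + 1)
        rw [hD2, Matrix.add_apply, Matrix.smul_apply, hD0, smul_zero, zero_add, pow_succ]
        exact (hDI.mul hs) _ _
      intro q
      have h1 : coords g.1 = (sliceMat R i j)⁻¹ *ᵥ phi R i j X := by
        rw [hX, phi_par, Matrix.mulVec_mulVec, Matrix.nonsing_inv_mul _ hM, Matrix.one_mulVec]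
      rw [h1]
      exact EntIn.mulVec _ hphi q
  have hzero : coords g.1 = 0 := by
    funext q
    apply IsHausdorff.haus' (I := I)
    intro n
    rw [SModEq.zero, htop]
    exact key n q
  refine ⟨g.1 1 1, ?_⟩
  conv_lhs => rw [hgX]
  rw [hX, hzero, par_zero, zero_add]

/-- Two normalised triples conjugate by a residually scalar matrix are equal. -/
theorem slice_unique_eq [IsHausdorff I A] (R R' : Fin 3 → M2 A) (i j : Fin 3 → Fin 2)
    (hM : IsUnit (sliceMat R i j).det)
    (hnorm : ∀ a, R a (i a) (j a) = R' a (i a) (j a))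
    (g : (M2 A)ˣ) (s : A) (hs : EntIn I (g.1 - s • (1 : M2 A)))
    (hg : ∀ a, g.1 * R a = R' a * g.1) :
    (∃ t : A, g.1 = t • (1 : M2 A)) ∧ ∀ M M' : M2 A, g.1 * M = M' * g.1 → M' = M := by
  obtain ⟨t, ht⟩ := slice_unique R R' i j hM hnorm g s hs hg
  refine ⟨⟨t, ht⟩, fun M M' h => ?_⟩
  have h1 : g.1 * M = M * g.1 := by
    rw [ht, Matrix.smul_mul, Matrix.mul_smul, one_mul, mul_one]
  have h2 : M' = M' * g.1 * g⁻¹.1 := by rw [mul_assoc, Units.mul_inv, mul_one]
  rw [h2, ← h, h1, mul_assoc, Units.mul_inv, mul_one]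

end Uniqueness

section Coordinates

variable {k : Type*} [Field k] {G : Type*}

/-- The row vector attached to a group element and a matrix position. -/
def rowVec (rbar : G → M2 k) (t : G × Fin 2 × Fin 2) : Fin 3 → k :=
  fun b => (par (Pi.single b 1) * rbar t.1 - rbar t.1 * par (Pi.single b 1) : M2 k) t.2.1 t.2.2

theorem rowVec_dotProduct (rbar : G → M2 k) (t : G × Fin 2 × Fin 2) (y : Fin 3 → k) :
    rowVec rbar t ⬝ᵥ y = (par y * rbar t.1 - rbar t.1 * par y) t.2.1 t.2.2 := by
  have h := congrFun (phi_par (fun _ => rbar t.1) (fun _ => t.2.1) (fun _ => t.2.2) y) 0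
  simp only [phi] at h
  rw [h]
  rfl

theorem sliceMat_row (rbar : G → M2 k) (σ : Fin 3 → G) (i j : Fin 3 → Fin 2) :
    (sliceMat (fun a => rbar (σ a)) i j).row = fun a => rowVec rbar (σ a, i a, j a) := rfl

/-- **B2**: if the commutant of `rbar` consists of scalars, there are three coordinates
for which the slice matrix is invertible. -/
theorem exists_slice_coords (rbar : G → M2 k)
    (hschur : ∀ X : M2 k, (∀ σ, X * rbar σ = rbar σ * X) → ∃ c : k, X = c • (1 : M2 k)) :
    ∃ (σ : Fin 3 → G) (i j : Fin 3 → Fin 2),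
      (sliceMat (fun a => rbar (σ a)) i j).det ≠ 0 := by
  classical
  -- Step 1: the common orthogonal of the row vectors is zero.
  have h1 : ∀ y : Fin 3 → k, (∀ t, rowVec rbar t ⬝ᵥ y = 0) → y = 0 := by
    intro y hy
    have hcomm : ∀ σ, par y * rbar σ = rbar σ * par y := by
      intro σ
      ext p q
      have := hy (σ, p, q)
      rw [rowVec_dotProduct, Matrix.sub_apply, sub_eq_zero] at this
      exact this
    obtain ⟨c, hc⟩ := hschur (par y) hcomm
    have e00 := congrFun (congrFun hc 0) 0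
    have e01 := congrFun (congrFun hc 0) 1
    have e10 := congrFun (congrFun hc 1) 0
    have e11 := congrFun (congrFun hc 1) 1
    simp at e00 e01 e10 e11
    funext b
    fin_cases b
    · simpa using e01
    · simpa using e10
    · simp [e00, ← e11]
  -- Step 2: the row vectors span everything.
  have h2 : Submodule.span k (Set.range (rowVec rbar)) = ⊤ := by
    by_contra hne
    obtain ⟨f, hf0, hf⟩ := Submodule.exists_le_ker_of_lt_top _ (lt_top_iff_ne_top.mpr hne)
    set y : Fin 3 → k := fun b => f (Pi.single b 1) with hy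
    have hfy : ∀ w : Fin 3 → k, f w = w ⬝ᵥ y := by
      intro w
      rw [LinearMap.pi_apply_eq_sum_univ f w]
      simp only [dotProduct, hy, smul_eq_mul]
      refine Finset.sum_congr rfl fun b _ => ?_
      congr 2
      funext b'
      simp [Pi.single_apply, eq_comm]
    have : y = 0 := h1 y fun t => by
      rw [← hfy]
      exact hf (Submodule.subset_span ⟨t, rfl⟩)
    apply hf0
    refine LinearMap.ext fun w => ?_
    rw [hfy, this, dotProduct_zero, LinearMap.zero_apply]
  -- Step 3: extract a basis.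
  obtain ⟨κ, a, -, hsp, hli⟩ := exists_linearIndependent' k (rowVec rbar)
  rw [h2] at hsp
  let b : Module.Basis κ k (Fin 3 → k) := Module.Basis.mk hli hsp.ge
  let e : Fin 3 ≃ κ := (Pi.basisFun k (Fin 3)).indexEquiv b
  refine ⟨fun x => (a (e x)).1, fun x => (a (e x)).2.1, fun x => (a (e x)).2.2, ?_⟩
  have hrow : LinearIndependent k
      (sliceMat (fun x => rbar ((a (e x)).1)) (fun x => (a (e x)).2.1)
        (fun x => (a (e x)).2.2)).row := by
    rw [sliceMat_row]
    exact hli.comp e e.injective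
  have hunit := Matrix.linearIndependent_rows_iff_isUnit.mp hrow
  rw [Matrix.isUnit_iff_isUnit_det] at hunit
  exact hunit.ne_zero

end Coordinates

end Fermat.Agent.S53.Slice3
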