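import Fermat.Agent.S53.Defs
import Fermat.Agent.S53.Slice3

set_option autoImplicit false

namespace Fermat.Agent.S53.Slice3

open Matrix

section MapLemmas

variable {A B : Type*} [CommRing A] [CommRing B]

theorem par_map (f : A →+* B) (y : Fin 3 → A) : (par y).map f = par (fun q => f (y q)) := by
  ext p q
  fin_cases p <;> fin_cases q <;> simp [par]

theorem sliceMat_map (f : A →+* B) (R : Fin 3 → M2 A) (i j : Fin 3 → Fin 2) :
    (sliceMat R i j).map f = sliceMat (fun a => (R a).map f) i j := by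
  ext a b
  simp only [sliceMat, Matrix.map_apply, Matrix.of_apply, phi]
  have h1 : (par (Pi.single b (1 : B)) : M2 B) = (par (Pi.single b (1 : A))).map f := by
    rw [par_map]
    congr 1
    funext q
    by_cases h : q = b
    · subst h; simp
    · simp [h]
  rw [h1, ← Matrix.map_mul, ← Matrix.map_mul]
  simp only [Matrix.sub_apply, Matrix.map_apply, map_sub]

end MapLemmas

section Field

variable {κ : Type*} [Field κ]

/-- Over a field: if the three functionals detect scalars, the slice matrix is invertible. -/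
theorem det_sliceMat_ne_zero (R : Fin 3 → M2 κ) (i j : Fin 3 → Fin 2)
    (hker : ∀ X : M2 κ, (∀ a, (X * R a - R a * X) (i a) (j a) = 0) →
      ∃ c : κ, X = Matrix.scalar (Fin 2) c) : (sliceMat R i j).det ≠ 0 := by
  intro hdet
  obtain ⟨y, hy0, hy⟩ := Matrix.exists_mulVec_eq_zero_iff.mpr hdet
  apply hy0
  rw [← phi_par] at hy
  obtain ⟨c, hc⟩ := hker (par y) (fun a => congrFun hy a)
  have e00 := congrFun (congrFun hc 0) 0
  have e01 := congrFun (congrFun hc 0) 1
  have e10 := congrFun (congrFun hc 1) 0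
  have e11 := congrFun (congrFun hc 1) 1
  simp at e00 e01 e10 e11
  funext b
  fin_cases b
  · simpa using e01
  · simpa using e10
  · simp [e00, ← e11]

end Field

section Wrap

variable {G : Type*} [Group G] {A : Type*} [CommRing A] [IsLocalRing A]
  {κ : Type*} [Field κ] (res : A →+* κ)
  (hker : ∀ x : A, res x = 0 ↔ x ∈ IsLocalRing.maximalIdeal A)
  {rbar : G →* Fermat.Agent.S53.M2 κ} (D : Fermat.Agent.S53.SliceData rbar)

include hker in
theorem isUnit_det_sliceMat_of_lift (r : G → M2 A) (hr : ∀ g, (r g).map res = rbar g) :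
    IsUnit (sliceMat (fun a => r (D.s a)) D.i D.j).det := by
  have h1 : res (sliceMat (fun a => r (D.s a)) D.i D.j).det =
      (sliceMat (fun a => rbar (D.s a)) D.i D.j).det := by
    rw [RingHom.map_det, RingHom.mapMatrix_apply, sliceMat_map]
    simp only [hr]
  have h2 : (sliceMat (fun a => rbar (D.s a)) D.i D.j).det ≠ 0 :=
    det_sliceMat_ne_zero _ _ _ D.ker
  have h3 : (sliceMat (fun a => r (D.s a)) D.i D.j).det ∉ IsLocalRing.maximalIdeal A := by
    rw [← hker, h1]; exact h2
  exact IsLocalRing.notMem_maximalIdeal.mp h3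

include hker in
/-- B3a in the shape requested by the S53 integrator. -/
theorem slice_exists_of_sliceData [IsAdicComplete (IsLocalRing.maximalIdeal A) A]
    (c : Fin 3 → A) (hc : ∀ a, res (c a) = rbar (D.s a) (D.i a) (D.j a))
    (r : G →* Fermat.Agent.S53.M2 A) (hr : ∀ g, (r g).map res = rbar g) :
    ∃ γ : (Fermat.Agent.S53.M2 A)ˣ,
      (∀ i j, ((γ : Fermat.Agent.S53.M2 A) - 1) i j ∈ IsLocalRing.maximalIdeal A) ∧
      ∀ a, Fermat.Agent.S53.conjMat γ r (D.s a) (D.i a) (D.j a) = c a := by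
  have hc' : ∀ a, c a - r (D.s a) (D.i a) (D.j a) ∈ IsLocalRing.maximalIdeal A := by
    intro a
    rw [← hker, map_sub, hc a, ← hr (D.s a), Matrix.map_apply, sub_self]
  obtain ⟨g, hg1, hg2⟩ := slice_exists (I := IsLocalRing.maximalIdeal A)
    (fun a => r (D.s a)) D.i D.j c hc' (isUnit_det_sliceMat_of_lift res hker D r hr)
  exact ⟨g, hg1, hg2⟩

include hker in
/-- B3b in the shape requested by the S53 integrator. -/
theorem slice_unique_of_sliceData (hres : Function.Surjective res)
    [IsHausdorff (IsLocalRing.maximalIdeal A) A]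
    (c : Fin 3 → A)
    (r r' : G →* Fermat.Agent.S53.M2 A) (hr : ∀ g, (r g).map res = rbar g)
    (hr' : ∀ g, (r' g).map res = rbar g)
    (hn : ∀ a, r (D.s a) (D.i a) (D.j a) = c a) (hn' : ∀ a, r' (D.s a) (D.i a) (D.j a) = c a)
    (γ : (Fermat.Agent.S53.M2 A)ˣ)
    (hγ : ∀ g, (γ : Fermat.Agent.S53.M2 A) * r g = r' g * (γ : Fermat.Agent.S53.M2 A)) :
    r = r' ∧ ∃ u : Aˣ, (γ : Fermat.Agent.S53.M2 A) = Matrix.scalar (Fin 2) (u : A) := by
  -- the reduction of γ commutes with rbar, hence is scalar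
  have hcomm : ∀ g, (γ.1.map res) * rbar g = rbar g * (γ.1.map res) := by
    intro g
    rw [← hr g, ← Matrix.map_mul, hγ g, Matrix.map_mul, hr' g, hr g]
  obtain ⟨cbar, hcbar⟩ := D.ker (γ.1.map res) (fun a => by
    rw [hcomm, sub_self]; rfl)
  obtain ⟨s, hs⟩ := hres cbar
  have hγs : EntIn (IsLocalRing.maximalIdeal A) (γ.1 - s • (1 : M2 A)) := by
    intro p q
    rw [← hker, Matrix.sub_apply, map_sub]
    have h1 : res (γ.1 p q) = (γ.1.map res) p q := rfl
    rw [h1, hcbar, Matrix.smul_apply, smul_eq_mul, map_mul, hs]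
    by_cases hpq : p = q
    · subst hpq; simp
    · simp [hpq]
  obtain ⟨⟨t, ht⟩, heq⟩ := slice_unique_eq (I := IsLocalRing.maximalIdeal A)
    (fun a => r (D.s a)) (fun a => r' (D.s a)) D.i D.j
    (isUnit_det_sliceMat_of_lift res hker D r hr)
    (fun a => by rw [hn a, hn' a]) γ s hγs (fun a => hγ (D.s a))
  refine ⟨?_, ?_⟩
  · ext g : 1
    exact (heq (r g) (r' g) (hγ g)).symm
  · have hdet : IsUnit (γ.1).det := (Matrix.isUnit_iff_isUnit_det _).mp γ.isUnit
    have hdet2 : (γ.1).det = t * t := by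
      rw [ht, Matrix.det_smul, Matrix.det_one, Fintype.card_fin]; ring
    rw [hdet2] at hdet
    have htu : IsUnit t := isUnit_of_mul_isUnit_left hdet
    obtain ⟨u, hu⟩ := htu
    refine ⟨u, ?_⟩
    rw [ht, hu]
    ext p q
    by_cases hpq : p = q
    · subst hpq; simp
    · simp [hpq]

end Wrap

end Fermat.Agent.S53.Slice3
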