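import Mathlib

/-!
# S53, part B3: the slice lemma (pure matrix form)

For a commutative ring `A` which is `I`-adically complete, a map `r : G → M₂(A)` and three
"coordinates" `(σ_a, i_a, j_a)` such that the `A`-linear map
`Φ : X ↦ ([X, r σ_a]_{i_a j_a})_a : M₂(A) → A³` is surjective, every `r` whose three
coordinates are congruent mod `I` to prescribed values `c_a` is conjugate, by a matrix
congruent to `1` mod `I`, to a map whose three coordinates are *equal* to `c_a`
(`slice_exists`).  If moreover the kernel of `Φ` consists of scalar matrices, two such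
normalised maps which are conjugate by a matrix congruent to `1` mod `I` are equal and the
conjugating matrix is scalar (`slice_unique`).
-/

namespace Fermat.Agent.S53.SliceGen

open Matrix

/-- All entries of the matrix `X` lie in the ideal `J`. -/
def EntryMem {A : Type*} [CommRing A] {m n : Type*} (J : Ideal A) (X : Matrix m n A) : Prop :=
  ∀ i j, X i j ∈ J

namespace EntryMem

variable {A : Type*} [CommRing A] {l m n : Type*} {J K : Ideal A}

theorem zero : EntryMem J (0 : Matrix m n A) := fun _ _ => J.zero_mem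

theorem add {X Y : Matrix m n A} (hX : EntryMem J X) (hY : EntryMem J Y) : EntryMem J (X + Y) :=
  fun i j => J.add_mem (hX i j) (hY i j)

theorem sub {X Y : Matrix m n A} (hX : EntryMem J X) (hY : EntryMem J Y) : EntryMem J (X - Y) :=
  fun i j => J.sub_mem (hX i j) (hY i j)

theorem neg {X : Matrix m n A} (hX : EntryMem J X) : EntryMem J (-X) :=
  fun i j => J.neg_mem (hX i j)

theorem smul {X : Matrix m n A} (t : A) (hX : EntryMem J X) : EntryMem J (t • X) :=
  fun i j => J.mul_mem_left t (hX i j)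

theorem smul_of_mem {t : A} (ht : t ∈ J) (X : Matrix m n A) : EntryMem J (t • X) :=
  fun i j => J.mul_mem_right (X i j) ht

theorem mono (h : J ≤ K) {X : Matrix m n A} (hX : EntryMem J X) : EntryMem K X :=
  fun i j => h (hX i j)

theorem mul_left [Fintype m] (Y : Matrix l m A) {X : Matrix m n A} (hX : EntryMem J X) :
    EntryMem J (Y * X) := fun i j => by
  rw [Matrix.mul_apply]
  exact J.sum_mem fun k _ => J.mul_mem_left _ (hX k j)

theorem mul_right [Fintype m] {X : Matrix l m A} (hX : EntryMem J X) (Y : Matrix m n A) :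
    EntryMem J (X * Y) := fun i j => by
  rw [Matrix.mul_apply]
  exact J.sum_mem fun k _ => J.mul_mem_right _ (hX i k)

theorem mul [Fintype m] {X : Matrix l m A} {Y : Matrix m n A} (hX : EntryMem J X)
    (hY : EntryMem K Y) : EntryMem (J * K) (X * Y) := fun i j => by
  rw [Matrix.mul_apply]
  exact (J * K).sum_mem fun k _ => Ideal.mul_mem_mul (hX i k) (hY k j)

theorem sum {ι : Type*} (s : Finset ι) {X : ι → Matrix m n A} (hX : ∀ a ∈ s, EntryMem J (X a)) :
    EntryMem J (∑ a ∈ s, X a) := fun i j => by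
  rw [Matrix.sum_apply]
  exact J.sum_mem fun a ha => hX a ha i j

end EntryMem

/-- Three "coordinates" `(σ_a, i_a, j_a)`. -/
structure SliceCoords (G : Type*) where
  σ : Fin 3 → G
  i : Fin 3 → Fin 2
  j : Fin 3 → Fin 2

variable {G : Type*} {A : Type*} [CommRing A]

/-- The linear map `X ↦ ([X, r σ_a]_{i_a j_a})_a`. -/
def sliceMap (r : G → Matrix (Fin 2) (Fin 2) A) (sd : SliceCoords G) :
    Matrix (Fin 2) (Fin 2) A →ₗ[A] (Fin 3 → A) where
  toFun X a := (X * r (sd.σ a) - r (sd.σ a) * X) (sd.i a) (sd.j a)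
  map_add' X Y := by
    funext a
    simp only [add_mul, mul_add, Matrix.add_apply, Matrix.sub_apply, Pi.add_apply]
    ring
  map_smul' t X := by
    funext a
    simp only [Matrix.smul_mul, Matrix.mul_smul, Matrix.sub_apply, Matrix.smul_apply,
      Pi.smul_apply, RingHom.id_apply, smul_eq_mul]
    ring

theorem sliceMap_apply (r : G → Matrix (Fin 2) (Fin 2) A) (sd : SliceCoords G)
    (X : Matrix (Fin 2) (Fin 2) A) (a : Fin 3) :
    sliceMap r sd X a = (X * r (sd.σ a) - r (sd.σ a) * X) (sd.i a) (sd.j a) := rfl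

theorem sliceMap_one (r : G → Matrix (Fin 2) (Fin 2) A) (sd : SliceCoords G) :
    sliceMap r sd 1 = 0 := by
  funext a
  simp [sliceMap_apply]

theorem sliceMap_mem (r : G → Matrix (Fin 2) (Fin 2) A) (sd : SliceCoords G) {J : Ideal A}
    {X : Matrix (Fin 2) (Fin 2) A} (hX : EntryMem J X) (a : Fin 3) : sliceMap r sd X a ∈ J :=
  (hX.mul_right _).sub (hX.mul_left _) _ _

/-- A linear map out of `A³` sends vectors with entries in `J` to matrices with entries in `J`. -/
theorem entryMem_linear (s : (Fin 3 → A) →ₗ[A] Matrix (Fin 2) (Fin 2) A) {J : Ideal A}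
    {e : Fin 3 → A} (he : ∀ a, e a ∈ J) : EntryMem J (s e) := by
  rw [LinearMap.pi_apply_eq_sum_univ s e]
  exact EntryMem.sum _ fun a _ => EntryMem.smul_of_mem (he a) _

theorem exists_rightInverse {Φ : Matrix (Fin 2) (Fin 2) A →ₗ[A] (Fin 3 → A)}
    (h : Function.Surjective Φ) :
    ∃ s : (Fin 3 → A) →ₗ[A] Matrix (Fin 2) (Fin 2) A, ∀ e, Φ (s e) = e := by
  obtain ⟨s, hs⟩ := Module.projective_lifting_property Φ LinearMap.id h
  exact ⟨s, fun e => by simpa using LinearMap.congr_fun hs e⟩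

/-- `1 + X` is invertible if the entries of `X` lie in an ideal contained in the Jacobson
radical. -/
theorem isUnit_one_add {I : Ideal A} (hI : I ≤ Ideal.jacobson ⊥) {X : Matrix (Fin 2) (Fin 2) A}
    (hX : EntryMem I X) : IsUnit (1 + X) := by
  rw [Matrix.isUnit_iff_isUnit_det, Matrix.det_fin_two]
  have h : (1 + X) 0 0 * (1 + X) 1 1 - (1 + X) 0 1 * (1 + X) 1 0 =
      (X 0 0 + X 1 1 + X 0 0 * X 1 1 - X 0 1 * X 1 0) * 1 + 1 := by
    simp [Matrix.add_apply]
    ring
  rw [h]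
  apply Ideal.mem_jacobson_bot.mp (hI _)
  exact I.sub_mem (I.add_mem (I.add_mem (hX 0 0) (hX 1 1)) (I.mul_mem_left _ (hX 1 1)))
    (I.mul_mem_left _ (hX 1 0))

theorem isUnit_of_sub_one_mem {I : Ideal A} (hI : I ≤ Ideal.jacobson ⊥) {t : A}
    (ht : t - 1 ∈ I) : IsUnit t := by
  have := Ideal.mem_jacobson_bot.mp (hI ht) 1
  simpa using this

/-- The error of `g r g⁻¹` at the three coordinates. -/
def sliceErr (r : G → Matrix (Fin 2) (Fin 2) A) (sd : SliceCoords G) (c : Fin 3 → A)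
    (g : (Matrix (Fin 2) (Fin 2) A)ˣ) (a : Fin 3) : A :=
  ((g : Matrix (Fin 2) (Fin 2) A) * r (sd.σ a) * (↑g⁻¹ : Matrix (Fin 2) (Fin 2) A))
    (sd.i a) (sd.j a) - c a

/-- `g ρ g⁻¹ - ρ` has entries in `J` if `g - 1` does. -/
theorem entryMem_conj_sub {J : Ideal A} (g : (Matrix (Fin 2) (Fin 2) A)ˣ)
    (hg : EntryMem J ((g : Matrix (Fin 2) (Fin 2) A) - 1)) (ρ : Matrix (Fin 2) (Fin 2) A) :
    EntryMem J ((g : Matrix (Fin 2) (Fin 2) A) * ρ * (↑g⁻¹ : Matrix (Fin 2) (Fin 2) A) - ρ) := by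
  have h : (g : Matrix (Fin 2) (Fin 2) A) * ρ * (↑g⁻¹ : Matrix (Fin 2) (Fin 2) A) - ρ =
      (((g : Matrix (Fin 2) (Fin 2) A) - 1) * ρ - ρ * ((g : Matrix (Fin 2) (Fin 2) A) - 1)) *
        (↑g⁻¹ : Matrix (Fin 2) (Fin 2) A) := by
    calc (g : Matrix (Fin 2) (Fin 2) A) * ρ * (↑g⁻¹ : Matrix (Fin 2) (Fin 2) A) - ρ
        = (g : Matrix (Fin 2) (Fin 2) A) * ρ * (↑g⁻¹ : Matrix (Fin 2) (Fin 2) A) -
            ρ * ((g : Matrix (Fin 2) (Fin 2) A) * (↑g⁻¹ : Matrix (Fin 2) (Fin 2) A)) := by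
          rw [g.mul_inv, mul_one]
      _ = _ := by noncomm_ring
  rw [h]
  exact ((hg.mul_right _).sub (hg.mul_left _)).mul_right _

/-- `g ρ g⁻¹ - g' ρ g'⁻¹` has entries in `J` if `g - g'` does. -/
theorem entryMem_conj_sub_conj {J : Ideal A} (g g' : (Matrix (Fin 2) (Fin 2) A)ˣ)
    (hg : EntryMem J ((g : Matrix (Fin 2) (Fin 2) A) - (g' : Matrix (Fin 2) (Fin 2) A)))
    (ρ : Matrix (Fin 2) (Fin 2) A) :
    EntryMem J ((g : Matrix (Fin 2) (Fin 2) A) * ρ * (↑g⁻¹ : Matrix (Fin 2) (Fin 2) A) -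
      (g' : Matrix (Fin 2) (Fin 2) A) * ρ * (↑g'⁻¹ : Matrix (Fin 2) (Fin 2) A)) := by
  have h2 : (↑g⁻¹ : Matrix (Fin 2) (Fin 2) A) - (↑g'⁻¹ : Matrix (Fin 2) (Fin 2) A) =
      - ((↑g'⁻¹ : Matrix (Fin 2) (Fin 2) A) *
        ((g : Matrix (Fin 2) (Fin 2) A) - (g' : Matrix (Fin 2) (Fin 2) A)) *
        (↑g⁻¹ : Matrix (Fin 2) (Fin 2) A)) := by
    rw [mul_sub, sub_mul, g'.inv_mul, one_mul, mul_assoc, g.mul_inv, mul_one]
    abel
  have h : (g : Matrix (Fin 2) (Fin 2) A) * ρ * (↑g⁻¹ : Matrix (Fin 2) (Fin 2) A) -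
      (g' : Matrix (Fin 2) (Fin 2) A) * ρ * (↑g'⁻¹ : Matrix (Fin 2) (Fin 2) A) =
      ((g : Matrix (Fin 2) (Fin 2) A) - (g' : Matrix (Fin 2) (Fin 2) A)) * ρ *
          (↑g⁻¹ : Matrix (Fin 2) (Fin 2) A) +
        (g' : Matrix (Fin 2) (Fin 2) A) * ρ *
          ((↑g⁻¹ : Matrix (Fin 2) (Fin 2) A) - (↑g'⁻¹ : Matrix (Fin 2) (Fin 2) A)) := by
    noncomm_ring
  rw [h, h2]
  refine ((hg.mul_right _).mul_right _).add (EntryMem.mul_left _ ?_)
  exact (((hg.mul_left _).mul_right _)).neg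

local notation "M2[" A "]" => Matrix (Fin 2) (Fin 2) A

/-- One step of the successive approximation. -/
theorem slice_step {I : Ideal A} (hI : I ≤ Ideal.jacobson ⊥) (r : G → M2[A]) (sd : SliceCoords G)
    (s : (Fin 3 → A) →ₗ[A] M2[A]) (hs : ∀ e, sliceMap r sd (s e) = e) (c : Fin 3 → A)
    (g : (M2[A])ˣ) (hg : EntryMem I ((g : M2[A]) - 1)) (m : ℕ) (hm : 1 ≤ m)
    (herr : ∀ a, sliceErr r sd c g a ∈ I ^ m) :
    ∃ g' : (M2[A])ˣ, EntryMem I ((g' : M2[A]) - 1) ∧
      EntryMem (I ^ m) ((g' : M2[A]) - (g : M2[A])) ∧ ∀ a, sliceErr r sd c g' a ∈ I ^ (m + 1) := by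
  have hIm : I ^ m ≤ I := Ideal.pow_le_self (by omega)
  set e : Fin 3 → A := fun a => sliceErr r sd c g a with he
  set X : M2[A] := s (-e) with hX
  have hXm : EntryMem (I ^ m) X := entryMem_linear s fun a => (I ^ m).neg_mem (herr a)
  have hXI : EntryMem I X := hXm.mono hIm
  obtain ⟨u, hu⟩ := isUnit_one_add hI hXI
  have hui : (↑u⁻¹ : M2[A]) = 1 - X * (↑u⁻¹ : M2[A]) := by
    have h1 : (1 + X) * (↑u⁻¹ : M2[A]) = 1 := by rw [← hu]; exact u.mul_inv
    rw [add_mul, one_mul] at h1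
    rw [← h1]; abel
  refine ⟨u * g, ?_, ?_, ?_⟩
  · have : ((u * g : (M2[A])ˣ) : M2[A]) - 1 = ((g : M2[A]) - 1) + X * (g : M2[A]) := by
      rw [Units.val_mul, hu]; noncomm_ring
    rw [this]
    exact hg.add (hXI.mul_right _)
  · have : ((u * g : (M2[A])ˣ) : M2[A]) - (g : M2[A]) = X * (g : M2[A]) := by
      rw [Units.val_mul, hu]; noncomm_ring
    rw [this]
    exact hXm.mul_right _
  · intro a
    set ρ : M2[A] := r (sd.σ a) with hρ
    set R : M2[A] := (g : M2[A]) * ρ * (↑g⁻¹ : M2[A]) with hR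
    set Δ : M2[A] := R - ρ with hΔ
    have hΔI : EntryMem I Δ := entryMem_conj_sub g hg ρ
    set D : M2[A] := X * R - R * X with hD
    have hDm : EntryMem (I ^ m) D := (hXm.mul_right _).sub (hXm.mul_left _)
    -- conjugation formula
    have hconj : ((u * g : (M2[A])ˣ) : M2[A]) * ρ * (↑(u * g)⁻¹ : M2[A]) =
        R + D - D * X * (↑u⁻¹ : M2[A]) := by
      have h1 : ((u * g : (M2[A])ˣ) : M2[A]) * ρ * (↑(u * g)⁻¹ : M2[A]) =
          (u : M2[A]) * R * (↑u⁻¹ : M2[A]) := by
        rw [_root_.mul_inv_rev, Units.val_mul, Units.val_mul, hR]; noncomm_ring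
      have h2 : (u : M2[A]) * R = R * (u : M2[A]) + D := by rw [hu, hD]; noncomm_ring
      rw [h1, h2, add_mul, mul_assoc, u.mul_inv, mul_one]
      conv_lhs => rw [hui]
      noncomm_ring
    have hD2 : D = (X * ρ - ρ * X) + (X * Δ - Δ * X) := by rw [hD, hΔ]; noncomm_ring
    have hΦ : (X * ρ - ρ * X) (sd.i a) (sd.j a) = - e a := by
      have := congrFun (hs (-e)) a
      rw [sliceMap_apply] at this
      simpa [hX, hρ] using this
    have hpow : I ^ m * I = I ^ (m + 1) := (pow_succ I m).symm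
    have hsmall1 : EntryMem (I ^ (m + 1)) (X * Δ - Δ * X) := by
      refine EntryMem.sub ?_ ?_
      · rw [← hpow]; exact hXm.mul hΔI
      · rw [← hpow, mul_comm (I ^ m) I]; exact hΔI.mul hXm
    have hsmall2 : EntryMem (I ^ (m + 1)) (D * X * (↑u⁻¹ : M2[A])) := by
      refine EntryMem.mul_right ?_ _
      rw [← hpow]; exact hDm.mul hXI
    have key : sliceErr r sd c (u * g) a =
        (X * Δ - Δ * X) (sd.i a) (sd.j a) - (D * X * (↑u⁻¹ : M2[A])) (sd.i a) (sd.j a) := by
      have hea : e a = R (sd.i a) (sd.j a) - c a := rfl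
      unfold sliceErr
      rw [← hρ, hconj, hD2]
      simp only [Matrix.add_apply, Matrix.sub_apply] at hΦ ⊢
      rw [hΦ, hea]
      ring
    rw [key]
    exact (I ^ (m + 1)).sub_mem (hsmall1 _ _) (hsmall2 _ _)

theorem sliceErr_one (r : G → M2[A]) (sd : SliceCoords G) (c : Fin 3 → A) (a : Fin 3) :
    sliceErr r sd c 1 a = r (sd.σ a) (sd.i a) (sd.j a) - c a := by
  simp [sliceErr]

/-- **Slice lemma, existence.** -/
theorem slice_exists (I : Ideal A) [IsAdicComplete I A] (r : G → M2[A]) (sd : SliceCoords G)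
    (hT1 : Function.Surjective (sliceMap r sd)) (c : Fin 3 → A)
    (hc : ∀ a, r (sd.σ a) (sd.i a) (sd.j a) - c a ∈ I) :
    ∃ g : (M2[A])ˣ, EntryMem I ((g : M2[A]) - 1) ∧
      ∀ a, ((g : M2[A]) * r (sd.σ a) * (↑g⁻¹ : M2[A])) (sd.i a) (sd.j a) = c a := by
  have hI : I ≤ Ideal.jacobson ⊥ := IsAdicComplete.le_jacobson_bot I
  obtain ⟨s, hs⟩ := exists_rightInverse hT1
  -- the invariant
  let Q : ℕ → (M2[A])ˣ → Prop := fun n g =>
    EntryMem I ((g : M2[A]) - 1) ∧ ∀ a, sliceErr r sd c g a ∈ I ^ (n + 1)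
  have hQ0 : Q 0 1 := by
    refine ⟨by simpa using (EntryMem.zero : EntryMem I (0 : M2[A])), fun a => ?_⟩
    rw [sliceErr_one, zero_add, pow_one]; exact hc a
  have hstep : ∀ n g, Q n g → ∃ g' : (M2[A])ˣ, Q (n + 1) g' ∧
      EntryMem (I ^ (n + 1)) ((g' : M2[A]) - (g : M2[A])) := by
    intro n g hQ
    obtain ⟨g', h1, h2, h3⟩ := slice_step hI r sd s hs c g hQ.1 (n + 1) (by omega) hQ.2
    exact ⟨g', ⟨h1, h3⟩, h2⟩
  -- the sequence
  let seq : (n : ℕ) → {g : (M2[A])ˣ // Q n g} := fun n =>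
    Nat.rec ⟨1, hQ0⟩ (fun n p => ⟨(hstep n p.1 p.2).choose, (hstep n p.1 p.2).choose_spec.1⟩) n
  have hdiff : ∀ n, EntryMem (I ^ (n + 1)) (((seq (n + 1)).1 : M2[A]) - ((seq n).1 : M2[A])) :=
    fun n => (hstep n (seq n).1 (seq n).2).choose_spec.2
  -- Cauchy
  have hcauchy : ∀ m n, m ≤ n → EntryMem (I ^ m) (((seq n).1 : M2[A]) - ((seq m).1 : M2[A])) := by
    intro m n hmn
    induction n, hmn using Nat.le_induction with
    | base => simpa using (EntryMem.zero : EntryMem (I ^ m) (0 : M2[A]))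
    | succ n hmn ih =>
      have : ((seq (n + 1)).1 : M2[A]) - ((seq m).1 : M2[A]) =
          (((seq (n + 1)).1 : M2[A]) - ((seq n).1 : M2[A])) +
            (((seq n).1 : M2[A]) - ((seq m).1 : M2[A])) := by abel
      rw [this]
      exact ((hdiff n).mono (Ideal.pow_le_pow_right (by omega))).add ih
  -- entrywise limits
  have hlim : ∀ i j, ∃ L : A, ∀ n, ((seq n).1 : M2[A]) i j - L ∈ I ^ n := by
    intro i j
    obtain ⟨L, hL⟩ := IsPrecomplete.prec (I := I) (M := A) inferInstance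
      (f := fun n => ((seq n).1 : M2[A]) i j) (by
        intro m n hmn
        rw [SModEq.sub_mem, smul_eq_mul, Ideal.mul_top]
        have := hcauchy m n hmn i j
        rw [Matrix.sub_apply] at this
        rw [← neg_sub]; exact (I ^ m).neg_mem this)
    refine ⟨L, fun n => ?_⟩
    have := hL n
    rwa [SModEq.sub_mem, smul_eq_mul, Ideal.mul_top] at this
  choose L hL using hlim
  let gL : M2[A] := Matrix.of L
  have hgL : ∀ n, EntryMem (I ^ n) (((seq n).1 : M2[A]) - gL) := fun n i j => by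
    rw [Matrix.sub_apply]; exact hL i j n
  have hgL1 : EntryMem I (gL - 1) := by
    have : gL - 1 = (((seq 1).1 : M2[A]) - 1) - (((seq 1).1 : M2[A]) - gL) := by abel
    rw [this]
    refine (seq 1).2.1.sub ?_
    have := hgL 1
    rwa [pow_one] at this
  obtain ⟨gu, hgu⟩ := isUnit_one_add hI hgL1
  have hgu' : (gu : M2[A]) = gL := by rw [hgu]; abel
  refine ⟨gu, by rw [hgu']; exact hgL1, fun a => ?_⟩
  have hzero : sliceErr r sd c gu a = 0 := by
    apply IsHausdorff.haus (I := I) (M := A) inferInstance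
    intro n
    rw [SModEq.sub_mem, smul_eq_mul, Ideal.mul_top, sub_zero]
    have h1 : sliceErr r sd c gu a = sliceErr r sd c (seq n).1 a +
        (((gu : M2[A]) * r (sd.σ a) * (↑gu⁻¹ : M2[A])) -
          (((seq n).1 : M2[A]) * r (sd.σ a) * (↑(seq n).1⁻¹ : M2[A]))) (sd.i a) (sd.j a) := by
      unfold sliceErr
      rw [Matrix.sub_apply]; ring
    rw [h1]
    refine (I ^ n).add_mem ?_ ?_
    · exact Ideal.pow_le_pow_right (by omega) ((seq n).2.2 a)
    · apply entryMem_conj_sub_conj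
      rw [hgu', ← neg_sub]
      exact (hgL n).neg
  unfold sliceErr at hzero
  exact sub_eq_zero.mp hzero

theorem eq_zero_of_forall_mem_pow (I : Ideal A) [IsHausdorff I A] {x : A}
    (h : ∀ n : ℕ, x ∈ I ^ (n + 1)) : x = 0 := by
  apply IsHausdorff.haus (I := I) (M := A) inferInstance
  intro n
  rw [SModEq.sub_mem, smul_eq_mul, Ideal.mul_top, sub_zero]
  exact Ideal.pow_le_pow_right (by omega) (h n)

/-- **Slice lemma, uniqueness.** Two maps `r, r'` which agree at the three coordinates and are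
conjugate by a matrix congruent to `1` mod `I` are equal; the conjugating matrix is scalar. -/
theorem slice_unique (I : Ideal A) [IsHausdorff I A] (hI : I ≤ Ideal.jacobson ⊥)
    (r r' : G → M2[A]) (sd : SliceCoords G)
    (hT1 : Function.Surjective (sliceMap r sd))
    (hT2 : ∀ X, sliceMap r sd X = 0 → ∃ t : A, X = t • (1 : M2[A]))
    (hrr' : ∀ a, r (sd.σ a) (sd.i a) (sd.j a) = r' (sd.σ a) (sd.i a) (sd.j a))
    (g : M2[A]) (hg : EntryMem I (g - 1)) (hconj : ∀ σ, g * r σ = r' σ * g) :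
    (∃ t : A, g = t • (1 : M2[A])) ∧ r = r' := by
  obtain ⟨s, hs⟩ := exists_rightInverse hT1
  -- approximate scalars
  have happrox : ∀ n : ℕ, ∃ t : A, EntryMem (I ^ (n + 1)) (g - t • (1 : M2[A])) := by
    intro n
    induction n with
    | zero => exact ⟨1, by simpa using hg⟩
    | succ n ih =>
      obtain ⟨t, ht⟩ := ih
      set m := n + 1 with hm
      have hIm : I ^ m ≤ I := Ideal.pow_le_self (by omega)
      obtain ⟨Y, hY⟩ : ∃ Y : M2[A], Y = g - t • (1 : M2[A]) := ⟨_, rfl⟩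
      rw [← hY] at ht
      have hYI : EntryMem I Y := ht.mono hIm
      have hgY : g = t • (1 : M2[A]) + Y := by rw [hY]; abel
      -- t is a unit
      have ht1 : t - 1 ∈ I := by
        have h1 := hg 0 0
        have h2 := hIm (ht 0 0)
        simp only [hY, Matrix.sub_apply, Matrix.smul_apply, Matrix.one_apply_eq, smul_eq_mul,
          mul_one] at h1 h2
        have : t - 1 = (g 0 0 - 1) - (g 0 0 - t) := by ring
        rw [this]; exact I.sub_mem h1 h2
      obtain ⟨tu, htu⟩ := isUnit_of_sub_one_mem hI ht1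
      -- t • (r σ - r' σ) = r' σ * Y - Y * r σ
      have hrel : ∀ σ, t • (r σ - r' σ) = r' σ * Y - Y * r σ := by
        intro σ
        have := hconj σ
        rw [hgY, add_mul, mul_add, Matrix.smul_mul, Matrix.mul_smul, one_mul, mul_one] at this
        rw [smul_sub, sub_eq_sub_iff_add_eq_add, this, add_comm]
      have hdiffr : ∀ σ, EntryMem (I ^ m) (r' σ - r σ) := by
        intro σ
        have h1 : r' σ - r σ = (↑tu⁻¹ : A) • (Y * r σ - r' σ * Y) := by
          rw [← neg_sub (r' σ * Y), ← hrel σ, ← htu, smul_neg, smul_smul, Units.inv_mul, one_smul,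
            neg_sub]
        rw [h1]
        exact ((ht.mul_right _).sub (ht.mul_left _)).smul _
      have hΦ : ∀ a, sliceMap r sd Y a ∈ I ^ (m + 1) := by
        intro a
        have h1 := congrFun (congrFun (hrel (sd.σ a)) (sd.i a)) (sd.j a)
        rw [Matrix.smul_apply, Matrix.sub_apply, hrr' a, sub_self, smul_zero] at h1
        have h2 : sliceMap r sd Y a =
            ((r' (sd.σ a) - r (sd.σ a)) * Y) (sd.i a) (sd.j a) := by
          rw [sliceMap_apply, sub_mul]
          simp only [Matrix.sub_apply] at h1 ⊢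
          linear_combination h1
        rw [h2, pow_succ]
        exact (hdiffr (sd.σ a)).mul hYI _ _
      set Z : M2[A] := s (sliceMap r sd Y) with hZ
      have hZm : EntryMem (I ^ (m + 1)) Z := entryMem_linear s hΦ
      obtain ⟨b, hb⟩ := hT2 (Y - Z) (by rw [map_sub, hZ, hs, sub_self])
      refine ⟨t + b, ?_⟩
      have : g - (t + b) • (1 : M2[A]) = Z := by
        rw [add_smul, ← hb, hY]; abel
      rw [this]; exact hZm
  choose t ht using happrox
  have h01 : g 0 1 = 0 := eq_zero_of_forall_mem_pow I fun n => by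
    simpa using ht n 0 1
  have h10 : g 1 0 = 0 := eq_zero_of_forall_mem_pow I fun n => by
    simpa using ht n 1 0
  have h0011 : g 0 0 - g 1 1 = 0 := eq_zero_of_forall_mem_pow I fun n => by
    have h1 := ht n 0 0
    have h2 := ht n 1 1
    simp only [Matrix.sub_apply, Matrix.smul_apply, Matrix.one_apply_eq, smul_eq_mul,
      mul_one] at h1 h2
    have : g 0 0 - g 1 1 = (g 0 0 - t n) - (g 1 1 - t n) := by ring
    rw [this]; exact (I ^ (n + 1)).sub_mem h1 h2
  have hgt : g = g 0 0 • (1 : M2[A]) := by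
    ext i j
    fin_cases i <;> fin_cases j <;> simp [h01, h10, (sub_eq_zero.mp h0011).symm]
  refine ⟨⟨g 0 0, hgt⟩, ?_⟩
  have ht1 : g 0 0 - 1 ∈ I := by simpa using hg 0 0
  obtain ⟨tu, htu⟩ := isUnit_of_sub_one_mem hI ht1
  funext σ
  have := hconj σ
  rw [hgt, Matrix.smul_mul, Matrix.mul_smul, one_mul, mul_one, ← htu] at this
  have h2 := congrArg (fun M => (↑tu⁻¹ : A) • M) this
  simpa [smul_smul] using h2

end Fermat.Agent.S53.SliceGen
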