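import Fermat.Agent.S53.Defs
import Fermat.Agent.S53.SliceGen

/-!
# S53, B3: the slice lemma in the shape used by the S53 assembly

Bridge from the generic slice lemma (`SliceGen.slice_exists`, `SliceGen.slice_unique`) to the
statements about `SliceData` over the residue field.
-/

set_option autoImplicit false

namespace Fermat.Agent.S53.SliceGen

open Matrix IsLocalRing

section map

variable {G : Type*} {A B : Type*} [CommRing A] [CommRing B]

theorem map_sliceMap (f : A →+* B) (r : G → M2 A) (sd : SliceCoords G) (X : M2 A) (a : Fin 3) :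
    f (sliceMap r sd X a) = sliceMap (fun g => (r g).map f) sd (X.map f) a := by
  simp only [sliceMap_apply, Matrix.sub_apply, Matrix.mul_apply, Matrix.map_apply, map_sub,
    map_sum, map_mul]

end map

variable {G : Type*} [Group G] {A : Type*} [CommRing A] [IsLocalRing A]
  {κ : Type*} [Field κ] (res : A →+* κ) (hres : Function.Surjective res)
  (hker : ∀ x : A, res x = 0 ↔ x ∈ IsLocalRing.maximalIdeal A)
  {rbar : G →* M2 κ} (D : SliceData rbar)

/-- The coordinates of a `SliceData`. -/
def coordsOf (D : SliceData rbar) : SliceCoords G := ⟨D.s, D.i, D.j⟩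

theorem sliceMap_rbar_apply (X : M2 κ) (a : Fin 3) :
    sliceMap (fun g => rbar g) (coordsOf D) X a =
      (X * rbar (D.s a) - rbar (D.s a) * X) (D.i a) (D.j a) := rfl

/-- The decomposition of a matrix over the residue field. -/
theorem decomp_residue (X : M2 κ) :
    ∃ c : κ, X = c • (1 : M2 κ) +
      ∑ b : Fin 3, sliceMap (fun g => rbar g) (coordsOf D) X b • D.Y b := by
  set Φ := sliceMap (fun g => rbar g) (coordsOf D) with hΦ
  have hdual : ∀ a b, Φ (D.Y b) a = if a = b then 1 else 0 := fun a b => D.dual a b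
  obtain ⟨c, hc⟩ := D.ker (X - ∑ b : Fin 3, Φ X b • D.Y b) (by
    intro a
    have h1 : Φ (X - ∑ b : Fin 3, Φ X b • D.Y b) a = 0 := by
      rw [map_sub, map_sum, Pi.sub_apply, Finset.sum_apply]
      simp only [map_smul, Pi.smul_apply, hdual, smul_eq_mul, mul_ite, mul_one, mul_zero,
        Finset.sum_ite_eq, Finset.mem_univ, if_true, sub_self]
    exact h1)
  refine ⟨c, ?_⟩
  rw [Matrix.smul_one_eq_diagonal, ← Matrix.scalar_apply, ← hc]
  abel

include hker in
theorem entryMem_of_map_eq_zero {X : M2 A} (h : X.map res = 0) :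
    EntryMem (maximalIdeal A) X := fun i j => by
  rw [← hker]
  exact congrFun (congrFun h i) j

omit [IsLocalRing A] in
theorem mem_smul_top_of_entryMem {J : Ideal A} {X : M2 A} (h : EntryMem J X) :
    X ∈ J • (⊤ : Submodule A (M2 A)) := by
  rw [Matrix.matrix_eq_sum_single X]
  refine Submodule.sum_mem _ fun i _ => Submodule.sum_mem _ fun j _ => ?_
  have : Matrix.single i j (X i j) = X i j • Matrix.single i j (1 : A) := by
    rw [Matrix.smul_single, smul_eq_mul, mul_one]
  rw [this]
  exact Submodule.smul_mem_smul (h i j) Submodule.mem_top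

include hres hker in
/-- Transversality over `A` from slice data over the residue field. -/
theorem transversal_of_sliceData (r : G → M2 A) (hr : ∀ g, (r g).map res = rbar g) :
    Function.Surjective (sliceMap r (coordsOf D)) ∧
      ∀ X, sliceMap r (coordsOf D) X = 0 → ∃ t : A, X = t • (1 : M2 A) := by
  classical
  -- lift the dual family
  have hY : ∀ b, ∃ Yt : M2 A, Yt.map res = D.Y b := by
    intro b
    choose f hf using fun i j => hres (D.Y b i j)
    exact ⟨Matrix.of f, by ext i j; simp [hf]⟩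
  choose Yt hYt using hY
  have hrfun : (fun g => (r g).map res) = fun g => rbar g := funext hr
  set Φ := sliceMap r (coordsOf D) with hΦ
  -- the matrix P
  set P : Matrix (Fin 3) (Fin 3) A := Matrix.of fun a b => Φ (Yt b) a with hP
  have hPres : P.map res = 1 := by
    ext a b
    rw [Matrix.map_apply, hP, Matrix.of_apply, hΦ, map_sliceMap, hrfun, hYt,
      sliceMap_rbar_apply, D.dual a b, Matrix.one_apply]
  have hPdet : IsUnit P.det := by
    rw [← IsLocalRing.notMem_maximalIdeal, ← hker]
    have : res P.det = 1 := by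
      have h := RingHom.map_det res P
      rw [h]
      have h2 : res.mapMatrix P = P.map res := rfl
      rw [h2, hPres, Matrix.det_one]
    rw [this]; exact one_ne_zero
  have hPunit : IsUnit P := (Matrix.isUnit_iff_isUnit_det P).mpr hPdet
  -- the linear map Ψ₀
  let Ψ₀ : (Fin 3 → A) →ₗ[A] M2 A :=
    { toFun := fun w => ∑ b : Fin 3, w b • Yt b
      map_add' := fun w w' => by simp [add_smul, Finset.sum_add_distrib]
      map_smul' := fun t w => by simp [mul_smul, Finset.smul_sum] }
  have hΨ₀ : ∀ w, Φ (Ψ₀ w) = P *ᵥ w := by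
    intro w
    funext a
    show Φ (∑ b : Fin 3, w b • Yt b) a = _
    rw [map_sum, Finset.sum_apply, Matrix.mulVec, dotProduct]
    refine Finset.sum_congr rfl fun b _ => ?_
    rw [map_smul, Pi.smul_apply, smul_eq_mul, hP, Matrix.of_apply, mul_comm]
  have hPinv : ∀ w, P *ᵥ (P⁻¹ *ᵥ w) = w := by
    intro w
    rw [Matrix.mulVec_mulVec, Matrix.mul_nonsing_inv P hPdet, Matrix.one_mulVec]
  have hPinv' : ∀ w, P⁻¹ *ᵥ (P *ᵥ w) = w := by
    intro w
    rw [Matrix.mulVec_mulVec, Matrix.nonsing_inv_mul P hPdet, Matrix.one_mulVec]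
  refine ⟨fun e => ⟨Ψ₀ (P⁻¹ *ᵥ e), by rw [hΨ₀, hPinv]⟩, ?_⟩
  -- every matrix is scalar + Ψ₀ w
  have hspan : (⊤ : Submodule A (M2 A)) ≤
      Submodule.span A {(1 : M2 A)} ⊔ LinearMap.range Ψ₀ := by
    apply Submodule.le_of_le_smul_of_le_jacobson_bot (I := maximalIdeal A)
    · exact Module.Finite.fg_top
    · exact IsLocalRing.maximalIdeal_le_jacobson ⊥
    · intro X _
      obtain ⟨c, hc⟩ := decomp_residue D (X.map res)
      obtain ⟨t, ht⟩ := hres c
      set w : Fin 3 → A := Φ X with hw
      have hZ : (X - (t • (1 : M2 A) + Ψ₀ w)).map res = 0 := by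
        have h1 : (Ψ₀ w).map res =
            ∑ b : Fin 3, sliceMap (fun g => rbar g) (coordsOf D) (X.map res) b • D.Y b := by
          show (∑ b : Fin 3, w b • Yt b).map res = _
          have hmap : ∀ M : M2 A, M.map res = res.mapMatrix M := fun _ => rfl
          rw [hmap, map_sum]
          refine Finset.sum_congr rfl fun b _ => ?_
          rw [← hmap, Matrix.map_smul' _ _ _ (map_mul res), hYt, hw, hΦ, map_sliceMap, hrfun]
        have h2 : (t • (1 : M2 A)).map res = c • (1 : M2 κ) := by
          rw [Matrix.map_smul' _ _ _ (map_mul res), ht, Matrix.map_one _ (map_zero res) (map_one res)]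
        have hmap : ∀ M : M2 A, M.map res = res.mapMatrix M := fun _ => rfl
        rw [hmap, map_sub, map_add, ← hmap, ← hmap, ← hmap, h1, h2, ← hc, sub_self]
      have hZm := mem_smul_top_of_entryMem (entryMem_of_map_eq_zero res hker hZ)
      have : X = (t • (1 : M2 A) + Ψ₀ w) + (X - (t • (1 : M2 A) + Ψ₀ w)) := by abel
      rw [this]
      refine Submodule.add_mem_sup (Submodule.add_mem_sup ?_ ?_) hZm
      · exact Submodule.smul_mem _ _ (Submodule.subset_span rfl)
      · exact LinearMap.mem_range_self _ _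
  intro X hX
  obtain ⟨y, hy, z, ⟨w, rfl⟩, rfl⟩ := Submodule.mem_sup.mp (hspan (Submodule.mem_top (x := X)))
  obtain ⟨t, rfl⟩ := Submodule.mem_span_singleton.mp hy
  have h1 : Φ (t • (1 : M2 A) + Ψ₀ w) = P *ᵥ w := by
    rw [map_add, map_smul, hΦ, sliceMap_one, smul_zero, zero_add, ← hΦ, hΨ₀]
  have hw : w = 0 := by
    have := hPinv' w
    rw [← h1, hX, Matrix.mulVec_zero] at this
    exact this.symm
  refine ⟨t, ?_⟩
  rw [hw, map_zero, add_zero]

include hres hker in
/-- **B3a** in the shape of the S53 assembly (same statement as the work item `slice_exists`). -/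
theorem slice_exists_of_sliceData [IsAdicComplete (IsLocalRing.maximalIdeal A) A]
    (c : Fin 3 → A) (hc : ∀ a, res (c a) = rbar (D.s a) (D.i a) (D.j a))
    (r : G →* M2 A) (hr : ∀ g, (r g).map res = rbar g) :
    ∃ γ : (M2 A)ˣ, (∀ i j, ((γ : M2 A) - 1) i j ∈ IsLocalRing.maximalIdeal A) ∧
      ∀ a, conjMat γ r (D.s a) (D.i a) (D.j a) = c a := by
  obtain ⟨hT1, -⟩ := transversal_of_sliceData res hres hker D (fun g => r g) hr
  obtain ⟨γ, hγ, hγc⟩ := slice_exists (maximalIdeal A) (fun g => r g) (coordsOf D) hT1 c (by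
    intro a
    rw [← hker, map_sub, hc]
    have := congrFun (congrFun (hr (D.s a)) (D.i a)) (D.j a)
    rw [Matrix.map_apply] at this
    show res (r (D.s a) (D.i a) (D.j a)) - _ = 0
    rw [this, sub_self])
  exact ⟨γ, hγ, hγc⟩

include hres hker in
/-- **B3b** in the shape of the S53 assembly (same statement as the work item `slice_unique`). -/
theorem slice_unique_of_sliceData [IsHausdorff (IsLocalRing.maximalIdeal A) A]
    (c : Fin 3 → A)
    (r r' : G →* M2 A) (hr : ∀ g, (r g).map res = rbar g) (hr' : ∀ g, (r' g).map res = rbar g)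
    (hn : ∀ a, r (D.s a) (D.i a) (D.j a) = c a) (hn' : ∀ a, r' (D.s a) (D.i a) (D.j a) = c a)
    (γ : (M2 A)ˣ) (hγ : ∀ g, (γ : M2 A) * r g = r' g * (γ : M2 A)) :
    r = r' ∧ ∃ u : Aˣ, (γ : M2 A) = Matrix.scalar (Fin 2) (u : A) := by
  obtain ⟨hT1, hT2⟩ := transversal_of_sliceData res hres hker D (fun g => r g) hr
  have hmap : ∀ M : M2 A, M.map res = res.mapMatrix M := fun _ => rfl
  -- the reduction of γ is scalar
  set γb : M2 κ := (γ : M2 A).map res with hγb
  have hcomm : ∀ g, γb * rbar g = rbar g * γb := by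
    intro g
    have := congrArg (fun M : M2 A => M.map res) (hγ g)
    simp only [hmap, map_mul] at this
    rw [← hmap, ← hmap, ← hmap, hr, hr'] at this
    exact this
  obtain ⟨cb, hcb⟩ := D.ker γb (fun a => by rw [hcomm, sub_self]; rfl)
  have hcb0 : cb ≠ 0 := by
    intro h0
    have h1 : γb * ((↑γ⁻¹ : M2 A).map res) = 1 := by
      rw [hγb, hmap, hmap, ← map_mul, γ.mul_inv, map_one]
    rw [hcb, h0, map_zero, zero_mul] at h1
    have := congrFun (congrFun h1 0) 0
    simp at this
  obtain ⟨u, hu⟩ := hres cb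
  have huunit : IsUnit u := by
    rw [← IsLocalRing.notMem_maximalIdeal, ← hker, hu]; exact hcb0
  obtain ⟨uu, huu⟩ := huunit
  -- rescale
  set g : M2 A := (↑uu⁻¹ : A) • (γ : M2 A) with hg
  have hresinv : res (↑uu⁻¹ : A) * cb = 1 := by
    rw [← hu, ← huu, ← map_mul, Units.inv_mul, map_one]
  have hg1 : EntryMem (maximalIdeal A) (g - 1) := by
    intro i j
    rw [← hker, Matrix.sub_apply, map_sub, hg, Matrix.smul_apply, smul_eq_mul, map_mul]
    have h1 : res ((γ : M2 A) i j) = γb i j := rfl
    rw [h1, hcb, Matrix.scalar_apply, Matrix.diagonal_apply, Matrix.one_apply]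
    by_cases hij : i = j
    · rw [if_pos hij, if_pos hij, hresinv, map_one, sub_self]
    · rw [if_neg hij, if_neg hij, mul_zero, map_zero, sub_self]
  have hconj : ∀ σ, g * (fun g => r g) σ = (fun g => r' g) σ * g := by
    intro σ
    show g * r σ = r' σ * g
    rw [hg, Matrix.smul_mul, Matrix.mul_smul, hγ]
  obtain ⟨⟨t, ht⟩, hrr'⟩ := slice_unique (maximalIdeal A) (IsLocalRing.maximalIdeal_le_jacobson ⊥)
    (fun g => r g) (fun g => r' g) (coordsOf D) hT1 hT2
    (fun a => (hn a).trans (hn' a).symm) g hg1 hconj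
  refine ⟨MonoidHom.ext fun σ => congrFun hrr' σ, ?_⟩
  have hγt : (γ : M2 A) = Matrix.scalar (Fin 2) ((uu : A) * t) := by
    have : (γ : M2 A) = (uu : A) • g := by
      rw [hg, smul_smul, Units.mul_inv, one_smul]
    rw [this, ht, smul_smul, Matrix.smul_one_eq_diagonal, Matrix.scalar_apply]
  have hunit : IsUnit ((uu : A) * t) := by
    have h1 : (γ : M2 A) * (↑γ⁻¹ : M2 A) = 1 := γ.mul_inv
    have := congrFun (congrFun h1 0) 0
    rw [hγt, Matrix.scalar_apply, Matrix.diagonal_mul, Matrix.one_apply_eq] at this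
    exact IsUnit.of_mul_eq_one _ this
  obtain ⟨v, hv⟩ := hunit
  exact ⟨v, by rw [hv, hγt]⟩

end Fermat.Agent.S53.SliceGen
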