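/-
S53, part B2: slice data from the Schur property (pure linear algebra on `M2 κ`).
Owner: helper69.
-/
import Fermat.Agent.S53.Defs

set_option autoImplicit false

namespace Fermat.Agent.S53

open Module

section commForm

variable {κ : Type*} [Field κ]

/-- The linear form `X ↦ (X * B - B * X) i j` on `M2 κ`. -/
def commForm (B : M2 κ) (i j : Fin 2) : Module.Dual κ (M2 κ) where
  toFun X := (X * B - B * X) i j
  map_add' X Y := by
    simp only [add_mul, mul_add, Matrix.sub_apply, Matrix.add_apply]
    ring
  map_smul' c X := by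
    simp only [Matrix.smul_mul, Matrix.mul_smul, Matrix.sub_apply, Matrix.smul_apply,
      smul_eq_mul, RingHom.id_apply]
    ring

@[simp] lemma commForm_apply (B : M2 κ) (i j : Fin 2) (X : M2 κ) :
    commForm B i j X = (X * B - B * X) i j := rfl

end commForm

section exist

variable {G : Type*} [Monoid G] {κ : Type*} [Field κ]

/-- The set of all commutator forms attached to `rbar`. -/
def commFormSet (rbar : G →* M2 κ) : Set (Module.Dual κ (M2 κ)) :=
  {φ | ∃ (g : G) (i j : Fin 2), φ = commForm (rbar g) i j}

lemma mem_dualCoannihilator_commFormSet (rbar : G →* M2 κ) (X : M2 κ) :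
    X ∈ (Submodule.span κ (commFormSet rbar)).dualCoannihilator ↔
      ∀ g : G, X * rbar g = rbar g * X := by
  rw [Submodule.mem_dualCoannihilator]
  constructor
  · intro h g
    ext i j
    have := h (commForm (rbar g) i j) (Submodule.subset_span ⟨g, i, j, rfl⟩)
    rw [commForm_apply, Matrix.sub_apply, sub_eq_zero] at this
    exact this
  · intro h φ hφ
    induction hφ using Submodule.span_induction with
    | mem φ hφ =>
      obtain ⟨g, i, j, rfl⟩ := hφ
      rw [commForm_apply, h g, sub_self]; rfl
    | zero => rfl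
    | add φ ψ _ _ hφ hψ => rw [LinearMap.add_apply, hφ, hψ, add_zero]
    | smul c φ _ hφ => rw [LinearMap.smul_apply, hφ, smul_zero]

lemma dualCoannihilator_commFormSet_eq (rbar : G →* M2 κ) (h : IsSchur rbar) :
    (Submodule.span κ (commFormSet rbar)).dualCoannihilator =
      Submodule.span κ {(1 : M2 κ)} := by
  ext X
  rw [mem_dualCoannihilator_commFormSet, Submodule.mem_span_singleton]
  constructor
  · intro hX
    obtain ⟨c, rfl⟩ := h X hX
    exact ⟨c, by rw [Matrix.smul_one_eq_diagonal]; rfl⟩
  · rintro ⟨c, rfl⟩ g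
    rw [Matrix.smul_mul, Matrix.mul_smul, one_mul, mul_one]

lemma finrank_span_commFormSet (rbar : G →* M2 κ) (h : IsSchur rbar) :
    finrank κ (Submodule.span κ (commFormSet rbar)) = 3 := by
  have h1 := Subspace.finrank_add_finrank_dualCoannihilator_eq
    (Submodule.span κ (commFormSet rbar))
  rw [dualCoannihilator_commFormSet_eq rbar h,
    finrank_span_singleton (one_ne_zero : (1 : M2 κ) ≠ 0)] at h1
  have h2 : finrank κ (M2 κ) = 4 := by
    rw [Module.finrank_matrix]; simp
  omega

/-- Auxiliary: three linearly independent commutator forms spanning all of them give slice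
data. -/
lemma nonempty_sliceData_aux (rbar : G →* M2 κ) (h : IsSchur rbar)
    (f : Fin 3 → Module.Dual κ (M2 κ)) (hf_mem : ∀ a, f a ∈ commFormSet rbar)
    (hf_span : Submodule.span κ (Set.range f) = Submodule.span κ (commFormSet rbar)) :
    Nonempty (SliceData rbar) := by
  classical
  choose s i j hsij using hf_mem
  -- the combined map
  let Ψ : M2 κ →ₗ[κ] (Fin 3 → κ) := LinearMap.pi f
  have hker : LinearMap.ker Ψ = Submodule.span κ {(1 : M2 κ)} := by
    rw [← dualCoannihilator_commFormSet_eq rbar h, ← hf_span]
    ext X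
    rw [LinearMap.mem_ker, Submodule.mem_dualCoannihilator]
    constructor
    · intro hX φ hφ
      induction hφ using Submodule.span_induction with
      | mem φ hφ =>
        obtain ⟨a, rfl⟩ := hφ
        exact congrFun hX a
      | zero => rfl
      | add φ ψ _ _ hφ hψ => rw [LinearMap.add_apply, hφ, hψ, add_zero]
      | smul c φ _ hφ => rw [LinearMap.smul_apply, hφ, smul_zero]
    · intro hX
      funext a
      exact hX (f a) (Submodule.subset_span ⟨a, rfl⟩)
  have hsurj : Function.Surjective Ψ := by
    rw [← LinearMap.range_eq_top]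
    apply Submodule.eq_top_of_finrank_eq
    have h1 := LinearMap.finrank_range_add_finrank_ker Ψ
    rw [hker, finrank_span_singleton (one_ne_zero : (1 : M2 κ) ≠ 0)] at h1
    have h2 : finrank κ (M2 κ) = 4 := by
      rw [Module.finrank_matrix]; simp
    have h3 : finrank κ (Fin 3 → κ) = 3 := by simp
    omega
  choose Y hY using fun b : Fin 3 => hsurj (Pi.single b (1 : κ))
  refine ⟨⟨s, i, j, Y, ?_, ?_⟩⟩
  · intro a b
    have h1 : Ψ (Y b) a = (Pi.single b (1 : κ) : Fin 3 → κ) a := by rw [hY b]
    rw [Pi.single_apply] at h1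
    rw [← h1]
    show _ = f a (Y b)
    rw [hsij a, commForm_apply]
  · intro X hX
    have hXker : X ∈ LinearMap.ker Ψ := by
      rw [LinearMap.mem_ker]
      funext a
      show f a X = 0
      rw [hsij a, commForm_apply]
      exact hX a
    rw [hker, Submodule.mem_span_singleton] at hXker
    obtain ⟨c, rfl⟩ := hXker
    exact ⟨c, by rw [Matrix.smul_one_eq_diagonal]; rfl⟩

end exist

/-- B2. Slice data from the Schur property. -/
theorem nonempty_sliceData {G : Type*} [Group G] {κ : Type*} [Field κ] (rbar : G →* M2 κ)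
    (h : IsSchur rbar) : Nonempty (SliceData rbar) := by
  obtain ⟨f, hf_mem, hf_span, -⟩ :=
    Submodule.exists_fun_fin_finrank_span_eq κ (commFormSet rbar)
  have hd := finrank_span_commFormSet rbar h
  revert f
  rw [hd]
  intro f hf_mem hf_span
  exact nonempty_sliceData_aux rbar h f hf_mem hf_span

namespace SliceData

section transport

variable {G : Type*} [Group G] {κ κ' : Type*} [Field κ] [Field κ']

/-- Transport of slice data along a field isomorphism. -/
noncomputable def mapEquiv {rbar : G →* M2 κ} (D : SliceData rbar) (e : κ ≃+* κ') :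
    SliceData (mapMat (e : κ →+* κ') rbar) where
  s := D.s
  i := D.i
  j := D.j
  Y a := (D.Y a).map e
  dual a b := by
    have h := congrArg e (D.dual a b)
    rw [apply_ite e, map_one, map_zero] at h
    rw [← h, mapMat_apply]
    simp only [Matrix.sub_apply, Matrix.mul_apply, Matrix.map_apply, map_sub, map_sum, map_mul,
      RingHom.coe_coe]
  ker X hX := by
    have hX' : ∀ a : Fin 3,
        (X.map e.symm * rbar (D.s a) - rbar (D.s a) * X.map e.symm) (D.i a) (D.j a) = 0 := by
      intro a
      have h := congrArg e.symm (hX a)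
      rw [map_zero] at h
      rw [← h, mapMat_apply]
      simp only [Matrix.sub_apply, Matrix.mul_apply, Matrix.map_apply, map_sub, map_sum, map_mul,
        RingHom.coe_coe, RingEquiv.symm_apply_apply]
    obtain ⟨c, hc⟩ := D.ker (X.map e.symm) hX'
    refine ⟨e c, ?_⟩
    have h2 : X = (X.map e.symm).map e := by
      ext i j; simp
    rw [h2, hc]
    ext i j
    simp [Matrix.scalar, Matrix.diagonal_apply, apply_ite e]

@[simp] lemma mapEquiv_s {rbar : G →* M2 κ} (D : SliceData rbar) (e : κ ≃+* κ') :
    (D.mapEquiv e).s = D.s := rfl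

@[simp] lemma mapEquiv_i {rbar : G →* M2 κ} (D : SliceData rbar) (e : κ ≃+* κ') :
    (D.mapEquiv e).i = D.i := rfl

@[simp] lemma mapEquiv_j {rbar : G →* M2 κ} (D : SliceData rbar) (e : κ ≃+* κ') :
    (D.mapEquiv e).j = D.j := rfl

@[simp] lemma mapEquiv_Y {rbar : G →* M2 κ} (D : SliceData rbar) (e : κ ≃+* κ') (a : Fin 3) :
    (D.mapEquiv e).Y a = (D.Y a).map e := rfl

end transport

section decomp

variable {G : Type*} [Monoid G] {κ : Type*} [Field κ] {rbar : G →* M2 κ}

/-- The decomposition identity that the slice lemma uses. -/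
theorem decomp (D : SliceData rbar) (X : M2 κ) :
    ∃ c : κ, X = ∑ a : Fin 3, ((X * rbar (D.s a) - rbar (D.s a) * X) (D.i a) (D.j a)) • D.Y a
      + Matrix.scalar (Fin 2) c := by
  classical
  set Z : M2 κ :=
    ∑ a : Fin 3, ((X * rbar (D.s a) - rbar (D.s a) * X) (D.i a) (D.j a)) • D.Y a with hZ
  have hker : ∀ b : Fin 3,
      ((X - Z) * rbar (D.s b) - rbar (D.s b) * (X - Z)) (D.i b) (D.j b) = 0 := by
    intro b
    have h1 : ((X - Z) * rbar (D.s b) - rbar (D.s b) * (X - Z)) (D.i b) (D.j b) =
        commForm (rbar (D.s b)) (D.i b) (D.j b) X -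
          commForm (rbar (D.s b)) (D.i b) (D.j b) Z := by
      rw [← map_sub]; rfl
    rw [h1, hZ, map_sum]
    simp only [map_smul, commForm_apply, smul_eq_mul, D.dual]
    rw [Finset.sum_eq_single b]
    · simp
    · intro a _ hab
      rw [if_neg (Ne.symm hab), mul_zero]
    · intro hb; exact absurd (Finset.mem_univ b) hb
  obtain ⟨c, hc⟩ := D.ker (X - Z) hker
  exact ⟨c, by rw [← hc]; abel⟩

/-- Slice data implies the Schur property. -/
theorem isSchur (D : SliceData rbar) : IsSchur rbar := by
  intro X hX
  apply D.ker X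
  intro a
  rw [hX (D.s a), sub_self]; rfl

end decomp

end SliceData

end Fermat.Agent.S53
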