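/-
S53, piece B3a: existence of the normal form (successive approximation) over a complete
local ring.  Owner: helper45.
-/
import Fermat.Agent.S53.Defs

set_option autoImplicit false

namespace Fermat.Agent.S53

open IsLocalRing

/-! All auxiliary declarations live in the sub name space `SliceEx` (to avoid clashes with the
other S53 files); only the final theorem `slice_exists` is in `Fermat.Agent.S53` itself. -/

namespace SliceEx

section EntryMem

variable {A : Type*} [CommRing A]

/-- All entries of the `2 × 2` matrix `X` lie in the ideal `I`. -/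
def EntryMem (I : Ideal A) (X : M2 A) : Prop := ∀ i j, X i j ∈ I

namespace EntryMem

variable {I J : Ideal A} {X Y : M2 A}

lemma zero : EntryMem I (0 : M2 A) := fun _ _ => I.zero_mem

lemma mono (h : I ≤ J) (hX : EntryMem I X) : EntryMem J X := fun i j => h (hX i j)

lemma add (hX : EntryMem I X) (hY : EntryMem I Y) : EntryMem I (X + Y) := fun i j => by
  rw [Matrix.add_apply]; exact I.add_mem (hX i j) (hY i j)

lemma sub (hX : EntryMem I X) (hY : EntryMem I Y) : EntryMem I (X - Y) := fun i j => by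
  rw [Matrix.sub_apply]; exact I.sub_mem (hX i j) (hY i j)

lemma neg (hX : EntryMem I X) : EntryMem I (-X) := fun i j => by
  rw [Matrix.neg_apply]; exact I.neg_mem (hX i j)

lemma mul_left (Z : M2 A) (hX : EntryMem I X) : EntryMem I (Z * X) := fun i j => by
  rw [Matrix.mul_apply]
  exact I.sum_mem fun k _ => I.mul_mem_left _ (hX k j)

lemma mul_right (Z : M2 A) (hX : EntryMem I X) : EntryMem I (X * Z) := fun i j => by
  rw [Matrix.mul_apply]
  exact I.sum_mem fun k _ => I.mul_mem_right _ (hX i k)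

lemma mul (hX : EntryMem I X) (hY : EntryMem J Y) : EntryMem (I * J) (X * Y) := fun i j => by
  rw [Matrix.mul_apply]
  exact (I * J).sum_mem fun k _ => Ideal.mul_mem_mul (hX i k) (hY k j)

lemma smul (a : A) (hX : EntryMem I X) : EntryMem I (a • X) := fun i j => by
  rw [Matrix.smul_apply, smul_eq_mul]; exact I.mul_mem_left _ (hX i j)

lemma smul_of_mem {a : A} (ha : a ∈ I) (X : M2 A) : EntryMem I (a • X) := fun i j => by
  rw [Matrix.smul_apply, smul_eq_mul]; exact I.mul_mem_right _ ha

lemma sum {ι : Type*} (s : Finset ι) {f : ι → M2 A} (h : ∀ b ∈ s, EntryMem I (f b)) :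
    EntryMem I (∑ b ∈ s, f b) := fun i j => by
  rw [Matrix.sum_apply]
  exact I.sum_mem fun b hb => h b hb i j

end EntryMem

/-- If `γ ≡ 1` entrywise modulo `I` then so is `γ⁻¹`. -/
lemma entryMem_inv_sub_one {I : Ideal A} (γ : (M2 A)ˣ) (h : EntryMem I ((γ : M2 A) - 1)) :
    EntryMem I (((γ⁻¹ : (M2 A)ˣ) : M2 A) - 1) := by
  have : ((γ⁻¹ : (M2 A)ˣ) : M2 A) - 1 = -(((γ⁻¹ : (M2 A)ˣ) : M2 A) * ((γ : M2 A) - 1)) := by
    rw [mul_sub, Units.inv_mul, mul_one]; abel
  rw [this]
  exact (h.mul_left _).neg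

/-- conjugation by a product -/
lemma conjMat_mul {G : Type*} [Monoid G] (δ γ : (M2 A)ˣ) (r : G →* M2 A) :
    conjMat (δ * γ) r = conjMat δ (conjMat γ r) := by
  ext g : 1
  simp only [conjMat_apply, mul_inv_rev, Units.val_mul, mul_assoc]

/-- Conjugating by `δ ≡ 1 mod I` changes a matrix by something with entries in `I`. -/
lemma entryMem_conj_sub {G : Type*} [Monoid G] {I : Ideal A} (δ : (M2 A)ˣ)
    (h : EntryMem I ((δ : M2 A) - 1)) (r : G →* M2 A) (g : G) :
    EntryMem I (conjMat δ r g - r g) := by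
  have : conjMat δ r g - r g =
      ((δ : M2 A) - 1) * r g * ((δ⁻¹ : (M2 A)ˣ) : M2 A) +
        r g * (((δ⁻¹ : (M2 A)ˣ) : M2 A) - 1) := by
    rw [conjMat_apply]; noncomm_ring
  rw [this]
  exact ((h.mul_right _).mul_right _).add ((entryMem_inv_sub_one δ h).mul_left _)

end EntryMem

/-- congruence modulo `I ^ n • ⊤` in the ring itself is membership of the difference in `I ^ n` -/
lemma smodEq_pow_smul_top_iff {A : Type*} [CommRing A] {I : Ideal A} {n : ℕ} {x y : A} :
    x ≡ y [SMOD (I ^ n • ⊤ : Submodule A A)] ↔ x - y ∈ I ^ n := by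
  rw [SModEq.sub_mem, smul_eq_mul, Ideal.mul_top]

section Local

variable {A : Type*} [CommRing A] [IsLocalRing A]

/-- A matrix congruent to `1` modulo the maximal ideal is invertible. -/
lemma isUnit_of_entryMem_sub_one {X : M2 A} (h : EntryMem (maximalIdeal A) (X - 1)) :
    IsUnit X := by
  rw [Matrix.isUnit_iff_isUnit_det]
  have h00 := h 0 0
  have h01 := h 0 1
  have h10 := h 1 0
  have h11 := h 1 1
  simp only [Matrix.sub_apply, Matrix.one_apply_eq, Matrix.one_apply_ne, ne_eq, zero_ne_one,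
    one_ne_zero, not_false_eq_true, sub_zero] at h00 h01 h10 h11
  have hdet : 1 - X.det ∈ maximalIdeal A := by
    have : 1 - X.det = -((X 0 0 - 1) * X 1 1) - (X 1 1 - 1) + X 0 1 * X 1 0 := by
      rw [Matrix.det_fin_two]; ring
    rw [this]
    exact (maximalIdeal A).add_mem ((maximalIdeal A).sub_mem
      ((maximalIdeal A).neg_mem ((maximalIdeal A).mul_mem_right _ h00)) h11)
      ((maximalIdeal A).mul_mem_right _ h01)
  have := IsLocalRing.isUnit_one_sub_self_of_mem_nonunits _ ((mem_maximalIdeal _).mp hdet)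
  simpa using this

end Local

section Slice

variable {G : Type*} [Group G] {A : Type*} [CommRing A] [IsLocalRing A]
  {κ : Type*} [Field κ] (res : A →+* κ) (hres : Function.Surjective res)
  (hker : ∀ x : A, res x = 0 ↔ x ∈ IsLocalRing.maximalIdeal A)
  {rbar : G →* M2 κ} (D : SliceData rbar)

include hker in
/-- A matrix congruent to `1` modulo the maximal ideal reduces to `1`. -/
lemma map_res_eq_one_of_entryMem {X : M2 A} (h : EntryMem (maximalIdeal A) (X - 1)) :
    X.map res = 1 := by
  ext i j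
  have h1 := (hker _).mpr (h i j)
  rw [Matrix.sub_apply, map_sub, sub_eq_zero] at h1
  rw [Matrix.map_apply, h1]
  by_cases hij : i = j
  · subst hij; simp
  · simp [Matrix.one_apply_ne hij]

include hker in
/-- Conjugating a lift of `rbar` by a matrix `≡ 1` gives a lift of `rbar`. -/
lemma lift_conjMat (γ : (M2 A)ˣ) (hγ : EntryMem (maximalIdeal A) ((γ : M2 A) - 1))
    (r : G →* M2 A) (hr : ∀ g, (r g).map res = rbar g) (g : G) :
    (conjMat γ r g).map res = rbar g := by
  rw [conjMat_apply, Matrix.map_mul, Matrix.map_mul, map_res_eq_one_of_entryMem res hker hγ,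
    map_res_eq_one_of_entryMem res hker (entryMem_inv_sub_one γ hγ), hr, one_mul, mul_one]

include hres hker in
/-- One step of the successive approximation. -/
lemma slice_step (c : Fin 3 → A) (n : ℕ) (r' : G →* M2 A)
    (hr' : ∀ g, (r' g).map res = rbar g)
    (he : ∀ a, r' (D.s a) (D.i a) (D.j a) - c a ∈ maximalIdeal A ^ (n + 1)) :
    ∃ δ : (M2 A)ˣ, EntryMem (maximalIdeal A ^ (n + 1)) ((δ : M2 A) - 1) ∧
      ∀ a, conjMat δ r' (D.s a) (D.i a) (D.j a) - c a ∈ maximalIdeal A ^ (n + 2) := by
  classical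
  -- lift the dual family `Y`
  have hY : ∀ b : Fin 3, ∃ Yt : M2 A, Yt.map res = D.Y b := by
    intro b
    refine ⟨Matrix.of fun i j => (hres (D.Y b i j)).choose, ?_⟩
    ext i j
    simp only [Matrix.map_apply, Matrix.of_apply]
    exact (hres (D.Y b i j)).choose_spec
  choose Yt hYt using hY
  set e : Fin 3 → A := fun a => r' (D.s a) (D.i a) (D.j a) - c a with he_def
  set X : M2 A := -∑ b, e b • Yt b with hX
  have hXmem : EntryMem (maximalIdeal A ^ (n + 1)) X :=
    (EntryMem.sum _ fun b _ => EntryMem.smul_of_mem (he b) _).neg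
  have hpow_le : maximalIdeal A ^ (n + 1) ≤ maximalIdeal A :=
    Ideal.pow_le_self (Nat.succ_ne_zero n)
  have hunit : IsUnit (1 + X) :=
    isUnit_of_entryMem_sub_one (by simpa using hXmem.mono hpow_le)
  obtain ⟨δ, hδ⟩ := hunit
  have hδX : (δ : M2 A) - 1 = X := by rw [hδ]; abel
  have hδmem : EntryMem (maximalIdeal A ^ (n + 1)) ((δ : M2 A) - 1) := hδX ▸ hXmem
  have hδinv := entryMem_inv_sub_one δ hδmem
  refine ⟨δ, hδmem, fun a => ?_⟩
  set R := r' (D.s a) with hR
  set D' : M2 A := ((δ⁻¹ : (M2 A)ˣ) : M2 A) with hD'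
  have h1 : D' + X * D' = 1 := by
    have := Units.mul_inv δ
    rw [hδ, add_mul, one_mul] at this
    exact this
  -- key identity
  have key : conjMat δ r' (D.s a) = R + (X * R - R * X) + (X * R - R * X) * (D' - 1) := by
    rw [conjMat_apply, hδ]
    have h2 : R * D' = R - R * X * D' := by
      have := congrArg (fun Z => R * Z) h1
      simp only [mul_add, mul_one, ← mul_assoc] at this
      rw [eq_sub_iff_add_eq]; exact this
    calc (1 + X) * R * D' = R * D' + X * R * D' := by rw [add_mul, one_mul, add_mul]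
      _ = R - R * X * D' + X * R * D' := by rw [h2]
      _ = R + (X * R - R * X) + (X * R - R * X) * (D' - 1) := by noncomm_ring
  -- the commutator in terms of the `Yt b`
  have hcomm : X * R - R * X = -∑ b, e b • (Yt b * R - R * Yt b) := by
    simp only [hX, neg_mul, mul_neg, Finset.sum_mul, Finset.mul_sum, smul_mul_assoc,
      mul_smul_comm, smul_sub, Finset.sum_sub_distrib]
    abel
  -- the reductions of the `Φ_ab`
  have hΦ : ∀ b, (Yt b * R - R * Yt b) (D.i a) (D.j a) - (if a = b then 1 else 0) ∈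
      maximalIdeal A := by
    intro b
    rw [← hker, map_sub]
    have h3 : res ((Yt b * R - R * Yt b) (D.i a) (D.j a)) =
        (D.Y b * rbar (D.s a) - rbar (D.s a) * D.Y b) (D.i a) (D.j a) := by
      calc res ((Yt b * R - R * Yt b) (D.i a) (D.j a))
          = (res.mapMatrix (Yt b * R - R * Yt b)) (D.i a) (D.j a) := rfl
        _ = _ := by
          rw [map_sub, map_mul, map_mul, RingHom.mapMatrix_apply, RingHom.mapMatrix_apply, hYt,
            hR, hr']
    rw [h3, D.dual a b]
    split_ifs <;> simp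
  have hsecond : ∀ i j, ((X * R - R * X) * (D' - 1)) i j ∈ maximalIdeal A ^ (n + 2) := by
    have hXR : EntryMem (maximalIdeal A ^ (n + 1)) (X * R - R * X) :=
      (hXmem.mul_right _).sub (hXmem.mul_left _)
    have h4 := hXR.mul hδinv
    rw [← pow_add] at h4
    exact fun i j => Ideal.pow_le_pow_right (by omega) (h4 i j)
  rw [key, Matrix.add_apply, Matrix.add_apply]
  have hfirst : R (D.i a) (D.j a) + (X * R - R * X) (D.i a) (D.j a) - c a ∈
      maximalIdeal A ^ (n + 2) := by
    have : R (D.i a) (D.j a) + (X * R - R * X) (D.i a) (D.j a) - c a =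
        -∑ b, e b * ((Yt b * R - R * Yt b) (D.i a) (D.j a) - (if a = b then 1 else 0)) := by
      rw [hcomm, Matrix.neg_apply, Matrix.sum_apply]
      simp only [Matrix.smul_apply, smul_eq_mul, mul_sub, Finset.sum_sub_distrib, mul_ite, mul_one,
        mul_zero, Finset.sum_ite_eq, Finset.mem_univ, if_true]
      simp only [he_def, hR]
      ring
    rw [this]
    refine neg_mem (Ideal.sum_mem _ fun b _ => ?_)
    rw [pow_succ (maximalIdeal A) (n + 1)]
    exact Ideal.mul_mem_mul (he b) (hΦ b)
  have := Ideal.add_mem _ hfirst (hsecond (D.i a) (D.j a))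
  convert this using 1
  ring

end Slice

end SliceEx

section SliceMain

open SliceEx

variable {G : Type*} [Group G] {A : Type*} [CommRing A] [IsLocalRing A]
  {κ : Type*} [Field κ] (res : A →+* κ) (hres : Function.Surjective res)
  (hker : ∀ x : A, res x = 0 ↔ x ∈ IsLocalRing.maximalIdeal A)
  {rbar : G →* M2 κ} (D : SliceData rbar)

include hres hker in
/-- B3a. Existence of the normal form (successive approximation). -/
theorem slice_exists [IsAdicComplete (IsLocalRing.maximalIdeal A) A]
    (c : Fin 3 → A) (hc : ∀ a, res (c a) = rbar (D.s a) (D.i a) (D.j a))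
    (r : G →* M2 A) (hr : ∀ g, (r g).map res = rbar g) :
    ∃ γ : (M2 A)ˣ, (∀ i j, ((γ : M2 A) - 1) i j ∈ IsLocalRing.maximalIdeal A) ∧
      ∀ a, conjMat γ r (D.s a) (D.i a) (D.j a) = c a := by
  classical
  -- the approximation property at stage `n`
  let Good : ℕ → (M2 A)ˣ → Prop := fun n γ =>
    EntryMem (maximalIdeal A) ((γ : M2 A) - 1) ∧
      ∀ a, conjMat γ r (D.s a) (D.i a) (D.j a) - c a ∈ maximalIdeal A ^ (n + 1)
  have hbase : Good 0 1 := by
    refine ⟨by simpa using (EntryMem.zero : EntryMem (maximalIdeal A) (0 : M2 A)), fun a => ?_⟩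
    have h1 : conjMat (1 : (M2 A)ˣ) r (D.s a) = r (D.s a) := by simp [conjMat_apply]
    rw [h1, zero_add, pow_one, ← hker, map_sub, hc a, ← hr (D.s a), Matrix.map_apply, sub_self]
  have hstep : ∀ n (γ : (M2 A)ˣ), Good n γ →
      ∃ γ' : (M2 A)ˣ, Good (n + 1) γ' ∧
        EntryMem (maximalIdeal A ^ (n + 1)) ((γ' : M2 A) - (γ : M2 A)) := by
    intro n γ hγ
    obtain ⟨δ, hδ, hδe⟩ := slice_step res hres hker D c n (conjMat γ r)
      (lift_conjMat res hker γ hγ.1 r hr) hγ.2
    have hdiff : ((δ * γ : (M2 A)ˣ) : M2 A) - (γ : M2 A) = ((δ : M2 A) - 1) * (γ : M2 A) := by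
      rw [Units.val_mul, sub_mul, one_mul]
    refine ⟨δ * γ, ⟨?_, fun a => ?_⟩, ?_⟩
    · have : ((δ * γ : (M2 A)ˣ) : M2 A) - 1 =
          ((δ : M2 A) - 1) * (γ : M2 A) + ((γ : M2 A) - 1) := by
        rw [Units.val_mul]; noncomm_ring
      rw [this]
      exact ((hδ.mono (Ideal.pow_le_self (Nat.succ_ne_zero n))).mul_right _).add hγ.1
    · rw [conjMat_mul]; exact hδe a
    · rw [hdiff]; exact hδ.mul_right _
  -- the sequence of approximations
  let F : (n : ℕ) → {γ : (M2 A)ˣ // Good n γ} := fun n =>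
    Nat.rec (motive := fun n => {γ : (M2 A)ˣ // Good n γ}) ⟨1, hbase⟩
      (fun n p => ⟨(hstep n p.1 p.2).choose, (hstep n p.1 p.2).choose_spec.1⟩) n
  have hF : ∀ n, EntryMem (maximalIdeal A ^ (n + 1))
      (((F (n + 1)).1 : M2 A) - ((F n).1 : M2 A)) := fun n =>
    (hstep n (F n).1 (F n).2).choose_spec.2
  -- Cauchy property
  have hcauchy : ∀ m k, EntryMem (maximalIdeal A ^ m)
      (((F (m + k)).1 : M2 A) - ((F m).1 : M2 A)) := by
    intro m k
    induction k with
    | zero => simpa using (EntryMem.zero : EntryMem (maximalIdeal A ^ m) (0 : M2 A))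
    | succ k ih =>
      have : ((F (m + (k + 1))).1 : M2 A) - ((F m).1 : M2 A) =
          (((F (m + k + 1)).1 : M2 A) - ((F (m + k)).1 : M2 A)) +
            (((F (m + k)).1 : M2 A) - ((F m).1 : M2 A)) := by
        rw [← add_assoc]; abel
      rw [this]
      exact ((hF (m + k)).mono (Ideal.pow_le_pow_right (by omega))).add ih
  -- entrywise limits
  have hlim : ∀ i j, ∃ L : A, ∀ n, ((F n).1 : M2 A) i j ≡ L
      [SMOD (maximalIdeal A ^ n • ⊤ : Submodule A A)] := by
    intro i j
    refine IsPrecomplete.prec (I := maximalIdeal A) inferInstance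
      (f := fun n => ((F n).1 : M2 A) i j) ?_
    intro m n hmn
    obtain ⟨k, rfl⟩ := Nat.exists_eq_add_of_le hmn
    rw [smodEq_pow_smul_top_iff, ← neg_sub, ← Matrix.sub_apply]
    exact neg_mem (hcauchy m k i j)
  choose L hL using hlim
  let γlim : M2 A := Matrix.of L
  have hγn : ∀ n, EntryMem (maximalIdeal A ^ n) (γlim - ((F n).1 : M2 A)) := by
    intro n i j
    have := (smodEq_pow_smul_top_iff).mp (hL i j n)
    rw [Matrix.sub_apply, ← neg_sub]
    exact neg_mem this
  have hγ1 : EntryMem (maximalIdeal A) (γlim - 1) := by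
    have : γlim - 1 = (γlim - ((F 1).1 : M2 A)) + (((F 1).1 : M2 A) - 1) := by abel
    rw [this]
    exact ((hγn 1).mono (by rw [pow_one])).add (F 1).2.1
  obtain ⟨γ, hγ⟩ := isUnit_of_entryMem_sub_one hγ1
  refine ⟨γ, by rw [hγ]; exact hγ1, fun a => ?_⟩
  -- the error is in every power of the maximal ideal
  rw [← sub_eq_zero]
  refine IsHausdorff.haus (I := maximalIdeal A) inferInstance _ fun n => ?_
  rw [smodEq_pow_smul_top_iff, sub_zero]
  -- compare with the `n`-th approximation
  set ε : (M2 A)ˣ := γ * (F n).1⁻¹ with hε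
  have hεmem : EntryMem (maximalIdeal A ^ n) ((ε : M2 A) - 1) := by
    have : (ε : M2 A) - 1 = (γlim - ((F n).1 : M2 A)) * (((F n).1⁻¹ : (M2 A)ˣ) : M2 A) := by
      rw [hε, Units.val_mul, hγ, sub_mul, Units.mul_inv]
    rw [this]
    exact (hγn n).mul_right _
  have hγε : γ = ε * (F n).1 := by rw [hε, inv_mul_cancel_right]
  have h1 := entryMem_conj_sub ε hεmem (conjMat (F n).1 r) (D.s a) (D.i a) (D.j a)
  rw [← conjMat_mul, ← hγε, Matrix.sub_apply] at h1
  have h2 := Ideal.pow_le_pow_right (Nat.le_succ n) ((F n).2.2 a)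
  have := Ideal.add_mem _ h1 h2
  convert this using 1
  ring

end SliceMain

end Fermat.Agent.S53
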