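/-
S53, part B3b: uniqueness of the normal form.  Conjugate normalised lifts of a residual matrix
representation with slice data are equal, and the conjugating matrix is scalar.
Owner: helper64.

Proof: put `u = γ 1 1` (a unit), `X = γ - scalar u` and let `J` be the ideal generated by the
entries of `X`.  Then `J ≤ maximalIdeal A` and the slice data force `J ≤ maximalIdeal A * J`, so `J = ⊥` by Nakayama.
(The Hausdorff hypothesis of the requested statement is therefore not even needed.)
-/
import Fermat.Agent.S53.Defs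

set_option autoImplicit false

namespace Fermat.Agent.S53

open IsLocalRing Matrix

section commEntry

variable {B : Type*} [CommRing B]

/-- The linear form `X ↦ (X * R - R * X) i j` on `2 × 2` matrices. -/
def commEntry (R : M2 B) (i j : Fin 2) : M2 B →ₗ[B] B :=
  (Matrix.entryLinearMap B B i j) ∘ₗ (LinearMap.mulRight B R - LinearMap.mulLeft B R)

@[simp] lemma commEntry_apply (R : M2 B) (i j : Fin 2) (X : M2 B) :
    commEntry R i j X = (X * R - R * X) i j := rfl

lemma commEntry_map {C : Type*} [CommRing C] (f : B →+* C) (R : M2 B) (i j : Fin 2) (X : M2 B) :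
    f (commEntry R i j X) = commEntry (R.map f) i j (X.map f) := by
  simp only [commEntry_apply, Matrix.sub_apply, Matrix.mul_apply, Fin.sum_univ_two, map_sub,
    map_add, map_mul, Matrix.map_apply]

/-- A linear form on `M2 B` all of whose values lie in `K` maps matrices with entries in `I`
into `K * I`. -/
lemma linearForm_mem_mul (L : M2 B →ₗ[B] B) (K I : Ideal B) (hL : ∀ W, L W ∈ K)
    (X : M2 B) (hX : ∀ p q, X p q ∈ I) : L X ∈ K * I := by
  have hX' : X = ∑ p : Fin 2, ∑ q : Fin 2, X p q • Matrix.single p q (1 : B) := by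
    conv_lhs => rw [Matrix.matrix_eq_sum_single X]
    refine Finset.sum_congr rfl fun p _ => Finset.sum_congr rfl fun q _ => ?_
    rw [Matrix.smul_single, smul_eq_mul, mul_one]
  rw [hX']
  simp only [map_sum, map_smul, smul_eq_mul]
  refine Ideal.sum_mem _ fun p _ => Ideal.sum_mem _ fun q _ => ?_
  rw [mul_comm (X p q)]
  exact Ideal.mul_mem_mul (hL _) (hX p q)

end commEntry

section decomp

variable {G : Type*} [Monoid G] {κ : Type*} [Field κ] {rbar : G →* M2 κ}

/-- Over the residue field every matrix is, modulo scalars, the combination of the dual family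
with coefficients the slice forms. -/
theorem sliceUnique_decomp (D : SliceData rbar) (X : M2 κ) :
    ∃ c : κ, X - ∑ a, (commEntry (rbar (D.s a)) (D.i a) (D.j a) X) • D.Y a =
      Matrix.scalar (Fin 2) c := by
  apply D.ker
  intro b
  have h := D.dual b
  change commEntry (rbar (D.s b)) (D.i b) (D.j b)
    (X - ∑ a, (commEntry (rbar (D.s a)) (D.i a) (D.j a) X) • D.Y a) = 0
  rw [map_sub, map_sum]
  simp only [map_smul, smul_eq_mul]
  have h2 : ∀ a, commEntry (rbar (D.s b)) (D.i b) (D.j b) (D.Y a) = if b = a then 1 else 0 :=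
    fun a => h a
  simp only [h2, mul_ite, mul_one, mul_zero, Finset.sum_ite_eq, Finset.mem_univ, if_true, sub_self]

end decomp

section main

variable {G : Type*} [Group G] {A : Type*} [CommRing A] [IsLocalRing A]
  {κ : Type*} [Field κ] (res : A →+* κ) (hres : Function.Surjective res)
  (hker : ∀ x : A, res x = 0 ↔ x ∈ IsLocalRing.maximalIdeal A)
  {rbar : G →* M2 κ} (D : SliceData rbar)

include hres hker in
/-- Key step: if `X` has entries in `I` and the three slice forms of `X` lie in `maximalIdeal A * I`, then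
the "non-scalar part" of `X` lies in `maximalIdeal A * I`. -/
theorem sliceUnique_key (r : G →* M2 A) (hr : ∀ g, (r g).map res = rbar g)
    (I : Ideal A) (X : M2 A) (hX : ∀ p q, X p q ∈ I)
    (hΦ : ∀ a, commEntry (r (D.s a)) (D.i a) (D.j a) X ∈ maximalIdeal A * I) :
    X 0 1 ∈ maximalIdeal A * I ∧ X 1 0 ∈ maximalIdeal A * I ∧
      X 0 0 - X 1 1 ∈ maximalIdeal A * I := by
  classical
  -- lift the dual family
  choose Yt hYt using fun (a : Fin 3) (p q : Fin 2) => hres (D.Y a p q)
  let Yl : Fin 3 → M2 A := fun a => Matrix.of (Yt a)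
  have hYl : ∀ a, (Yl a).map res = D.Y a := by
    intro a; ext p q; simp [Yl, hYt]
  -- the projection killing the slice directions
  let Z : M2 A →ₗ[A] M2 A :=
    LinearMap.id - ∑ a, (commEntry (r (D.s a)) (D.i a) (D.j a)).smulRight (Yl a)
  have hZ : ∀ W, Z W = W - ∑ a, (commEntry (r (D.s a)) (D.i a) (D.j a) W) • Yl a := by
    intro W
    simp only [Z, LinearMap.sub_apply, LinearMap.id_apply, LinearMap.sum_apply,
      LinearMap.smulRight_apply]
  have hZres : ∀ W, ∃ c : κ, (Z W).map res = Matrix.scalar (Fin 2) c := by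
    intro W
    obtain ⟨c, hc⟩ := sliceUnique_decomp D (W.map res)
    refine ⟨c, ?_⟩
    rw [← hc, hZ]
    ext p q
    simp only [Matrix.map_apply, Matrix.sub_apply, Matrix.sum_apply, Matrix.smul_apply,
      smul_eq_mul, map_sub, map_sum, map_mul]
    congr 1
    refine Finset.sum_congr rfl fun a _ => ?_
    rw [commEntry_map, hr, ← hYl a, Matrix.map_apply]
  have hZm : ∀ W, (Z W) 0 1 ∈ maximalIdeal A ∧ (Z W) 1 0 ∈ maximalIdeal A ∧
      (Z W) 0 0 - (Z W) 1 1 ∈ maximalIdeal A := by
    intro W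
    obtain ⟨c, hc⟩ := hZres W
    have e := fun p q => congrFun (congrFun hc p) q
    simp only [Matrix.map_apply] at e
    refine ⟨(hker _).mp ?_, (hker _).mp ?_, (hker _).mp ?_⟩
    · rw [e 0 1]; simp
    · rw [e 1 0]; simp
    · rw [map_sub, e 0 0, e 1 1]; simp
  -- the three linear forms
  have hsplit : ∀ (ℓ : M2 A →ₗ[A] A), (∀ W, ℓ (Z W) ∈ maximalIdeal A) →
      ℓ X ∈ maximalIdeal A * I := by
    intro ℓ hℓ
    have h1 : (ℓ ∘ₗ Z) X ∈ maximalIdeal A * I :=
      linearForm_mem_mul (ℓ ∘ₗ Z) _ I (fun W => hℓ W) X hX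
    have h2 : ℓ X = (ℓ ∘ₗ Z) X +
        ∑ a, (commEntry (r (D.s a)) (D.i a) (D.j a) X) * ℓ (Yl a) := by
      rw [LinearMap.comp_apply, hZ, map_sub, map_sum]
      simp only [map_smul, smul_eq_mul]
      ring
    rw [h2]
    refine Ideal.add_mem _ h1 (Ideal.sum_mem _ fun a _ => Ideal.mul_mem_right _ _ (hΦ a))
  refine ⟨?_, ?_, ?_⟩
  · exact hsplit (Matrix.entryLinearMap A A 0 1) fun W => (hZm W).1
  · exact hsplit (Matrix.entryLinearMap A A 1 0) fun W => (hZm W).2.1
  · exact hsplit (Matrix.entryLinearMap A A 0 0 - Matrix.entryLinearMap A A 1 1)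
      fun W => (hZm W).2.2

include hres hker in
/-- B3b. Uniqueness of the normal form: conjugate normalised lifts are equal. -/
theorem slice_unique [IsHausdorff (IsLocalRing.maximalIdeal A) A]
    (c : Fin 3 → A)
    (r r' : G →* M2 A) (hr : ∀ g, (r g).map res = rbar g) (hr' : ∀ g, (r' g).map res = rbar g)
    (hn : ∀ a, r (D.s a) (D.i a) (D.j a) = c a) (hn' : ∀ a, r' (D.s a) (D.i a) (D.j a) = c a)
    (γ : (M2 A)ˣ) (hγ : ∀ g, (γ : M2 A) * r g = r' g * (γ : M2 A)) :
    r = r' ∧ ∃ u : Aˣ, (γ : M2 A) = Matrix.scalar (Fin 2) (u : A) := by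
  classical
  obtain ⟨Γ, hΓ⟩ : ∃ Γ : M2 A, Γ = (γ : M2 A) := ⟨_, rfl⟩
  rw [← hΓ] at hγ
  -- Step 1: the reduction of `γ` commutes with `rbar`, hence is scalar.
  have hcomm : ∀ g, Γ.map res * rbar g = rbar g * Γ.map res := by
    intro g
    have := congrArg (fun M : M2 A => M.map res) (hγ g)
    simp only [Matrix.map_mul] at this
    rw [hr, hr'] at this
    exact this
  obtain ⟨cbar, hcbar⟩ : ∃ cbar : κ, Γ.map res = Matrix.scalar (Fin 2) cbar := by
    apply D.ker
    intro a
    rw [hcomm, sub_self]; rfl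
  have hcbar0 : cbar ≠ 0 := by
    rintro rfl
    have hunit : IsUnit (Γ.map res) := by
      have : IsUnit ((res.mapMatrix : M2 A →+* M2 κ) Γ) := by
        rw [hΓ]; exact (γ.isUnit).map _
      simpa using this
    rw [hcbar, map_zero] at hunit
    exact not_isUnit_zero hunit
  have e := fun p q => congrFun (congrFun hcbar p) q
  simp only [Matrix.map_apply] at e
  have hu_unit : IsUnit (Γ 1 1) := by
    by_contra h
    have : Γ 1 1 ∈ maximalIdeal A := (mem_maximalIdeal _).mpr h
    have h0 := (hker _).mpr this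
    rw [e 1 1] at h0
    simp at h0
    exact hcbar0 h0
  obtain ⟨u, hu⟩ := hu_unit
  -- Step 2: the non-scalar part and its ideal
  obtain ⟨X, hXdef⟩ : ∃ X : M2 A, X = Γ - Matrix.scalar (Fin 2) (u : A) := ⟨_, rfl⟩
  have hX00 : X 0 0 = Γ 0 0 - Γ 1 1 := by simp [hXdef, hu]
  have hX01 : X 0 1 = Γ 0 1 := by simp [hXdef]
  have hX10 : X 1 0 = Γ 1 0 := by simp [hXdef]
  have hX11 : X 1 1 = 0 := by simp [hXdef, hu]
  obtain ⟨J, hJ⟩ : ∃ J : Ideal A, J = Ideal.span {Γ 0 1, Γ 1 0, Γ 0 0 - Γ 1 1} := ⟨_, rfl⟩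
  have hJ01 : Γ 0 1 ∈ J := by rw [hJ]; exact Ideal.subset_span (by simp)
  have hJ10 : Γ 1 0 ∈ J := by rw [hJ]; exact Ideal.subset_span (by simp)
  have hJ00 : Γ 0 0 - Γ 1 1 ∈ J := by rw [hJ]; exact Ideal.subset_span (by simp)
  have hXJ : ∀ p q, X p q ∈ J := by
    intro p q
    fin_cases p <;> fin_cases q
    · change X 0 0 ∈ J; rw [hX00]; exact hJ00
    · change X 0 1 ∈ J; rw [hX01]; exact hJ01
    · change X 1 0 ∈ J; rw [hX10]; exact hJ10
    · change X 1 1 ∈ J; rw [hX11]; exact J.zero_mem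
  have hJm : J ≤ maximalIdeal A := by
    rw [hJ, Ideal.span_le]
    intro x hx
    simp only [Set.mem_insert_iff, Set.mem_singleton_iff] at hx
    rcases hx with rfl | rfl | rfl
    · exact (hker _).mp (by rw [e 0 1]; simp)
    · exact (hker _).mp (by rw [e 1 0]; simp)
    · exact (hker _).mp (by rw [map_sub, e 0 0, e 1 1]; simp)
  -- Step 3: `u • (r g - r' g) = r' g * X - X * r g`
  have hΓX : Γ = X + Matrix.scalar (Fin 2) (u : A) := by rw [hXdef]; abel
  have hkey : ∀ g, (u : A) • (r g - r' g) = r' g * X - X * r g := by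
    intro g
    have h := hγ g
    rw [hΓX, Matrix.add_mul, Matrix.mul_add] at h
    have h1 : Matrix.scalar (Fin 2) (u : A) * r g = (u : A) • r g := by
      rw [Matrix.scalar_apply, ← Matrix.smul_eq_diagonal_mul]
    have h2 : r' g * Matrix.scalar (Fin 2) (u : A) = (u : A) • r' g := by
      rw [Matrix.scalar_apply, ← Matrix.smul_eq_mul_diagonal]
    rw [h1, h2] at h
    rw [smul_sub]
    -- h : X * r g + u • r g = r' g * X + u • r' g
    have : (u : A) • r g - (u : A) • r' g = r' g * X - X * r g := by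
      rw [sub_eq_sub_iff_add_eq_add]
      rw [add_comm, h, add_comm]
    exact this
  have hdiffJ : ∀ g p q, (r g - r' g) p q ∈ J := by
    intro g p q
    have h1 : ((u : A) • (r g - r' g)) p q ∈ J := by
      rw [hkey g, Matrix.sub_apply, Matrix.mul_apply, Matrix.mul_apply]
      refine J.sub_mem (J.sum_mem fun l _ => J.mul_mem_left _ (hXJ l q))
        (J.sum_mem fun l _ => J.mul_mem_right _ (hXJ p l))
    rw [Matrix.smul_apply, smul_eq_mul] at h1
    have h2 := J.mul_mem_left ((u⁻¹ : Aˣ) : A) h1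
    rwa [← mul_assoc, Units.inv_mul, one_mul] at h2
  -- Step 4: the slice forms of `X` lie in `J * J ≤ maximalIdeal A * J`
  have hΦ : ∀ a, commEntry (r (D.s a)) (D.i a) (D.j a) X ∈ maximalIdeal A * J := by
    intro a
    have h0 : (r' (D.s a) * X - X * r (D.s a)) (D.i a) (D.j a) = 0 := by
      rw [← hkey, Matrix.smul_apply, Matrix.sub_apply, hn, hn', sub_self, smul_zero]
    have h1 : X * r (D.s a) - r (D.s a) * X =
        -(r' (D.s a) * X - X * r (D.s a)) - (r (D.s a) - r' (D.s a)) * X := by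
      rw [Matrix.sub_mul]; abel
    rw [commEntry_apply, h1, Matrix.sub_apply, Matrix.neg_apply, h0, neg_zero, zero_sub,
      Matrix.mul_apply]
    refine Ideal.neg_mem_iff _ |>.mpr (Ideal.sum_mem _ fun l _ => ?_)
    exact Ideal.mul_mem_mul (hJm (hdiffJ _ _ _)) (hXJ _ _)
  -- Step 5: Nakayama
  obtain ⟨k01, k10, k00⟩ := sliceUnique_key res hres hker D r hr J X hXJ hΦ
  rw [hX01] at k01
  rw [hX10] at k10
  rw [hX00, hX11, sub_zero] at k00
  have hJle : J ≤ maximalIdeal A • J := by
    rw [smul_eq_mul]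
    conv_lhs => rw [hJ]
    rw [Ideal.span_le]
    intro x hx
    simp only [Set.mem_insert_iff, Set.mem_singleton_iff] at hx
    rcases hx with rfl | rfl | rfl
    · exact k01
    · exact k10
    · exact k00
  have hJfg : (J : Submodule A A).FG := by
    rw [hJ]
    exact Submodule.fg_span (by simp)
  have hJbot : J = ⊥ :=
    Submodule.eq_bot_of_le_smul_of_le_jacobson_bot (maximalIdeal A) J hJfg hJle
      (by rw [IsLocalRing.jacobson_eq_maximalIdeal ⊥ bot_ne_top])
  have z01 : Γ 0 1 = 0 := by have := hJ01; rwa [hJbot, Ideal.mem_bot] at this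
  have z10 : Γ 1 0 = 0 := by have := hJ10; rwa [hJbot, Ideal.mem_bot] at this
  have z00 : Γ 0 0 = Γ 1 1 := by
    have := hJ00; rw [hJbot, Ideal.mem_bot] at this; exact sub_eq_zero.mp this
  have hXzero : X = 0 := by
    ext p q
    fin_cases p <;> fin_cases q
    · change X 0 0 = 0; rw [hX00, z00, sub_self]
    · change X 0 1 = 0; rw [hX01, z01]
    · change X 1 0 = 0; rw [hX10, z10]
    · change X 1 1 = 0; exact hX11
  have hΓscalar : Γ = Matrix.scalar (Fin 2) (u : A) := by
    rw [hΓX, hXzero, zero_add]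
  refine ⟨?_, u, hΓ ▸ hΓscalar⟩
  -- r = r'
  ext g p q
  have h := hkey g
  rw [hXzero, Matrix.mul_zero, Matrix.zero_mul, sub_zero] at h
  have h1 := congrFun (congrFun h p) q
  rw [Matrix.smul_apply, smul_eq_mul, Matrix.zero_apply, Matrix.sub_apply] at h1
  have h2 := (u.isUnit.mul_right_eq_zero).mp h1
  exact sub_eq_zero.mp h2

end main

end Fermat.Agent.S53
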