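/-
S53, route I (three-coordinate slice): the slice package `exists_slicePkg` in the exact shape of
COORDINATION #1, assembled from
  MatrixForm (matrix form of the residual representation), SchurMatrix (Schur),
  SliceDataExists (B2), SliceExists (B3a), SliceUnique (B3b), Cotangent (`resTo`),
  Presentation (`coordRel`).
Owner: helper38.
-/
import Fermat.Agent.S53.Core
import Fermat.Agent.S53.MatrixForm
import Fermat.Agent.S53.SchurMatrix
import Fermat.Agent.S53.SliceDataExists
import Fermat.Agent.S53.SliceExists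
import Fermat.Agent.S53.SliceUnique
import Fermat.Agent.S53.Cotangent

set_option autoImplicit false

namespace Fermat.Agent.S53

open IsLocalRing

namespace SliceFinal3

variable {𝒪 : Type} [CommRing 𝒪] [IsLocalRing 𝒪]

/-- Matrix-level Schur for the matrix form of an absolutely irreducible residual
representation in a basis. -/
theorem isSchur_toMatHomRes {k : Type} [Field k] (ρbar : ResidualGaloisRep k)
    (habs : ρbar.IsAbsolutelyIrreducible) (b : Module.Basis (Fin 2) k ρbar.V) :
    IsSchur (toMatHomRes ρbar b) := by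
  intro X hX
  obtain ⟨c, hc⟩ := schur_scalar_of_eq_toMatrix ρbar habs b (fun σ => toMatHomRes ρbar b σ)
    (fun σ => toMatHomRes_apply ρbar b σ) X hX
  refine ⟨c, ?_⟩
  rw [hc, Matrix.smul_one_eq_diagonal]
  rfl

/-- A set-theoretic entrywise lift of a residual matrix representation. -/
theorem exists_setLift (rbar : GQ →* M2 (ResidueField 𝒪)) :
    ∃ rt : GQ → M2 𝒪, ∀ g, (rt g).map (residue 𝒪) = rbar g := by
  choose f hf using (IsLocalRing.residue_surjective (R := 𝒪))
  refine ⟨fun g => Matrix.of fun i j => f (rbar g i j), fun g => ?_⟩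
  ext i j
  simp [hf]

/-- Reduction of a lift along `resTo`. -/
theorem map_resTo_of_isLiftRt {rbar : GQ →* M2 (ResidueField 𝒪)} {rt : GQ → M2 𝒪}
    (hrt : ∀ g, (rt g).map (residue 𝒪) = rbar g)
    {A : Type} [CommRing A] [IsLocalRing A] [Algebra 𝒪 A] [IsLocalHom (algebraMap 𝒪 A)]
    (hsurj : Function.Surjective (residue A ∘ algebraMap 𝒪 A))
    (r : GQ →* M2 A) (hr : IsLiftRt rt r) (g : GQ) :
    (r g).map (resTo hsurj) = rbar g := by
  ext i j
  rw [Matrix.map_apply, resTo_eq_of_sub_mem hsurj (hr g i j), ← hrt g, Matrix.map_apply]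

/-- The slice package built from slice data (three-coordinate slice). -/
theorem nonempty_slicePkg_of_sliceData {rbar : GQ →* M2 (ResidueField 𝒪)} {rt : GQ → M2 𝒪}
    (hrt : ∀ g, (rt g).map (residue 𝒪) = rbar g) (D : SliceData rbar) :
    Nonempty (SlicePkg 𝒪 rt) := by
  refine ⟨{ E := Presentation.coordRel 𝒪 D.s D.i D.j (fun t => rt (D.s t) (D.i t) (D.j t))
            exists_conj := ?_
            unique := ?_ }⟩
  · intro A _ _ _ _ _ hsurj r hr
    have hres : Function.Surjective (resTo hsurj) := by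
      intro x
      obtain ⟨o, rfl⟩ := IsLocalRing.residue_surjective x
      exact ⟨algebraMap 𝒪 A o, resTo_algebraMap hsurj o⟩
    obtain ⟨γ, hγ1, hγ2⟩ := slice_exists (resTo hsurj) hres (resTo_eq_zero_iff hsurj) D
      (fun t => algebraMap 𝒪 A (rt (D.s t) (D.i t) (D.j t)))
      (fun t => by
        rw [resTo_algebraMap, ← hrt (D.s t), Matrix.map_apply])
      r (map_resTo_of_isLiftRt hrt hsurj r hr)
    refine ⟨γ, hγ1, ?_⟩
    exact (Presentation.isNormalised_coordRel_iff 𝒪 D.s D.i D.j _ _).mpr hγ2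
  · intro A _ _ _ _ _ hsurj r r' hr hr' hn hn' γ hγ
    have hres : Function.Surjective (resTo hsurj) := by
      intro x
      obtain ⟨o, rfl⟩ := IsLocalRing.residue_surjective x
      exact ⟨algebraMap 𝒪 A o, resTo_algebraMap hsurj o⟩
    exact (slice_unique (resTo hsurj) hres (resTo_eq_zero_iff hsurj) D
      (fun t => algebraMap 𝒪 A (rt (D.s t) (D.i t) (D.j t))) r r'
      (map_resTo_of_isLiftRt hrt hsurj r hr) (map_resTo_of_isLiftRt hrt hsurj r' hr')
      ((Presentation.isNormalised_coordRel_iff 𝒪 D.s D.i D.j _ _).mp hn)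
      ((Presentation.isNormalised_coordRel_iff 𝒪 D.s D.i D.j _ _).mp hn') γ hγ).1

end SliceFinal3

/-- **Slice package, route I** (three-coordinate slice). -/
theorem exists_slicePkg_routeI (𝒪 : Type) [CommRing 𝒪] [IsLocalRing 𝒪]
    (ρbar : ResidualGaloisRep (IsLocalRing.ResidueField 𝒪)) (habs : ρbar.IsAbsolutelyIrreducible) :
    ∃ (rbar : GQ →* M2 (IsLocalRing.ResidueField 𝒪)) (hfl : GaloisFactorsThroughFiniteLevel rbar)
      (rt : GQ → M2 𝒪), ρbar.IsEquiv (ofMatRes rbar hfl) ∧
        (∀ g, (rt g).map (IsLocalRing.residue 𝒪) = rbar g) ∧ Nonempty (SlicePkg 𝒪 rt) := by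
  let b := Module.finBasisOfFinrankEq (IsLocalRing.ResidueField 𝒪) ρbar.V ρbar.finrank_eq
  obtain ⟨rt, hrt⟩ := SliceFinal3.exists_setLift (𝒪 := 𝒪) (toMatHomRes ρbar b)
  obtain ⟨D⟩ := nonempty_sliceData (toMatHomRes ρbar b)
    (SliceFinal3.isSchur_toMatHomRes ρbar habs b)
  exact ⟨toMatHomRes ρbar b, factors_toMatHomRes ρbar b, rt, ⟨equivOfMatRes ρbar b⟩, hrt,
    SliceFinal3.nonempty_slicePkg_of_sliceData hrt D⟩

end Fermat.Agent.S53
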