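import Mathlib.RingTheory.Henselian
import Mathlib.LinearAlgebra.Matrix.Charpoly.Coeff
import Mathlib.LinearAlgebra.Matrix.NonsingularInverse
import Mathlib.RingTheory.LocalRing.MaximalIdeal.Basic

set_option autoImplicit false

namespace Fermat.Agent.S53

open Matrix IsLocalRing Polynomial

variable {A : Type*} [CommRing A]

/-- Normal form for a pair `(X, Y)` of `2 × 2` matrices: `X e₀ ∈ A e₀` and `Y e₀ = e₁`. -/
def IsNormalPair (X Y : Matrix (Fin 2) (Fin 2) A) : Prop :=
  X 1 0 = 0 ∧ Y 0 0 = 0 ∧ Y 1 0 = 1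

/-- If `h ≡ 1` modulo an ideal `I` (entrywise) and `h` is invertible, then conjugation by `h`
does not change a matrix modulo `I`. -/
theorem conj_sub_mem_of_sub_one_mem (I : Ideal A) {h : Matrix (Fin 2) (Fin 2) A}
    (hdet : IsUnit h.det) (hI : ∀ i j, (h - 1) i j ∈ I) (X : Matrix (Fin 2) (Fin 2) A) (i j : Fin 2) :
    (h⁻¹ * X * h - X) i j ∈ I := by
  have hinv : h⁻¹ * h = 1 := Matrix.nonsing_inv_mul h hdet
  have key : h⁻¹ * X * h - X = h⁻¹ * (X * (h - 1) - (h - 1) * X) := by
    have : h⁻¹ * (X * (h - 1) - (h - 1) * X) = h⁻¹ * X * h - h⁻¹ * h * X := by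
      simp only [Matrix.mul_sub, Matrix.sub_mul, Matrix.mul_one, Matrix.one_mul, Matrix.mul_assoc]
      abel
    rw [this, hinv, Matrix.one_mul]
  rw [key]
  have hmem : ∀ a b, (X * (h - 1) - (h - 1) * X) a b ∈ I := by
    intro a b
    rw [Matrix.sub_apply, Matrix.mul_apply, Matrix.mul_apply]
    refine I.sub_mem (I.sum_mem fun c _ => I.mul_mem_left _ (hI c b))
      (I.sum_mem fun c _ => I.mul_mem_right _ (hI a c))
  rw [Matrix.mul_apply]
  exact I.sum_mem fun c _ => I.mul_mem_left _ (hmem c j)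

/-- Cayley–Hamilton for `2 × 2` matrices, by hand. -/
theorem cayleyHamilton_fin_two (X : Matrix (Fin 2) (Fin 2) A) :
    X * X - X.trace • X + X.det • (1 : Matrix (Fin 2) (Fin 2) A) = 0 := by
  ext i j
  fin_cases i <;> fin_cases j <;>
    simp [Matrix.mul_apply, Fin.sum_univ_two, Matrix.det_fin_two, Matrix.trace_fin_two] <;> ring

section Uniqueness

variable [IsLocalRing A]

/-- Uniqueness of the slice: a matrix intertwining two normal pairs is scalar. -/
theorem normalPair_intertwiner_scalar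
    {X X' Y Y' g : Matrix (Fin 2) (Fin 2) A}
    (hX00 : X 0 0 - 1 ∈ maximalIdeal A) (hX'11 : X' 1 1 ∈ maximalIdeal A)
    (hn : IsNormalPair X Y) (hn' : IsNormalPair X' Y')
    (hgX : g * X = X' * g) (hgY : g * Y = Y' * g) :
    g = g 0 0 • (1 : Matrix (Fin 2) (Fin 2) A) := by
  obtain ⟨hX10, hY00, hY10⟩ := hn
  obtain ⟨hX'10, hY'00, hY'10⟩ := hn'
  -- entry (1,0) of `g * X = X' * g`
  have e10 := congrFun (congrFun hgX 1) 0
  simp only [Matrix.mul_apply, Fin.sum_univ_two, hX10, hX'10, mul_zero, add_zero, zero_mul,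
    zero_add] at e10
  -- `(X 0 0 - X' 1 1) * g 1 0 = 0` with a unit coefficient
  have hunit : IsUnit (X 0 0 - X' 1 1) := by
    by_contra h
    have hmem : X 0 0 - X' 1 1 ∈ maximalIdeal A := (mem_maximalIdeal _).mpr h
    have h1 : (1 : A) ∈ maximalIdeal A := by
      have := (maximalIdeal A).sub_mem ((maximalIdeal A).add_mem hmem hX'11) hX00
      convert this using 1
      ring
    exact (Ideal.ne_top_iff_one _).mp (maximalIdeal.isMaximal A).ne_top h1
  have hg10 : g 1 0 = 0 := by
    have : (X 0 0 - X' 1 1) * g 1 0 = 0 := by linear_combination e10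
    exact (hunit.mul_right_eq_zero).mp this
  -- entries of `g * Y = Y' * g`
  have f00 := congrFun (congrFun hgY 0) 0
  have f10 := congrFun (congrFun hgY 1) 0
  simp only [Matrix.mul_apply, Fin.sum_univ_two, hY00, hY10, hY'00, hY'10, hg10, mul_zero,
    add_zero, zero_mul, zero_add, mul_one, one_mul] at f00 f10
  ext i j
  fin_cases i <;> fin_cases j <;> simp [hg10, f00, f10]

end Uniqueness

section Existence

variable [IsLocalRing A] [HenselianRing A (maximalIdeal A)]

/-- Existence of the slice: over a Henselian local ring, a pair `(X, Y)` which is congruent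
modulo the maximal ideal to `([[1, *], [0, 0]], [[0, *], [1, *]])` is conjugate, by a matrix
congruent to `1`, to a normal pair. -/
theorem exists_conj_isNormalPair
    {X Y : Matrix (Fin 2) (Fin 2) A}
    (hX00 : X 0 0 - 1 ∈ maximalIdeal A) (hX10 : X 1 0 ∈ maximalIdeal A)
    (hX11 : X 1 1 ∈ maximalIdeal A)
    (hY00 : Y 0 0 ∈ maximalIdeal A) (hY10 : Y 1 0 - 1 ∈ maximalIdeal A) :
    ∃ h : Matrix (Fin 2) (Fin 2) A, IsUnit h.det ∧ (∀ i j, (h - 1) i j ∈ maximalIdeal A) ∧
      IsNormalPair (h⁻¹ * X * h) (h⁻¹ * Y * h) := by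
  set m := maximalIdeal A with hm
  set t : A := X.trace with ht
  set d : A := X.det with hd
  have ht1 : t - 1 ∈ m := by
    have : t - 1 = (X 0 0 - 1) + X 1 1 := by rw [ht, Matrix.trace_fin_two]; ring
    rw [this]; exact m.add_mem hX00 hX11
  have hdm : d ∈ m := by
    rw [hd, Matrix.det_fin_two]
    exact m.sub_mem (m.mul_mem_left _ hX11) (m.mul_mem_left _ hX10)
  -- Hensel: a root `lam ≡ 1` of the characteristic polynomial
  let f : A[X] := Polynomial.X ^ 2 - Polynomial.C t * Polynomial.X + Polynomial.C d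
  have hfmonic : f.Monic := by
    have : f = Polynomial.X ^ 2 - (Polynomial.C t * Polynomial.X - Polynomial.C d) := by
      simp only [f]; ring
    rw [this]
    apply Polynomial.monic_X_pow_sub
    refine lt_of_le_of_lt (Polynomial.degree_sub_le _ _) ?_
    refine max_lt ?_ ?_
    · refine lt_of_le_of_lt (Polynomial.degree_C_mul_X_le t) (by norm_num)
    · refine lt_of_le_of_lt Polynomial.degree_C_le (by norm_num)
  have hf1 : f.eval 1 ∈ m := by
    have : f.eval 1 = d - (t - 1) := by simp [f]; ring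
    rw [this]; exact m.sub_mem hdm ht1
  have hf'1 : IsUnit (Ideal.Quotient.mk m (f.derivative.eval 1)) := by
    have : f.derivative.eval 1 = 1 - (t - 1) := by
      simp [f, Polynomial.derivative_pow]; ring
    rw [this, map_sub, map_one, Ideal.Quotient.eq_zero_iff_mem.mpr ht1, sub_zero]
    exact isUnit_one
  obtain ⟨lam, hlam, hlam1⟩ := HenselianRing.is_henselian f hfmonic 1 hf1 hf'1
  have hroot : lam ^ 2 - t * lam + d = 0 := by
    have := hlam
    simp only [Polynomial.IsRoot.def, f, Polynomial.eval_add, Polynomial.eval_sub,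
      Polynomial.eval_pow, Polynomial.eval_X, Polynomial.eval_mul, Polynomial.eval_C] at this
    exact this
  set mu : A := t - lam with hmu
  have hmum : mu ∈ m := by
    have : mu = (t - 1) - (lam - 1) := by rw [hmu]; ring
    rw [this]; exact m.sub_mem ht1 hlam1
  -- the new basis
  let v10 : A := X 0 0 - mu
  let v11 : A := X 1 0
  let v20 : A := Y 0 0 * v10 + Y 0 1 * v11
  let v21 : A := Y 1 0 * v10 + Y 1 1 * v11
  let h : Matrix (Fin 2) (Fin 2) A := !![v10, v20; v11, v21]
  have hv10 : v10 - 1 ∈ m := by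
    have : v10 - 1 = (X 0 0 - 1) - mu := by simp only [v10]; ring
    rw [this]; exact m.sub_mem hX00 hmum
  have hv11 : v11 ∈ m := hX10
  have hv20 : v20 ∈ m := m.add_mem (m.mul_mem_right _ hY00) (m.mul_mem_left _ hv11)
  have hv21 : v21 - 1 ∈ m := by
    have : v21 - 1 = (Y 1 0 - 1) * v10 + (v10 - 1) + Y 1 1 * v11 := by simp only [v21]; ring
    rw [this]
    exact m.add_mem (m.add_mem (m.mul_mem_right _ hY10) hv10) (m.mul_mem_left _ hv11)
  have hh1 : ∀ i j, (h - 1) i j ∈ m := by
    intro i j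
    fin_cases i <;> fin_cases j <;> simp [h] <;> assumption
  have hdet : IsUnit h.det := by
    have hdet1 : h.det - 1 ∈ m := by
      have : h.det - 1 = (v10 - 1) * v21 + (v21 - 1) - v20 * v11 := by
        simp only [h, Matrix.det_fin_two_of]; ring
      rw [this]
      exact m.sub_mem (m.add_mem (m.mul_mem_right _ hv10) hv21) (m.mul_mem_left _ hv11)
    by_contra hnu
    have hmem : h.det ∈ m := (mem_maximalIdeal _).mpr hnu
    have h1 : (1 : A) ∈ m := by
      have := m.sub_mem hmem hdet1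
      convert this using 1
      ring
    exact (Ideal.ne_top_iff_one _).mp (maximalIdeal.isMaximal A).ne_top h1
  have hinv : h⁻¹ * h = 1 := Matrix.nonsing_inv_mul h hdet
  -- `X * h` has first column `lam • (first column of h)`
  have hCH := cayleyHamilton_fin_two X
  have hXcol : ∀ i, (X * h) i 0 = lam * h i 0 := by
    intro i
    have e0 := congrFun (congrFun hCH i) 0
    simp only [Matrix.add_apply, Matrix.sub_apply, Matrix.smul_apply, Matrix.mul_apply,
      Fin.sum_univ_two, Matrix.zero_apply, smul_eq_mul, Matrix.one_apply] at e0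
    fin_cases i
    · simp only [Fin.zero_eta, Fin.isValue, ↓reduceIte, mul_one] at e0
      simp only [Matrix.mul_apply, Fin.sum_univ_two, h, Matrix.of_apply, Matrix.cons_val',
        Matrix.cons_val_zero, Matrix.cons_val_one, Fin.zero_eta, Fin.isValue, v10, v11, mu]
      linear_combination e0 - hroot
    · simp only [Fin.mk_one, Fin.isValue, one_ne_zero, ↓reduceIte, mul_zero, add_zero] at e0
      simp only [Matrix.mul_apply, Fin.sum_univ_two, h, Matrix.of_apply, Matrix.cons_val',
        Matrix.cons_val_zero, Matrix.cons_val_one, Fin.mk_one, Fin.isValue, v10, v11, mu]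
      linear_combination e0
  have hYcol : ∀ i, (Y * h) i 0 = h i 1 := by
    intro i
    fin_cases i <;>
      simp [Matrix.mul_apply, Fin.sum_univ_two, h, v20, v21]
  refine ⟨h, hdet, hh1, ?_, ?_, ?_⟩
  · -- `(h⁻¹ * X * h) 1 0 = 0`
    rw [Matrix.mul_assoc, Matrix.mul_apply]
    simp only [hXcol]
    have : ∑ j, h⁻¹ 1 j * (lam * h j 0) = lam * (h⁻¹ * h) 1 0 := by
      rw [Matrix.mul_apply, Finset.mul_sum]
      exact Finset.sum_congr rfl fun j _ => by ring
    rw [this, hinv]; simp
  · rw [Matrix.mul_assoc, Matrix.mul_apply]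
    simp only [hYcol]
    have : ∑ j, h⁻¹ 0 j * h j 1 = (h⁻¹ * h) 0 1 := by rw [Matrix.mul_apply]
    rw [this, hinv]; simp
  · rw [Matrix.mul_assoc, Matrix.mul_apply]
    simp only [hYcol]
    have : ∑ j, h⁻¹ 1 j * h j 1 = (h⁻¹ * h) 1 1 := by rw [Matrix.mul_apply]
    rw [this, hinv]; simp

/-- Variant of `exists_conj_isNormalPair` also recording that the conjugated `X` still has
diagonal `≡ (1, 0)` modulo the maximal ideal (the hypotheses of the uniqueness lemma). -/
theorem exists_conj_isNormalPair'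
    {X Y : Matrix (Fin 2) (Fin 2) A}
    (hX00 : X 0 0 - 1 ∈ maximalIdeal A) (hX10 : X 1 0 ∈ maximalIdeal A)
    (hX11 : X 1 1 ∈ maximalIdeal A)
    (hY00 : Y 0 0 ∈ maximalIdeal A) (hY10 : Y 1 0 - 1 ∈ maximalIdeal A) :
    ∃ h : Matrix (Fin 2) (Fin 2) A, IsUnit h.det ∧ (∀ i j, (h - 1) i j ∈ maximalIdeal A) ∧
      IsNormalPair (h⁻¹ * X * h) (h⁻¹ * Y * h) ∧
      (h⁻¹ * X * h) 0 0 - 1 ∈ maximalIdeal A ∧ (h⁻¹ * X * h) 1 1 ∈ maximalIdeal A := by
  obtain ⟨h, hdet, hh1, hn⟩ := exists_conj_isNormalPair hX00 hX10 hX11 hY00 hY10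
  refine ⟨h, hdet, hh1, hn, ?_, ?_⟩
  · have := conj_sub_mem_of_sub_one_mem (maximalIdeal A) hdet hh1 X 0 0
    rw [Matrix.sub_apply] at this
    have h2 := (maximalIdeal A).add_mem this hX00
    convert h2 using 1
    ring
  · have := conj_sub_mem_of_sub_one_mem (maximalIdeal A) hdet hh1 X 1 1
    rw [Matrix.sub_apply] at this
    have h2 := (maximalIdeal A).add_mem this hX11
    convert h2 using 1
    ring

end Existence

/-- The existence lemma applies to complete local rings. -/
example {B : Type*} [CommRing B] [IsLocalRing B] [IsAdicComplete (maximalIdeal B) B]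
    {X Y : Matrix (Fin 2) (Fin 2) B}
    (hX00 : X 0 0 - 1 ∈ maximalIdeal B) (hX10 : X 1 0 ∈ maximalIdeal B)
    (hX11 : X 1 1 ∈ maximalIdeal B)
    (hY00 : Y 0 0 ∈ maximalIdeal B) (hY10 : Y 1 0 - 1 ∈ maximalIdeal B) :
    ∃ h : Matrix (Fin 2) (Fin 2) B, IsUnit h.det ∧ (∀ i j, (h - 1) i j ∈ maximalIdeal B) ∧
      IsNormalPair (h⁻¹ * X * h) (h⁻¹ * Y * h) :=
  exists_conj_isNormalPair hX00 hX10 hX11 hY00 hY10

end Fermat.Agent.S53
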