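import Mathlib

/-!
# The slice lemma for 2×2 matrices over a local ring (part B3 of the S53 architecture)

Pure matrix statements, independent of the Galois-representation interface.

For `X = !![a, b; c, d]` put `nsp X = ![b, c, a - d]` (the "non-scalar part").
Every entry of a commutator `X * Y - Y * X` is a linear form in `nsp X` whose coefficients are
polynomial in the entries of `Y` (`commCoeff`).  Three coordinates `(Y a, pos a)`, `a : Fin 3`,
give a `3 × 3` matrix `Pmat Y pos`; if its determinant is a unit, then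

* `slice_unique`: two families which are conjugate, congruent modulo the maximal ideal and agree
  in the three chosen coordinates are equal, and the conjugating matrix is scalar;
* `exists_conj_normalise`: over a complete local ring every family can be conjugated, by a matrix
  congruent to `1`, to one with prescribed values in the three chosen coordinates.
-/

set_option autoImplicit false

namespace Fermat.Agent.S53.SliceNsp

open Matrix IsLocalRing

section Basic

variable {A : Type*} [CommRing A]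

/-- The non-scalar part `(b, c, a - d)` of a `2 × 2` matrix. -/
def nsp (X : Matrix (Fin 2) (Fin 2) A) : Fin 3 → A := ![X 0 1, X 1 0, X 0 0 - X 1 1]

/-- The matrix `!![t₂, t₀; t₁, 0]` with non-scalar part `t`. -/
def ofNsp (t : Fin 3 → A) : Matrix (Fin 2) (Fin 2) A := !![t 2, t 0; t 1, 0]

@[simp] theorem nsp_ofNsp (t : Fin 3 → A) : nsp (ofNsp t) = t := by
  funext a
  fin_cases a <;> simp [nsp, ofNsp]

theorem eq_smul_one_add_ofNsp (g : Matrix (Fin 2) (Fin 2) A) :
    g = g 1 1 • (1 : Matrix (Fin 2) (Fin 2) A) + ofNsp (nsp g) := by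
  ext i j
  fin_cases i <;> fin_cases j <;> simp [nsp, ofNsp]

theorem nsp_eq_zero_iff (g : Matrix (Fin 2) (Fin 2) A) :
    nsp g = 0 ↔ g = g 1 1 • (1 : Matrix (Fin 2) (Fin 2) A) := by
  constructor
  · intro h
    have := eq_smul_one_add_ofNsp g
    rw [h] at this
    have h0 : ofNsp (0 : Fin 3 → A) = 0 := by
      ext i j; fin_cases i <;> fin_cases j <;> simp [ofNsp]
    rw [h0, add_zero] at this
    exact this
  · intro h
    funext a
    fin_cases a
    · show g 0 1 = 0
      rw [h]; simp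
    · show g 1 0 = 0
      rw [h]; simp
    · show g 0 0 - g 1 1 = 0
      rw [h]; simp

/-- Coefficients of the linear form `nsp X ↦ (X * Y - Y * X) i j`. -/
def commCoeff (Y : Matrix (Fin 2) (Fin 2) A) (i j : Fin 2) : Fin 3 → A :=
  if i = 0 then (if j = 0 then ![Y 1 0, - Y 0 1, 0] else ![Y 1 1 - Y 0 0, 0, Y 0 1])
  else (if j = 0 then ![0, Y 0 0 - Y 1 1, - Y 1 0] else ![- Y 1 0, Y 0 1, 0])

theorem comm_entry (X Y : Matrix (Fin 2) (Fin 2) A) (i j : Fin 2) :
    (X * Y - Y * X) i j = commCoeff Y i j ⬝ᵥ nsp X := by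
  fin_cases i <;> fin_cases j <;>
    simp [commCoeff, nsp, Matrix.mul_apply, Fin.sum_univ_two, dotProduct, Fin.sum_univ_three] <;>
    ring

/-- The `3 × 3` coefficient matrix attached to three coordinates. -/
def Pmat (Y : Fin 3 → Matrix (Fin 2) (Fin 2) A) (pos : Fin 3 → Fin 2 × Fin 2) :
    Matrix (Fin 3) (Fin 3) A :=
  Matrix.of fun a => commCoeff (Y a) (pos a).1 (pos a).2

theorem Pmat_mulVec (Y : Fin 3 → Matrix (Fin 2) (Fin 2) A) (pos : Fin 3 → Fin 2 × Fin 2)
    (X : Matrix (Fin 2) (Fin 2) A) (a : Fin 3) :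
    (Pmat Y pos *ᵥ nsp X) a = (X * Y a - Y a * X) (pos a).1 (pos a).2 := by
  rw [comm_entry]
  rfl

end Basic

section EntriesIn

variable {A : Type*} [CommRing A] {m n l : Type*} [Fintype m] [Fintype n] [Fintype l]

/-- All entries of the matrix lie in the ideal `J`. -/
def EntriesIn (J : Ideal A) (M : Matrix m n A) : Prop := ∀ i j, M i j ∈ J

namespace EntriesIn

variable {J K : Ideal A}

omit [Fintype m] [Fintype n] in
theorem zero : EntriesIn J (0 : Matrix m n A) := fun _ _ => J.zero_mem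

omit [Fintype m] [Fintype n] in
theorem add {M N : Matrix m n A} (hM : EntriesIn J M) (hN : EntriesIn J N) :
    EntriesIn J (M + N) := fun i j => J.add_mem (hM i j) (hN i j)

omit [Fintype m] [Fintype n] in
theorem sub {M N : Matrix m n A} (hM : EntriesIn J M) (hN : EntriesIn J N) :
    EntriesIn J (M - N) := fun i j => J.sub_mem (hM i j) (hN i j)

omit [Fintype m] [Fintype n] in
theorem neg {M : Matrix m n A} (hM : EntriesIn J M) : EntriesIn J (-M) :=
  fun i j => J.neg_mem (hM i j)

omit [Fintype m] [Fintype n] in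
theorem smul {M : Matrix m n A} (hM : EntriesIn J M) (a : A) : EntriesIn J (a • M) :=
  fun i j => J.mul_mem_left a (hM i j)

omit [Fintype m] [Fintype n] in
theorem mono {M : Matrix m n A} (hM : EntriesIn J M) (h : J ≤ K) : EntriesIn K M :=
  fun i j => h (hM i j)

omit [Fintype m] [Fintype l] in
theorem mul_left {M : Matrix n l A} (hM : EntriesIn J M) (N : Matrix m n A) :
    EntriesIn J (N * M) := fun i j => by
  rw [Matrix.mul_apply]
  exact J.sum_mem fun k _ => J.mul_mem_left _ (hM k j)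

omit [Fintype m] [Fintype l] in
theorem mul_right {M : Matrix m n A} (hM : EntriesIn J M) (N : Matrix n l A) :
    EntriesIn J (M * N) := fun i j => by
  rw [Matrix.mul_apply]
  exact J.sum_mem fun k _ => J.mul_mem_right _ (hM i k)

omit [Fintype m] [Fintype l] in
theorem mul {M : Matrix m n A} {N : Matrix n l A} (hM : EntriesIn J M) (hN : EntriesIn K N) :
    EntriesIn (J * K) (M * N) := fun i j => by
  rw [Matrix.mul_apply]
  exact (J * K).sum_mem fun k _ => Ideal.mul_mem_mul (hM i k) (hN k j)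

omit [Fintype m] in
theorem mulVec {M : Matrix m n A} (hM : EntriesIn J M) (v : n → A) (i : m) :
    (M *ᵥ v) i ∈ J := by
  rw [Matrix.mulVec, dotProduct]
  exact J.sum_mem fun k _ => J.mul_mem_right _ (hM i k)

end EntriesIn

omit [Fintype m] in
theorem mulVec_mem {J : Ideal A} (M : Matrix m n A) {v : n → A} (hv : ∀ k, v k ∈ J) (i : m) :
    (M *ᵥ v) i ∈ J := by
  rw [Matrix.mulVec, dotProduct]
  exact J.sum_mem fun k _ => J.mul_mem_left _ (hv k)

theorem entriesIn_ofNsp {J : Ideal A} {t : Fin 3 → A} (ht : ∀ a, t a ∈ J) :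
    EntriesIn J (ofNsp t) := by
  intro i j
  fin_cases i <;> fin_cases j <;> simp [ofNsp, ht]

theorem dotProduct_mem {J : Ideal A} (u : n → A) {v : n → A} (hv : ∀ k, v k ∈ J) :
    u ⬝ᵥ v ∈ J := by
  rw [dotProduct]
  exact J.sum_mem fun k _ => J.mul_mem_left _ (hv k)

end EntriesIn

section Unique

variable {A : Type*} [CommRing A] {G : Type*}

/-- If `P` is invertible and `P *ᵥ t` has entries in `J` then so has `t`. -/
theorem mem_of_Pmat_mulVec_mem {P : Matrix (Fin 3) (Fin 3) A} (hP : IsUnit P.det)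
    {J : Ideal A} {t : Fin 3 → A} (h : ∀ a, (P *ᵥ t) a ∈ J) : ∀ a, t a ∈ J := by
  have ht : t = P⁻¹ *ᵥ (P *ᵥ t) := by
    rw [Matrix.mulVec_mulVec, Matrix.nonsing_inv_mul P hP, Matrix.one_mulVec]
  intro a
  rw [ht]
  exact mulVec_mem _ h a

/-- The difference `r' σ - r σ` is controlled by the non-scalar part of the conjugating matrix. -/
theorem entriesIn_sub_of_conj {r r' : G → Matrix (Fin 2) (Fin 2) A}
    {g : Matrix (Fin 2) (Fin 2) A} (hg : IsUnit g.det) (hconj : ∀ σ, g * r σ = r' σ * g)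
    {J : Ideal A} (ht : ∀ a, nsp g a ∈ J) (σ : G) : EntriesIn J (r' σ - r σ) := by
  have hC : EntriesIn J (g * r σ - r σ * g) := fun i j => by
    rw [comm_entry]
    exact dotProduct_mem _ ht
  have h1 : (r' σ - r σ) * g = g * r σ - r σ * g := by
    rw [sub_mul, ← hconj σ]
  have h2 : r' σ - r σ = (g * r σ - r σ * g) * g⁻¹ := by
    rw [← h1, Matrix.mul_assoc, Matrix.mul_nonsing_inv g hg, Matrix.mul_one]
  rw [h2]
  exact hC.mul_right _

/-- One improvement step: from `nsp g ∈ J` to `nsp g ∈ J * J`. -/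
theorem nsp_mem_mul_self {r r' : G → Matrix (Fin 2) (Fin 2) A} (coords : Fin 3 → G)
    (pos : Fin 3 → Fin 2 × Fin 2) {g : Matrix (Fin 2) (Fin 2) A} (hg : IsUnit g.det)
    (hconj : ∀ σ, g * r σ = r' σ * g)
    (hP : IsUnit (Pmat (fun a => r (coords a)) pos).det)
    (hnorm : ∀ a, r (coords a) (pos a).1 (pos a).2 = r' (coords a) (pos a).1 (pos a).2)
    {J : Ideal A} (ht : ∀ a, nsp g a ∈ J) : ∀ a, nsp g a ∈ J * J := by
  refine mem_of_Pmat_mulVec_mem hP fun a => ?_
  rw [Pmat_mulVec]
  have hΔ := entriesIn_sub_of_conj hg hconj ht (coords a)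
  have h1 : g * r (coords a) - r (coords a) * g = (r' (coords a) - r (coords a)) * g := by
    rw [sub_mul, ← hconj]
  have h2 : (r' (coords a) - r (coords a)) * g =
      g 1 1 • (r' (coords a) - r (coords a)) + (r' (coords a) - r (coords a)) * ofNsp (nsp g) := by
    conv_lhs => rw [eq_smul_one_add_ofNsp g]
    rw [Matrix.mul_add, Matrix.mul_smul, Matrix.mul_one]
  rw [h1, h2, Matrix.add_apply, Matrix.smul_apply, Matrix.sub_apply, hnorm a, sub_self,
    smul_zero, zero_add]
  exact (hΔ.mul (entriesIn_ofNsp ht)) _ _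

variable [IsLocalRing A]

/-- **Uniqueness in the slice.** Two families `r, r'` of `2 × 2` matrices over a separated local
ring which are congruent modulo the maximal ideal, conjugate under an invertible `g`, and which
agree in three coordinates whose coefficient matrix `Pmat` is invertible, are equal; moreover
`g` is a scalar matrix. -/
theorem slice_unique [IsHausdorff (maximalIdeal A) A] (r r' : G → Matrix (Fin 2) (Fin 2) A)
    (coords : Fin 3 → G) (pos : Fin 3 → Fin 2 × Fin 2) (g : Matrix (Fin 2) (Fin 2) A)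
    (hg : IsUnit g.det) (hres : ∀ σ i j, r' σ i j - r σ i j ∈ maximalIdeal A)
    (hconj : ∀ σ, g * r σ = r' σ * g)
    (hP : IsUnit (Pmat (fun a => r (coords a)) pos).det)
    (hnorm : ∀ a, r (coords a) (pos a).1 (pos a).2 = r' (coords a) (pos a).1 (pos a).2) :
    nsp g = 0 ∧ r = r' := by
  -- initial step
  have h0 : ∀ a, nsp g a ∈ maximalIdeal A := by
    refine mem_of_Pmat_mulVec_mem hP fun a => ?_
    rw [Pmat_mulVec]
    have h1 : g * r (coords a) - r (coords a) * g = (r' (coords a) - r (coords a)) * g := by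
      rw [sub_mul, ← hconj]
    rw [h1]
    have hΔ : EntriesIn (maximalIdeal A) (r' (coords a) - r (coords a)) := fun i j => hres _ i j
    exact hΔ.mul_right g _ _
  have hk : ∀ k : ℕ, ∀ a, nsp g a ∈ maximalIdeal A ^ (2 ^ k) := by
    intro k
    induction k with
    | zero => simpa using h0
    | succ k ih =>
      have := nsp_mem_mul_self coords pos hg hconj hP hnorm ih
      rwa [← pow_add, ← two_mul, ← pow_succ'] at this
  have hzero : nsp g = 0 := by
    funext a
    refine IsHausdorff.haus' (I := maximalIdeal A) (nsp g a) fun n => ?_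
    rw [SModEq.zero, smul_eq_mul, Ideal.mul_top]
    exact Ideal.pow_le_pow_right (Nat.lt_two_pow_self).le (hk n a)
  refine ⟨hzero, funext fun σ => ?_⟩
  have hΔ := entriesIn_sub_of_conj (J := ⊥) hg hconj (fun a => by rw [hzero]; exact Ideal.zero_mem _) σ
  ext i j
  have := hΔ i j
  rw [Ideal.mem_bot, Matrix.sub_apply, sub_eq_zero] at this
  exact this.symm

end Unique

section Exists

variable {A : Type*} [CommRing A]

theorem commCoeff_sub (Y Y' : Matrix (Fin 2) (Fin 2) A) (i j : Fin 2) :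
    commCoeff (Y' - Y) i j = commCoeff Y' i j - commCoeff Y i j := by
  funext a
  fin_cases i <;> fin_cases j <;> fin_cases a <;> simp [commCoeff] <;> ring

theorem commCoeff_mem {J : Ideal A} {Y : Matrix (Fin 2) (Fin 2) A} (hY : EntriesIn J Y)
    (i j : Fin 2) (a : Fin 3) : commCoeff Y i j a ∈ J := by
  fin_cases i <;> fin_cases j <;> fin_cases a <;>
    simp [commCoeff, hY 0 0, hY 0 1, hY 1 0, hY 1 1, J.sub_mem, J.neg_mem]

theorem entriesIn_Pmat_sub {J : Ideal A} {Y Y' : Fin 3 → Matrix (Fin 2) (Fin 2) A}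
    (pos : Fin 3 → Fin 2 × Fin 2) (h : ∀ a, EntriesIn J (Y' a - Y a)) :
    EntriesIn J (Pmat Y' pos - Pmat Y pos) := by
  intro a b
  show commCoeff (Y' a) (pos a).1 (pos a).2 b - commCoeff (Y a) (pos a).1 (pos a).2 b ∈ J
  have := commCoeff_mem (h a) (pos a).1 (pos a).2 b
  rwa [commCoeff_sub] at this

/-- continuity of conjugation -/
theorem entriesIn_conj_sub {J : Ideal A} {g g' : Matrix (Fin 2) (Fin 2) A} (hg : IsUnit g.det)
    (hg' : IsUnit g'.det) (h : EntriesIn J (g - g')) (Y : Matrix (Fin 2) (Fin 2) A) :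
    EntriesIn J (g * Y * g⁻¹ - g' * Y * g'⁻¹) := by
  have hinv : g⁻¹ - g'⁻¹ = g⁻¹ * (g' - g) * g'⁻¹ := by
    rw [Matrix.mul_sub, Matrix.sub_mul, Matrix.nonsing_inv_mul g hg, Matrix.one_mul,
      Matrix.mul_assoc, Matrix.mul_nonsing_inv g' hg', Matrix.mul_one]
  have h1 : g * Y * g⁻¹ - g' * Y * g'⁻¹ = (g - g') * (Y * g⁻¹) + g' * Y * (g⁻¹ - g'⁻¹) := by
    noncomm_ring
  rw [h1, hinv]
  refine (h.mul_right _).add (EntriesIn.mul_left ?_ _)
  have h' : EntriesIn J (g' - g) := by
    have := h.neg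
    rwa [neg_sub] at this
  exact (h'.mul_left _).mul_right _

variable [IsLocalRing A]

theorem isUnit_det_of_entriesIn_sub_one {g : Matrix (Fin 2) (Fin 2) A}
    (h : EntriesIn (maximalIdeal A) (g - 1)) : IsUnit g.det := by
  by_contra hdet
  have hmem : g.det ∈ maximalIdeal A := (IsLocalRing.mem_maximalIdeal _).mpr hdet
  have h00 := h 0 0
  have h01 := h 0 1
  have h10 := h 1 0
  have h11 := h 1 1
  simp only [Matrix.sub_apply, Matrix.one_apply_eq, Matrix.one_apply_ne, ne_eq,
    not_false_eq_true, sub_zero, zero_ne_one, one_ne_zero] at h00 h01 h10 h11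
  rw [Matrix.det_fin_two] at hmem
  have h1 : (1 : A) ∈ maximalIdeal A := by
    have e : (1 : A) = (g 0 0 * g 1 1 - g 0 1 * g 1 0) - (g 0 0 - 1) * g 1 1 - (g 1 1 - 1)
        + g 0 1 * g 1 0 := by ring
    rw [e]
    refine Ideal.add_mem _ (Ideal.sub_mem _ (Ideal.sub_mem _ hmem ?_) h11) ?_
    · exact Ideal.mul_mem_right _ _ h00
    · exact Ideal.mul_mem_right _ _ h01
  exact (Ideal.ne_top_iff_one _).mp (IsLocalRing.maximalIdeal.isMaximal A).ne_top h1

/-- `g Y g⁻¹ ≡ Y` modulo the maximal ideal when `g ≡ 1`. -/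
theorem entriesIn_conj_sub_self {g : Matrix (Fin 2) (Fin 2) A}
    (h : EntriesIn (maximalIdeal A) (g - 1)) (Y : Matrix (Fin 2) (Fin 2) A) :
    EntriesIn (maximalIdeal A) (g * Y * g⁻¹ - Y) := by
  have := entriesIn_conj_sub (isUnit_det_of_entriesIn_sub_one h)
    (g' := 1) (by simp) h Y
  simpa using this

end Exists

section Iterate

variable {A : Type*} [CommRing A]

theorem mulVec_mem_mul {K J : Ideal A} {M : Matrix (Fin 3) (Fin 3) A} (hM : EntriesIn K M)
    {v : Fin 3 → A} (hv : ∀ b, v b ∈ J) (a : Fin 3) : (M *ᵥ v) a ∈ K * J := by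
  rw [Matrix.mulVec, dotProduct]
  exact (K * J).sum_mem fun b _ => Ideal.mul_mem_mul (hM a b) (hv b)

variable (Y : Fin 3 → Matrix (Fin 2) (Fin 2) A) (pos : Fin 3 → Fin 2 × Fin 2) (c : Fin 3 → A)

/-- The error vector of the conjugate `g Y g⁻¹` with respect to the target values `c`. -/
noncomputable def err (g : Matrix (Fin 2) (Fin 2) A) : Fin 3 → A :=
  fun a => (g * Y a * g⁻¹) (pos a).1 (pos a).2 - c a

/-- One (simplified) Newton step. -/
noncomputable def step (g : Matrix (Fin 2) (Fin 2) A) : Matrix (Fin 2) (Fin 2) A :=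
  (1 + ofNsp (-((Pmat Y pos)⁻¹ *ᵥ err Y pos c g))) * g

variable [IsLocalRing A]

theorem step_spec (hP : IsUnit (Pmat Y pos).det) {g : Matrix (Fin 2) (Fin 2) A}
    (hg : EntriesIn (maximalIdeal A) (g - 1)) {J : Ideal A} (hJ : J ≤ maximalIdeal A)
    (hE : ∀ a, err Y pos c g a ∈ J) :
    EntriesIn (maximalIdeal A) (step Y pos c g - 1) ∧ EntriesIn J (step Y pos c g - g) ∧
      ∀ a, err Y pos c (step Y pos c g) a ∈ maximalIdeal A * J := by
  set P := Pmat Y pos with hPdef
  set e := err Y pos c g with hedef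
  set t : Fin 3 → A := -(P⁻¹ *ᵥ e) with htdef
  set T := ofNsp t with hTdef
  have ht : ∀ a, t a ∈ J := fun a => by
    rw [htdef, Pi.neg_apply]
    exact J.neg_mem (mulVec_mem _ hE a)
  have hT : EntriesIn J T := entriesIn_ofNsp ht
  have hstep : step Y pos c g = (1 + T) * g := rfl
  have hsub : step Y pos c g - g = T * g := by
    rw [hstep, Matrix.add_mul, Matrix.one_mul, add_sub_cancel_left]
  have hsub1 : step Y pos c g - 1 = (g - 1) + T * g := by
    rw [← hsub]; abel
  have hTg : EntriesIn J (T * g) := hT.mul_right g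
  refine ⟨hsub1 ▸ hg.add (hTg.mono hJ), hsub ▸ hTg, fun a => ?_⟩
  -- the new error
  have hgdet : IsUnit g.det := isUnit_det_of_entriesIn_sub_one hg
  have hh : EntriesIn (maximalIdeal A) ((1 + T) - 1) := by
    rw [add_sub_cancel_left]; exact hT.mono hJ
  have hhdet : IsUnit (1 + T).det := isUnit_det_of_entriesIn_sub_one hh
  set Y' : Fin 3 → Matrix (Fin 2) (Fin 2) A := fun b => g * Y b * g⁻¹ with hY'def
  have hY' : ∀ b, EntriesIn (maximalIdeal A) (Y' b - Y b) := fun b =>
    entriesIn_conj_sub_self hg (Y b)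
  set k := (1 + T)⁻¹ with hkdef
  have hk : (1 + T) * k = 1 := Matrix.mul_nonsing_inv _ hhdet
  have hk' : k = 1 - T * k := by
    rw [Matrix.add_mul, Matrix.one_mul] at hk
    rw [← hk]; abel
  have hconj : step Y pos c g * Y a * (step Y pos c g)⁻¹ = (1 + T) * Y' a * k := by
    rw [hstep, Matrix.mul_inv_rev]
    simp only [hY'def, Matrix.mul_assoc]
    rfl
  have h1 : (1 + T) * Y' a * k - Y' a = (T * Y' a - Y' a * T) * k := by
    have hk2 : k + T * k = 1 := by
      rw [Matrix.add_mul, Matrix.one_mul] at hk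
      exact hk
    have : (1 + T) * Y' a * k - Y' a =
        (T * Y' a - Y' a * T) * k + (Y' a * (k + T * k) - Y' a) := by
      noncomm_ring
    rw [this, hk2, Matrix.mul_one, sub_self, add_zero]
  have h2 : (T * Y' a - Y' a * T) * k =
      (T * Y' a - Y' a * T) - (T * Y' a - Y' a * T) * (T * k) := by
    conv_lhs => rw [hk']
    rw [Matrix.mul_sub, Matrix.mul_one]
  have h3 : (T * Y' a - Y' a * T) (pos a).1 (pos a).2 = (Pmat Y' pos *ᵥ t) a := by
    rw [← Pmat_mulVec, hTdef, nsp_ofNsp]
  have h4 : (Pmat Y' pos *ᵥ t) a = - e a + ((Pmat Y' pos - P) *ᵥ t) a := by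
    have hPt : P *ᵥ t = - e := by
      rw [htdef, Matrix.mulVec_neg, Matrix.mulVec_mulVec, Matrix.mul_nonsing_inv P hP,
        Matrix.one_mulVec]
    rw [Matrix.sub_mulVec, hPt]
    simp
  have hcomm : EntriesIn J (T * Y' a - Y' a * T) := (hT.mul_right _).sub (hT.mul_left _)
  have h5 : ((T * Y' a - Y' a * T) * (T * k)) (pos a).1 (pos a).2 ∈ maximalIdeal A * J :=
    Ideal.mul_mono_left hJ ((hcomm.mul (hT.mul_right k)) _ _)
  have h6 : ((Pmat Y' pos - P) *ᵥ t) a ∈ maximalIdeal A * J :=
    mulVec_mem_mul (entriesIn_Pmat_sub pos hY') ht a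
  have herr : err Y pos c (step Y pos c g) a =
      ((Pmat Y' pos - P) *ᵥ t) a - ((T * Y' a - Y' a * T) * (T * k)) (pos a).1 (pos a).2 := by
    have hmat : step Y pos c g * Y a * (step Y pos c g)⁻¹ =
        Y' a + ((T * Y' a - Y' a * T) - (T * Y' a - Y' a * T) * (T * k)) := by
      rw [hconj, ← h2, ← h1]; abel
    show (step Y pos c g * Y a * (step Y pos c g)⁻¹) (pos a).1 (pos a).2 - c a = _
    rw [hmat, Matrix.add_apply, Matrix.sub_apply, h3, h4]
    have he : e a = Y' a (pos a).1 (pos a).2 - c a := rfl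
    rw [he]; ring
  rw [herr]
  exact Ideal.sub_mem _ h6 h5

end Iterate

section Limit

variable {A : Type*} [CommRing A] [IsLocalRing A]
variable (Y : Fin 3 → Matrix (Fin 2) (Fin 2) A) (pos : Fin 3 → Fin 2 × Fin 2) (c : Fin 3 → A)

/-- The sequence of successive approximations. -/
noncomputable def seq : ℕ → Matrix (Fin 2) (Fin 2) A
  | 0 => 1
  | n + 1 => step Y pos c (seq n)

theorem seq_spec (hP : IsUnit (Pmat Y pos).det)
    (hc : ∀ a, Y a (pos a).1 (pos a).2 - c a ∈ maximalIdeal A) (n : ℕ) :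
    EntriesIn (maximalIdeal A) (seq Y pos c n - 1) ∧
      ∀ a, err Y pos c (seq Y pos c n) a ∈ maximalIdeal A ^ (n + 1) := by
  induction n with
  | zero =>
    refine ⟨by simp [seq, EntriesIn], fun a => ?_⟩
    simpa [seq, err] using hc a
  | succ n ih =>
    obtain ⟨h1, _, h3⟩ := step_spec Y pos c hP ih.1
      (Ideal.pow_le_self (Nat.succ_ne_zero n)) ih.2
    refine ⟨h1, fun a => ?_⟩
    have := h3 a
    rwa [← pow_succ'] at this

theorem seq_succ_sub (hP : IsUnit (Pmat Y pos).det)
    (hc : ∀ a, Y a (pos a).1 (pos a).2 - c a ∈ maximalIdeal A) (n : ℕ) :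
    EntriesIn (maximalIdeal A ^ (n + 1)) (seq Y pos c (n + 1) - seq Y pos c n) := by
  have ih := seq_spec Y pos c hP hc n
  exact (step_spec Y pos c hP ih.1 (Ideal.pow_le_self (Nat.succ_ne_zero n)) ih.2).2.1

theorem seq_sub_of_le (hP : IsUnit (Pmat Y pos).det)
    (hc : ∀ a, Y a (pos a).1 (pos a).2 - c a ∈ maximalIdeal A) {m n : ℕ} (hmn : m ≤ n) :
    EntriesIn (maximalIdeal A ^ m) (seq Y pos c m - seq Y pos c n) := by
  induction n, hmn using Nat.le_induction with
  | base => simpa using EntriesIn.zero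
  | succ n hmn ih =>
    have h := (seq_succ_sub Y pos c hP hc n).mono
      (Ideal.pow_le_pow_right (Nat.le_succ_of_le hmn))
    have : seq Y pos c m - seq Y pos c (n + 1) =
        (seq Y pos c m - seq Y pos c n) - (seq Y pos c (n + 1) - seq Y pos c n) := by abel
    rw [this]
    exact ih.sub h

/-- **Existence in the slice.** Over a complete local ring, a triple of `2 × 2` matrices can be
conjugated by a matrix `g ≡ 1` so that three chosen coordinates (with invertible coefficient
matrix `Pmat`) take prescribed values `c` (congruent to the original values). -/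
theorem exists_conj_normalise [IsAdicComplete (maximalIdeal A) A]
    (hP : IsUnit (Pmat Y pos).det)
    (hc : ∀ a, Y a (pos a).1 (pos a).2 - c a ∈ maximalIdeal A) :
    ∃ g : Matrix (Fin 2) (Fin 2) A, EntriesIn (maximalIdeal A) (g - 1) ∧
      ∀ a, (g * Y a * g⁻¹) (pos a).1 (pos a).2 = c a := by
  have hcauchy : ∀ i j, ∃ L : A, ∀ n, seq Y pos c n i j ≡ L
      [SMOD (maximalIdeal A ^ n • ⊤ : Submodule A A)] := fun i j => by
    refine IsPrecomplete.prec' (I := maximalIdeal A) (fun n => seq Y pos c n i j) ?_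
    intro m n hmn
    rw [SModEq.sub_mem, smul_eq_mul, Ideal.mul_top]
    exact seq_sub_of_le Y pos c hP hc hmn i j
  choose L hL using hcauchy
  set g : Matrix (Fin 2) (Fin 2) A := Matrix.of L with hgdef
  have hgn : ∀ n, EntriesIn (maximalIdeal A ^ n) (seq Y pos c n - g) := fun n i j => by
    have := hL i j n
    rw [SModEq.sub_mem, smul_eq_mul, Ideal.mul_top] at this
    exact this
  have hg1 : EntriesIn (maximalIdeal A) (g - 1) := by
    have h1 := (hgn 1).neg
    rw [neg_sub, pow_one] at h1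
    have h2 := (seq_spec Y pos c hP hc 1).1
    have : g - 1 = (g - seq Y pos c 1) + (seq Y pos c 1 - 1) := by abel
    rw [this]
    exact h1.add h2
  refine ⟨g, hg1, fun a => ?_⟩
  have hgdet := isUnit_det_of_entriesIn_sub_one hg1
  rw [← sub_eq_zero]
  refine IsHausdorff.haus' (I := maximalIdeal A) _ fun n => ?_
  rw [SModEq.zero, smul_eq_mul, Ideal.mul_top]
  have hs := seq_spec Y pos c hP hc n
  have hsdet := isUnit_det_of_entriesIn_sub_one hs.1
  have h1 := entriesIn_conj_sub hsdet hgdet (hgn n) (Y a) (pos a).1 (pos a).2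
  have h2 : err Y pos c (seq Y pos c n) a ∈ maximalIdeal A ^ n :=
    Ideal.pow_le_pow_right (Nat.le_succ n) (hs.2 a)
  have : (g * Y a * g⁻¹) (pos a).1 (pos a).2 - c a =
      err Y pos c (seq Y pos c n) a -
        (seq Y pos c n * Y a * (seq Y pos c n)⁻¹ - g * Y a * g⁻¹) (pos a).1 (pos a).2 := by
    simp only [err, Matrix.sub_apply]; ring
  rw [this]
  exact Ideal.sub_mem _ h2 h1

end Limit

end Fermat.Agent.S53.SliceNsp
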