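import Fermat.Agent.S53.Defs
import Fermat.Agent.S53.SliceNsp

/-!
# Bridge: the slice lemma (`SliceNsp.lean`) in the `SliceData` interface of `Defs.lean`

`slice_exists_of_sliceData` and `slice_unique_of_sliceData` have exactly the statements of work
items B3a / B3b.
-/

set_option autoImplicit false

namespace Fermat.Agent.S53

open IsLocalRing SliceNsp

section Field

variable {G : Type*} [Monoid G] {κ : Type*} [Field κ] {rbar : G →* M2 κ}

/-- The coefficient matrix of slice data is invertible. -/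
theorem SliceNsp.det_Pmat_ne_zero_of_sliceData (D : SliceData rbar) :
    (Pmat (fun a => rbar (D.s a)) (fun a => (D.i a, D.j a))).det ≠ 0 := by
  intro hdet
  obtain ⟨v, hv0, hv⟩ := Matrix.exists_mulVec_eq_zero_iff.mpr hdet
  apply hv0
  have hX : ∀ a, (ofNsp v * rbar (D.s a) - rbar (D.s a) * ofNsp v) (D.i a) (D.j a) = 0 := by
    intro a
    have := Pmat_mulVec (fun a => rbar (D.s a)) (fun a => (D.i a, D.j a)) (ofNsp v) a
    rw [nsp_ofNsp, hv] at this
    exact this.symm
  obtain ⟨c, hc⟩ := D.ker (ofNsp v) hX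
  have hn : nsp (ofNsp v) = 0 := by
    rw [hc]
    funext a
    fin_cases a <;> simp [nsp]
  rwa [nsp_ofNsp] at hn

end Field

section Map

variable {A B : Type*} [CommRing A] [CommRing B] (φ : A →+* B)

theorem SliceNsp.commCoeff_map (Y : M2 A) (i j : Fin 2) (a : Fin 3) :
    commCoeff (Y.map φ) i j a = φ (commCoeff Y i j a) := by
  fin_cases i <;> fin_cases j <;> fin_cases a <;> simp [commCoeff]

theorem SliceNsp.Pmat_map (Y : Fin 3 → M2 A) (pos : Fin 3 → Fin 2 × Fin 2) :
    Pmat (fun a => (Y a).map φ) pos = (Pmat Y pos).map φ := by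
  ext a b
  exact SliceNsp.commCoeff_map φ (Y a) (pos a).1 (pos a).2 b

end Map

section Local

variable {G : Type*} [Group G] {A : Type*} [CommRing A] [IsLocalRing A]
  {κ : Type*} [Field κ] (res : A →+* κ)
  (hker : ∀ x : A, res x = 0 ↔ x ∈ IsLocalRing.maximalIdeal A)
  {rbar : G →* M2 κ} (D : SliceData rbar)

include hker in
theorem SliceNsp.isUnit_det_Pmat_of_lift (r : G → M2 A) (hr : ∀ g, (r g).map res = rbar g) :
    IsUnit (Pmat (fun a => r (D.s a)) (fun a => (D.i a, D.j a))).det := by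
  by_contra h
  have hm : (Pmat (fun a => r (D.s a)) (fun a => (D.i a, D.j a))).det ∈ maximalIdeal A :=
    (IsLocalRing.mem_maximalIdeal _).mpr h
  rw [← hker, RingHom.map_det, RingHom.mapMatrix_apply, ← SliceNsp.Pmat_map] at hm
  simp only [hr] at hm
  exact SliceNsp.det_Pmat_ne_zero_of_sliceData D hm

include hker in
/-- B3a in the `SliceData` interface. -/
theorem slice_exists_of_sliceData [IsAdicComplete (IsLocalRing.maximalIdeal A) A]
    (c : Fin 3 → A) (hc : ∀ a, res (c a) = rbar (D.s a) (D.i a) (D.j a))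
    (r : G →* M2 A) (hr : ∀ g, (r g).map res = rbar g) :
    ∃ γ : (M2 A)ˣ, (∀ i j, ((γ : M2 A) - 1) i j ∈ IsLocalRing.maximalIdeal A) ∧
      ∀ a, conjMat γ r (D.s a) (D.i a) (D.j a) = c a := by
  have hP := SliceNsp.isUnit_det_Pmat_of_lift res hker D (fun g => r g) hr
  have hc' : ∀ a, r (D.s a) (D.i a) (D.j a) - c a ∈ maximalIdeal A := by
    intro a
    rw [← hker, map_sub, hc a, ← hr (D.s a), Matrix.map_apply, sub_self]
  obtain ⟨g, hg1, hg⟩ := exists_conj_normalise (fun a => r (D.s a)) (fun a => (D.i a, D.j a)) c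
    hP hc'
  have hdet := isUnit_det_of_entriesIn_sub_one hg1
  refine ⟨Matrix.nonsingInvUnit g hdet, hg1, fun a => ?_⟩
  rw [conjMat_apply]
  exact hg a

include hker in
/-- B3b in the `SliceData` interface. -/
theorem slice_unique_of_sliceData [IsHausdorff (IsLocalRing.maximalIdeal A) A]
    (c : Fin 3 → A)
    (r r' : G →* M2 A) (hr : ∀ g, (r g).map res = rbar g) (hr' : ∀ g, (r' g).map res = rbar g)
    (hn : ∀ a, r (D.s a) (D.i a) (D.j a) = c a) (hn' : ∀ a, r' (D.s a) (D.i a) (D.j a) = c a)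
    (γ : (M2 A)ˣ) (hγ : ∀ g, (γ : M2 A) * r g = r' g * (γ : M2 A)) :
    r = r' ∧ ∃ u : Aˣ, (γ : M2 A) = Matrix.scalar (Fin 2) (u : A) := by
  have hP := SliceNsp.isUnit_det_Pmat_of_lift res hker D (fun g => r g) hr
  have hγdet : IsUnit (γ : M2 A).det := (Matrix.isUnit_iff_isUnit_det _).mp γ.isUnit
  have hres : ∀ σ i j, r' σ i j - r σ i j ∈ maximalIdeal A := by
    intro σ i j
    rw [← hker, map_sub]
    have h1 := congrFun (congrFun (hr σ) i) j
    have h2 := congrFun (congrFun (hr' σ) i) j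
    rw [Matrix.map_apply] at h1 h2
    rw [h1, h2, sub_self]
  obtain ⟨h0, heq⟩ := SliceNsp.slice_unique (fun g => r g) (fun g => r' g) D.s
    (fun a => (D.i a, D.j a)) (γ : M2 A) hγdet hres hγ hP (fun a => by rw [hn a, hn' a])
  refine ⟨MonoidHom.ext fun g => congrFun heq g, ?_⟩
  have hsc := (nsp_eq_zero_iff _).mp h0
  have hu : IsUnit ((γ : M2 A) 1 1) := by
    rw [hsc, Matrix.det_smul, Matrix.det_one, mul_one] at hγdet
    simpa [pow_two] using hγdet
  refine ⟨hu.unit, ?_⟩
  rw [IsUnit.unit_spec]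
  conv_lhs => rw [hsc]
  ext i j
  simp [Matrix.scalar_apply, Matrix.diagonal, Matrix.one_apply]

end Local

end Fermat.Agent.S53
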