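/-
S53, item G2 (tangent bound): the number of `k[ε]`-points of good quotients of `RpreE P.E` is
uniformly bounded by the cardinality of the finite set of `TangentFinite`.
Backup of `TangentBound.lean` (item 34), built on `NormalForm.lean`.  Owner: helper35.
-/
import Fermat.Agent.S53.NormalForm
import Fermat.Agent.S53.Cotangent

set_option autoImplicit false
set_option linter.style.haveILetI false

namespace Fermat.Agent.S53

open Matrix IsLocalRing GaloisRep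

namespace TangentBoundNF

section DualNumber

/-- `k[ε]` is finite when `k` is. -/
theorem finite_dualNumber (k : Type) [Field k] [Finite k] : Finite (DualNumber k) :=
  inferInstanceAs (Finite (k × k))

variable (𝒪 : Type) [CommRing 𝒪] [IsLocalRing 𝒪]

/-- The structure map `𝒪 → k[ε]` is a local homomorphism. -/
theorem isLocalHom_algebraMap_dualNumber :
    letI := dualNumberAlgebra 𝒪
    IsLocalHom (algebraMap 𝒪 (DualNumber (ResidueField 𝒪))) := by
  letI := dualNumberAlgebra 𝒪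
  refine ⟨fun o ho => ?_⟩
  have h1 : algebraMap 𝒪 (DualNumber (ResidueField 𝒪)) o =
      TrivSqZeroExt.inl (residue 𝒪 o) := rfl
  rw [h1, TrivSqZeroExt.isUnit_iff_isUnit_fst, TrivSqZeroExt.fst_inl] at ho
  exact (isUnit_map_iff (residue 𝒪) o).1 ho

/-- `k[ε]` has residue field `k`. -/
theorem residue_surjective_dualNumber :
    letI := dualNumberAlgebra 𝒪
    Function.Surjective (residue (DualNumber (ResidueField 𝒪)) ∘
      algebraMap 𝒪 (DualNumber (ResidueField 𝒪))) := by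
  letI := dualNumberAlgebra 𝒪
  intro y
  obtain ⟨x, rfl⟩ := residue_surjective y
  obtain ⟨o, ho⟩ := residue_surjective (R := 𝒪) x.fst
  refine ⟨o, ?_⟩
  have h1 : algebraMap 𝒪 (DualNumber (ResidueField 𝒪)) o =
      TrivSqZeroExt.inl (residue 𝒪 o) := rfl
  rw [Function.comp_apply, h1, ho, ← sub_eq_zero, ← map_sub, residue_eq_zero_iff,
    mem_maximalIdeal, mem_nonunits_iff, TrivSqZeroExt.isUnit_iff_isUnit_fst]
  simp

/-- `k[ε]` is an Artinian test algebra. -/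
theorem isArtinianTestAlgebra_dualNumber [Finite (ResidueField 𝒪)] :
    letI := dualNumberAlgebra 𝒪
    IsArtinianTestAlgebra 𝒪 (DualNumber (ResidueField 𝒪)) := by
  letI := dualNumberAlgebra 𝒪
  haveI := finite_dualNumber (ResidueField 𝒪)
  exact ⟨isLocalHom_algebraMap_dualNumber 𝒪, residue_surjective_dualNumber 𝒪, inferInstance⟩

/-- The two ring homs `k → ResidueField k[ε]` agree. -/
theorem residueFieldMap_dualNumber :
    letI := dualNumberAlgebra 𝒪
    haveI := isLocalHom_algebraMap_dualNumber 𝒪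
    ResidueField.map (algebraMap 𝒪 (DualNumber (ResidueField 𝒪))) =
      (residue (DualNumber (ResidueField 𝒪))).comp
        (algebraMap (ResidueField 𝒪) (DualNumber (ResidueField 𝒪))) := by
  letI := dualNumberAlgebra 𝒪
  haveI := isLocalHom_algebraMap_dualNumber 𝒪
  ext x
  obtain ⟨o, rfl⟩ := residue_surjective x
  rw [ResidueField.map_residue]
  rfl

end DualNumber

section LocalHom

/-- A ring hom from an Artinian local ring to a nontrivial ring is local. -/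
theorem isLocalHom_of_isArtinianRing {A B : Type} [CommRing A] [IsLocalRing A] [IsArtinianRing A]
    [CommRing B] [Nontrivial B] (f : A →+* B) : IsLocalHom f := by
  refine ⟨fun a ha => ?_⟩
  by_contra hna
  have hm : a ∈ maximalIdeal A := hna
  have hnil : IsNilpotent a := by
    have h := IsArtinianRing.isNilpotent_jacobson_bot (R := A)
    rw [IsLocalRing.jacobson_eq_maximalIdeal ⊥ bot_ne_top] at h
    obtain ⟨n, hn⟩ := h
    refine ⟨n, ?_⟩
    have h2 := Ideal.pow_mem_pow hm n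
    rw [hn] at h2
    simpa using h2
  have h3 : IsNilpotent (f a) := hnil.map f
  obtain ⟨n, hn⟩ := h3
  have h4 : IsUnit ((f a) ^ n) := ha.pow n
  rw [hn] at h4
  exact not_isUnit_zero h4

end LocalHom

section Main

variable {𝒪 : Type} [CommRing 𝒪] [IsLocalRing 𝒪] (rt : GQ → M2 𝒪)
  (𝒟 : ∀ ⦃A : Type⦄ [CommRing A] [IsLocalRing A] [Algebra 𝒪 A], GaloisRepAdic A → Prop)

omit [IsLocalRing 𝒪] in
/-- Two algebra homs out of a quotient of `RpreE E` which agree on the (classes of the) generators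
are equal. -/
theorem quot_algHom_ext {E : Set (PolyRing 𝒪)} {𝔞 : Ideal (RpreE E)} {K : Type} [CommRing K]
    [Algebra 𝒪 K] {ψ ψ' : (RpreE E ⧸ 𝔞) →ₐ[𝒪] K}
    (h : mapMat (ψ : (RpreE E ⧸ 𝔞) →+* K) (rQuot E 𝔞) =
      mapMat (ψ' : (RpreE E ⧸ 𝔞) →+* K) (rQuot E 𝔞)) : ψ = ψ' := by
  have hcomp : ψ.comp (Ideal.Quotient.mkₐ 𝒪 𝔞) = ψ'.comp (Ideal.Quotient.mkₐ 𝒪 𝔞) := by
    apply Presentation.algHom_ext
    intro g a b
    have := congrFun (congrFun (congrArg (fun r => r g) h) a) b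
    simpa [rQuot, mapMat_apply_apply] using this
  ext x
  obtain ⟨y, rfl⟩ := Ideal.Quotient.mk_surjective x
  exact congrArg (fun f => f y) hcomp

/-- G2. tangent bound: the number of `k[ε]`-points of good quotients is uniformly bounded. -/
theorem card_points_le [Finite (IsLocalRing.ResidueField 𝒪)] (P : SlicePkg 𝒪 rt)
    (h𝒟 : GaloisRep.IsDeformationCondition 𝒪 𝒟)
    (ρbar : ResidualGaloisRep (IsLocalRing.ResidueField 𝒪))
    (rbar : GQ →* M2 (IsLocalRing.ResidueField 𝒪))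
    (hfl : GaloisFactorsThroughFiniteLevel rbar) (he : ρbar.IsEquiv (ofMatRes rbar hfl))
    (hrt : ∀ g, (rt g).map (IsLocalRing.residue 𝒪) = rbar g)
    (hfin : GaloisRep.TangentFinite 𝒪 ρbar 𝒟) :
    letI := dualNumberAlgebra 𝒪
    ∃ N : ℕ, ∀ 𝔞, IsGoodIdeal rt P.E 𝒟 𝔞 →
      Finite ((RpreE P.E ⧸ 𝔞) →ₐ[𝒪] DualNumber (IsLocalRing.ResidueField 𝒪)) ∧
      Nat.card ((RpreE P.E ⧸ 𝔞) →ₐ[𝒪] DualNumber (IsLocalRing.ResidueField 𝒪)) ≤ N := by
  letI := dualNumberAlgebra 𝒪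
  letI algk : Algebra (ResidueField 𝒪) (ResidueField (DualNumber (ResidueField 𝒪))) :=
    ((IsLocalRing.residue (DualNumber (ResidueField 𝒪))).comp
      (algebraMap (ResidueField 𝒪) (DualNumber (ResidueField 𝒪)))).toAlgebra
  haveI hlocK : IsLocalHom (algebraMap 𝒪 (DualNumber (ResidueField 𝒪))) :=
    isLocalHom_algebraMap_dualNumber 𝒪
  haveI hfinK : Finite (DualNumber (ResidueField 𝒪)) := finite_dualNumber (ResidueField 𝒪)
  have hK : IsArtinianTestAlgebra 𝒪 (DualNumber (ResidueField 𝒪)) :=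
    isArtinianTestAlgebra_dualNumber 𝒪
  have hsurjK := residue_surjective_dualNumber 𝒪
  -- the setoid of `TangentFinite`
  let S : Setoid {ρ : GaloisRepAdic (DualNumber (ResidueField 𝒪)) //
      𝒟 ρ ∧ ρ.residual.IsEquiv (ρbar.baseChange (ResidueField (DualNumber (ResidueField 𝒪)))) } :=
    ⟨fun ρ ρ' => ρ.1.IsEquiv ρ'.1, ⟨fun ρ => ⟨GaloisRepAdic.Equiv.refl ρ.1⟩,
        fun ⟨e⟩ => ⟨e.symm⟩, fun ⟨e⟩ ⟨e'⟩ => ⟨e.trans e'⟩⟩⟩
  haveI hfin' : Finite (Quotient S) := hfin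
  refine ⟨Nat.card (Quotient S), fun 𝔞 h𝔞 => ?_⟩
  obtain ⟨_, hA, hg⟩ := h𝔞
  haveI : IsArtinianRing (RpreE P.E ⧸ 𝔞) := hA.isArtinian
  -- every point is local
  have hloc : ∀ ψ : (RpreE P.E ⧸ 𝔞) →ₐ[𝒪] DualNumber (ResidueField 𝒪),
      IsLocalHom (ψ : (RpreE P.E ⧸ 𝔞) →+* DualNumber (ResidueField 𝒪)) :=
    fun ψ => isLocalHom_of_isArtinianRing _
  have hcont : ∀ ψ : (RpreE P.E ⧸ 𝔞) →ₐ[𝒪] DualNumber (ResidueField 𝒪),
      MatCont (mapMat (ψ : (RpreE P.E ⧸ 𝔞) →+* DualNumber (ResidueField 𝒪)) (rQuot P.E 𝔞)) :=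
    fun ψ => matCont_mapMat _ (hloc ψ) hg.cont
  have hlift : ∀ ψ : (RpreE P.E ⧸ 𝔞) →ₐ[𝒪] DualNumber (ResidueField 𝒪),
      IsLiftRt rt (mapMat (ψ : (RpreE P.E ⧸ 𝔞) →+* DualNumber (ResidueField 𝒪)) (rQuot P.E 𝔞)) :=
    fun ψ => isLiftRt_mapMat rt ψ (hloc ψ) hg.lift
  have hnorm : ∀ ψ : (RpreE P.E ⧸ 𝔞) →ₐ[𝒪] DualNumber (ResidueField 𝒪),
      IsNorm P.E (mapMat (ψ : (RpreE P.E ⧸ 𝔞) →+* DualNumber (ResidueField 𝒪)) (rQuot P.E 𝔞)) :=
    fun ψ => Presentation.IsNormalised.map ψ hg.norm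
  have htype : ∀ ψ : (RpreE P.E ⧸ 𝔞) →ₐ[𝒪] DualNumber (ResidueField 𝒪),
      𝒟 (ofMat _ (hcont ψ)) := fun ψ =>
    h𝒟.of_isEquiv hK (isEquiv_baseChangeAlong_ofMat _ (hloc ψ) hg.cont)
      (h𝒟.baseChangeAlong hA hK ψ (hloc ψ) hg.type)
  have hres : ∀ ψ : (RpreE P.E ⧸ 𝔞) →ₐ[𝒪] DualNumber (ResidueField 𝒪),
      (ofMat _ (hcont ψ)).residual.IsEquiv
        (ρbar.baseChange (ResidueField (DualNumber (ResidueField 𝒪)))) := fun ψ => by
    have h1 := residual_isEquiv_of_isLiftRt rt he hrt (hcont ψ) (hlift ψ)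
    rw [residueFieldMap_dualNumber 𝒪] at h1
    exact h1
  let F : ((RpreE P.E ⧸ 𝔞) →ₐ[𝒪] DualNumber (ResidueField 𝒪)) → Quotient S :=
    fun ψ => Quotient.mk S ⟨ofMat _ (hcont ψ), htype ψ, hres ψ⟩
  have hF : Function.Injective F := by
    intro ψ ψ' h
    have hee : (ofMat _ (hcont ψ)).IsEquiv (ofMat _ (hcont ψ')) := Quotient.exact h
    exact quot_algHom_ext (normalForm_unique P hsurjK (hcont ψ) (hcont ψ') (hlift ψ) (hlift ψ')
      (hnorm ψ) (hnorm ψ') hee)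
  exact ⟨Finite.of_injective F hF, Nat.card_le_card_of_injective F hF⟩

end Main

end TangentBoundNF

end Fermat.Agent.S53
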