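import Mathlib
import Fermat.Agent.S53.Cotangent

set_option autoImplicit false

/-!
# Abstract "tangent stabilisation" (part G of the S53 architecture)

A family `𝒢` of ideals of an `𝒪`-algebra `P`, closed under `⊓`, all of whose quotients are
Artinian local `𝒪`-algebras with residue field `k`, and whose `k[ε]`-points inject compatibly into
one finite set `T`: then one finite tuple of elements of `P` generates every quotient `P ⧸ a`,
`a ∈ 𝒢`, as an `𝒪`-algebra.
-/

namespace Fermat.Agent.S53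

open IsLocalRing

section

variable {𝒪 : Type} [CommRing 𝒪] [IsLocalRing 𝒪] {P : Type} [CommRing P] [Algebra 𝒪 P]

/-- membership in the maximal ideal is insensitive to passing to a smaller ideal -/
theorem mk_mem_maximalIdeal_iff_of_le {a b : Ideal P} (hab : a ≤ b)
    [IsLocalRing (P ⧸ a)] [IsLocalRing (P ⧸ b)] (x : P) :
    Ideal.Quotient.mk a x ∈ maximalIdeal (P ⧸ a) ↔
      Ideal.Quotient.mk b x ∈ maximalIdeal (P ⧸ b) := by
  have hsurj : Function.Surjective (Ideal.Quotient.factor hab) :=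
    Ideal.Quotient.factor_surjective hab
  have : IsLocalHom (Ideal.Quotient.factor hab) := IsLocalHom.of_surjective _ hsurj
  rw [← IsLocalRing.maximalIdeal_comap (Ideal.Quotient.factor hab), Ideal.mem_comap,
    Ideal.Quotient.factor_mk]

/-- `aeval` commutes with the quotient map -/
theorem aeval_mk_comp {d : ℕ} (a : Ideal P) (y : Fin d → P) (q : MvPolynomial (Fin d) 𝒪) :
    MvPolynomial.aeval (fun i => Ideal.Quotient.mk a (y i)) q =
      Ideal.Quotient.mk a (MvPolynomial.aeval y q) := by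
  have := MvPolynomial.comp_aeval_apply (f := y) (Ideal.Quotient.mkₐ 𝒪 a) q
  simpa using this.symm

/-- generation passes to bigger ideals -/
theorem adjoin_mk_eq_top_of_le {d : ℕ} {a b : Ideal P} (hab : a ≤ b) (y : Fin d → P)
    (h : Algebra.adjoin 𝒪 (Set.range fun i => Ideal.Quotient.mk a (y i)) = ⊤) :
    Algebra.adjoin 𝒪 (Set.range fun i => Ideal.Quotient.mk b (y i)) = ⊤ := by
  rw [eq_top_iff]
  intro z _
  obtain ⟨p, rfl⟩ := Ideal.Quotient.mk_surjective z
  have hp : Ideal.Quotient.mk a p ∈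
      Algebra.adjoin 𝒪 (Set.range fun i => Ideal.Quotient.mk a (y i)) := by
    rw [h]; trivial
  rw [Algebra.adjoin_range_eq_range_aeval] at hp ⊢
  obtain ⟨q, hq⟩ := hp
  refine ⟨q, ?_⟩
  have hq' : Ideal.Quotient.mk a (MvPolynomial.aeval y q) = Ideal.Quotient.mk a p := by
    rw [← aeval_mk_comp]; exact hq
  show MvPolynomial.aeval (fun i => Ideal.Quotient.mk b (y i)) q = Ideal.Quotient.mk b p
  rw [aeval_mk_comp, Ideal.Quotient.eq]
  rw [Ideal.Quotient.eq] at hq'
  exact hab hq'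

end

section Main

variable {𝒪 : Type} [CommRing 𝒪] [IsLocalRing 𝒪] {P : Type} [CommRing P] [Algebra 𝒪 P]

/-- Abstract tangent stabilisation: one tuple `y : Fin d → P` generates all good quotients. -/
theorem exists_common_generators
    (𝒢 : Set (Ideal P)) (hne : 𝒢.Nonempty) (hinf : ∀ a ∈ 𝒢, ∀ b ∈ 𝒢, a ⊓ b ∈ 𝒢)
    (hloc : ∀ a ∈ 𝒢, IsLocalRing (P ⧸ a)) (hart : ∀ a ∈ 𝒢, IsArtinianRing (P ⧸ a))
    (hlh : ∀ a (ha : a ∈ 𝒢), haveI := hloc a ha; IsLocalHom (algebraMap 𝒪 (P ⧸ a)))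
    (hsurj : ∀ a (ha : a ∈ 𝒢), haveI := hloc a ha
      Function.Surjective (IsLocalRing.residue (P ⧸ a) ∘ algebraMap 𝒪 (P ⧸ a)))
    (T : Type) [Finite T]
    (ι : (letI := dualNumberAlgebra 𝒪; P →ₐ[𝒪] DualNumber (IsLocalRing.ResidueField 𝒪)) → T)
    (hι : letI := dualNumberAlgebra 𝒪
      ∀ a ∈ 𝒢, ∀ φ ψ : P →ₐ[𝒪] DualNumber (IsLocalRing.ResidueField 𝒪),
        a ≤ RingHom.ker φ → a ≤ RingHom.ker ψ → ι φ = ι ψ → φ = ψ) :
    ∃ (d : ℕ) (y : Fin d → P),
      (∀ a (ha : a ∈ 𝒢) i, haveI := hloc a ha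
        Ideal.Quotient.mk a (y i) ∈ IsLocalRing.maximalIdeal (P ⧸ a)) ∧
      ∀ a ∈ 𝒢, Algebra.adjoin 𝒪 (Set.range fun i => Ideal.Quotient.mk a (y i)) = ⊤ := by
  let _ := dualNumberAlgebra 𝒪
  classical
  -- the image sets
  set S : Ideal P → Set T := fun a => ι '' {φ | a ≤ RingHom.ker φ} with hS
  have hSmono : ∀ a b : Ideal P, a ≤ b → S b ⊆ S a := by
    intro a b hab
    exact Set.image_mono fun φ hφ => hab.trans hφ
  -- choose a0 with maximal cardinality
  set vals : Set ℕ := {n | ∃ a ∈ 𝒢, (S a).ncard = n} with hvals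
  have hvne : vals.Nonempty := by
    obtain ⟨a, ha⟩ := hne
    exact ⟨_, a, ha, rfl⟩
  have hvbdd : BddAbove vals := by
    refine ⟨Nat.card T, ?_⟩
    rintro n ⟨a, _, rfl⟩
    rw [← Set.ncard_univ]
    exact Set.ncard_le_ncard (Set.subset_univ _) (Set.toFinite _)
  obtain ⟨a0, ha0, hmax⟩ : ∃ a0 ∈ 𝒢, ∀ a ∈ 𝒢, (S a).ncard ≤ (S a0).ncard := by
    obtain ⟨a0, ha0, h0⟩ := Nat.sSup_mem hvne hvbdd
    refine ⟨a0, ha0, fun a ha => ?_⟩
    rw [h0]
    exact le_csSup hvbdd ⟨a, ha, rfl⟩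
  -- stabilisation of points
  have hstab : ∀ a ∈ 𝒢, a ≤ a0 →
      ∀ φ : P →ₐ[𝒪] DualNumber (ResidueField 𝒪), a ≤ RingHom.ker φ → a0 ≤ RingHom.ker φ := by
    intro a ha haa0 φ hφ
    have hSeq : S a0 = S a :=
      Set.eq_of_subset_of_ncard_le (hSmono a a0 haa0) (hmax a ha) (Set.toFinite _)
    have hmem : ι φ ∈ S a0 := by
      rw [hSeq]; exact ⟨φ, hφ, rfl⟩
    obtain ⟨ψ, hψ, hψφ⟩ := hmem
    have : ψ = φ := hι a ha ψ φ (haa0.trans hψ) hφ hψφ
    rw [← this]; exact hψ
  -- generators of the maximal ideal of P ⧸ a0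
  have := hloc a0 ha0
  have := hart a0 ha0
  have := hlh a0 ha0
  obtain ⟨d, s, hs⟩ := (Submodule.fg_iff_exists_fin_generating_family).mp
    ((isNoetherianRing_iff_ideal_fg (P ⧸ a0)).mp inferInstance (maximalIdeal (P ⧸ a0)))
  choose y hy using fun i => Ideal.Quotient.mk_surjective (s i)
  have hy0 : ∀ i, Ideal.Quotient.mk a0 (y i) ∈ maximalIdeal (P ⧸ a0) := by
    intro i
    rw [hy i, ← hs]
    exact Submodule.subset_span ⟨i, rfl⟩
  have hrange : (Set.range fun i => Ideal.Quotient.mk a0 (y i)) = Set.range s := by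
    congr 1; funext i; exact hy i
  have hgen0 : Algebra.adjoin 𝒪 (Set.range fun i => Ideal.Quotient.mk a0 (y i)) = ⊤ := by
    refine adjoin_eq_top_of_span_eq_maximalIdeal (hsurj a0 ha0)
      (exists_maximalIdeal_pow_eq_bot (P ⧸ a0)) _ ?_ ?_
    · rw [hrange]
      exact le_sup_of_le_left (le_of_eq hs.symm)
    · rintro _ ⟨i, rfl⟩
      exact hy0 i
  -- generation for a ≤ a0
  have hgen_le : ∀ a ∈ 𝒢, a ≤ a0 →
      Algebra.adjoin 𝒪 (Set.range fun i => Ideal.Quotient.mk a (y i)) = ⊤ := by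
    intro a ha haa0
    have := hloc a ha
    have := hart a ha
    have := hlh a ha
    refine subalgebra_eq_top_of_points_kill (hsurj a ha) (exists_maximalIdeal_pow_eq_bot (P ⧸ a))
      _ (a0.map (Ideal.Quotient.mk a)) ?_ ?_
    · intro b
      obtain ⟨p, rfl⟩ := Ideal.Quotient.mk_surjective b
      have hp : Ideal.Quotient.mk a0 p ∈
          Algebra.adjoin 𝒪 (Set.range fun i => Ideal.Quotient.mk a0 (y i)) := by
        rw [hgen0]; trivial
      rw [Algebra.adjoin_range_eq_range_aeval] at hp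
      obtain ⟨q, hq⟩ := hp
      have hq' : Ideal.Quotient.mk a0 (MvPolynomial.aeval y q) = Ideal.Quotient.mk a0 p := by
        rw [← aeval_mk_comp]; exact hq
      rw [Ideal.Quotient.eq] at hq'
      refine ⟨Ideal.Quotient.mk a (MvPolynomial.aeval y q), ?_, ?_⟩
      · rw [Algebra.adjoin_range_eq_range_aeval]
        exact ⟨q, aeval_mk_comp a y q⟩
      · rw [← map_sub]
        apply Ideal.mem_map_of_mem
        have := a0.neg_mem hq'
        simpa using this
    · intro φ' x hx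
      set φ : P →ₐ[𝒪] DualNumber (ResidueField 𝒪) := φ'.comp (Ideal.Quotient.mkₐ 𝒪 a) with hφ
      have hφa : a ≤ RingHom.ker φ := by
        intro z hz
        rw [RingHom.mem_ker, hφ, AlgHom.comp_apply, Ideal.Quotient.mkₐ_eq_mk,
          Ideal.Quotient.eq_zero_iff_mem.mpr hz, map_zero]
      have hφa0 := hstab a ha haa0 φ hφa
      -- φ' kills the image of a0
      have hle : a0.map (Ideal.Quotient.mk a) ≤ RingHom.ker φ' := by
        rw [Ideal.map_le_iff_le_comap]
        intro z hz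
        have := hφa0 hz
        rw [RingHom.mem_ker] at this
        rw [Ideal.mem_comap, RingHom.mem_ker]
        exact this
      exact hle hx
  refine ⟨d, y, ?_, ?_⟩
  · intro a ha i
    have := hloc a ha
    have := hloc (a ⊓ a0) (hinf a ha a0 ha0)
    rw [← mk_mem_maximalIdeal_iff_of_le (inf_le_left : a ⊓ a0 ≤ a),
      mk_mem_maximalIdeal_iff_of_le (inf_le_right : a ⊓ a0 ≤ a0)]
    exact hy0 i
  · intro a ha
    exact adjoin_mk_eq_top_of_le (inf_le_left : a ⊓ a0 ≤ a) y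
      (hgen_le (a ⊓ a0) (hinf a ha a0 ha0) inf_le_right)

/-- Reformulation of generation: the polynomial ring surjects onto the quotient. -/
theorem aeval_mk_surjective_of_adjoin_eq_top {d : ℕ} (a : Ideal P) (y : Fin d → P)
    (h : Algebra.adjoin 𝒪 (Set.range fun i => Ideal.Quotient.mk a (y i)) = ⊤) :
    Function.Surjective
      (MvPolynomial.aeval (R := 𝒪) fun i => Ideal.Quotient.mk a (y i)) := by
  intro z
  have hz : z ∈ Algebra.adjoin 𝒪 (Set.range fun i => Ideal.Quotient.mk a (y i)) := by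
    rw [h]; trivial
  rw [Algebra.adjoin_range_eq_range_aeval] at hz
  exact hz

end Main

end Fermat.Agent.S53
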